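import Mathlib
import Fermat.Agent.R.H2_Cyc
import Fermat.Agent.Lib.InertiaBridge

/-!
# S52, package E-GAL: Galois-theoretic core lemmas (helper97)

* `inertia_fixes_root` : inertia at `ℓ` fixes the roots of unity of order prime to `ℓ`.
* `exists_zmod_of_pow_eq_self` : in a field of characteristic `q`, the solutions of `x ^ q = x`
  are the elements of the prime field.
* `exists_fixed_of_involution` : an involution of determinant `≠ 1` of a plane has a
  nonzero fixed vector.
* `exists_root_zmod` : a Frobenius-fixed root of an integral polynomial reduces to a root in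
  `ZMod q`.
-/

set_option autoImplicit false

open Polynomial

noncomputable section

namespace Fermat.Agent.S52.H97

/-- Inertia at `ℓ` fixes the roots of unity of order prime to `ℓ`. -/
theorem inertia_fixes_root {K L : Type*} [Field K] [Field L] [Algebra K L]
    (A : ValuationSubring L) {ℓ : ℕ} (hA : A.LiesOverPrime ℓ) (hℓ1 : ℓ ≠ 1)
    (σ : L ≃ₐ[K] L) (hσ : σ ∈ A.inertiaSubgroupIn K) {n : ℕ} (hn : n.Coprime ℓ) {ζ : L}
    (hζ : ζ ^ n = 1) : σ ζ = ζ := by
  have hn0 : n ≠ 0 := by
    rintro rfl
    rw [Nat.coprime_zero_left] at hn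
    exact hℓ1 hn
  have hnA : (n : L) ∉ A.nonunits :=
    Fermat.Agent.R.H2.natCast_not_mem_nonunits_of_coprime A hn hA
  have hζA : ζ ∈ A := by
    rw [← A.valuation_le_one_iff,
      Fermat.Agent.R.H89.h89_valuation_eq_one_of_pow_eq_one A hn0 hζ]
  have h1 := ((Fermat.Agent.Lib.InertiaBridge.mem_inertiaSubgroupIn_iff_forall A σ).mp hσ).2 ζ hζA
  have h2 : σ ζ - ζ ∈ A.nonunits := A.mem_nonunits_iff.mpr h1
  refine Fermat.Agent.R.H89.h89_eq_of_sub_mem A n hn0 hnA (n := 1) ?_ ?_ h2
  · rw [pow_one, ← map_pow, hζ, map_one]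
  · rw [pow_one, hζ]

/-- In a field of characteristic `q`, the solutions of `x ^ q = x` are the elements of the prime
field. -/
theorem exists_zmod_of_pow_eq_self {k : Type*} [Field k] (q : ℕ) [hq : Fact q.Prime]
    (ψ : ZMod q →+* k) (x : k) (hx : x ^ q = x) : ∃ n : ZMod q, ψ n = x := by
  classical
  have hroots : (X ^ q - X : (ZMod q)[X]).roots = Finset.univ.val := by
    have := FiniteField.roots_X_pow_card_sub_X (ZMod q)
    rwa [ZMod.card] at this
  have hdeg : (X ^ q - X : (ZMod q)[X]).natDegree = q := by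
    exact FiniteField.X_pow_card_sub_X_natDegree_eq (ZMod q) hq.out.one_lt
  have hcard : Multiset.card (X ^ q - X : (ZMod q)[X]).roots
      = (X ^ q - X : (ZMod q)[X]).natDegree := by
    rw [hroots, hdeg]
    simp
  have hmap := Polynomial.roots_map_of_injective_of_card_eq_natDegree ψ.injective hcard
  have hxroot : x ∈ ((X ^ q - X : (ZMod q)[X]).map ψ).roots := by
    rw [Polynomial.mem_roots']
    constructor
    · intro h0
      have h1 := congrArg Polynomial.natDegree h0
      rw [Polynomial.natDegree_map_eq_of_injective ψ.injective, hdeg, natDegree_zero] at h1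
      exact hq.out.ne_zero h1
    · simp [hx]
  rw [← hmap, hroots, Multiset.mem_map] at hxroot
  obtain ⟨n, -, hn⟩ := hxroot
  exact ⟨n, hn⟩

/-- An involution of determinant `≠ 1` of a plane over a field in which `2 ≠ 0` has a
nonzero fixed vector. -/
theorem exists_fixed_of_involution {F V : Type*} [Field F] [AddCommGroup V] [Module F V]
    [FiniteDimensional F V] (hrank : Module.finrank F V = 2) (T : Module.End F V)
    (hT2 : T * T = 1) (hdet : LinearMap.det T ≠ 1) : ∃ v : V, v ≠ 0 ∧ T v = v := by
  by_contra hcon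
  replace hcon : ∀ v : V, v ≠ 0 → T v ≠ v := fun v hv hTv => hcon ⟨v, hv, hTv⟩
  -- `T + 1 = 0`
  have h1 : ∀ w : V, T w + w = 0 := by
    intro w
    by_contra hw
    apply hcon (T w + w) hw
    rw [map_add]
    have : T (T w) = w := by
      have := congrArg (fun f : Module.End F V => f w) hT2
      simpa using this
    rw [this, add_comm]
  have h2 : T = -1 := by
    ext w
    have := h1 w
    rw [LinearMap.neg_apply, Module.End.one_apply]
    exact eq_neg_of_add_eq_zero_left this
  apply hdet
  rw [h2]
  have : (-1 : Module.End F V) = (-1 : F) • (1 : Module.End F V) := by simp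
  rw [this, LinearMap.det_smul, hrank, map_one]
  norm_num

/-- Reduction of a Frobenius-fixed root of an integral polynomial whose leading coefficient is
prime to `q`: it gives a root in `ZMod q`. -/
theorem exists_root_zmod {K L : Type*} [Field K] [Field L] [Algebra K L] (f : ℤ[X]) (m : ℕ)
    (hlead : f.leadingCoeff = (m : ℤ)) {q : ℕ} (hq : q.Prime) (hmq : m.Coprime q)
    (A : ValuationSubring L) (hA : A.LiesOverPrime q) (σ : L ≃ₐ[K] L)
    (hσ : A.IsFrobeniusAt σ q)
    (x : L) (hx : (f.map (Int.castRingHom L)).IsRoot x) (hσx : σ x = x) :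
    ∃ n : ZMod q, (f.map (Int.castRingHom (ZMod q))).IsRoot n := by
  classical
  haveI : Fact q.Prime := ⟨hq⟩
  have hqA : (q : L) ∈ A.nonunits := hA
  -- `x ∈ A`
  have hev : f.eval₂ (Int.castRingHom L) x = 0 := by
    rw [← Polynomial.eval_map]
    exact hx
  have hint : IsIntegral ℤ (f.leadingCoeff • x) := by
    apply isIntegral_leadingCoeff_smul
    rw [aeval_def]
    have : algebraMap ℤ L = Int.castRingHom L := RingHom.ext_int _ _
    rw [this]
    exact hev
  have hmA : (m : L) ∉ A.nonunits :=
    Fermat.Agent.R.H2.natCast_not_mem_nonunits_of_coprime A hmq hqA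
  have hm1 : A.valuation (m : L) = 1 := by
    apply le_antisymm (Fermat.Agent.R.H89.h89_valuation_natCast_le_one A m)
    rw [A.mem_nonunits_iff] at hmA
    exact not_lt.mp hmA
  have hxA : x ∈ A := by
    rw [← A.valuation_le_one_iff]
    have h1 := Fermat.Agent.Lib.FrobExists.valuation_le_one_of_isIntegral A _ hint
    rw [hlead, zsmul_eq_mul, map_mul, Int.cast_natCast, hm1, one_mul] at h1
    exact h1
  -- the residue class
  set xA : A := ⟨x, hxA⟩ with hxAdef
  have hcharp : CharP (IsLocalRing.ResidueField A) q := by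
    apply (CharP.charP_iff_prime_eq_zero hq).2
    have h1 : (((q : ℕ) : A) : L) ∈ A.nonunits := by
      rw [show (((q : ℕ) : A) : L) = (q : L) by simp]
      exact hqA
    obtain ⟨ha, hmem⟩ := (A.mem_nonunits_iff_exists_mem_maximalIdeal).1 h1
    rw [← map_natCast (IsLocalRing.residue A)]
    exact (IsLocalRing.residue_eq_zero_iff _).2 hmem
  let ψ : ZMod q →+* IsLocalRing.ResidueField A := ZMod.castHom (dvd_refl q) _
  have hfrob : (IsLocalRing.residue A xA) ^ q = IsLocalRing.residue A xA := by
    have h1 := Fermat.Agent.R.H89.h89_frob_sub_mem A hσ hxA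
    rw [hσx] at h1
    obtain ⟨ha, hmem⟩ := (A.mem_nonunits_iff_exists_mem_maximalIdeal).1 h1
    have h2 : (⟨x - x ^ q, ha⟩ : A) = xA - xA ^ q := Subtype.ext (by simp [hxAdef])
    rw [h2, ← IsLocalRing.residue_eq_zero_iff, map_sub, map_pow, sub_eq_zero] at hmem
    exact hmem.symm
  obtain ⟨n, hn⟩ := exists_zmod_of_pow_eq_self q ψ _ hfrob
  refine ⟨n, ?_⟩
  apply ψ.injective
  rw [Polynomial.eval_map, Polynomial.hom_eval₂, map_zero, hn]
  have hcomp : ψ.comp (Int.castRingHom (ZMod q)) =
      (IsLocalRing.residue A).comp (Int.castRingHom A) := RingHom.ext_int _ _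
  rw [hcomp, ← Polynomial.hom_eval₂]
  have hzero : f.eval₂ (Int.castRingHom A) xA = 0 := by
    apply Subtype.ext
    have h3 := Polynomial.hom_eval₂ f (Int.castRingHom A) A.subtype xA
    have hcomp2 : A.subtype.comp (Int.castRingHom A) = Int.castRingHom L := RingHom.ext_int _ _
    rw [hcomp2] at h3
    have h4 : (A.subtype xA : L) = x := rfl
    rw [h4, hev] at h3
    exact h3
  rw [hzero, map_zero]

end Fermat.Agent.S52.H97
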