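/-
S52 / E-UNIP (helper5), part 3: transfer along a change of variables.

`InertiaOn A E σ sE`: `sE` is an additive self-map of `E(L)` acting on coordinates by a field
endomorphism `σ` which preserves the valuation and is trivial on the residue field.
For a change of variables `C = (u, r, s, t)` with `σ u = u`, `σ s = s` the conjugate
`Φ⁻¹ ∘ sE ∘ Φ` (`Φ : (C • E)(L) ≃ E(L)`) acts on coordinates by `(X, Y) ↦ (σ X + d₁, σ Y + d₂)`,
`σ r = r + u² d₁`, `σ t = t + u³ d₂ + u² s d₁`.
-/
import Fermat.Agent.S52.H5_UnipCoreOdd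
import Fermat.Agent.Lib.PointVariableChange

set_option autoImplicit false

namespace Fermat.Agent.S52.H5

open WeierstrassCurve WeierstrassCurve.Affine
open Fermat.Agent.Lib.PointVariableChange

variable {L : Type*} [Field L] [DecidableEq L]

/-- An additive self-map of the points acting on coordinates by an inertia-like `σ`. -/
structure InertiaOn (A : ValuationSubring L) (E : Affine L) (σ : L →+* L)
    (sE : E.Point →+ E.Point) : Prop where
  val_eq : ∀ x, A.valuation (σ x) = A.valuation x
  res : ∀ x, A.valuation x ≤ 1 → A.valuation (σ x - x) < 1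
  map_some : ∀ (x y : L) (h : E.Nonsingular x y),
    ∃ h' : E.Nonsingular (σ x) (σ y), sE (.some x y h) = .some (σ x) (σ y) h'

/-- The conjugate of `sE` by the change of variables `C`. -/
noncomputable def conjVC (E : Affine L) (C : VariableChange L) (sE : E.Point →+ E.Point) :
    (C • E).toAffine.Point →+ (C • E).toAffine.Point :=
  (equiv E C).symm.toAddMonoidHom.comp (sE.comp (equiv E C).toAddMonoidHom)

lemma equiv_conjVC (E : Affine L) (C : VariableChange L) (sE : E.Point →+ E.Point)
    (Q : (C • E).toAffine.Point) : equiv E C (conjVC E C sE Q) = sE (equiv E C Q) := by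
  simp [conjVC]

lemma conjVC_eq_iff (E : Affine L) (C : VariableChange L) (sE : E.Point →+ E.Point)
    (Q R : (C • E).toAffine.Point) : conjVC E C sE Q = R ↔ sE (equiv E C Q) = equiv E C R := by
  rw [← equiv_conjVC]
  exact ⟨fun h => by rw [h], fun h => (equiv E C).injective h⟩

/-- The conjugate of an inertia map by a change of variables is a shifted inertia map. -/
theorem shifted_of_varChange (A : ValuationSubring L) (E : Affine L) (σ : L →+* L)
    (sE : E.Point →+ E.Point) (hI : InertiaOn A E σ sE) (C : VariableChange L)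
    (hu : σ (C.u : L) = C.u) (hs : σ C.s = C.s) (d₁ d₂ : L)
    (hd₁ : σ C.r = C.r + (C.u : L) ^ 2 * d₁)
    (hd₂ : σ C.t = C.t + (C.u : L) ^ 3 * d₂ + (C.u : L) ^ 2 * C.s * d₁)
    (h₁ : A.valuation d₁ ≤ A.valuation (C • E).a₄)
    (h₂ : A.valuation d₂ ≤ A.valuation (C • E).a₄) :
    ShiftedInertia A (C • E).toAffine σ (conjVC E C sE) where
  val_eq := hI.val_eq
  res := hI.res
  map_some := by
    intro X Y h
    obtain ⟨h', hsE⟩ := hI.map_some _ _ ((nonsingular_vc E C X Y).mpr h)
    have eX : vcX C (σ X + d₁) = σ (vcX C X) := by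
      simp only [vcX, map_add, map_mul, map_pow, hu, hd₁]; ring
    have eY : vcY C (σ X + d₁) (σ Y + d₂) = σ (vcY C X Y) := by
      simp only [vcY, map_add, map_mul, map_pow, hu, hs, hd₂]; ring
    have hns : (C • E).toAffine.Nonsingular (σ X + d₁) (σ Y + d₂) := by
      rw [← nonsingular_vc, eX, eY]; exact h'
    refine ⟨σ X + d₁, σ Y + d₂, hns, ?_, ?_, ?_⟩
    · rw [conjVC_eq_iff, equiv_some, equiv_some, hsE]
      simp only [eX, eY]
    · have : σ X + d₁ - σ X = d₁ := by ring
      rw [this]; exact h₁
    · have : σ Y + d₂ - σ Y = d₂ := by ring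
      rw [this]; exact h₂

/-- Transport of the unipotency statement back to `E`. -/
theorem unip_of_conjVC (E : Affine L) (C : VariableChange L) (sE : E.Point →+ E.Point) (n : ℕ)
    (hcore : ∀ Q : (C • E).toAffine.Point, n • Q = 0 →
      conjVC E C sE (conjVC E C sE Q - Q) = conjVC E C sE Q - Q)
    (P : E.Point) (hP : n • P = 0) : sE (sE P - P) = sE P - P := by
  have hQ : n • (equiv E C).symm P = 0 := by
    rw [← map_nsmul, hP, map_zero]
  have h := hcore _ hQ
  have h2 := congrArg (equiv E C) h
  rw [equiv_conjVC, map_sub, map_sub, equiv_conjVC, AddEquiv.apply_symm_apply] at h2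
  rw [map_sub]
  exact h2

end Fermat.Agent.S52.H5
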