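/-
S52 / E-UNIP (helper5), part 7: good reduction.  On a curve with good reduction at `A`, an
inertia-like map acts trivially on the `n`-torsion, `n` a unit of `A` (easy half of the criterion
of Néron–Ogg–Shafarevich), from the reduction homomorphism of Lib/EllFinite (helper4, helper46).
-/
import Fermat.Agent.S52.H5_UnipTransfer
import Fermat.Agent.Lib.EllFinite.H4_RedOf
import Fermat.Agent.Lib.EllFinite.H46_RedTors

set_option autoImplicit false

namespace Fermat.Agent.S52.H5

open WeierstrassCurve WeierstrassCurve.Affine IsLocalRing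
open Fermat.Agent.Lib.EllFinite

variable {F : Type*} [Field F] [DecidableEq F] {A : ValuationSubring F}

/-- **Good reduction.**  If `V` has good reduction at `A`, an inertia-like additive map fixes the
`n`-torsion pointwise, for `n` a unit of `A`. -/
theorem unram_of_isRedOf {V : Affine F} {Vk : Affine (ResidueField A)} (h : H4.IsRedOf A V Vk)
    (hΔ : Vk.Δ ≠ 0) (σ : F →+* F) (sV : V.Point →+ V.Point) (hI : InertiaOn A V σ sV)
    (n : ℕ) (hn : A.valuation (n : F) = 1) (P : V.Point) (hP : n • P = 0) : sV P = P := by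
  classical
  have hnk : (n : ResidueField A) ≠ 0 := by
    have h1 : residue A (n : A) ≠ 0 := by
      rw [H4.res_ne_zero_iff]
      simpa using hn
    simpa using h1
  have hr : H4.redOf h hΔ (sV P) = H4.redOf h hΔ P := by
    refine H4.redOf_equivariant h hΔ σ id sV id (map_zero sV) rfl hI.map_some
      (fun x y hxy => ⟨hxy, rfl⟩) (fun x => by rw [hI.val_eq]) ?_ P
    intro a ha
    rw [id, H4.res_eq_iff]
    exact hI.res a (A.valuation_le_one a)
  have h0 : H4.redOf h hΔ (sV P - P) = 0 := by rw [map_sub, hr, sub_self]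
  have hnD : n • (sV P - P) = 0 := by
    rw [smul_sub, ← map_nsmul, hP, map_zero, sub_zero]
  rcases (H4.redOf_eq_zero_iff h hΔ _).1 h0 with h1 | ⟨x, y, hxy, e, hx⟩
  · exact sub_eq_zero.1 h1
  · exfalso
    rw [e] at hnD
    obtain ⟨W', hV, hVk⟩ := h
    subst hV
    have := H46.x_mem_of_nsmul_eq_zero hnk hxy hnD
    rw [← A.valuation_le_one_iff] at this
    exact absurd hx (not_lt.2 this)

end Fermat.Agent.S52.H5
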