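/-
S52 / E-UNIP (helper5), part 5: multiplicative reduction in odd residue characteristic.

For a Weierstrass curve `E` over an algebraically closed valued field `L` with integral
coefficients, `|2| = 1`, `|Δ| < 1`, `|c₄| = 1`, `Δ ≠ 0`: there is a root `e` of `ψ₂²` near the node;
the change of variables `vcOdd E e` leads to the S05 model `y² = x³ + a x² + b x`, `|b| < 1`;
an inertia-like `σ` fixing the coefficients of `E` moves `e` by at most `|b|`.
Main result: `unip_mult_odd`.
-/
import Fermat.Agent.S52.H5_UnipArith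

set_option autoImplicit false

namespace Fermat.Agent.S52.H5

open WeierstrassCurve WeierstrassCurve.Affine
open Fermat.Agent.S05 Fermat.Agent.Lib.PointVariableChange
open Fermat.Agent.Lib.EllFinite.H4 (IntCoeff)

variable {L : Type*} [Field L]

/-- The change of variables moving the `2`-torsion point with `x = e` to the origin and completing
the square (residue characteristic `≠ 2`). -/
def vcOdd (E : Affine L) (e : L) : VariableChange L := ⟨1, e, -E.a₁ / 2, -(E.a₃ + e * E.a₁) / 2⟩

section coeffs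

variable (E : Affine L) (e : L) (h2 : (2 : L) ≠ 0)

include h2

lemma four_ne_zero_of_two : (4 : L) ≠ 0 := by
  have : (4 : L) = 2 * 2 := by norm_num
  rw [this]; exact mul_ne_zero h2 h2

lemma vcOdd_a₁ : (vcOdd E e • E).a₁ = 0 := by
  simp only [variableChange_a₁, vcOdd, inv_one, Units.val_one, one_mul]
  field_simp
  ring

lemma vcOdd_a₃ : (vcOdd E e • E).a₃ = 0 := by
  simp only [variableChange_a₃, vcOdd, inv_one, Units.val_one, one_mul, one_pow]
  field_simp
  ring

lemma vcOdd_a₂ : (vcOdd E e • E).a₂ = trB2 E e / 4 := by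
  have h4 := four_ne_zero_of_two h2
  simp only [variableChange_a₂, vcOdd, inv_one, Units.val_one, one_mul, one_pow, b₂, trB2]
  field_simp
  ring

lemma vcOdd_a₄ : (vcOdd E e • E).a₄ = trB4 E e / 2 := by
  simp only [variableChange_a₄, vcOdd, inv_one, Units.val_one, one_mul, one_pow, b₂, b₄, trB4]
  field_simp
  ring

lemma vcOdd_a₆ : (vcOdd E e • E).a₆ = psi2sq E e / 4 := by
  have h4 := four_ne_zero_of_two h2
  simp only [variableChange_a₆, vcOdd, inv_one, Units.val_one, one_mul, one_pow, b₂, b₄, b₆,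
    psi2sq]
  field_simp
  ring

end coeffs

section arith

variable {A : ValuationSubring L}

lemma two_ne_zero_of_val (h2 : A.valuation (2 : L) = 1) : (2 : L) ≠ 0 := by
  intro h
  rw [h, map_zero] at h2
  exact zero_ne_one h2

lemma val_four_of_two (h2 : A.valuation (2 : L) = 1) : A.valuation (4 : L) = 1 := by
  have : (4 : L) = 2 * 2 := by norm_num
  rw [this, map_mul, h2, one_mul]

/-- Roots of `ψ₂²` are integral in odd residue characteristic. -/
lemma val_root_le_one_odd {E : Affine L} (hE : IntCoeff A E) (h2 : A.valuation (2 : L) = 1)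
    {e : L} (he : psi2sq E e = 0) : A.valuation e ≤ 1 := by
  refine val_le_one_of_cubic (val_four_of_two h2) (IntCoeff.b₂_le hE) ?_ (IntCoeff.b₆_le hE) he
  rw [map_mul, h2, one_mul]
  exact IntCoeff.b₄_le hE

/-- Existence of a root of `ψ₂²` at which the translated `b₄` is small (a root "at the node"). -/
theorem exists_root_odd [IsAlgClosed L] {E : Affine L} (hE : IntCoeff A E)
    (h2 : A.valuation (2 : L) = 1) (hΔ : A.valuation E.Δ < 1) :
    ∃ e, psi2sq E e = 0 ∧ A.valuation e ≤ 1 ∧ A.valuation (trB4 E e) < 1 := by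
  have h20 := two_ne_zero_of_val h2
  have h4 := val_four_of_two h2
  have h40 : (4 : L) ≠ 0 := four_ne_zero_of_two h20
  have h8 : A.valuation (8 : L) = 1 := by
    have : (8 : L) = 2 * 4 := by norm_num
    rw [this, map_mul, h2, h4, one_mul]
  have h80 : (8 : L) ≠ 0 := by
    intro h; rw [h, map_zero] at h8; exact zero_ne_one h8
  have h160 : (16 : L) ≠ 0 := by
    have : (16 : L) = 2 ^ 4 := by norm_num
    rw [this]; exact pow_ne_zero _ h20
  have h320 : (32 : L) ≠ 0 := by
    have : (32 : L) = 2 ^ 5 := by norm_num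
    rw [this]; exact pow_ne_zero _ h20
  obtain ⟨e₁, he₁⟩ := exists_psi2sq_root E h40
  have hv₁ : A.valuation e₁ ≤ 1 := val_root_le_one_odd hE h2 he₁
  by_cases hb : A.valuation (trB4 E e₁) < 1
  · exact ⟨e₁, he₁, hv₁, hb⟩
  have hb1 : A.valuation (trB4 E e₁) = 1 := le_antisymm (trB4_le hE hv₁) (not_lt.1 hb)
  -- the discriminant of the quadratic factor is small
  have hdisc : A.valuation (trB2 E e₁ ^ 2 - 32 * trB4 E e₁) < 1 := by
    have h := congrArg A.valuation (four_Δ_of_root E e₁ he₁)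
    rw [map_mul, h4, one_mul, map_mul, map_pow, hb1, one_pow, one_mul] at h
    rw [← h]; exact hΔ
  obtain ⟨d, hd⟩ := IsAlgClosed.exists_pow_nat_eq (trB2 E e₁ ^ 2 - 32 * trB4 E e₁) (n := 2)
    (by norm_num)
  have hdv : A.valuation d < 1 := by
    apply val_lt_one_of_sq_lt_one
    rw [← map_pow, hd]; exact hdisc
  have hr : 4 * ((d - trB2 E e₁) / 8) ^ 2 + trB2 E e₁ * ((d - trB2 E e₁) / 8) + 2 * trB4 E e₁
      = 0 := by
    have e0 : 4 * ((d - trB2 E e₁) / 8) ^ 2 + trB2 E e₁ * ((d - trB2 E e₁) / 8) + 2 * trB4 E e₁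
        = (d ^ 2 - (trB2 E e₁ ^ 2 - 32 * trB4 E e₁)) / 16 := by
      field_simp
      ring
    rw [e0, hd, sub_self, zero_div]
  have hrv : A.valuation ((d - trB2 E e₁) / 8) ≤ 1 := by
    rw [map_div₀, h8, div_one]
    exact Valuation.map_sub_le _ hdv.le (trB2_le hE hv₁)
  refine ⟨e₁ + (d - trB2 E e₁) / 8, ?_, ?_, ?_⟩
  · rw [psi2sq_add, he₁, hr, mul_zero, add_zero]
  · exact Valuation.map_add_le _ hv₁ hrv
  · have e : trB4 E (e₁ + (d - trB2 E e₁) / 8) = ((d - trB2 E e₁) / 8) * d / 2 := by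
      rw [trB4_add]
      have e0 : trB4 E e₁ + trB2 E e₁ * ((d - trB2 E e₁) / 8) + 6 * ((d - trB2 E e₁) / 8) ^ 2
          - ((d - trB2 E e₁) / 8) * d / 2
          = (d ^ 2 - (trB2 E e₁ ^ 2 - 32 * trB4 E e₁)) / 32 := by
        field_simp
        ring
      rw [hd, sub_self, zero_div] at e0
      exact sub_eq_zero.1 e0
    rw [e, map_div₀, h2, div_one, map_mul]
    calc A.valuation ((d - trB2 E e₁) / 8) * A.valuation d ≤ 1 * A.valuation d := by gcongr
      _ = A.valuation d := one_mul _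
      _ < 1 := hdv

/-- The translated curve is the S05 model. -/
theorem modelHyp_odd {E : Affine L} (hE : IntCoeff A E)
    (h2 : A.valuation (2 : L) = 1) (hΔ0 : E.Δ ≠ 0) (hc₄ : A.valuation E.c₄ = 1)
    {e : L} (he : psi2sq E e = 0) (hev : A.valuation e ≤ 1) (hb : A.valuation (trB4 E e) < 1) :
    ModelHyp A (vcOdd E e • E).toAffine ∧ A.valuation (vcOdd E e • E).toAffine.a₄ < 1 := by
  have h20 := two_ne_zero_of_val h2
  have h4 := val_four_of_two h2
  have h40 : (4 : L) ≠ 0 := four_ne_zero_of_two h20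
  have hB2 : A.valuation (trB2 E e ^ 2) = 1 := by
    have h := congrArg A.valuation (c₄_eq_tr E e)
    rw [hc₄] at h
    have hsm : A.valuation (24 * trB4 E e) < 1 := by
      rw [map_mul]
      calc A.valuation (24 : L) * A.valuation (trB4 E e) ≤ 1 * A.valuation (trB4 E e) := by
            gcongr; exact val_ofNat_le 24
        _ = A.valuation (trB4 E e) := one_mul _
        _ < 1 := hb
    have e1 : trB2 E e ^ 2 = (trB2 E e ^ 2 - 24 * trB4 E e) + 24 * trB4 E e := by ring
    rw [e1, Valuation.map_add_eq_of_lt_left _ (by rw [← h]; exact hsm), ← h]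
  have hb0 : trB4 E e ≠ 0 := by
    intro h0
    have := four_Δ_of_root E e he
    rw [h0] at this
    simp only [ne_eq, OfNat.ofNat_ne_zero, not_false_eq_true, zero_pow, zero_mul, mul_eq_zero,
      h40, false_or] at this
    exact hΔ0 this
  refine ⟨⟨vcOdd_a₁ E e h20, vcOdd_a₃ E e h20, ?_, ?_, ?_, ?_, h2, ?_⟩, ?_⟩
  · show (vcOdd E e • E).a₆ = 0
    rw [vcOdd_a₆ E e h20, he, zero_div]
  · show A.valuation (vcOdd E e • E).a₂ ≤ 1
    rw [vcOdd_a₂ E e h20, map_div₀, h4, div_one]
    exact trB2_le hE hev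
  · show A.valuation (vcOdd E e • E).a₄ ≤ 1
    rw [vcOdd_a₄ E e h20, map_div₀, h2, div_one]
    exact hb.le
  · show (vcOdd E e • E).a₄ ≠ 0
    rw [vcOdd_a₄ E e h20]
    exact div_ne_zero hb0 h20
  · show A.valuation ((vcOdd E e • E).a₂ ^ 2 - 4 * (vcOdd E e • E).a₄) = 1
    rw [vcOdd_a₂ E e h20, vcOdd_a₄ E e h20]
    have h16 : A.valuation (16 : L) = 1 := by
      have : (16 : L) = 4 * 4 := by norm_num
      rw [this, map_mul, h4, one_mul]
    have h160 : (16 : L) ≠ 0 := by
      intro h; rw [h, map_zero] at h16; exact zero_ne_one h16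
    have e1 : (trB2 E e / 4) ^ 2 - 4 * (trB4 E e / 2) = (trB2 E e ^ 2 - 32 * trB4 E e) / 16 := by
      field_simp
      ring
    have hsm : A.valuation (32 * trB4 E e) < 1 := by
      rw [map_mul]
      calc A.valuation (32 : L) * A.valuation (trB4 E e) ≤ 1 * A.valuation (trB4 E e) := by
            gcongr; exact val_ofNat_le 32
        _ = A.valuation (trB4 E e) := one_mul _
        _ < 1 := hb
    rw [e1, map_div₀, h16, div_one,
      Valuation.map_sub_eq_of_lt_left _ (by rw [hB2]; exact hsm), hB2]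
  · show A.valuation (vcOdd E e • E).a₄ < 1
    rw [vcOdd_a₄ E e h20, map_div₀, h2, div_one]
    exact hb

/-- An inertia-like endomorphism fixing the coefficients moves the chosen root by at most
`|b| = |trB4 / 2|`. -/
theorem val_shift_root_odd {E : Affine L}
    (h2 : A.valuation (2 : L) = 1) (hc₄ : A.valuation E.c₄ = 1)
    {e : L} (he : psi2sq E e = 0) (hev : A.valuation e ≤ 1) (hb : A.valuation (trB4 E e) < 1)
    (σ : L →+* L) (hσr : ∀ x, A.valuation x ≤ 1 → A.valuation (σ x - x) < 1)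
    (h₁ : σ E.a₁ = E.a₁) (h₂ : σ E.a₂ = E.a₂) (h₃ : σ E.a₃ = E.a₃) (h₄ : σ E.a₄ = E.a₄)
    (h₆ : σ E.a₆ = E.a₆) :
    A.valuation (σ e - e) ≤ A.valuation (trB4 E e) := by
  have h4 := val_four_of_two h2
  set δ := σ e - e with hδ
  have hδ1 : A.valuation δ < 1 := hσr e hev
  have hroot : psi2sq E (e + δ) = 0 := by
    have : e + δ = σ e := by rw [hδ]; ring
    rw [this, psi2sq_map E σ h₁ h₂ h₃ h₄ h₆, he, map_zero]
  rw [psi2sq_add, he, zero_add] at hroot
  rcases mul_eq_zero.1 hroot with h0 | h0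
  · rw [h0, map_zero]; exact zero_le
  · -- `2 b' = -δ (4δ + b₂')`, `|4δ + b₂'| = 1`
    have hB2 : A.valuation (trB2 E e) = 1 := by
      have h := congrArg A.valuation (c₄_eq_tr E e)
      rw [hc₄] at h
      have hsm : A.valuation (24 * trB4 E e) < 1 := by
        rw [map_mul]
        calc A.valuation (24 : L) * A.valuation (trB4 E e) ≤ 1 * A.valuation (trB4 E e) := by
              gcongr; exact val_ofNat_le 24
          _ = A.valuation (trB4 E e) := one_mul _
          _ < 1 := hb
      have e1 : trB2 E e ^ 2 = (trB2 E e ^ 2 - 24 * trB4 E e) + 24 * trB4 E e := by ring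
      have : A.valuation (trB2 E e ^ 2) = 1 := by
        rw [e1, Valuation.map_add_eq_of_lt_left _ (by rw [← h]; exact hsm), ← h]
      rw [map_pow] at this
      exact val_eq_one_of_sq_eq_one this
    have hsum : A.valuation (4 * δ + trB2 E e) = 1 := by
      rw [Valuation.map_add_eq_of_lt_right _ (by
        rw [hB2, map_mul, h4, one_mul]; exact hδ1), hB2]
    have e2 : 2 * trB4 E e = -(δ * (4 * δ + trB2 E e)) := by linear_combination h0
    have h := congrArg A.valuation e2
    rw [map_mul, h2, one_mul, Valuation.map_neg, map_mul, hsum, mul_one] at h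
    rw [h]

end arith

section main

variable [DecidableEq L] [IsAlgClosed L] {A : ValuationSubring L}

/-- **Multiplicative reduction, odd residue characteristic.**  For an integral Weierstrass curve
with `|Δ| < 1`, `|c₄| = 1` over an algebraically closed valued field with `|2| = 1`, an inertia-like
`σ` fixing the coefficients satisfies `(σ - 1)² = 0` on `E[n]`, `n` a unit. -/
theorem unip_mult_odd {E : Affine L} (hE : IntCoeff A E)
    (h2 : A.valuation (2 : L) = 1) (hΔ0 : E.Δ ≠ 0) (hΔ : A.valuation E.Δ < 1)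
    (hc₄ : A.valuation E.c₄ = 1)
    (σ : L →+* L) (sE : E.Point →+ E.Point) (hI : InertiaOn A E σ sE)
    (h₁ : σ E.a₁ = E.a₁) (h₂ : σ E.a₂ = E.a₂) (h₃ : σ E.a₃ = E.a₃) (h₄ : σ E.a₄ = E.a₄)
    (h₆ : σ E.a₆ = E.a₆)
    (n : ℕ) (hn : A.valuation (n : L) = 1) (P : E.Point) (hP : n • P = 0) :
    sE (sE P - P) = sE P - P := by
  have h20 := two_ne_zero_of_val h2
  obtain ⟨e, he, hev, hb⟩ := exists_root_odd hE h2 hΔ
  obtain ⟨hyp, hb'⟩ := modelHyp_odd hE h2 hΔ0 hc₄ he hev hb
  have hshift := val_shift_root_odd h2 hc₄ he hev hb σ hI.res h₁ h₂ h₃ h₄ h₆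
  have ha₄ : (vcOdd E e • E).a₄ = trB4 E e / 2 := vcOdd_a₄ E e h20
  have hsh : ShiftedInertia A (vcOdd E e • E).toAffine σ (conjVC E (vcOdd E e) sE) := by
    refine shifted_of_varChange A E σ sE hI (vcOdd E e) ?_ ?_ (σ e - e) 0 ?_ ?_ ?_ ?_
    · simp [vcOdd]
    · simp only [vcOdd, map_div₀, map_neg, h₁, map_ofNat]
    · simp only [vcOdd, Units.val_one, one_pow, one_mul]; ring
    · simp only [vcOdd, Units.val_one, one_pow, one_mul, map_div₀, map_neg, map_add, map_mul, h₁,
        h₃, map_ofNat, mul_zero, add_zero]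
      field_simp
      ring
    · rw [ha₄, map_div₀, h2, div_one]; exact hshift
    · rw [map_zero]; exact zero_le
  obtain ⟨β, hβ⟩ := IsAlgClosed.exists_pow_nat_eq ((vcOdd E e • E).toAffine.a₂) (n := 2)
    (by norm_num)
  exact unip_of_conjVC E (vcOdd E e) sE n
    (fun Q hQ => core_odd A _ hyp hb' β hβ n hn σ _ hsh Q hQ) P hP

end main

end Fermat.Agent.S52.H5
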