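/-
S52 / E-UNIP (helper5), part 4: arithmetic common to both residue characteristics.

`psi2sq E e = 4e³ + b₂e² + 2b₄e + b₆` (the `2`-division polynomial), `trB2`, `trB4` (the invariants
`b₂`, `b₄` of the curve translated by `e`), the identity `4Δ = b₄'²(b₂'² - 32 b₄')` at a root, and
elementary valuation lemmas.
-/
import Fermat.Agent.S52.H5_UnipTransfer
import Fermat.Agent.Lib.EllFinite.H4_RedVal

set_option autoImplicit false

namespace Fermat.Agent.S52.H5

open WeierstrassCurve WeierstrassCurve.Affine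
open Fermat.Agent.Lib.EllFinite.H4 (IntCoeff)

section identities

variable {L : Type*} [Field L]

/-- The `2`-division polynomial `ψ₂² = 4x³ + b₂x² + 2b₄x + b₆`, evaluated at `e`. -/
def psi2sq (E : Affine L) (e : L) : L := 4 * e ^ 3 + E.b₂ * e ^ 2 + 2 * E.b₄ * e + E.b₆

/-- `b₂` of the curve translated by `e`. -/
def trB2 (E : Affine L) (e : L) : L := E.b₂ + 12 * e

/-- `b₄` of the curve translated by `e`. -/
def trB4 (E : Affine L) (e : L) : L := E.b₄ + e * E.b₂ + 6 * e ^ 2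

lemma four_Δ_of_root (E : Affine L) (e : L) (h : psi2sq E e = 0) :
    4 * E.Δ = trB4 E e ^ 2 * (trB2 E e ^ 2 - 32 * trB4 E e) := by
  simp only [psi2sq, trB2, trB4, Δ, b₂, b₄, b₆, b₈] at h ⊢
  linear_combination (-(E.a₁ ^ 2 + 4 * E.a₂ + 12 * e) ^ 3
    - 108 * (4 * e ^ 3 + (E.a₁ ^ 2 + 4 * E.a₂) * e ^ 2 + 2 * (2 * E.a₄ + E.a₁ * E.a₃) * e
        + (E.a₃ ^ 2 + 4 * E.a₆))
    + 36 * (E.a₁ ^ 2 + 4 * E.a₂ + 12 * e) *
        (2 * E.a₄ + E.a₁ * E.a₃ + e * (E.a₁ ^ 2 + 4 * E.a₂) + 6 * e ^ 2)) * h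

lemma c₄_eq_tr (E : Affine L) (e : L) : E.c₄ = trB2 E e ^ 2 - 24 * trB4 E e := by
  simp only [trB2, trB4, c₄]
  ring

lemma psi2sq_add (E : Affine L) (e r : L) :
    psi2sq E (e + r) = psi2sq E e + r * (4 * r ^ 2 + trB2 E e * r + 2 * trB4 E e) := by
  simp only [psi2sq, trB2, trB4]
  ring

lemma trB4_add (E : Affine L) (e r : L) :
    trB4 E (e + r) = trB4 E e + trB2 E e * r + 6 * r ^ 2 := by
  simp only [trB2, trB4]
  ring

lemma trB2_add (E : Affine L) (e r : L) : trB2 E (e + r) = trB2 E e + 12 * r := by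
  simp only [trB2]
  ring

/-- `ψ₂²` has a root in an algebraically closed field in which `4 ≠ 0`. -/
lemma exists_psi2sq_root [IsAlgClosed L] (E : Affine L) (h4 : (4 : L) ≠ 0) :
    ∃ e, psi2sq E e = 0 := by
  have hdeg : (Polynomial.C (4 : L) * Polynomial.X ^ 3 + Polynomial.C E.b₂ * Polynomial.X ^ 2 +
      Polynomial.C (2 * E.b₄) * Polynomial.X + Polynomial.C E.b₆).degree = 3 :=
    Polynomial.degree_cubic h4
  obtain ⟨e, he⟩ := IsAlgClosed.exists_root _ (by rw [hdeg]; norm_num)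
  refine ⟨e, ?_⟩
  simpa [psi2sq, Polynomial.IsRoot.def] using he

/-- A fixed field endomorphism maps roots of `ψ₂²` to roots. -/
lemma psi2sq_map (E : Affine L) (σ : L →+* L) (h₁ : σ E.a₁ = E.a₁) (h₂ : σ E.a₂ = E.a₂)
    (h₃ : σ E.a₃ = E.a₃) (h₄ : σ E.a₄ = E.a₄) (h₆ : σ E.a₆ = E.a₆) (e : L) :
    psi2sq E (σ e) = σ (psi2sq E e) := by
  simp only [psi2sq, b₂, b₄, b₆, map_add, map_mul, map_pow, h₁, h₂, h₃, h₄, h₆, map_ofNat]

end identities

section valuations

variable {L : Type*} [Field L] {A : ValuationSubring L}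

lemma val_ofNat_le (n : ℕ) [n.AtLeastTwo] : A.valuation (OfNat.ofNat n : L) ≤ 1 := by
  rw [A.valuation_le_one_iff]
  exact ofNat_mem A n

lemma IntCoeff.b₂_le {E : Affine L} (hE : IntCoeff A E) : A.valuation E.b₂ ≤ 1 := by
  have h1 := hE.a₁; have h2 := hE.a₂
  rw [A.valuation_le_one_iff] at *
  simp only [b₂]
  aesop

lemma IntCoeff.b₄_le {E : Affine L} (hE : IntCoeff A E) : A.valuation E.b₄ ≤ 1 := by
  have h1 := hE.a₁; have h3 := hE.a₃; have h4 := hE.a₄
  rw [A.valuation_le_one_iff] at *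
  simp only [b₄]
  aesop

lemma IntCoeff.b₆_le {E : Affine L} (hE : IntCoeff A E) : A.valuation E.b₆ ≤ 1 := by
  have h3 := hE.a₃; have h6 := hE.a₆
  rw [A.valuation_le_one_iff] at *
  simp only [b₆]
  aesop

lemma trB2_le {E : Affine L} (hE : IntCoeff A E) {e : L} (he : A.valuation e ≤ 1) :
    A.valuation (trB2 E e) ≤ 1 := by
  have h2 := IntCoeff.b₂_le hE
  rw [A.valuation_le_one_iff] at *
  simp only [trB2]
  aesop

lemma trB4_le {E : Affine L} (hE : IntCoeff A E) {e : L} (he : A.valuation e ≤ 1) :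
    A.valuation (trB4 E e) ≤ 1 := by
  have h2 := IntCoeff.b₂_le hE; have h4 := IntCoeff.b₄_le hE
  rw [A.valuation_le_one_iff] at *
  simp only [trB4]
  aesop

/-- A root of `u x³ + c₂ x² + c₁ x + c₀` with `|u| = 1` and integral `cᵢ` is integral. -/
lemma val_le_one_of_cubic {u c₂ c₁ c₀ x : L} (hu : A.valuation u = 1)
    (h₂ : A.valuation c₂ ≤ 1) (h₁ : A.valuation c₁ ≤ 1) (h₀ : A.valuation c₀ ≤ 1)
    (h : u * x ^ 3 + c₂ * x ^ 2 + c₁ * x + c₀ = 0) : A.valuation x ≤ 1 := by
  by_contra hx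
  push Not at hx
  have hx0 : 0 < A.valuation x := lt_trans zero_lt_one hx
  have h3 : A.valuation x ^ 3 = A.valuation (c₂ * x ^ 2 + c₁ * x + c₀) := by
    have : u * x ^ 3 = -(c₂ * x ^ 2 + c₁ * x + c₀) := by linear_combination h
    have h' := congrArg A.valuation this
    rw [Valuation.map_neg, map_mul, hu, one_mul, map_pow] at h'
    exact h'
  have hle : A.valuation (c₂ * x ^ 2 + c₁ * x + c₀) ≤ A.valuation x ^ 2 := by
    have hxsq : A.valuation x ≤ A.valuation x ^ 2 := by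
      rw [sq]
      calc A.valuation x = 1 * A.valuation x := (one_mul _).symm
        _ ≤ A.valuation x * A.valuation x := by gcongr
    refine Valuation.map_add_le _ (Valuation.map_add_le _ ?_ ?_) ?_
    · rw [map_mul, map_pow]
      calc A.valuation c₂ * A.valuation x ^ 2 ≤ 1 * A.valuation x ^ 2 := by gcongr
        _ = A.valuation x ^ 2 := one_mul _
    · rw [map_mul]
      calc A.valuation c₁ * A.valuation x ≤ 1 * A.valuation x := by gcongr
        _ = A.valuation x := one_mul _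
        _ ≤ A.valuation x ^ 2 := hxsq
    · exact h₀.trans (one_le_pow₀ hx.le)
  have hlt : A.valuation x ^ 2 < A.valuation x ^ 3 := pow_lt_pow_right₀ hx (by norm_num)
  rw [h3] at hlt
  exact absurd hle (not_le.2 hlt)

/-- A root of `u x² + c₁ x + c₀` with `|u| = 1` and integral `cᵢ` is integral. -/
lemma val_le_one_of_quadratic {u c₁ c₀ x : L} (hu : A.valuation u = 1)
    (h₁ : A.valuation c₁ ≤ 1) (h₀ : A.valuation c₀ ≤ 1)
    (h : u * x ^ 2 + c₁ * x + c₀ = 0) : A.valuation x ≤ 1 := by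
  by_contra hx
  push Not at hx
  have hx0 : 0 < A.valuation x := lt_trans zero_lt_one hx
  have h3 : A.valuation x ^ 2 = A.valuation (c₁ * x + c₀) := by
    have : u * x ^ 2 = -(c₁ * x + c₀) := by linear_combination h
    have h' := congrArg A.valuation this
    rw [Valuation.map_neg, map_mul, hu, one_mul, map_pow] at h'
    exact h'
  have hle : A.valuation (c₁ * x + c₀) ≤ A.valuation x := by
    refine Valuation.map_add_le _ ?_ (h₀.trans hx.le)
    rw [map_mul]
    calc A.valuation c₁ * A.valuation x ≤ 1 * A.valuation x := by gcongr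
      _ = A.valuation x := one_mul _
  have hlt : A.valuation x < A.valuation x ^ 2 := by
    rw [sq]
    calc A.valuation x = 1 * A.valuation x := (one_mul _).symm
      _ < A.valuation x * A.valuation x := mul_lt_mul_of_pos_right hx hx0
  rw [h3] at hlt
  exact absurd hle (not_le.2 hlt)

lemma val_eq_one_of_sq_eq_one {g : A.ValueGroup} (h : g ^ 2 = 1) : g = 1 :=
  (pow_eq_one_iff_left two_ne_zero).mp h

lemma val_lt_one_of_sq_lt_one {g : A.ValueGroup} (h : g ^ 2 < 1) : g < 1 := by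
  by_contra hg
  push Not at hg
  exact absurd h (not_lt.2 (one_le_pow₀ hg))

end valuations

end Fermat.Agent.S52.H5
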