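/-
S52 / E-UNIP (helper5), part 1: the unipotent core on the model `y² = x³ + a x² + b x`
(odd residue characteristic, multiplicative reduction `|b| < 1`).

`ShiftedInertia A W σ s`: `s` is an additive self-map of the points of the model which acts on
coordinates as a field endomorphism `σ` (valuation preserving, trivial on the residue field)
followed by a translation by elements of absolute value `≤ |b|`.  (This is what a Galois
automorphism in the inertia group looks like after the node of an arbitrary Weierstrass model has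
been moved to the origin by means of a `2`-torsion point `e` which need not be fixed by `σ`.)

Main result `core_odd`: for `n` a unit of `A` and `n • P = 0`:  `s (s P - P) = s P - P`.
-/
import Fermat.Agent.S05.Core
import Fermat.Agent.S05.M1Final

set_option autoImplicit false

namespace Fermat.Agent.S52.H5

open WeierstrassCurve WeierstrassCurve.Affine
open Fermat.Agent.S05

section defs

variable {L : Type*} [Field L] [DecidableEq L]

/-- An additive self-map of the points which is "inertia up to a shift of size `≤ |a₄|`". -/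
structure ShiftedInertia (A : ValuationSubring L) (W : Affine L) (σ : L →+* L)
    (s : W.Point →+ W.Point) : Prop where
  val_eq : ∀ x, A.valuation (σ x) = A.valuation x
  res : ∀ x, A.valuation x ≤ 1 → A.valuation (σ x - x) < 1
  map_some : ∀ (x y : L) (h : W.Nonsingular x y), ∃ (x' y' : L) (h' : W.Nonsingular x' y'),
    s (.some x y h) = .some x' y' h' ∧ A.valuation (x' - σ x) ≤ A.valuation W.a₄ ∧
      A.valuation (y' - σ y) ≤ A.valuation W.a₄

end defs

section val

variable {L : Type*} [Field L] {A : ValuationSubring L}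

/-- If `|x' - σ x| ≤ r < |x|` then `|x'| = |x|`. -/
lemma val_shift_eq {σ : L →+* L} (hσv : ∀ x, A.valuation (σ x) = A.valuation x) {x x' : L}
    {r : A.ValueGroup} (h : A.valuation (x' - σ x) ≤ r) (hr : r < A.valuation x) :
    A.valuation x' = A.valuation x := by
  have e : x' = σ x + (x' - σ x) := by ring
  rw [e, Valuation.map_add_eq_of_lt_left _ (by rw [hσv]; exact lt_of_le_of_lt h hr), hσv]

/-- If `|x' - σ x| ≤ r` and `|x| ≤ r` then `|x'| ≤ r`. -/
lemma val_shift_le {σ : L →+* L} (hσv : ∀ x, A.valuation (σ x) = A.valuation x) {x x' : L}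
    {r : A.ValueGroup} (h : A.valuation (x' - σ x) ≤ r) (hr : A.valuation x ≤ r) :
    A.valuation x' ≤ r := by
  have e : x' = σ x + (x' - σ x) := by ring
  rw [e]
  exact Valuation.map_add_le _ (by rw [hσv]; exact hr) h

/-- The branch condition `|y - γ x| < |x|` is stable under a shifted inertia map. -/
lemma branch_shift {σ : L →+* L} (hσv : ∀ x, A.valuation (σ x) = A.valuation x)
    (hσr : ∀ x, A.valuation x ≤ 1 → A.valuation (σ x - x) < 1) {x y x' y' γ : L}
    {r : A.ValueGroup} (hx : A.valuation (x' - σ x) ≤ r) (hy : A.valuation (y' - σ y) ≤ r)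
    (hr : r < A.valuation x) (hγ : A.valuation γ ≤ 1)
    (hbr : A.valuation (y - γ * x) < A.valuation x) :
    A.valuation (y' - γ * x') < A.valuation x' := by
  rw [val_shift_eq hσv hx hr]
  have hxpos : 0 < A.valuation x := lt_of_le_of_lt zero_le hr
  have e : y' - γ * x' = σ (y - γ * x) + (σ γ - γ) * σ x + (y' - σ y) - γ * (x' - σ x) := by
    rw [map_sub, map_mul]; ring
  rw [e]
  refine Valuation.map_sub_lt _ (Valuation.map_add_lt _ (Valuation.map_add_lt _ ?_ ?_) ?_) ?_
  · rw [hσv]; exact hbr
  · rw [map_mul, hσv]
    calc A.valuation (σ γ - γ) * A.valuation x < 1 * A.valuation x :=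
          mul_lt_mul_of_pos_right (hσr γ hγ) hxpos
      _ = A.valuation x := one_mul _
  · exact lt_of_le_of_lt hy hr
  · rw [map_mul]
    calc A.valuation γ * A.valuation (x' - σ x) ≤ 1 * A.valuation (x' - σ x) := by gcongr
      _ = A.valuation (x' - σ x) := one_mul _
      _ ≤ r := hx
      _ < A.valuation x := hr

end val

section sameRed

variable {L : Type*} [Field L] [DecidableEq L]

/-- Two affine points of the model with unit `x`-coordinate and the same reduction differ by an
element of `E₁`. -/
theorem sameRed_odd (A : ValuationSubring L) (W : Affine L) (hyp : ModelHyp A W)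
    (x y x' y' : L) (h : W.Nonsingular x y) (h' : W.Nonsingular x' y')
    (hx : A.valuation x = 1) (hxx : A.valuation (x' - x) < 1) (hyy : A.valuation (y' - y) < 1) :
    InE1 A (Point.some x' y' h' - Point.some x y h) := by
  rw [sub_eq_add_neg, Point.neg_some]
  have hx' : A.valuation x' = 1 := by
    have e : x' = x + (x' - x) := by ring
    rw [e, Valuation.map_add_eq_of_lt_left _ (by rw [hx]; exact hxx), hx]
  have heq := H87.model_equation hyp h
  have heq' := H87.model_equation hyp h'
  have hy1 : A.valuation y ≤ 1 := H87.val_y_le_one hyp.a_le hyp.b_le hx heq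
  by_cases hX : x' = x
  · by_cases hY : y' = W.negY x (W.negY x y)
    · rw [Point.add_of_Y_eq hX hY]
      trivial
    · rw [Point.add_of_Y_ne hY]
      show 1 < A.valuation (W.addX x' x (W.slope x' x y' (W.negY x y)))
      rw [Affine.slope_of_Y_ne hX hY, Affine.addX, hyp.a₁, H87.model_negY hyp]
      rw [H87.model_negY hyp, H87.model_negY hyp, neg_neg] at hY
      have hsq : y' ^ 2 = y ^ 2 := by rw [heq, heq', hX]
      have hσy : y' = -y := by
        have : (y' - y) * (y' + y) = 0 := by linear_combination hsq
        rcases mul_eq_zero.mp this with h0 | h0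
        · exact absurd (sub_eq_zero.mp h0) hY
        · exact eq_neg_of_add_eq_zero_left h0
      have hy0 : y ≠ 0 := by
        rintro rfl
        apply hY
        rw [hσy, neg_zero]
      have hylt : A.valuation y < 1 := by
        have : y' - y = -(2 * y) := by rw [hσy]; ring
        rw [this, Valuation.map_neg, map_mul, hyp.two, one_mul] at hyy
        exact hyy
      have key := H87.tangent_case (v := A.valuation) hyp.a_le hyp.two hyp.disc hx hylt hy0 heq
      rw [hX, hσy]
      convert key using 2
      ring
  · rw [Point.add_of_X_ne hX]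
    show 1 < A.valuation (W.addX x' x (W.slope x' x y' (W.negY x y)))
    rw [Affine.slope_of_X_ne hX, Affine.addX, hyp.a₁, H87.model_negY hyp]
    have key := H87.secant_case (v := A.valuation) hyp.a_le hyp.b_le hyp.two hyp.disc hx hx'
      hxx hyy heq heq' hX
    convert key using 2
    ring

end sameRed

section core

variable {L : Type*} [Field L] [DecidableEq L]

/-- The component map is invariant under a shifted inertia map. -/
theorem compMap_shift (A : ValuationSubring L) (W : Affine L) (hyp : ModelHyp A W)
    (hb : A.valuation W.a₄ < 1) (β : L) (hβ : β ^ 2 = W.a₂)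
    (σ : L →+* L) (s : W.Point →+ W.Point) (hs : ShiftedInertia A W σ s) (P : W.Point) :
    M1.compMap hyp β (s P) = M1.compMap hyp β P := by
  rcases P with _ | ⟨x, y, h⟩
  · show M1.compMap hyp β (s 0) = M1.compMap hyp β 0
    rw [map_zero]
  obtain ⟨x', y', h', hsP, hxs, hys⟩ := hs.map_some x y h
  rw [hsP]
  have hβ1 : A.valuation β = 1 := M1.val_β hyp hb hβ
  by_cases hx1 : 1 ≤ A.valuation x
  · have hx1' : 1 ≤ A.valuation x' := by
      rw [val_shift_eq hs.val_eq hxs (lt_of_lt_of_le hb hx1)]; exact hx1
    rw [M1.compMap_of_one_le hyp β h hx1, M1.compMap_of_one_le hyp β h' hx1']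
  push Not at hx1
  by_cases hxb : A.valuation x ≤ A.valuation W.a₄
  · rw [M1.compMap_of_le_b hyp β hb h hxb,
      M1.compMap_of_le_b hyp β hb h' (val_shift_le hs.val_eq hxs hxb)]
  push Not at hxb
  have hvx' : A.valuation x' = A.valuation x := val_shift_eq hs.val_eq hxs hxb
  have hx0 : x ≠ 0 := by
    rintro rfl
    rw [map_zero] at hxb
    exact not_lt_zero hxb
  have hx0' : x' ≠ 0 := by
    intro h0
    rw [h0, map_zero] at hvx'
    rw [← hvx'] at hxb
    exact not_lt_zero hxb
  have hvu : valUnit A x' hx0' = valUnit A x hx0 := by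
    apply Units.ext
    simp [valUnit, hvx']
  have hxb' : A.valuation W.a₄ < A.valuation x' := by rw [hvx']; exact hxb
  have hx1' : A.valuation x' < 1 := by rw [hvx']; exact hx1
  by_cases ht : A.valuation (y - β * x) < A.valuation x
  · have ht' : A.valuation (y' - β * x') < A.valuation x' :=
      branch_shift hs.val_eq hs.res hxs hys hxb hβ1.le ht
    rw [M1.compMap_of_Cp hyp β h hx0 hxb hx1 ht, M1.compMap_of_Cp hyp β h' hx0' hxb' hx1' ht', hvu]
  · have hm : A.valuation (y + β * x) < A.valuation x := by
      rcases M1.mid_or hyp hb hβ h hxb hx1 with h1 | h1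
      · exact absurd h1 ht
      · exact h1
    have hm' : A.valuation (y' + β * x') < A.valuation x' := by
      have hm2 : A.valuation (y - (-β) * x) < A.valuation x := by
        have : y - (-β) * x = y + β * x := by ring
        rw [this]; exact hm
      have := branch_shift hs.val_eq hs.res hxs hys hxb
        (by rw [Valuation.map_neg]; exact hβ1.le) hm2
      have e : y' - (-β) * x' = y' + β * x' := by ring
      rwa [e] at this
    have ht' : ¬ A.valuation (y' - β * x') < A.valuation x' :=
      fun hcon => M1.mid_not_both hyp hb hβ hx0' hcon hm'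
    rw [M1.compMap_of_not_Cp hyp β h hx0 hxb hx1 ht,
      M1.compMap_of_not_Cp hyp β h' hx0' hxb' hx1' ht', hvu]

/-- A shifted inertia map moves every point inside its `E₀`-coset. -/
theorem inE0_shift_sub (A : ValuationSubring L) (W : Affine L) (hyp : ModelHyp A W)
    (hb : A.valuation W.a₄ < 1) (β : L) (hβ : β ^ 2 = W.a₂)
    (σ : L →+* L) (s : W.Point →+ W.Point) (hs : ShiftedInertia A W σ s) (P : W.Point) :
    InE0 A (s P - P) := by
  let φ : W.Point →+ Additive (CompGroup hyp) :=
    AddMonoidHom.mk' (M1.compMap hyp β) (M1.compMap_add hyp H6.M1_E0E0 H6.M1_E0Cp hb hβ)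
  have hφ : ∀ Q, φ Q = M1.compMap hyp β Q := fun _ => rfl
  have h0 : φ (s P - P) = 0 := by
    rw [map_sub, hφ, hφ, compMap_shift A W hyp hb β hβ σ s hs P, sub_self]
  rw [hφ] at h0
  exact (M1.compMap_eq_zero_iff hyp hb (s P - P)).1 h0

/-- A shifted inertia map moves every point of `E₀` inside its `E₁`-coset. -/
theorem inE1_shift_sub (A : ValuationSubring L) (W : Affine L) (hyp : ModelHyp A W)
    (hb : A.valuation W.a₄ < 1)
    (σ : L →+* L) (s : W.Point →+ W.Point) (hs : ShiftedInertia A W σ s) (Q : W.Point)
    (hQ : InE0 A Q) : InE1 A (s Q - Q) := by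
  rcases Q with _ | ⟨x, y, h⟩
  · show InE1 A (s 0 - 0)
    rw [map_zero, sub_zero]; trivial
  obtain ⟨x', y', h', hsP, hxs, hys⟩ := hs.map_some x y h
  rw [hsP]
  have hx1 : 1 ≤ A.valuation x := hQ
  have hvx' : A.valuation x' = A.valuation x := val_shift_eq hs.val_eq hxs (lt_of_lt_of_le hb hx1)
  rcases hx1.lt_or_eq with hgt | heq1
  · rw [sub_eq_add_neg, Point.neg_some]
    apply Fermat.Agent.S05.H5.E1_add A W hyp
    · show 1 < A.valuation x'
      rw [hvx']; exact hgt
    · exact hgt
  · have hx : A.valuation x = 1 := heq1.symm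
    have hy1 : A.valuation y ≤ 1 :=
      H87.val_y_le_one hyp.a_le hyp.b_le hx (H87.model_equation hyp h)
    refine sameRed_odd A W hyp x y x' y' h h' hx ?_ ?_
    · have e : x' - x = (x' - σ x) + (σ x - x) := by ring
      rw [e]
      exact Valuation.map_add_lt _ (lt_of_le_of_lt hxs hb) (hs.res x hx.le)
    · have e : y' - y = (y' - σ y) + (σ y - y) := by ring
      rw [e]
      exact Valuation.map_add_lt _ (lt_of_le_of_lt hys hb) (hs.res y hy1)

/-- **Unipotent core, odd model.**  On the model `y² = x³ + a x² + b x`, `|b| < 1`, a shifted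
inertia map `s` satisfies `(s - 1)² = 0` on the `n`-torsion, `n` a unit of `A`. -/
theorem core_odd (A : ValuationSubring L) (W : Affine L) (hyp : ModelHyp A W)
    (hb : A.valuation W.a₄ < 1) (β : L) (hβ : β ^ 2 = W.a₂)
    (n : ℕ) (hn : A.valuation (n : L) = 1)
    (σ : L →+* L) (s : W.Point →+ W.Point) (hs : ShiftedInertia A W σ s)
    (P : W.Point) (hP : n • P = 0) : s (s P - P) = s P - P := by
  have hD0 : InE0 A (s P - P) := inE0_shift_sub A W hyp hb β hβ σ s hs P
  have hD1 : InE1 A (s (s P - P) - (s P - P)) := inE1_shift_sub A W hyp hb σ s hs _ hD0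
  by_contra hne
  have hne' : s (s P - P) - (s P - P) ≠ 0 := fun h => hne (sub_eq_zero.1 h)
  apply Fermat.Agent.S05.H5.F1 A W hyp _ hD1 hne' n hn
  have h1 : n • (s P - P) = 0 := by
    rw [smul_sub, ← map_nsmul, hP, map_zero, sub_zero]
  rw [smul_sub, ← map_nsmul, h1, map_zero, sub_zero]

end core

end Fermat.Agent.S52.H5
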