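/-
S52 / E-UNIP (helper5), part 2: the unipotent core on the model `y² + x y = x³ + a x² + b x`
(residue characteristic `2`, multiplicative reduction `|b| < 1`), for a shifted inertia map.

Main result `core_two`: for `n` a unit of `A` and `n • P = 0`:  `s (s P - P) = s P - P`.
-/
import Fermat.Agent.S52.H5_UnipCoreOdd
import Fermat.Agent.S13.WP3.I4Final
import Fermat.Agent.S13.WP3.H5_E1

set_option autoImplicit false

namespace Fermat.Agent.S52.H5

open WeierstrassCurve WeierstrassCurve.Affine
open Fermat.Agent.S13.WP3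

section core

variable {L : Type*} [Field L] [DecidableEq L]

/-- The component map (model at `2`) is invariant under a shifted inertia map. -/
theorem compMap_shift_two (A : ValuationSubring L) (W : Affine L) (hyp : ModelHyp2 A W)
    (lam : L) (hlam : lam ^ 2 + lam = W.a₂)
    (σ : L →+* L) (s : W.Point →+ W.Point) (hs : ShiftedInertia A W σ s) (P : W.Point) :
    M1.compMap hyp lam (s P) = M1.compMap hyp lam P := by
  have hb := hyp.b_lt
  rcases P with _ | ⟨x, y, h⟩
  · show M1.compMap hyp lam (s 0) = M1.compMap hyp lam 0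
    rw [map_zero]
  obtain ⟨x', y', h', hsP, hxs, hys⟩ := hs.map_some x y h
  rw [hsP]
  have hl1 : A.valuation lam ≤ 1 := M1.val_lam hyp hlam
  by_cases hx1 : 1 ≤ A.valuation x
  · have hx1' : 1 ≤ A.valuation x' := by
      rw [val_shift_eq hs.val_eq hxs (lt_of_lt_of_le hb hx1)]; exact hx1
    rw [M1.compMap_of_one_le hyp lam h hx1, M1.compMap_of_one_le hyp lam h' hx1']
  push Not at hx1
  by_cases hxb : A.valuation x ≤ A.valuation W.a₄
  · rw [M1.compMap_of_le_b hyp lam h hxb,
      M1.compMap_of_le_b hyp lam h' (val_shift_le hs.val_eq hxs hxb)]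
  push Not at hxb
  have hvx' : A.valuation x' = A.valuation x := val_shift_eq hs.val_eq hxs hxb
  have hx0 : x ≠ 0 := by
    rintro rfl
    rw [map_zero] at hxb
    exact not_lt_zero hxb
  have hx0' : x' ≠ 0 := by
    intro h0
    rw [h0, map_zero] at hvx'
    rw [← hvx'] at hxb
    exact not_lt_zero hxb
  have hvu : valUnit A x' hx0' = valUnit A x hx0 := by
    apply Units.ext
    simp [valUnit, hvx']
  have hxb' : A.valuation W.a₄ < A.valuation x' := by rw [hvx']; exact hxb
  have hx1' : A.valuation x' < 1 := by rw [hvx']; exact hx1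
  by_cases ht : A.valuation (y - lam * x) < A.valuation x
  · have ht' : A.valuation (y' - lam * x') < A.valuation x' :=
      branch_shift hs.val_eq hs.res hxs hys hxb hl1 ht
    rw [M1.compMap_of_C hyp lam h hx0 hxb hx1 ht, M1.compMap_of_C hyp lam h' hx0' hxb' hx1' ht',
      hvu]
  · have hm : A.valuation (y - (-1 - lam) * x) < A.valuation x := by
      rcases M1.mid_or hyp hlam h hxb hx1 with h1 | h1
      · exact absurd h1 ht
      · exact h1
    have hl2 : A.valuation (-1 - lam) ≤ 1 := by
      have e : (-1 - lam : L) = -(1 + lam) := by ring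
      rw [e, Valuation.map_neg]
      exact Valuation.map_add_le _ (by rw [map_one]) hl1
    have hm' : A.valuation (y' - (-1 - lam) * x') < A.valuation x' :=
      branch_shift hs.val_eq hs.res hxs hys hxb hl2 hm
    have ht' : ¬ A.valuation (y' - lam * x') < A.valuation x' :=
      fun hcon => M1.mid_not_both hyp hlam hx0' hcon hm'
    rw [M1.compMap_of_not_C hyp lam h hx0 hxb hx1 ht,
      M1.compMap_of_not_C hyp lam h' hx0' hxb' hx1' ht', hvu]

/-- A shifted inertia map moves every point inside its `E₀`-coset (model at `2`). -/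
theorem inE0_shift_sub_two (A : ValuationSubring L) (W : Affine L) (hyp : ModelHyp2 A W)
    (lam : L) (hlam : lam ^ 2 + lam = W.a₂)
    (σ : L →+* L) (s : W.Point →+ W.Point) (hs : ShiftedInertia A W σ s) (P : W.Point) :
    InE0 A (s P - P) := by
  let φ : W.Point →+ Additive (CompGroup hyp) :=
    AddMonoidHom.mk' (M1.compMap hyp lam)
      (M1.compMap_add hyp H6.E0_add H6.E0C H4.cc H4.addT hlam)
  have hφ : ∀ Q, φ Q = M1.compMap hyp lam Q := fun _ => rfl
  have h0 : φ (s P - P) = 0 := by
    rw [map_sub, hφ, hφ, compMap_shift_two A W hyp lam hlam σ s hs P, sub_self]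
  rw [hφ] at h0
  exact (M1.compMap_eq_zero_iff hyp (s P - P)).1 h0

/-- A shifted inertia map moves every point of `E₀` inside its `E₁`-coset (model at `2`). -/
theorem inE1_shift_sub_two (A : ValuationSubring L) (W : Affine L) (hyp : ModelHyp2 A W)
    (σ : L →+* L) (s : W.Point →+ W.Point) (hs : ShiftedInertia A W σ s) (Q : W.Point)
    (hQ : InE0 A Q) : InE1 A (s Q - Q) := by
  have hb := hyp.b_lt
  rcases Q with _ | ⟨x, y, h⟩
  · show InE1 A (s 0 - 0)
    rw [map_zero, sub_zero]; trivial
  obtain ⟨x', y', h', hsP, hxs, hys⟩ := hs.map_some x y h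
  rw [hsP]
  have hx1 : 1 ≤ A.valuation x := hQ
  have hvx' : A.valuation x' = A.valuation x := val_shift_eq hs.val_eq hxs (lt_of_lt_of_le hb hx1)
  rcases hx1.lt_or_eq with hgt | heq1
  · rw [sub_eq_add_neg]
    refine Fermat.Agent.S13.WP3.H5.E1_add2 A W hyp _ _ ?_
      (Fermat.Agent.S13.WP3.H5.E1_neg2 A W hyp _ hgt)
    show 1 < A.valuation x'
    rw [hvx']; exact hgt
  · have hx : A.valuation x = 1 := heq1.symm
    have hy1 : A.valuation y ≤ 1 := Fermat.Agent.S13.WP3.H5.val_y_le_one hyp h hx.le
    refine H38.sameRed A W hyp x' y' x y h' h (by rw [hvx', hx]) ?_ ?_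
    · have e : x' - x = (x' - σ x) + (σ x - x) := by ring
      rw [e]
      exact Valuation.map_add_lt _ (lt_of_le_of_lt hxs hb) (hs.res x hx.le)
    · have e : y' - y = (y' - σ y) + (σ y - y) := by ring
      rw [e]
      exact Valuation.map_add_lt _ (lt_of_le_of_lt hys hb) (hs.res y hy1)

/-- **Unipotent core, model at `2`.**  On the model `y² + x y = x³ + a x² + b x`, `|b| < 1`,
`|2| < 1`, a shifted inertia map `s` satisfies `(s - 1)² = 0` on the `n`-torsion, `n` a unit
of `A`. -/
theorem core_two (A : ValuationSubring L) (W : Affine L) (hyp : ModelHyp2 A W)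
    (lam : L) (hlam : lam ^ 2 + lam = W.a₂)
    (n : ℕ) (hn : A.valuation (n : L) = 1)
    (σ : L →+* L) (s : W.Point →+ W.Point) (hs : ShiftedInertia A W σ s)
    (P : W.Point) (hP : n • P = 0) : s (s P - P) = s P - P := by
  have hD0 : InE0 A (s P - P) := inE0_shift_sub_two A W hyp lam hlam σ s hs P
  have hD1 : InE1 A (s (s P - P) - (s P - P)) := inE1_shift_sub_two A W hyp σ s hs _ hD0
  by_contra hne
  have hne' : s (s P - P) - (s P - P) ≠ 0 := fun h => hne (sub_eq_zero.1 h)
  apply Fermat.Agent.S13.WP3.H5.F1_2 A W hyp _ hD1 hne' n hn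
  have h1 : n • (s P - P) = 0 := by
    rw [smul_sub, ← map_nsmul, hP, map_zero, sub_zero]
  rw [smul_sub, ← map_nsmul, h1, map_zero, sub_zero]

end core

end Fermat.Agent.S52.H5
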