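/-
S52 / E-UNIP (helper5), part 6: multiplicative reduction in residue characteristic `2`.

For a Weierstrass curve `E` over an algebraically closed valued field `L` of characteristic `≠ 2`
with integral coefficients, `|2| < 1`, `|Δ| < 1`, `|c₄| = 1`, `Δ ≠ 0`: `a₁` is a unit, `ψ₂²` has an
integral root `e`; the change of variables `vcTwo` (translation of the `2`-torsion point above `e`
to the origin, scaling by `u = a₁`) leads to the S13/WP3 model `y² + x y = x³ + a x² + b x`,
`|b| < 1`; an inertia-like `σ` fixing the coefficients of `E` moves `e` by at most `|4 b|`.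
Main result: `unip_mult_two`.
-/
import Fermat.Agent.S52.H5_UnipArith
import Fermat.Agent.S52.H5_UnipCoreTwo

set_option autoImplicit false

namespace Fermat.Agent.S52.H5

open WeierstrassCurve WeierstrassCurve.Affine
open Fermat.Agent.S13.WP3 Fermat.Agent.Lib.PointVariableChange
open Fermat.Agent.Lib.EllFinite.H4 (IntCoeff)

variable {L : Type*} [Field L]

/-- The change of variables moving the `2`-torsion point with `x = e` to the origin and scaling
by `u` (residue characteristic `2`, `u = a₁`). -/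
def vcTwo (E : Affine L) (u : Lˣ) (e : L) : VariableChange L :=
  ⟨u, e, 0, -(E.a₁ * e + E.a₃) / 2⟩

section coeffs

variable (E : Affine L) (u : Lˣ) (hu : (u : L) = E.a₁) (e : L) (h2 : (2 : L) ≠ 0)

include hu in
lemma vcTwo_a₁ : (vcTwo E u e • E).a₁ = 1 := by
  have hu0 : (u : L) ≠ 0 := u.ne_zero
  simp only [variableChange_a₁, vcTwo, Units.val_inv_eq_inv_val, mul_zero, add_zero, ← hu]
  field_simp

include h2 in
lemma vcTwo_a₃ : (vcTwo E u e • E).a₃ = 0 := by
  have hu0 : (u : L) ≠ 0 := u.ne_zero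
  simp only [variableChange_a₃, vcTwo, Units.val_inv_eq_inv_val]
  field_simp
  ring

lemma vcTwo_a₂ : (vcTwo E u e • E).a₂ = (E.a₂ + 3 * e) / (u : L) ^ 2 := by
  have hu0 : (u : L) ≠ 0 := u.ne_zero
  simp only [variableChange_a₂, vcTwo, Units.val_inv_eq_inv_val]
  field_simp
  ring

include h2 in
lemma vcTwo_a₄ : (vcTwo E u e • E).a₄ = trB4 E e / 2 / (u : L) ^ 4 := by
  have hu0 : (u : L) ≠ 0 := u.ne_zero
  simp only [variableChange_a₄, vcTwo, Units.val_inv_eq_inv_val, b₂, b₄, trB4]
  field_simp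
  ring

include h2 in
lemma vcTwo_a₆ : (vcTwo E u e • E).a₆ = psi2sq E e / 4 / (u : L) ^ 6 := by
  have hu0 : (u : L) ≠ 0 := u.ne_zero
  have h4 : (4 : L) ≠ 0 := by
    have : (4 : L) = 2 * 2 := by norm_num
    rw [this]; exact mul_ne_zero h2 h2
  simp only [variableChange_a₆, vcTwo, Units.val_inv_eq_inv_val, b₂, b₄, b₆, psi2sq]
  field_simp
  ring

end coeffs

section arith

variable {A : ValuationSubring L}

lemma val_four_lt (h2 : A.valuation (2 : L) < 1) : A.valuation (4 : L) < 1 := by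
  have : (4 : L) = 2 * 2 := by norm_num
  rw [this, map_mul]
  calc A.valuation (2 : L) * A.valuation (2 : L) ≤ 1 * A.valuation (2 : L) := by
        gcongr
    _ = A.valuation (2 : L) := one_mul _
    _ < 1 := h2

/-- `|2k x| < 1` for integral `x`. -/
lemma val_even_mul_lt (h2 : A.valuation (2 : L) < 1) {c x : L} (hc : A.valuation c ≤ 1)
    (hx : A.valuation x ≤ 1) : A.valuation (2 * c * x) < 1 := by
  rw [map_mul, map_mul]
  calc A.valuation (2 : L) * A.valuation c * A.valuation x
      ≤ A.valuation (2 : L) * 1 * 1 := by gcongr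
    _ = A.valuation (2 : L) := by rw [mul_one, mul_one]
    _ < 1 := h2

/-- `b₂` is a unit. -/
lemma val_b₂_two {E : Affine L} (hE : IntCoeff A E) (h2 : A.valuation (2 : L) < 1)
    (hc₄ : A.valuation E.c₄ = 1) : A.valuation E.b₂ = 1 := by
  have hsm : A.valuation (24 * E.b₄) < 1 := by
    have : (24 : L) * E.b₄ = 2 * 12 * E.b₄ := by ring
    rw [this]
    exact val_even_mul_lt h2 (val_ofNat_le 12) (IntCoeff.b₄_le hE)
  have e1 : E.b₂ ^ 2 = E.c₄ + 24 * E.b₄ := by simp only [c₄]; ring
  have : A.valuation (E.b₂ ^ 2) = 1 := by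
    rw [e1, Valuation.map_add_eq_of_lt_left _ (by rw [hc₄]; exact hsm), hc₄]
  rw [map_pow] at this
  exact val_eq_one_of_sq_eq_one this

/-- `a₁` is a unit. -/
lemma val_a₁_two {E : Affine L} (hE : IntCoeff A E) (h2 : A.valuation (2 : L) < 1)
    (hc₄ : A.valuation E.c₄ = 1) : A.valuation E.a₁ = 1 := by
  have hb₂ := val_b₂_two hE h2 hc₄
  have hsm : A.valuation (4 * E.a₂) < 1 := by
    have : (4 : L) * E.a₂ = 2 * 2 * E.a₂ := by ring
    rw [this]
    exact val_even_mul_lt h2 (val_ofNat_le 2) hE.a₂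
  have e1 : E.a₁ ^ 2 = E.b₂ - 4 * E.a₂ := by simp only [b₂]; ring
  have : A.valuation (E.a₁ ^ 2) = 1 := by
    rw [e1, Valuation.map_sub_eq_of_lt_left _ (by rw [hb₂]; exact hsm), hb₂]
  rw [map_pow] at this
  exact val_eq_one_of_sq_eq_one this

/-- `trB2` is a unit at an integral `e`. -/
lemma val_trB2_two {E : Affine L} (hE : IntCoeff A E) (h2 : A.valuation (2 : L) < 1)
    (hc₄ : A.valuation E.c₄ = 1) {e : L} (hev : A.valuation e ≤ 1) :
    A.valuation (trB2 E e) = 1 := by
  have hb₂ := val_b₂_two hE h2 hc₄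
  have hsm : A.valuation (12 * e) < 1 := by
    have : (12 : L) * e = 2 * 6 * e := by ring
    rw [this]
    exact val_even_mul_lt h2 (val_ofNat_le 6) hev
  simp only [trB2]
  rw [Valuation.map_add_eq_of_lt_left _ (by rw [hb₂]; exact hsm), hb₂]

/-- Existence of an integral root of `ψ₂²` in residue characteristic `2`. -/
theorem exists_root_two [IsAlgClosed L] {E : Affine L} (hE : IntCoeff A E)
    (h20 : (2 : L) ≠ 0) (h2 : A.valuation (2 : L) < 1) (hc₄ : A.valuation E.c₄ = 1) :
    ∃ e, psi2sq E e = 0 ∧ A.valuation e ≤ 1 := by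
  have h40 : (4 : L) ≠ 0 := by
    have : (4 : L) = 2 * 2 := by norm_num
    rw [this]; exact mul_ne_zero h20 h20
  have hb₂ := val_b₂_two hE h2 hc₄
  obtain ⟨e₁, he₁⟩ := exists_psi2sq_root E h40
  by_cases hv₁ : A.valuation e₁ ≤ 1
  · exact ⟨e₁, he₁, hv₁⟩
  push Not at hv₁
  have he₁0 : e₁ ≠ 0 := by
    rintro rfl
    rw [map_zero] at hv₁
    exact absurd hv₁ (not_lt.2 zero_le_one)
  have hpos : 0 < A.valuation e₁ := lt_trans zero_lt_one hv₁
  -- `|4 e₁| = 1`
  have h4e : A.valuation (4 * e₁) = 1 := by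
    have e1 : 4 * e₁ ^ 3 = -(E.b₂ * e₁ ^ 2 + (2 * E.b₄ * e₁ + E.b₆)) := by
      simp only [psi2sq] at he₁
      linear_combination he₁
    have hlow : A.valuation (2 * E.b₄ * e₁ + E.b₆) < A.valuation (E.b₂ * e₁ ^ 2) := by
      rw [map_mul, hb₂, one_mul, map_pow]
      have hsq : A.valuation e₁ < A.valuation e₁ ^ 2 := by
        rw [sq]
        calc A.valuation e₁ = 1 * A.valuation e₁ := (one_mul _).symm
          _ < A.valuation e₁ * A.valuation e₁ := mul_lt_mul_of_pos_right hv₁ hpos
      refine Valuation.map_add_lt _ ?_ ?_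
      · rw [map_mul]
        calc A.valuation (2 * E.b₄) * A.valuation e₁ ≤ 1 * A.valuation e₁ := by
              gcongr
              rw [map_mul]
              exact mul_le_one' h2.le (IntCoeff.b₄_le hE)
          _ = A.valuation e₁ := one_mul _
          _ < A.valuation e₁ ^ 2 := hsq
      · exact lt_of_le_of_lt (IntCoeff.b₆_le hE) (lt_trans hv₁ hsq)
    have h := congrArg A.valuation e1
    rw [Valuation.map_neg, Valuation.map_add_eq_of_lt_left _ hlow] at h
    simp only [map_mul, map_pow, hb₂, one_mul] at h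
    -- `|4| |e₁|³ = |e₁|²`
    have h' : A.valuation (4 : L) * A.valuation e₁ * A.valuation e₁ ^ 2 =
        1 * A.valuation e₁ ^ 2 := by
      calc A.valuation (4 : L) * A.valuation e₁ * A.valuation e₁ ^ 2
          = A.valuation (4 : L) * A.valuation e₁ ^ 3 := by rw [mul_assoc, ← pow_succ']
        _ = A.valuation e₁ ^ 2 := h
        _ = 1 * A.valuation e₁ ^ 2 := (one_mul _).symm
    rw [map_mul]
    exact mul_right_cancel₀ (pow_ne_zero 2 hpos.ne') h'
  -- the quadratic factor `x² + p x + q`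
  set p : L := E.b₂ / 4 + e₁ with hp
  set q : L := E.b₄ / 2 + p * e₁ with hq
  have hfac : ∀ x, psi2sq E x = 4 * (x - e₁) * (x ^ 2 + p * x + q) := by
    intro x
    have : psi2sq E x = 4 * (x - e₁) * (x ^ 2 + p * x + q) + psi2sq E e₁ := by
      simp only [psi2sq, hp, hq]
      field_simp
      ring
    rw [this, he₁, add_zero]
  have hq4 : E.b₆ = -(4 * e₁) * q := by
    have h0 := hfac 0
    simp only [psi2sq] at h0
    linear_combination h0
  have hqv : A.valuation q ≤ 1 := by
    have h := congrArg A.valuation hq4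
    rw [map_mul, Valuation.map_neg, h4e, one_mul] at h
    rw [← h]; exact IntCoeff.b₆_le hE
  have hp2 : (2 * e₁) * p = 2 * q - E.b₄ := by
    simp only [hq]
    field_simp
    ring
  have h2e : 1 < A.valuation (2 * e₁) := by
    by_contra hcon
    push Not at hcon
    have : A.valuation (4 * e₁) < 1 := by
      have e4 : (4 : L) * e₁ = 2 * (2 * e₁) := by ring
      rw [e4, map_mul]
      calc A.valuation (2 : L) * A.valuation (2 * e₁) ≤ A.valuation (2 : L) * 1 := by gcongr
        _ = A.valuation (2 : L) := mul_one _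
        _ < 1 := h2
    rw [h4e] at this
    exact lt_irrefl _ this
  have hpv : A.valuation p ≤ 1 := by
    have h := congrArg A.valuation hp2
    rw [map_mul] at h
    have hr : A.valuation (2 * q - E.b₄) ≤ 1 := by
      refine Valuation.map_sub_le _ ?_ (IntCoeff.b₄_le hE)
      rw [map_mul]
      exact mul_le_one' h2.le hqv
    by_contra hcon
    push Not at hcon
    have : 1 < A.valuation (2 * e₁) * A.valuation p := by
      calc (1 : A.ValueGroup) = 1 * 1 := (one_mul _).symm
        _ < A.valuation (2 * e₁) * A.valuation p := mul_lt_mul'' h2e hcon zero_le_one zero_le_one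
    rw [h] at this
    exact absurd hr (not_le.2 this)
  have hdeg : (Polynomial.C (1 : L) * Polynomial.X ^ 2 + Polynomial.C p * Polynomial.X +
      Polynomial.C q).degree = 2 := Polynomial.degree_quadratic one_ne_zero
  obtain ⟨e, he⟩ := IsAlgClosed.exists_root _ (by rw [hdeg]; norm_num)
  have he' : 1 * e ^ 2 + p * e + q = 0 := by
    simpa [Polynomial.IsRoot.def] using he
  refine ⟨e, ?_, val_le_one_of_quadratic (by rw [map_one]) hpv hqv he'⟩
  rw [hfac]
  have : e ^ 2 + p * e + q = 0 := by linear_combination he'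
  rw [this, mul_zero]

/-- `|trB4| < |2|` at an integral root (the translated `b = trB4 / 2` is small). -/
lemma val_trB4_two {E : Affine L} (hE : IntCoeff A E) (h20 : (2 : L) ≠ 0)
    (h2 : A.valuation (2 : L) < 1) (hΔ : A.valuation E.Δ < 1) (hc₄ : A.valuation E.c₄ = 1)
    {e : L} (he : psi2sq E e = 0) (hev : A.valuation e ≤ 1) :
    A.valuation (trB4 E e / 2) < 1 := by
  have hB2 := val_trB2_two hE h2 hc₄ hev
  have hB4 := trB4_le hE hev
  have hsm : A.valuation (32 * trB4 E e) < 1 := by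
    have : (32 : L) * trB4 E e = 2 * 16 * trB4 E e := by ring
    rw [this]
    exact val_even_mul_lt h2 (val_ofNat_le 16) hB4
  have hfac : A.valuation (trB2 E e ^ 2 - 32 * trB4 E e) = 1 := by
    rw [Valuation.map_sub_eq_of_lt_left _ (by rw [map_pow, hB2, one_pow]; exact hsm), map_pow,
      hB2, one_pow]
  have h := congrArg A.valuation (four_Δ_of_root E e he)
  rw [map_mul, map_mul, hfac, mul_one, map_pow] at h
  have h4 : A.valuation (4 : L) = A.valuation (2 : L) ^ 2 := by
    have : (4 : L) = 2 ^ 2 := by norm_num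
    rw [this, map_pow]
  have h2pos : 0 < A.valuation (2 : L) := by
    rw [Valuation.pos_iff]; exact h20
  have hlt : A.valuation (trB4 E e) ^ 2 < A.valuation (2 : L) ^ 2 := by
    rw [← h, h4]
    calc A.valuation (2 : L) ^ 2 * A.valuation E.Δ < A.valuation (2 : L) ^ 2 * 1 :=
          mul_lt_mul_of_pos_left hΔ (pow_pos h2pos 2)
      _ = A.valuation (2 : L) ^ 2 := mul_one _
  have hlt' : A.valuation (trB4 E e) < A.valuation (2 : L) := by
    by_contra hcon
    push Not at hcon
    exact absurd hlt (not_lt.2 (pow_le_pow_left₀ zero_le hcon 2))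
  rw [map_div₀, div_lt_one₀ h2pos]
  exact hlt'

/-- The translated and scaled curve is the S13/WP3 model. -/
theorem modelHyp_two {E : Affine L} (hE : IntCoeff A E) (h20 : (2 : L) ≠ 0)
    (h2 : A.valuation (2 : L) < 1) (hΔ0 : E.Δ ≠ 0) (hΔ : A.valuation E.Δ < 1)
    (hc₄ : A.valuation E.c₄ = 1) (u : Lˣ) (hu : (u : L) = E.a₁)
    {e : L} (he : psi2sq E e = 0) (hev : A.valuation e ≤ 1) :
    ModelHyp2 A (vcTwo E u e • E).toAffine := by
  have huv : A.valuation (u : L) = 1 := by rw [hu]; exact val_a₁_two hE h2 hc₄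
  have h40 : (4 : L) ≠ 0 := by
    have : (4 : L) = 2 * 2 := by norm_num
    rw [this]; exact mul_ne_zero h20 h20
  have hb0 : trB4 E e ≠ 0 := by
    intro h0
    have := four_Δ_of_root E e he
    rw [h0] at this
    simp only [ne_eq, OfNat.ofNat_ne_zero, not_false_eq_true, zero_pow, zero_mul, mul_eq_zero,
      h40, false_or] at this
    exact hΔ0 this
  refine ⟨vcTwo_a₁ E u hu e, vcTwo_a₃ E u e h20, ?_, ?_, ?_, ?_, h2⟩
  · show (vcTwo E u e • E).a₆ = 0
    rw [vcTwo_a₆ E u e h20, he, zero_div, zero_div]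
  · show A.valuation (vcTwo E u e • E).a₂ ≤ 1
    rw [vcTwo_a₂ E u e, map_div₀, map_pow, huv, one_pow, div_one]
    refine Valuation.map_add_le _ hE.a₂ ?_
    rw [map_mul]
    exact mul_le_one' (val_ofNat_le 3) hev
  · show A.valuation (vcTwo E u e • E).a₄ < 1
    rw [vcTwo_a₄ E u e h20, map_div₀ _ (_ / _), map_pow, huv, one_pow, div_one]
    exact val_trB4_two hE h20 h2 hΔ hc₄ he hev
  · show (vcTwo E u e • E).a₄ ≠ 0
    rw [vcTwo_a₄ E u e h20]
    exact div_ne_zero (div_ne_zero hb0 h20) (pow_ne_zero _ u.ne_zero)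

/-- An inertia-like endomorphism fixing the coefficients moves an integral root of `ψ₂²` by at
most `|2 trB4|`. -/
theorem val_shift_root_two {E : Affine L} (hE : IntCoeff A E)
    (h2 : A.valuation (2 : L) < 1) (hc₄ : A.valuation E.c₄ = 1)
    {e : L} (he : psi2sq E e = 0) (hev : A.valuation e ≤ 1)
    (σ : L →+* L) (hσr : ∀ x, A.valuation x ≤ 1 → A.valuation (σ x - x) < 1)
    (h₁ : σ E.a₁ = E.a₁) (h₂ : σ E.a₂ = E.a₂) (h₃ : σ E.a₃ = E.a₃) (h₄ : σ E.a₄ = E.a₄)
    (h₆ : σ E.a₆ = E.a₆) :
    A.valuation (σ e - e) ≤ A.valuation (2 * trB4 E e) := by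
  set δ := σ e - e with hδ
  have hδ1 : A.valuation δ < 1 := hσr e hev
  have hroot : psi2sq E (e + δ) = 0 := by
    have : e + δ = σ e := by rw [hδ]; ring
    rw [this, psi2sq_map E σ h₁ h₂ h₃ h₄ h₆, he, map_zero]
  rw [psi2sq_add, he, zero_add] at hroot
  rcases mul_eq_zero.1 hroot with h0 | h0
  · rw [h0, map_zero]; exact zero_le
  · have hB2 := val_trB2_two hE h2 hc₄ hev
    have hsum : A.valuation (4 * δ + trB2 E e) = 1 := by
      rw [Valuation.map_add_eq_of_lt_right _ (by
        rw [hB2, map_mul]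
        calc A.valuation (4 : L) * A.valuation δ ≤ 1 * A.valuation δ := by
              gcongr; exact val_ofNat_le 4
          _ = A.valuation δ := one_mul _
          _ < 1 := hδ1), hB2]
    have e2 : 2 * trB4 E e = -(δ * (4 * δ + trB2 E e)) := by linear_combination h0
    have h := congrArg A.valuation e2
    simp only [map_mul, Valuation.map_neg, hsum, mul_one] at h
    rw [map_mul, h]

end arith

section main

variable [DecidableEq L] [IsAlgClosed L] {A : ValuationSubring L}

/-- **Multiplicative reduction, residue characteristic `2`.**  For an integral Weierstrass curve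
with `|Δ| < 1`, `|c₄| = 1` over an algebraically closed valued field with `|2| < 1`, `2 ≠ 0`, an
inertia-like `σ` fixing the coefficients satisfies `(σ - 1)² = 0` on `E[n]`, `n` a unit. -/
theorem unip_mult_two {E : Affine L} (hE : IntCoeff A E) (h20 : (2 : L) ≠ 0)
    (h2 : A.valuation (2 : L) < 1) (hΔ0 : E.Δ ≠ 0) (hΔ : A.valuation E.Δ < 1)
    (hc₄ : A.valuation E.c₄ = 1)
    (σ : L →+* L) (sE : E.Point →+ E.Point) (hI : InertiaOn A E σ sE)
    (h₁ : σ E.a₁ = E.a₁) (h₂ : σ E.a₂ = E.a₂) (h₃ : σ E.a₃ = E.a₃) (h₄ : σ E.a₄ = E.a₄)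
    (h₆ : σ E.a₆ = E.a₆)
    (n : ℕ) (hn : A.valuation (n : L) = 1) (P : E.Point) (hP : n • P = 0) :
    sE (sE P - P) = sE P - P := by
  have ha₁v := val_a₁_two hE h2 hc₄
  have ha₁0 : E.a₁ ≠ 0 := by
    intro h
    rw [h, map_zero] at ha₁v
    exact zero_ne_one ha₁v
  set u : Lˣ := Units.mk0 E.a₁ ha₁0 with hudef
  have hu : (u : L) = E.a₁ := rfl
  have huv : A.valuation (u : L) = 1 := by rw [hu]; exact ha₁v
  obtain ⟨e, he, hev⟩ := exists_root_two hE h20 h2 hc₄
  have hyp := modelHyp_two hE h20 h2 hΔ0 hΔ hc₄ u hu he hev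
  have hshift := val_shift_root_two hE h2 hc₄ he hev σ hI.res h₁ h₂ h₃ h₄ h₆
  have ha₄ : (vcTwo E u e • E).a₄ = trB4 E e / 2 / (u : L) ^ 4 := vcTwo_a₄ E u e h20
  have hbv : A.valuation (vcTwo E u e • E).a₄ = A.valuation (trB4 E e) / A.valuation (2 : L) := by
    rw [ha₄, map_div₀ _ (_ / _), map_pow, huv, one_pow, div_one, map_div₀]
  have h2pos : 0 < A.valuation (2 : L) := by
    rw [Valuation.pos_iff]; exact h20
  -- `|δ| ≤ |2 trB4| ≤ |trB4| ≤ |trB4| / |2|`
  have hle1 : A.valuation (trB4 E e) ≤ A.valuation (trB4 E e) / A.valuation (2 : L) := by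
    rw [le_div_iff₀ h2pos]
    calc A.valuation (trB4 E e) * A.valuation (2 : L) ≤ A.valuation (trB4 E e) * 1 := by
          gcongr
      _ = A.valuation (trB4 E e) := mul_one _
  have hsh : ShiftedInertia A (vcTwo E u e • E).toAffine σ (conjVC E (vcTwo E u e) sE) := by
    refine shifted_of_varChange A E σ sE hI (vcTwo E u e) ?_ ?_ ((σ e - e) / (u : L) ^ 2)
      (-((σ e - e) / (u : L) ^ 2) / 2) ?_ ?_ ?_ ?_
    · show σ (u : L) = u
      rw [hu]; exact h₁
    · simp [vcTwo]
    · show σ e = e + (u : L) ^ 2 * ((σ e - e) / (u : L) ^ 2)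
      field_simp
      ring
    · show σ (-(E.a₁ * e + E.a₃) / 2) = -(E.a₁ * e + E.a₃) / 2 +
        (u : L) ^ 3 * (-((σ e - e) / (u : L) ^ 2) / 2) + (u : L) ^ 2 * 0 * ((σ e - e) / (u : L) ^ 2)
      simp only [map_div₀, map_neg, map_add, map_mul, h₁, h₃, map_ofNat]
      rw [hu]
      field_simp
      ring
    · rw [map_div₀, map_pow, huv, one_pow, div_one, hbv]
      refine hshift.trans (le_trans ?_ hle1)
      rw [map_mul]
      calc A.valuation (2 : L) * A.valuation (trB4 E e) ≤ 1 * A.valuation (trB4 E e) := by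
            gcongr
        _ = A.valuation (trB4 E e) := one_mul _
    · rw [map_div₀, Valuation.map_neg, map_div₀, map_pow, huv, one_pow, div_one, hbv]
      rw [div_le_div_iff_of_pos_right h2pos]
      refine hshift.trans ?_
      rw [map_mul]
      calc A.valuation (2 : L) * A.valuation (trB4 E e) ≤ 1 * A.valuation (trB4 E e) := by
            gcongr
        _ = A.valuation (trB4 E e) := one_mul _
  obtain ⟨lam, hlam⟩ : ∃ lam : L, lam ^ 2 + lam = (vcTwo E u e • E).toAffine.a₂ := by
    have hdeg : (Polynomial.C (1 : L) * Polynomial.X ^ 2 + Polynomial.C (1 : L) * Polynomial.X +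
        Polynomial.C (-(vcTwo E u e • E).toAffine.a₂)).degree = 2 :=
      Polynomial.degree_quadratic one_ne_zero
    obtain ⟨z, hz⟩ := IsAlgClosed.exists_root _ (by rw [hdeg]; norm_num)
    refine ⟨z, ?_⟩
    have : 1 * z ^ 2 + 1 * z + -(vcTwo E u e • E).toAffine.a₂ = 0 := by
      simpa [Polynomial.IsRoot.def] using hz
    linear_combination this
  exact unip_of_conjVC E (vcTwo E u e) sE n
    (fun Q hQ => core_two A _ hyp lam hlam n hn σ _ hsh Q hQ) P hP

end main

end Fermat.Agent.S52.H5
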