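/-
S52 / E-UNIP (helper5), final: inertia at `l` acts unipotently on `W[n](Q̄)` for an integral
Weierstrass curve `W` which is semistable at `l`, and every `n` prime to `l`; it acts trivially
when `l` is a prime of good reduction.

* `unram_good` : `l ∤ Δ`, `l ∤ n`, `σ ∈ I_A`, `n • P = 0`  ⇒  `σ • P = P`.
* `unip`       : `(l ∣ Δ → l ∤ c₄)`, `Δ ≠ 0`, `l ∤ n`, `σ ∈ I_A`, `n • P = 0`  ⇒
                 `σ • (σ • P - P) = σ • P - P`.
* `unip_torsionBy`, `unram_good_torsionBy` : the same on `Submodule.torsionBy ℤ _ n`.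
-/
import Fermat.Agent.S52.H5_UnipOdd
import Fermat.Agent.S52.H5_UnipTwo
import Fermat.Agent.S52.H5_UnipGood
import Fermat.Agent.S05.Inertia
import Fermat.Agent.S05.H15_Val

set_option autoImplicit false

namespace Fermat.Agent.S52.H5

open WeierstrassCurve WeierstrassCurve.Affine WeierstrassCurve.Affine.Point IsLocalRing
open Fermat.Agent.Lib.EllFinite
open Fermat.Agent.Lib.EllFinite.H4 (IntCoeff)

/-- `Q̄`. -/
abbrev Qb : Type := AlgebraicClosure ℚ

/-- The curve over `Q̄` attached to an integral Weierstrass model. -/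
noncomputable abbrev EQ (W : WeierstrassCurve ℤ) : Affine Qb :=
  (W.map (Int.castRingHom ℚ))⁄(AlgebraicClosure ℚ)

section coeffs

variable (W : WeierstrassCurve ℤ)

lemma EQ_eq_map : (EQ W) = (W.map (Int.castRingHom Qb)).toAffine := by
  show ((W.map (Int.castRingHom ℚ)).map (algebraMap ℚ Qb)) = W.map (Int.castRingHom Qb)
  rw [WeierstrassCurve.map_map]
  congr 1

lemma EQ_a₁ : (EQ W).a₁ = ((W.a₁ : ℤ) : Qb) := by rw [EQ_eq_map]; rfl
lemma EQ_a₂ : (EQ W).a₂ = ((W.a₂ : ℤ) : Qb) := by rw [EQ_eq_map]; rfl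
lemma EQ_a₃ : (EQ W).a₃ = ((W.a₃ : ℤ) : Qb) := by rw [EQ_eq_map]; rfl
lemma EQ_a₄ : (EQ W).a₄ = ((W.a₄ : ℤ) : Qb) := by rw [EQ_eq_map]; rfl
lemma EQ_a₆ : (EQ W).a₆ = ((W.a₆ : ℤ) : Qb) := by rw [EQ_eq_map]; rfl

lemma EQ_Δ : (EQ W).Δ = ((W.Δ : ℤ) : Qb) := by
  rw [EQ_eq_map]
  exact WeierstrassCurve.map_Δ W (Int.castRingHom Qb)

lemma EQ_c₄ : (EQ W).c₄ = ((W.c₄ : ℤ) : Qb) := by
  rw [EQ_eq_map]
  exact WeierstrassCurve.map_c₄ W (Int.castRingHom Qb)

lemma EQ_intCoeff (A : ValuationSubring Qb) : IntCoeff A (EQ W) where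
  a₁ := by rw [EQ_a₁]; exact Fermat.Agent.S05.H15.valuation_intCast_le_one A _
  a₂ := by rw [EQ_a₂]; exact Fermat.Agent.S05.H15.valuation_intCast_le_one A _
  a₃ := by rw [EQ_a₃]; exact Fermat.Agent.S05.H15.valuation_intCast_le_one A _
  a₄ := by rw [EQ_a₄]; exact Fermat.Agent.S05.H15.valuation_intCast_le_one A _
  a₆ := by rw [EQ_a₆]; exact Fermat.Agent.S05.H15.valuation_intCast_le_one A _

/-- The curve over `Q̄` is the generic fibre of the model over `A`. -/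
lemma EQ_isRedOf (A : ValuationSubring Qb) :
    H4.IsRedOf A (EQ W) (W.map ((residue A).comp (Int.castRingHom A))).toAffine := by
  have h := H4.isRedOf_map (F := Qb) (A := A) W (Int.castRingHom A)
  have e : (algebraMap A Qb).comp (Int.castRingHom A) = Int.castRingHom Qb :=
    RingHom.ext_int _ _
  rw [e] at h
  rw [EQ_eq_map]
  exact h

end coeffs

section action

variable (W : WeierstrassCurve ℤ)

/-- The action of a Galois automorphism on points, as an additive map. -/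
noncomputable def galAdd (σ : Qb ≃ₐ[ℚ] Qb) : (EQ W).Point →+ (EQ W).Point :=
  DistribSMul.toAddMonoidHom (EQ W).Point σ

lemma galAdd_apply (σ : Qb ≃ₐ[ℚ] Qb) (P : (EQ W).Point) : galAdd W σ P = σ • P := rfl

lemma inertiaOn_galAdd (A : ValuationSubring Qb) (σ : Qb ≃ₐ[ℚ] Qb)
    (hσ : σ ∈ A.inertiaSubgroupIn ℚ) :
    InertiaOn A (EQ W) (σ : Qb →+* Qb) (galAdd W σ) where
  val_eq := (Fermat.Agent.S05.inertia A σ hσ).1
  res := (Fermat.Agent.S05.inertia A σ hσ).2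
  map_some := fun _ _ _ => ⟨_, rfl⟩

end action

section main

variable (W : WeierstrassCurve ℤ) (l : ℕ) (hl : l.Prime) (n : ℕ) (hn : ¬ l ∣ n)
  (A : ValuationSubring Qb) (hA : A.LiesOverPrime l)

include hl hn hA in
lemma val_n_eq_one : A.valuation (n : Qb) = 1 := by
  have : ¬ (l : ℤ) ∣ (n : ℤ) := fun h => hn (Int.natCast_dvd_natCast.1 h)
  simpa using Fermat.Agent.S05.H15.valuation_intCast_eq_one_of_not_dvd hl hA this

/-- **Good reduction**: inertia at a prime of good reduction acts trivially on the `n`-torsion,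
`n` prime to `l`. -/
theorem unram_good (hgood : ¬ (l : ℤ) ∣ W.Δ)
    (hl : l.Prime) (hn : ¬ l ∣ n) (hA : A.LiesOverPrime l)
    (σ : Qb ≃ₐ[ℚ] Qb) (hσ : σ ∈ A.inertiaSubgroupIn ℚ)
    (P : (EQ W).Point) (hP : (n : ℤ) • P = 0) : σ • P = P := by
  have hP' : n • P = 0 := by rwa [natCast_zsmul] at hP
  have hΔk : (W.map ((residue A).comp (Int.castRingHom A))).toAffine.Δ ≠ 0 := by
    show (W.map ((residue A).comp (Int.castRingHom A))).Δ ≠ 0
    rw [WeierstrassCurve.map_Δ, RingHom.comp_apply, H4.res_ne_zero_iff]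
    simpa using Fermat.Agent.S05.H15.valuation_intCast_eq_one_of_not_dvd hl hA hgood
  exact unram_of_isRedOf (EQ_isRedOf W A) hΔk (σ : Qb →+* Qb) (galAdd W σ)
    (inertiaOn_galAdd W A σ hσ) n (val_n_eq_one l hl n hn A hA) P hP'

/-- **E-UNIP**: inertia at `l` acts unipotently on the `n`-torsion of a curve which is semistable
at `l`, for every `n` prime to `l`. -/
theorem unip (hΔ : W.Δ ≠ 0) (hss : (l : ℤ) ∣ W.Δ → ¬ (l : ℤ) ∣ W.c₄)
    (hl : l.Prime) (hn : ¬ l ∣ n) (hA : A.LiesOverPrime l)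
    (σ : Qb ≃ₐ[ℚ] Qb) (hσ : σ ∈ A.inertiaSubgroupIn ℚ)
    (P : (EQ W).Point) (hP : (n : ℤ) • P = 0) : σ • (σ • P - P) = σ • P - P := by
  by_cases hbad : (l : ℤ) ∣ W.Δ
  · have hP' : n • P = 0 := by rwa [natCast_zsmul] at hP
    have hnv := val_n_eq_one l hl n hn A hA
    have hE := EQ_intCoeff W A
    have hI := inertiaOn_galAdd W A σ hσ
    have hΔ0 : (EQ W).Δ ≠ 0 := by
      rw [EQ_Δ]; exact_mod_cast hΔ
    have hΔv : A.valuation (EQ W).Δ < 1 := by
      rw [EQ_Δ]; exact Fermat.Agent.S05.H15.valuation_intCast_lt_one_of_dvd hA hbad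
    have hc₄v : A.valuation (EQ W).c₄ = 1 := by
      rw [EQ_c₄]; exact Fermat.Agent.S05.H15.valuation_intCast_eq_one_of_not_dvd hl hA (hss hbad)
    have h₁ : (σ : Qb →+* Qb) (EQ W).a₁ = (EQ W).a₁ := by rw [EQ_a₁]; exact map_intCast _ _
    have h₂ : (σ : Qb →+* Qb) (EQ W).a₂ = (EQ W).a₂ := by rw [EQ_a₂]; exact map_intCast _ _
    have h₃ : (σ : Qb →+* Qb) (EQ W).a₃ = (EQ W).a₃ := by rw [EQ_a₃]; exact map_intCast _ _
    have h₄ : (σ : Qb →+* Qb) (EQ W).a₄ = (EQ W).a₄ := by rw [EQ_a₄]; exact map_intCast _ _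
    have h₆ : (σ : Qb →+* Qb) (EQ W).a₆ = (EQ W).a₆ := by rw [EQ_a₆]; exact map_intCast _ _
    by_cases h2 : l = 2
    · subst h2
      have h2v : A.valuation (2 : Qb) < 1 := by
        have := Fermat.Agent.S05.H15.valuation_lt_one_of_mem_nonunits hA
        simpa using this
      exact unip_mult_two hE two_ne_zero h2v hΔ0 hΔv hc₄v (σ : Qb →+* Qb) (galAdd W σ) hI
        h₁ h₂ h₃ h₄ h₆ n hnv P hP'
    · have h2v : A.valuation (2 : Qb) = 1 := by
        have := Fermat.Agent.S05.H15.valuation_natCast_eq_one_of_ne hl hA Nat.prime_two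
          (fun h => h2 h.symm)
        simpa using this
      exact unip_mult_odd hE h2v hΔ0 hΔv hc₄v (σ : Qb →+* Qb) (galAdd W σ) hI
        h₁ h₂ h₃ h₄ h₆ n hnv P hP'
  · have key : ∀ Q : (EQ W).Point, (n : ℤ) • Q = 0 → σ • Q = Q :=
      fun Q hQ => unram_good W l n A hbad hl hn hA σ hσ Q hQ
    rw [key P hP, sub_self, smul_zero]

/-- `unip` on the torsion submodule. -/
theorem unip_torsionBy (hΔ : W.Δ ≠ 0) (hss : (l : ℤ) ∣ W.Δ → ¬ (l : ℤ) ∣ W.c₄)
    (hl : l.Prime) (hn : ¬ l ∣ n) (hA : A.LiesOverPrime l)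
    (σ : Qb ≃ₐ[ℚ] Qb) (hσ : σ ∈ A.inertiaSubgroupIn ℚ)
    (v : Submodule.torsionBy ℤ (EQ W).Point (n : ℤ)) : σ • (σ • v - v) = σ • v - v := by
  apply Subtype.ext
  have hv : (n : ℤ) • (v : (EQ W).Point) = 0 := by
    have := v.2
    rwa [Submodule.mem_torsionBy_iff] at this
  exact unip W l n A hΔ hss hl hn hA σ hσ v hv

/-- `unram_good` on the torsion submodule. -/
theorem unram_good_torsionBy (hgood : ¬ (l : ℤ) ∣ W.Δ)
    (hl : l.Prime) (hn : ¬ l ∣ n) (hA : A.LiesOverPrime l)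
    (σ : Qb ≃ₐ[ℚ] Qb) (hσ : σ ∈ A.inertiaSubgroupIn ℚ)
    (v : Submodule.torsionBy ℤ (EQ W).Point (n : ℤ)) : σ • v = v := by
  apply Subtype.ext
  have hv : (n : ℤ) • (v : (EQ W).Point) = 0 := by
    have := v.2
    rwa [Submodule.mem_torsionBy_iff] at this
  exact unram_good W l n A hgood hl hn hA σ hσ v hv

end main

end Fermat.Agent.S52.H5
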