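/-
S52 / E-UNIP (helper5), supplement for Tate T6 (helper14): the transfer to the model for elements
of the DECOMPOSITION group (valuation preserving, not necessarily trivial on the residue field).

* `ShiftedVal A W σ s`, `ValOn A E σ sE` : as `ShiftedInertia`, `InertiaOn` without `res`.
* `shiftedVal_of_varChange`.
* `val_shift_root_odd_of_val` : a valuation preserving `σ` fixing the coefficients moves a root of
  `ψ₂²` at the node by at most `|trB4|`.
* `exists_model_odd_val` : ONE root `e` (hence one model) serving all `σ`.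
* `exists_model_odd_Q` : instantiation for `W` over `ℤ`, `A` over an odd prime of multiplicative
  reduction, `σ` in the decomposition group / inertia group of `A`.
-/
import Fermat.Agent.S52.H5_Unip

set_option autoImplicit false

namespace Fermat.Agent.S52.H5

open WeierstrassCurve WeierstrassCurve.Affine
open Fermat.Agent.S05 Fermat.Agent.Lib.PointVariableChange
open Fermat.Agent.Lib.EllFinite.H4 (IntCoeff)

section defs

variable {L : Type*} [Field L] [DecidableEq L]

/-- An additive self-map of the points which is a valuation preserving field endomorphism up to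
a shift of size `≤ |a₄|`. -/
structure ShiftedVal (A : ValuationSubring L) (W : Affine L) (σ : L →+* L)
    (s : W.Point →+ W.Point) : Prop where
  val_eq : ∀ x, A.valuation (σ x) = A.valuation x
  map_some : ∀ (x y : L) (h : W.Nonsingular x y), ∃ (x' y' : L) (h' : W.Nonsingular x' y'),
    s (.some x y h) = .some x' y' h' ∧ A.valuation (x' - σ x) ≤ A.valuation W.a₄ ∧
      A.valuation (y' - σ y) ≤ A.valuation W.a₄

/-- An additive self-map of the points acting on coordinates by a valuation preserving `σ`. -/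
structure ValOn (A : ValuationSubring L) (E : Affine L) (σ : L →+* L)
    (sE : E.Point →+ E.Point) : Prop where
  val_eq : ∀ x, A.valuation (σ x) = A.valuation x
  map_some : ∀ (x y : L) (h : E.Nonsingular x y),
    ∃ h' : E.Nonsingular (σ x) (σ y), sE (.some x y h) = .some (σ x) (σ y) h'

lemma ShiftedInertia.toShiftedVal {A : ValuationSubring L} {W : Affine L} {σ : L →+* L}
    {s : W.Point →+ W.Point} (h : ShiftedInertia A W σ s) : ShiftedVal A W σ s :=
  ⟨h.val_eq, h.map_some⟩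

lemma InertiaOn.toValOn {A : ValuationSubring L} {E : Affine L} {σ : L →+* L}
    {sE : E.Point →+ E.Point} (h : InertiaOn A E σ sE) : ValOn A E σ sE :=
  ⟨h.val_eq, h.map_some⟩

/-- The conjugate of a valuation preserving map by a change of variables. -/
theorem shiftedVal_of_varChange (A : ValuationSubring L) (E : Affine L) (σ : L →+* L)
    (sE : E.Point →+ E.Point) (hI : ValOn A E σ sE) (C : VariableChange L)
    (hu : σ (C.u : L) = C.u) (hs : σ C.s = C.s) (d₁ d₂ : L)
    (hd₁ : σ C.r = C.r + (C.u : L) ^ 2 * d₁)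
    (hd₂ : σ C.t = C.t + (C.u : L) ^ 3 * d₂ + (C.u : L) ^ 2 * C.s * d₁)
    (h₁ : A.valuation d₁ ≤ A.valuation (C • E).a₄)
    (h₂ : A.valuation d₂ ≤ A.valuation (C • E).a₄) :
    ShiftedVal A (C • E).toAffine σ (conjVC E C sE) where
  val_eq := hI.val_eq
  map_some := by
    intro X Y h
    obtain ⟨h', hsE⟩ := hI.map_some _ _ ((nonsingular_vc E C X Y).mpr h)
    have eX : vcX C (σ X + d₁) = σ (vcX C X) := by
      simp only [vcX, map_add, map_mul, map_pow, hu, hd₁]; ring
    have eY : vcY C (σ X + d₁) (σ Y + d₂) = σ (vcY C X Y) := by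
      simp only [vcY, map_add, map_mul, map_pow, hu, hs, hd₂]; ring
    have hns : (C • E).toAffine.Nonsingular (σ X + d₁) (σ Y + d₂) := by
      rw [← nonsingular_vc, eX, eY]; exact h'
    refine ⟨σ X + d₁, σ Y + d₂, hns, ?_, ?_, ?_⟩
    · rw [conjVC_eq_iff, equiv_some, equiv_some, hsE]
      simp only [eX, eY]
    · have : σ X + d₁ - σ X = d₁ := by ring
      rw [this]; exact h₁
    · have : σ Y + d₂ - σ Y = d₂ := by ring
      rw [this]; exact h₂

end defs

section arith

variable {L : Type*} [Field L] {A : ValuationSubring L}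

lemma trB4_map (E : Affine L) (σ : L →+* L) (h₁ : σ E.a₁ = E.a₁) (h₂ : σ E.a₂ = E.a₂)
    (h₃ : σ E.a₃ = E.a₃) (h₄ : σ E.a₄ = E.a₄) (e : L) :
    trB4 E (σ e) = σ (trB4 E e) := by
  simp only [trB4, b₂, b₄, map_add, map_mul, map_pow, h₁, h₂, h₃, h₄, map_ofNat]

/-- A valuation preserving endomorphism fixing the coefficients moves a root of `ψ₂²` at the node
by at most `|trB4|` (odd residue characteristic). -/
theorem val_shift_root_odd_of_val {E : Affine L}
    (h2 : A.valuation (2 : L) = 1) (hc₄ : A.valuation E.c₄ = 1)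
    {e : L} (he : psi2sq E e = 0) (hb : A.valuation (trB4 E e) < 1)
    (σ : L →+* L) (hσv : ∀ x, A.valuation (σ x) = A.valuation x)
    (h₁ : σ E.a₁ = E.a₁) (h₂ : σ E.a₂ = E.a₂) (h₃ : σ E.a₃ = E.a₃) (h₄ : σ E.a₄ = E.a₄)
    (h₆ : σ E.a₆ = E.a₆) :
    A.valuation (σ e - e) ≤ A.valuation (trB4 E e) := by
  have h4 := val_four_of_two h2
  set δ := σ e - e with hδ
  have hσe : e + δ = σ e := by rw [hδ]; ring
  have hroot : psi2sq E (e + δ) = 0 := by
    rw [hσe, psi2sq_map E σ h₁ h₂ h₃ h₄ h₆, he, map_zero]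
  rw [psi2sq_add, he, zero_add] at hroot
  rcases mul_eq_zero.1 hroot with h0 | h0
  · rw [h0, map_zero]; exact zero_le
  · -- `|δ| < 1`
    have hb' : A.valuation (trB4 E (e + δ)) < 1 := by
      rw [hσe, trB4_map E σ h₁ h₂ h₃ h₄, hσv]; exact hb
    have e3 : 2 * δ ^ 2 = trB4 E (e + δ) + trB4 E e := by
      rw [trB4_add]; linear_combination (-1 : L) * h0
    have hδ1 : A.valuation δ < 1 := by
      apply val_lt_one_of_sq_lt_one
      have h := congrArg A.valuation e3
      rw [map_mul, h2, one_mul, map_pow] at h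
      rw [h]
      exact Valuation.map_add_lt _ hb' hb
    have hB2 : A.valuation (trB2 E e) = 1 := by
      have h := congrArg A.valuation (c₄_eq_tr E e)
      rw [hc₄] at h
      have hsm : A.valuation (24 * trB4 E e) < 1 := by
        rw [map_mul]
        calc A.valuation (24 : L) * A.valuation (trB4 E e) ≤ 1 * A.valuation (trB4 E e) := by
              gcongr; exact val_ofNat_le 24
          _ = A.valuation (trB4 E e) := one_mul _
          _ < 1 := hb
      have e1 : trB2 E e ^ 2 = (trB2 E e ^ 2 - 24 * trB4 E e) + 24 * trB4 E e := by ring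
      have : A.valuation (trB2 E e ^ 2) = 1 := by
        rw [e1, Valuation.map_add_eq_of_lt_left _ (by rw [← h]; exact hsm), ← h]
      rw [map_pow] at this
      exact val_eq_one_of_sq_eq_one this
    have hsum : A.valuation (4 * δ + trB2 E e) = 1 := by
      rw [Valuation.map_add_eq_of_lt_right _ (by
        rw [hB2, map_mul, h4, one_mul]; exact hδ1), hB2]
    have e2 : 2 * trB4 E e = -(δ * (4 * δ + trB2 E e)) := by linear_combination h0
    have h := congrArg A.valuation e2
    simp only [map_mul, Valuation.map_neg, hsum, mul_one, h2, one_mul] at h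
    rw [h]

end arith

section model

variable {L : Type*} [Field L] [DecidableEq L] [IsAlgClosed L] {A : ValuationSubring L}

/-- **One model for all `σ`** (odd residue characteristic, multiplicative reduction): there is a
root `e` of `ψ₂²` such that `vcOdd E e • E` is the S05 model with `|b| < 1`, and the conjugate of
every valuation preserving (resp. inertia-like) `σ` fixing the coefficients of `E` is a shifted
valuation preserving (resp. shifted inertia) map of the model. -/
theorem exists_model_odd_val {E : Affine L} (hE : IntCoeff A E)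
    (h2 : A.valuation (2 : L) = 1) (hΔ0 : E.Δ ≠ 0) (hΔ : A.valuation E.Δ < 1)
    (hc₄ : A.valuation E.c₄ = 1) :
    ∃ e : L, psi2sq E e = 0 ∧ A.valuation e ≤ 1 ∧
      ModelHyp A (vcOdd E e • E).toAffine ∧ A.valuation (vcOdd E e • E).toAffine.a₄ < 1 ∧
      (∀ (σ : L →+* L) (sE : E.Point →+ E.Point), ValOn A E σ sE →
        σ E.a₁ = E.a₁ → σ E.a₂ = E.a₂ → σ E.a₃ = E.a₃ → σ E.a₄ = E.a₄ → σ E.a₆ = E.a₆ →
        ShiftedVal A (vcOdd E e • E).toAffine σ (conjVC E (vcOdd E e) sE)) ∧
      (∀ (σ : L →+* L) (sE : E.Point →+ E.Point), InertiaOn A E σ sE →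
        σ E.a₁ = E.a₁ → σ E.a₂ = E.a₂ → σ E.a₃ = E.a₃ → σ E.a₄ = E.a₄ → σ E.a₆ = E.a₆ →
        ShiftedInertia A (vcOdd E e • E).toAffine σ (conjVC E (vcOdd E e) sE)) := by
  have h20 := two_ne_zero_of_val h2
  obtain ⟨e, he, hev, hb⟩ := exists_root_odd hE h2 hΔ
  obtain ⟨hyp, hb'⟩ := modelHyp_odd hE h2 hΔ0 hc₄ he hev hb
  have ha₄ : (vcOdd E e • E).a₄ = trB4 E e / 2 := vcOdd_a₄ E e h20
  refine ⟨e, he, hev, hyp, hb', ?_, ?_⟩
  · intro σ sE hI h₁ h₂ h₃ h₄ h₆
    have hshift := val_shift_root_odd_of_val h2 hc₄ he hb σ hI.val_eq h₁ h₂ h₃ h₄ h₆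
    refine shiftedVal_of_varChange A E σ sE hI (vcOdd E e) ?_ ?_ (σ e - e) 0 ?_ ?_ ?_ ?_
    · simp [vcOdd]
    · simp only [vcOdd, map_div₀, map_neg, h₁, map_ofNat]
    · simp only [vcOdd, Units.val_one, one_pow, one_mul]; ring
    · simp only [vcOdd, Units.val_one, one_pow, one_mul, map_div₀, map_neg, map_add, map_mul, h₁,
        h₃, map_ofNat, mul_zero, add_zero]
      field_simp
      ring
    · rw [ha₄, map_div₀, h2, div_one]; exact hshift
    · rw [map_zero]; exact zero_le
  · intro σ sE hI h₁ h₂ h₃ h₄ h₆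
    have hshift := val_shift_root_odd_of_val h2 hc₄ he hb σ hI.val_eq h₁ h₂ h₃ h₄ h₆
    refine shifted_of_varChange A E σ sE hI (vcOdd E e) ?_ ?_ (σ e - e) 0 ?_ ?_ ?_ ?_
    · simp [vcOdd]
    · simp only [vcOdd, map_div₀, map_neg, h₁, map_ofNat]
    · simp only [vcOdd, Units.val_one, one_pow, one_mul]; ring
    · simp only [vcOdd, Units.val_one, one_pow, one_mul, map_div₀, map_neg, map_add, map_mul, h₁,
        h₃, map_ofNat, mul_zero, add_zero]
      field_simp
      ring
    · rw [ha₄, map_div₀, h2, div_one]; exact hshift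
    · rw [map_zero]; exact zero_le

end model

section rat

open ValuationSubring

/-- The action of a Galois automorphism preserving the valuation. -/
lemma valOn_galAdd (W : WeierstrassCurve ℤ) (A : ValuationSubring Qb) (σ : Qb ≃ₐ[ℚ] Qb)
    (hσ : σ ∈ A.decompositionSubgroup ℚ) :
    ValOn A (EQ W) (σ : Qb →+* Qb) (galAdd W σ) where
  val_eq := by
    have := Fermat.Agent.S05.isAlgebraic_algebraicClosure_rat
    exact fun x => Fermat.Agent.S05.H37.valuation_apply_eq_of_mem_decomposition A hσ x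
  map_some := fun _ _ _ => ⟨_, rfl⟩

/-- **Model at an odd prime of multiplicative reduction**, for `W` over `ℤ`: one root `e`, the
S05 model `vcOdd (EQ W) e • EQ W`, and the transported Galois action: shifted valuation preserving
for `σ` in the decomposition group of `A`, shifted inertia for `σ` in the inertia group. -/
theorem exists_model_odd_Q (W : WeierstrassCurve ℤ) (l : ℕ) (hl : l.Prime) (hl2 : l ≠ 2)
    (hΔ : W.Δ ≠ 0) (hbad : (l : ℤ) ∣ W.Δ) (hc₄ : ¬ (l : ℤ) ∣ W.c₄)
    (A : ValuationSubring Qb) (hA : A.LiesOverPrime l) :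
    ∃ e : Qb, psi2sq (EQ W) e = 0 ∧ A.valuation e ≤ 1 ∧
      ModelHyp A (vcOdd (EQ W) e • EQ W).toAffine ∧
      A.valuation (vcOdd (EQ W) e • EQ W).toAffine.a₄ < 1 ∧
      (∀ σ : Qb ≃ₐ[ℚ] Qb, σ ∈ A.decompositionSubgroup ℚ →
        ShiftedVal A (vcOdd (EQ W) e • EQ W).toAffine (σ : Qb →+* Qb)
          (conjVC (EQ W) (vcOdd (EQ W) e) (galAdd W σ))) ∧
      (∀ σ : Qb ≃ₐ[ℚ] Qb, σ ∈ A.inertiaSubgroupIn ℚ →
        ShiftedInertia A (vcOdd (EQ W) e • EQ W).toAffine (σ : Qb →+* Qb)
          (conjVC (EQ W) (vcOdd (EQ W) e) (galAdd W σ))) := by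
  have hE := EQ_intCoeff W A
  have hΔ0 : (EQ W).Δ ≠ 0 := by
    rw [EQ_Δ]; exact_mod_cast hΔ
  have hΔv : A.valuation (EQ W).Δ < 1 := by
    rw [EQ_Δ]; exact Fermat.Agent.S05.H15.valuation_intCast_lt_one_of_dvd hA hbad
  have hc₄v : A.valuation (EQ W).c₄ = 1 := by
    rw [EQ_c₄]; exact Fermat.Agent.S05.H15.valuation_intCast_eq_one_of_not_dvd hl hA hc₄
  have h2v : A.valuation (2 : Qb) = 1 := by
    have := Fermat.Agent.S05.H15.valuation_natCast_eq_one_of_ne hl hA Nat.prime_two
      (fun h => hl2 h.symm)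
    simpa using this
  have h₁ : ∀ σ : Qb ≃ₐ[ℚ] Qb, (σ : Qb →+* Qb) (EQ W).a₁ = (EQ W).a₁ := fun σ => by
    rw [EQ_a₁]; exact map_intCast _ _
  have h₂ : ∀ σ : Qb ≃ₐ[ℚ] Qb, (σ : Qb →+* Qb) (EQ W).a₂ = (EQ W).a₂ := fun σ => by
    rw [EQ_a₂]; exact map_intCast _ _
  have h₃ : ∀ σ : Qb ≃ₐ[ℚ] Qb, (σ : Qb →+* Qb) (EQ W).a₃ = (EQ W).a₃ := fun σ => by
    rw [EQ_a₃]; exact map_intCast _ _
  have h₄ : ∀ σ : Qb ≃ₐ[ℚ] Qb, (σ : Qb →+* Qb) (EQ W).a₄ = (EQ W).a₄ := fun σ => by
    rw [EQ_a₄]; exact map_intCast _ _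
  have h₆ : ∀ σ : Qb ≃ₐ[ℚ] Qb, (σ : Qb →+* Qb) (EQ W).a₆ = (EQ W).a₆ := fun σ => by
    rw [EQ_a₆]; exact map_intCast _ _
  obtain ⟨e, he, hev, hyp, hb, hV, hI⟩ := exists_model_odd_val hE h2v hΔ0 hΔv hc₄v
  exact ⟨e, he, hev, hyp, hb,
    fun σ hσ => hV _ _ (valOn_galAdd W A σ hσ) (h₁ σ) (h₂ σ) (h₃ σ) (h₄ σ) (h₆ σ),
    fun σ hσ => hI _ _ (inertiaOn_galAdd W A σ hσ) (h₁ σ) (h₂ σ) (h₃ σ) (h₄ σ) (h₆ σ)⟩

end rat

end Fermat.Agent.S52.H5
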