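import Mathlib

/-!
# S52, package E-CC: a complex conjugation in `Gal(ℚ̄/ℚ)` (helper97)

`exists_complexConj`: there is `c ∈ Gal(ℚ̄/ℚ)` with `c * c = 1` and `c z = z⁻¹` for every root of
unity `z`.  Construction: restrict the complex conjugation of `ℂ` along an embedding `ℚ̄ → ℂ`.
-/

set_option autoImplicit false

noncomputable section

namespace Fermat.Agent.S52.H97

/-- A complex conjugation: an involution of `ℚ̄` inverting every root of unity. -/
theorem exists_complexConj :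
    ∃ c : AlgebraicClosure ℚ ≃ₐ[ℚ] AlgebraicClosure ℚ, c * c = 1 ∧
      ∀ (z : AlgebraicClosure ℚ) (n : ℕ), 0 < n → z ^ n = 1 → c z = z⁻¹ := by
  classical
  have halg : Algebra.IsAlgebraic ℚ (AlgebraicClosure ℚ) := AlgebraicClosure.isAlgebraic ℚ
  have hcl : IsAlgClosure ℚ (AlgebraicClosure ℚ) := ⟨inferInstance, inferInstance⟩
  have hgal : IsGalois ℚ (AlgebraicClosure ℚ) := inferInstance
  have hnorm : Normal ℚ (AlgebraicClosure ℚ) := IsGalois.to_normal
  let ι : AlgebraicClosure ℚ →ₐ[ℚ] ℂ := IsAlgClosed.lift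
  let _ : Algebra (AlgebraicClosure ℚ) ℂ := ι.toRingHom.toAlgebra
  have : IsScalarTower ℚ (AlgebraicClosure ℚ) ℂ :=
    IsScalarTower.of_algebraMap_eq (fun x => (ι.commutes x).symm)
  let conj : ℂ ≃ₐ[ℚ] ℂ := Complex.conjAe.restrictScalars ℚ
  let c : AlgebraicClosure ℚ ≃ₐ[ℚ] AlgebraicClosure ℚ := conj.restrictNormal (AlgebraicClosure ℚ)
  have hc : ∀ x : AlgebraicClosure ℚ, ι (c x) = (starRingEnd ℂ) (ι x) := fun x =>
    conj.restrictNormal_commutes (AlgebraicClosure ℚ) x
  have hinj : Function.Injective ι := ι.toRingHom.injective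
  refine ⟨c, ?_, ?_⟩
  · ext x
    apply hinj
    rw [AlgEquiv.mul_apply, hc, hc, Complex.conj_conj, AlgEquiv.one_apply]
  · intro z n hn hz
    apply hinj
    rw [hc, map_inv₀]
    have h1 : (ι z) ^ n = 1 := by rw [← map_pow, hz, map_one]
    have h2 : ‖ι z‖ = 1 := Complex.norm_eq_one_of_pow_eq_one h1 hn.ne'
    exact (Complex.inv_eq_conj h2).symm

end Fermat.Agent.S52.H97
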