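import Mathlib.Tactic.Ring
import Mathlib.Tactic.LinearCombination
import Mathlib.Algebra.Ring.Basic

/-!
# S52 (3-5 switch): the explicit family of curves 5-congruent to a given one (helper65)

`famC4 c4 c6 t`, `famC6 c4 c6 t` are the invariants `c₄, c₆` of the member `E_t` of the
Rubin-Silverberg family through the curve with invariants `c4, c6`; `famF` is the twelfth-degree
"cusp form" with `famC4 ^ 3 - famC6 ^ 2 = (c4 ^ 3 - c6 ^ 2) * famF ^ 5` (`FamDisc.lean`).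

Tate normal form `TNF(b) : y² + (1-b)xy - by = x³ - bx²` has `c₄ = tC4 b`, `c₆ = tC6 b`.
If `c4 = v² tC4 b`, `c6 = v³ tC6 b` then `E_t` has `c₄ = v² hC4 N D`, `c₆ = v³ hC6 N D` with the quintics
`N = tnfN b (v t)`, `D = tnfD b (v t)` (`hC4, hC6` the homogeneous forms of `tC4, tC6`):
`FamI1.lean`, `FamI2.lean`; `b * famF = N * D * tnfQ` (`FamI4.lean`); fifth-power structure `FamI3.lean`.
Plan: NOTES/plan/E.md.
-/

set_option autoImplicit false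

namespace Fermat.Agent.S52

variable {R : Type*} [CommRing R]

/-- coefficient of `t ^ 0` in `famC4` -/
def famC4c0 (c4 c6 : R) : R := c4

/-- coefficient of `t ^ 1` in `famC4` -/
def famC4c1 (c4 c6 : R) : R := -20 * c6

/-- coefficient of `t ^ 2` in `famC4` -/
def famC4c2 (c4 c6 : R) : R := 190 * c4 ^ 2

/-- coefficient of `t ^ 3` in `famC4` -/
def famC4c3 (c4 c6 : R) : R := -1140 * c4 * c6

/-- coefficient of `t ^ 4` in `famC4` -/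
def famC4c4 (c4 c6 : R) : R := -855 * c4 ^ 3 + 5700 * c6 ^ 2

/-- coefficient of `t ^ 5` in `famC4` -/
def famC4c5 (c4 c6 : R) : R := -15504 * c4 ^ 2 * c6

/-- coefficient of `t ^ 6` in `famC4` -/
def famC4c6 (c4 c6 : R) : R := -63840 * c4 * c6 ^ 2 + 102600 * c4 ^ 4

/-- coefficient of `t ^ 7` in `famC4` -/
def famC4c7 (c4 c6 : R) : R := -259920 * c4 ^ 3 * c6 + 182400 * c6 ^ 3

/-- coefficient of `t ^ 8` in `famC4` -/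
def famC4c8 (c4 c6 : R) : R := 1126320 * c4 ^ 2 * c6 ^ 2 - 1000350 * c4 ^ 5

/-- coefficient of `t ^ 9` in `famC4` -/
def famC4c9 (c4 c6 : R) : R := -7904000 * c4 * c6 ^ 3 + 7736040 * c4 ^ 4 * c6

/-- coefficient of `t ^ 10` in `famC4` -/
def famC4c10 (c4 c6 : R) : R := -5619744 * c4 ^ 3 * c6 ^ 2 - 10003500 * c4 ^ 6 + 15808000 * c6 ^ 4

/-- coefficient of `t ^ 11` in `famC4` -/
def famC4c11 (c4 c6 : R) : R := -54853760 * c4 ^ 2 * c6 ^ 3 + 54685800 * c4 ^ 5 * c6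

/-- coefficient of `t ^ 12` in `famC4` -/
def famC4c12 (c4 c6 : R) : R := 37939200 * c4 * c6 ^ 4 + 7202520 * c4 ^ 4 * c6 ^ 2 - 45015750 * c4 ^ 7

/-- coefficient of `t ^ 13` in `famC4` -/
def famC4c13 (c4 c6 : R) : R := 23201280 * c4 ^ 3 * c6 ^ 3 + 35089200 * c4 ^ 6 * c6 - 58368000 * c6 ^ 5

/-- coefficient of `t ^ 14` in `famC4` -/
def famC4c14 (c4 c6 : R) : R := 287462400 * c4 ^ 2 * c6 ^ 4 - 495188640 * c4 ^ 5 * c6 ^ 2 + 207765000 * c4 ^ 8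

/-- coefficient of `t ^ 15` in `famC4` -/
def famC4c15 (c4 c6 : R) : R := -466944000 * c4 * c6 ^ 5 + 882458496 * c4 ^ 4 * c6 ^ 3 - 415530000 * c4 ^ 7 * c6

/-- coefficient of `t ^ 16` in `famC4` -/
def famC4c16 (c4 c6 : R) : R := -1220474880 * c4 ^ 3 * c6 ^ 4 + 714711600 * c4 ^ 6 * c6 ^ 2 - 77911875 * c4 ^ 9 + 583680000 * c6 ^ 6

/-- coefficient of `t ^ 17` in `famC4` -/
def famC4c17 (c4 c6 : R) : R := -361881600 * c4 ^ 2 * c6 ^ 5 + 715080960 * c4 ^ 5 * c6 ^ 3 - 353200500 * c4 ^ 8 * c6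

/-- coefficient of `t ^ 18` in `famC4` -/
def famC4c18 (c4 c6 : R) : R := -622592000 * c4 * c6 ^ 6 + 779118750 * c4 ^ 10 + 2026391040 * c4 ^ 4 * c6 ^ 4 - 2182917600 * c4 ^ 7 * c6 ^ 2

/-- coefficient of `t ^ 19` in `famC4` -/
def famC4c19 (c4 c6 : R) : R := -2005401600 * c4 ^ 3 * c6 ^ 5 + 2044414080 * c4 ^ 6 * c6 ^ 3 - 694372500 * c4 ^ 9 * c6 + 655360000 * c6 ^ 7

/-- coefficient of `t ^ 20` in `famC4` -/
def famC4c20 (c4 c6 : R) : R := 184528125 * c4 ^ 11 - 180224000 * c4 ^ 2 * c6 ^ 6 + 544997376 * c4 ^ 5 * c6 ^ 4 - 549301500 * c4 ^ 8 * c6 ^ 2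

/-- `c₄` of the member `E_t` of the family. -/
def famC4 (c4 c6 t : R) : R :=
  famC4c0 c4 c6 + famC4c1 c4 c6 * t + famC4c2 c4 c6 * t ^ 2 + famC4c3 c4 c6 * t ^ 3 +
    famC4c4 c4 c6 * t ^ 4 + famC4c5 c4 c6 * t ^ 5 + famC4c6 c4 c6 * t ^ 6 + famC4c7 c4 c6 * t ^ 7 +
    famC4c8 c4 c6 * t ^ 8 + famC4c9 c4 c6 * t ^ 9 + famC4c10 c4 c6 * t ^ 10 + famC4c11 c4 c6 * t ^ 11 +
    famC4c12 c4 c6 * t ^ 12 + famC4c13 c4 c6 * t ^ 13 + famC4c14 c4 c6 * t ^ 14 + famC4c15 c4 c6 * t ^ 15 +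
    famC4c16 c4 c6 * t ^ 16 + famC4c17 c4 c6 * t ^ 17 + famC4c18 c4 c6 * t ^ 18 + famC4c19 c4 c6 * t ^ 19 +
    famC4c20 c4 c6 * t ^ 20

/-- coefficient of `t ^ 0` in `famC6` -/
def famC6c0 (c4 c6 : R) : R := c6

/-- coefficient of `t ^ 1` in `famC6` -/
def famC6c1 (c4 c6 : R) : R := -30 * c4 ^ 2

/-- coefficient of `t ^ 2` in `famC6` -/
def famC6c2 (c4 c6 : R) : R := 435 * c4 * c6

/-- coefficient of `t ^ 3` in `famC6` -/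
def famC6c3 (c4 c6 : R) : R := -1160 * c4 ^ 3 - 2900 * c6 ^ 2

/-- coefficient of `t ^ 4` in `famC6` -/
def famC6c4 (c4 c6 : R) : R := 27405 * c4 ^ 2 * c6

/-- coefficient of `t ^ 5` in `famC6` -/
def famC6c5 (c4 c6 : R) : R := -46980 * c4 * c6 ^ 2 - 95526 * c4 ^ 4

/-- coefficient of `t ^ 6` in `famC6` -/
def famC6c6 (c4 c6 : R) : R := 437175 * c4 ^ 3 * c6 + 156600 * c6 ^ 3

/-- coefficient of `t ^ 7` in `famC6` -/
def famC6c7 (c4 c6 : R) : R := -3915000 * c4 ^ 2 * c6 ^ 2 + 1879200 * c4 ^ 5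

/-- coefficient of `t ^ 8` in `famC6` -/
def famC6c8 (c4 c6 : R) : R := 14407200 * c4 * c6 ^ 3 - 8554275 * c4 ^ 4 * c6

/-- coefficient of `t ^ 9` in `famC6` -/
def famC6c9 (c4 c6 : R) : R := 42021000 * c4 ^ 3 * c6 ^ 2 - 24312150 * c4 ^ 6 - 32016000 * c6 ^ 4

/-- coefficient of `t ^ 10` in `famC6` -/
def famC6c10 (c4 c6 : R) : R := -216588240 * c4 ^ 2 * c6 ^ 3 + 246633255 * c4 ^ 5 * c6

/-- coefficient of `t ^ 11` in `famC6` -/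
def famC6c11 (c4 c6 : R) : R := 1459929600 * c4 * c6 ^ 4 - 1352475900 * c4 ^ 4 * c6 ^ 2 - 162081000 * c4 ^ 7

/-- coefficient of `t ^ 12` in `famC6` -/
def famC6c12 (c4 c6 : R) : R := -1612005600 * c4 ^ 3 * c6 ^ 3 + 4131714825 * c4 ^ 6 * c6 - 2433216000 * c6 ^ 5

/-- coefficient of `t ^ 13` in `famC6` -/
def famC6c13 (c4 c6 : R) : R := 12044419200 * c4 ^ 2 * c6 ^ 4 - 5235216300 * c4 ^ 5 * c6 ^ 2 - 6928962750 * c4 ^ 8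

/-- coefficient of `t ^ 14` in `famC6` -/
def famC6c14 (c4 c6 : R) : R := -43045111800 * c4 ^ 4 * c6 ^ 3 + 43190534475 * c4 ^ 7 * c6

/-- coefficient of `t ^ 15` in `famC6` -/
def famC6c15 (c4 c6 : R) : R := 79420170240 * c4 ^ 3 * c6 ^ 4 - 79575287760 * c4 ^ 6 * c6 ^ 2

/-- coefficient of `t ^ 16` in `famC6` -/
def famC6c16 (c4 c6 : R) : R := -297825638400 * c4 ^ 2 * c6 ^ 5 + 474659611200 * c4 ^ 5 * c6 ^ 3 - 176688550125 * c4 ^ 8 * c6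

/-- coefficient of `t ^ 17` in `famC6` -/
def famC6c17 (c4 c6 : R) : R := 700766208000 * c4 * c6 ^ 6 + 311803323750 * c4 ^ 10 - 935084908800 * c4 ^ 4 * c6 ^ 4 - 77604382800 * c4 ^ 7 * c6 ^ 2

/-- coefficient of `t ^ 18` in `famC6` -/
def famC6c18 (c4 c6 : R) : R := -303665356800 * c4 ^ 3 * c6 ^ 5 + 2776512362400 * c4 ^ 6 * c6 ^ 3 - 1694131392375 * c4 ^ 9 * c6 - 778629120000 * c6 ^ 7

/-- coefficient of `t ^ 19` in `famC6` -/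
def famC6c19 (c4 c6 : R) : R := 328214025000 * c4 ^ 11 + 4290656256000 * c4 ^ 2 * c6 ^ 6 - 8100765158400 * c4 ^ 5 * c6 ^ 4 + 3481840250100 * c4 ^ 8 * c6 ^ 2

/-- coefficient of `t ^ 20` in `famC6` -/
def famC6c20 (c4 c6 : R) : R := -3442360320000 * c4 * c6 ^ 7 - 2874607835625 * c4 ^ 10 * c6 + 3892110842880 * c4 ^ 4 * c6 ^ 5 + 2424887357760 * c4 ^ 7 * c6 ^ 3

/-- coefficient of `t ^ 21` in `famC6` -/
def famC6c21 (c4 c6 : R) : R := 2215444668750 * c4 ^ 12 - 5125838438400 * c4 ^ 3 * c6 ^ 6 + 2709129888000 * c4 ^ 6 * c6 ^ 4 - 3077188825500 * c4 ^ 9 * c6 ^ 2 + 3278438400000 * c6 ^ 8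

/-- coefficient of `t ^ 22` in `famC6` -/
def famC6c22 (c4 c6 : R) : R := -1403114956875 * c4 ^ 11 * c6 - 4573421568000 * c4 ^ 2 * c6 ^ 7 + 7701051801600 * c4 ^ 5 * c6 ^ 5 - 1724509423800 * c4 ^ 8 * c6 ^ 3

/-- coefficient of `t ^ 23` in `famC6` -/
def famC6c23 (c4 c6 : R) : R := -6157762560000 * c4 * c6 ^ 8 + 33414470973000 * c4 ^ 10 * c6 ^ 2 - 7705894500000 * c4 ^ 13 + 30337884979200 * c4 ^ 4 * c6 ^ 6 - 49888700928000 * c4 ^ 7 * c6 ^ 4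

/-- coefficient of `t ^ 24` in `famC6` -/
def famC6c24 (c4 c6 : R) : R := 5089101159375 * c4 ^ 12 * c6 - 22779445248000 * c4 ^ 3 * c6 ^ 7 + 35246094796800 * c4 ^ 6 * c6 ^ 5 - 22687218914400 * c4 ^ 9 * c6 ^ 3 + 5131468800000 * c6 ^ 9

/-- coefficient of `t ^ 25` in `famC6` -/
def famC6c25 (c4 c6 : R) : R := -70097953635000 * c4 ^ 11 * c6 ^ 2 + 17627233668750 * c4 ^ 14 + 18216714240000 * c4 ^ 2 * c6 ^ 8 - 71274600677376 * c4 ^ 5 * c6 ^ 6 + 105528606261120 * c4 ^ 8 * c6 ^ 4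

/-- coefficient of `t ^ 26` in `famC6` -/
def famC6c26 (c4 c6 : R) : R := -41051750400000 * c4 * c6 ^ 9 + 163672057566000 * c4 ^ 10 * c6 ^ 3 - 40985726371875 * c4 ^ 13 * c6 + 163803539865600 * c4 ^ 4 * c6 ^ 7 - 245438120632320 * c4 ^ 7 * c6 ^ 5

/-- coefficient of `t ^ 27` in `famC6` -/
def famC6c27 (c4 c6 : R) : R := -8104032382500 * c4 ^ 12 * c6 ^ 2 + 9632368125000 * c4 ^ 15 - 111934439424000 * c4 ^ 3 * c6 ^ 8 + 143803576074240 * c4 ^ 6 * c6 ^ 6 - 63806176396800 * c4 ^ 9 * c6 ^ 4 + 30408704000000 * c6 ^ 10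

/-- coefficient of `t ^ 28` in `famC6` -/
def famC6c28 (c4 c6 : R) : R := 85719228804000 * c4 ^ 11 * c6 ^ 3 - 21432019078125 * c4 ^ 14 * c6 - 21438136320000 * c4 ^ 2 * c6 ^ 9 + 85731449241600 * c4 ^ 5 * c6 ^ 7 - 128580522647040 * c4 ^ 8 * c6 ^ 5

/-- coefficient of `t ^ 29` in `famC6` -/
def famC6c29 (c4 c6 : R) : R := -5033164800000 * c4 * c6 ^ 10 + 87394892457600 * c4 ^ 10 * c6 ^ 4 - 49873523512500 * c4 ^ 13 * c6 ^ 2 + 11210083593750 * c4 ^ 16 + 31344427008000 * c4 ^ 4 * c6 ^ 8 - 75042714746880 * c4 ^ 7 * c6 ^ 6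

/-- coefficient of `t ^ 30` in `famC6` -/
def famC6c30 (c4 c6 : R) : R := 19796866155000 * c4 ^ 12 * c6 ^ 3 - 4110363984375 * c4 ^ 15 * c6 - 17532190720000 * c4 ^ 3 * c6 ^ 9 + 36574189977600 * c4 ^ 6 * c6 ^ 7 - 38083944628224 * c4 ^ 9 * c6 ^ 5 + 3355443200000 * c6 ^ 11

/-- `c₆` of the member `E_t` of the family. -/
def famC6 (c4 c6 t : R) : R :=
  famC6c0 c4 c6 + famC6c1 c4 c6 * t + famC6c2 c4 c6 * t ^ 2 + famC6c3 c4 c6 * t ^ 3 +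
    famC6c4 c4 c6 * t ^ 4 + famC6c5 c4 c6 * t ^ 5 + famC6c6 c4 c6 * t ^ 6 + famC6c7 c4 c6 * t ^ 7 +
    famC6c8 c4 c6 * t ^ 8 + famC6c9 c4 c6 * t ^ 9 + famC6c10 c4 c6 * t ^ 10 + famC6c11 c4 c6 * t ^ 11 +
    famC6c12 c4 c6 * t ^ 12 + famC6c13 c4 c6 * t ^ 13 + famC6c14 c4 c6 * t ^ 14 + famC6c15 c4 c6 * t ^ 15 +
    famC6c16 c4 c6 * t ^ 16 + famC6c17 c4 c6 * t ^ 17 + famC6c18 c4 c6 * t ^ 18 + famC6c19 c4 c6 * t ^ 19 +
    famC6c20 c4 c6 * t ^ 20 + famC6c21 c4 c6 * t ^ 21 + famC6c22 c4 c6 * t ^ 22 + famC6c23 c4 c6 * t ^ 23 +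
    famC6c24 c4 c6 * t ^ 24 + famC6c25 c4 c6 * t ^ 25 + famC6c26 c4 c6 * t ^ 26 + famC6c27 c4 c6 * t ^ 27 +
    famC6c28 c4 c6 * t ^ 28 + famC6c29 c4 c6 * t ^ 29 + famC6c30 c4 c6 * t ^ 30

/-- coefficient of `t ^ 0` in `famF` -/
def famFc0 (c4 c6 : R) : R := 1

/-- coefficient of `t ^ 2` in `famF` -/
def famFc2 (c4 c6 : R) : R := -66 * c4

/-- coefficient of `t ^ 3` in `famF` -/
def famFc3 (c4 c6 : R) : R := 440 * c6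

/-- coefficient of `t ^ 4` in `famF` -/
def famFc4 (c4 c6 : R) : R := -1485 * c4 ^ 2

/-- coefficient of `t ^ 5` in `famF` -/
def famFc5 (c4 c6 : R) : R := 3168 * c4 * c6

/-- coefficient of `t ^ 6` in `famF` -/
def famFc6 (c4 c6 : R) : R := 5940 * c4 ^ 3 - 10560 * c6 ^ 2

/-- coefficient of `t ^ 7` in `famF` -/
def famFc7 (c4 c6 : R) : R := 4752 * c4 ^ 2 * c6

/-- coefficient of `t ^ 8` in `famF` -/
def famFc8 (c4 c6 : R) : R := 63360 * c4 * c6 ^ 2 - 66825 * c4 ^ 4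

/-- coefficient of `t ^ 9` in `famF` -/
def famFc9 (c4 c6 : R) : R := 142560 * c4 ^ 3 * c6 - 140800 * c6 ^ 3

/-- coefficient of `t ^ 10` in `famF` -/
def famFc10 (c4 c6 : R) : R := 133056 * c4 ^ 2 * c6 ^ 2 - 133650 * c4 ^ 5

/-- coefficient of `t ^ 11` in `famF` -/
def famFc11 (c4 c6 : R) : R := -61440 * c4 * c6 ^ 3 + 61560 * c4 ^ 4 * c6

/-- coefficient of `t ^ 12` in `famF` -/
def famFc12 (c4 c6 : R) : R := -193536 * c4 ^ 3 * c6 ^ 2 + 91125 * c4 ^ 6 + 102400 * c6 ^ 4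

/-- The cusp polynomial: `Δ(E_t) = Δ(E) * famF ^ 5`. -/
def famF (c4 c6 t : R) : R :=
  famFc0 c4 c6 + famFc2 c4 c6 * t ^ 2 + famFc3 c4 c6 * t ^ 3 + famFc4 c4 c6 * t ^ 4 +
    famFc5 c4 c6 * t ^ 5 + famFc6 c4 c6 * t ^ 6 + famFc7 c4 c6 * t ^ 7 + famFc8 c4 c6 * t ^ 8 +
    famFc9 c4 c6 * t ^ 9 + famFc10 c4 c6 * t ^ 10 + famFc11 c4 c6 * t ^ 11 + famFc12 c4 c6 * t ^ 12

/-- `c₄` of Tate normal form `TNF(b)`. -/
def tC4 (b : R) : R := b ^ 4 - 12 * b ^ 3 + 14 * b ^ 2 + 12 * b + 1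

/-- `c₆` of Tate normal form `TNF(b)`. -/
def tC6 (b : R) : R := -(b ^ 2 + 1) * (b ^ 4 - 18 * b ^ 3 + 74 * b ^ 2 + 18 * b + 1)

/-- `Δ` of Tate normal form `TNF(b)`. -/
def tDisc (b : R) : R := b ^ 5 * (b ^ 2 - 11 * b - 1)

/-- Homogeneous form of `tC4`. -/
def hC4 (n d : R) : R := n ^ 4 - 12 * n ^ 3 * d + 14 * n ^ 2 * d ^ 2 + 12 * n * d ^ 3 + d ^ 4

/-- Homogeneous form of `tC6`. -/
def hC6 (n d : R) : R :=
  -(n ^ 2 + d ^ 2) * (n ^ 4 - 18 * n ^ 3 * d + 74 * n ^ 2 * d ^ 2 + 18 * n * d ^ 3 + d ^ 4)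

/-- coefficient of `τ ^ 0` in `tnfN` -/
def tnfNc0 (b : R) : R := b

/-- coefficient of `τ ^ 1` in `tnfN` -/
def tnfNc1 (b : R) : R := -7 * b - 66 * b ^ 2 + 5 * b ^ 3

/-- coefficient of `τ ^ 2` in `tnfN` -/
def tnfNc2 (b : R) : R := -38 * b - 264 * b ^ 2 + 1772 * b ^ 3 - 264 * b ^ 4 + 10 * b ^ 5

/-- coefficient of `τ ^ 3` in `tnfN` -/
def tnfNc3 (b : R) : R := -62 * b - 396 * b ^ 2 + 966 * b ^ 3 - 24552 * b ^ 4 + 5358 * b ^ 5 - 396 * b ^ 6 + 10 * b ^ 7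

/-- coefficient of `τ ^ 4` in `tnfN` -/
def tnfNc4 (b : R) : R := -43 * b - 264 * b ^ 2 - 3364 * b ^ 3 - 48312 * b ^ 4 + 164046 * b ^ 5 - 48312 * b ^ 6 + 5372 * b ^ 7 - 264 * b ^ 8 + 5 * b ^ 9

/-- coefficient of `τ ^ 5` in `tnfN` -/
def tnfNc5 (b : R) : R := -11 * b - 66 * b ^ 2 - 2563 * b ^ 3 - 24024 * b ^ 4 + 80938 * b ^ 5 - 475596 * b ^ 6 + 163042 * b ^ 7 - 24024 * b ^ 8 + 1793 * b ^ 9 - 66 * b ^ 10 + b ^ 11

/-- Numerator of the Tate parameter of `E_t` (`τ = v t`). -/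
def tnfN (b τ : R) : R :=
  tnfNc0 b + tnfNc1 b * τ + tnfNc2 b * τ ^ 2 + tnfNc3 b * τ ^ 3 + tnfNc4 b * τ ^ 4 + tnfNc5 b * τ ^ 5

/-- coefficient of `τ ^ 0` in `tnfD` -/
def tnfDc0 (b : R) : R := 1

/-- coefficient of `τ ^ 1` in `tnfD` -/
def tnfDc1 (b : R) : R := 5 + 66 * b - 7 * b ^ 2

/-- coefficient of `τ ^ 2` in `tnfD` -/
def tnfDc2 (b : R) : R := 10 + 264 * b + 1772 * b ^ 2 + 264 * b ^ 3 - 38 * b ^ 4

/-- coefficient of `τ ^ 3` in `tnfD` -/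
def tnfDc3 (b : R) : R := 10 + 396 * b + 5358 * b ^ 2 + 24552 * b ^ 3 + 966 * b ^ 4 + 396 * b ^ 5 - 62 * b ^ 6

/-- coefficient of `τ ^ 4` in `tnfD` -/
def tnfDc4 (b : R) : R := 5 + 264 * b + 5372 * b ^ 2 + 48312 * b ^ 3 + 164046 * b ^ 4 + 48312 * b ^ 5 - 3364 * b ^ 6 + 264 * b ^ 7 - 43 * b ^ 8

/-- coefficient of `τ ^ 5` in `tnfD` -/
def tnfDc5 (b : R) : R := 1 + 66 * b + 1793 * b ^ 2 + 24024 * b ^ 3 + 163042 * b ^ 4 + 475596 * b ^ 5 + 80938 * b ^ 6 + 24024 * b ^ 7 - 2563 * b ^ 8 + 66 * b ^ 9 - 11 * b ^ 10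

/-- Denominator of the Tate parameter of `E_t` (`τ = v t`). -/
def tnfD (b τ : R) : R :=
  tnfDc0 b + tnfDc1 b * τ + tnfDc2 b * τ ^ 2 + tnfDc3 b * τ ^ 3 + tnfDc4 b * τ ^ 4 + tnfDc5 b * τ ^ 5

/-- The quadratic factor `P₊ P₋` of `famF`. -/
def tnfQ (b τ : R) : R := 1 + 2 * (b ^ 2 + 1) * τ + (b ^ 4 - 178 * b ^ 2 + 1) * τ ^ 2

theorem tC4_cube_sub_tC6_sq (b : R) : tC4 b ^ 3 - tC6 b ^ 2 = 1728 * tDisc b := by
  unfold tC4 tC6 tDisc; ring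

theorem hC4_eq (n d : R) :
    hC4 n d = (n ^ 2 - 11 * n * d - d ^ 2) * (n ^ 2 - n * d + 4 * d ^ 2) + 5 * d ^ 3 * (11 * n + d) := by
  unfold hC4; ring

theorem hC4_one (b : R) : hC4 b 1 = tC4 b := by unfold hC4 tC4; ring

theorem hC6_one (b : R) : hC6 b 1 = tC6 b := by unfold hC6 tC6; ring

theorem famC4_zero (c4 c6 : R) : famC4 c4 c6 0 = c4 := by simp [famC4, famC4c0]

theorem famC6_zero (c4 c6 : R) : famC6 c4 c6 0 = c6 := by simp [famC6, famC6c0]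

theorem famF_zero (c4 c6 : R) : famF c4 c6 0 = 1 := by simp [famF, famFc0]

theorem tnfN_zero (b : R) : tnfN b 0 = b := by simp [tnfN, tnfNc0]

theorem tnfD_zero (b : R) : tnfD b 0 = 1 := by simp [tnfD, tnfDc0]

end Fermat.Agent.S52
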