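import Mathlib.AlgebraicGeometry.EllipticCurve.Weierstrass
import Mathlib.Tactic.Ring
import Mathlib.Tactic.LinearCombination
import Fermat.Agent.S52.Family

/-!
# S52 (3-5 switch): the member `famW W m` of the family, as a Weierstrass curve (helper65)

`famW W m` has the same `a₁, a₂, a₃` as `W` and `c₄ = famC4 c₄ c₆ (1728 m)`, `c₆ = famC6 c₄ c₆ (1728 m)`.
Everything is generic in the coefficient ring (take `R = K[X]`, `m = X` for the generic fibre).
Plan: NOTES/plan/E.md.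
-/

set_option autoImplicit false

namespace Fermat.Agent.S52

variable {R : Type*} [CommRing R]

/-- `(famC4 c4 c6 t - c4) / t` as a polynomial. -/
def famG4 (c4 c6 t : R) : R :=
  famC4c1 c4 c6 + famC4c2 c4 c6 * t + famC4c3 c4 c6 * t ^ 2 + famC4c4 c4 c6 * t ^ 3 +
    famC4c5 c4 c6 * t ^ 4 + famC4c6 c4 c6 * t ^ 5 + famC4c7 c4 c6 * t ^ 6 + famC4c8 c4 c6 * t ^ 7 +
    famC4c9 c4 c6 * t ^ 8 + famC4c10 c4 c6 * t ^ 9 + famC4c11 c4 c6 * t ^ 10 + famC4c12 c4 c6 * t ^ 11 +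
    famC4c13 c4 c6 * t ^ 12 + famC4c14 c4 c6 * t ^ 13 + famC4c15 c4 c6 * t ^ 14 + famC4c16 c4 c6 * t ^ 15 +
    famC4c17 c4 c6 * t ^ 16 + famC4c18 c4 c6 * t ^ 17 + famC4c19 c4 c6 * t ^ 18 + famC4c20 c4 c6 * t ^ 19

/-- `(famC6 c4 c6 t - c6) / t` as a polynomial. -/
def famG6 (c4 c6 t : R) : R :=
  famC6c1 c4 c6 + famC6c2 c4 c6 * t + famC6c3 c4 c6 * t ^ 2 + famC6c4 c4 c6 * t ^ 3 +
    famC6c5 c4 c6 * t ^ 4 + famC6c6 c4 c6 * t ^ 5 + famC6c7 c4 c6 * t ^ 6 + famC6c8 c4 c6 * t ^ 7 +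
    famC6c9 c4 c6 * t ^ 8 + famC6c10 c4 c6 * t ^ 9 + famC6c11 c4 c6 * t ^ 10 + famC6c12 c4 c6 * t ^ 11 +
    famC6c13 c4 c6 * t ^ 12 + famC6c14 c4 c6 * t ^ 13 + famC6c15 c4 c6 * t ^ 14 + famC6c16 c4 c6 * t ^ 15 +
    famC6c17 c4 c6 * t ^ 16 + famC6c18 c4 c6 * t ^ 17 + famC6c19 c4 c6 * t ^ 18 + famC6c20 c4 c6 * t ^ 19 +
    famC6c21 c4 c6 * t ^ 20 + famC6c22 c4 c6 * t ^ 21 + famC6c23 c4 c6 * t ^ 22 + famC6c24 c4 c6 * t ^ 23 +
    famC6c25 c4 c6 * t ^ 24 + famC6c26 c4 c6 * t ^ 25 + famC6c27 c4 c6 * t ^ 26 + famC6c28 c4 c6 * t ^ 27 +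
    famC6c29 c4 c6 * t ^ 28 + famC6c30 c4 c6 * t ^ 29

theorem famC4_eq (c4 c6 t : R) : famC4 c4 c6 t = c4 + t * famG4 c4 c6 t := by
  simp only [famC4, famG4, famC4c0]; ring

theorem famC6_eq (c4 c6 t : R) : famC6 c4 c6 t = c6 + t * famG6 c4 c6 t := by
  simp only [famC6, famG6, famC6c0]; ring

/-- The member of the family with parameter `t₀ = 1728 m`, with the same `a₁, a₂, a₃` as `W`. -/
def famW (W : WeierstrassCurve R) (m : R) : WeierstrassCurve R where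
  a₁ := W.a₁
  a₂ := W.a₂
  a₃ := W.a₃
  a₄ := W.a₄ - 36 * m * famG4 W.c₄ W.c₆ (1728 * m)
  a₆ := W.a₆ - 3 * W.b₂ * m * famG4 W.c₄ W.c₆ (1728 * m) - 2 * m * famG6 W.c₄ W.c₆ (1728 * m)

@[simp] theorem famW_a₁ (W : WeierstrassCurve R) (m : R) : (famW W m).a₁ = W.a₁ := rfl
@[simp] theorem famW_a₂ (W : WeierstrassCurve R) (m : R) : (famW W m).a₂ = W.a₂ := rfl
@[simp] theorem famW_a₃ (W : WeierstrassCurve R) (m : R) : (famW W m).a₃ = W.a₃ := rfl

theorem famW_b₂ (W : WeierstrassCurve R) (m : R) : (famW W m).b₂ = W.b₂ := rfl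

theorem famW_zero (W : WeierstrassCurve R) : famW W 0 = W := by
  ext <;> simp [famW]

theorem famW_c₄ (W : WeierstrassCurve R) (m : R) :
    (famW W m).c₄ = famC4 W.c₄ W.c₆ (1728 * m) := by
  rw [famC4_eq]
  simp only [WeierstrassCurve.c₄, WeierstrassCurve.b₂, WeierstrassCurve.b₄, famW]
  ring

theorem famW_c₆ (W : WeierstrassCurve R) (m : R) :
    (famW W m).c₆ = famC6 W.c₄ W.c₆ (1728 * m) := by
  rw [famC6_eq]
  simp only [WeierstrassCurve.c₆, WeierstrassCurve.b₂, WeierstrassCurve.b₄, WeierstrassCurve.b₆,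
    famW]
  ring

section Map

variable {S : Type*} [CommRing S] (f : R →+* S)

theorem map_famC4 (c4 c6 t : R) : f (famC4 c4 c6 t) = famC4 (f c4) (f c6) (f t) := by
  simp only [famC4, famC4c0, famC4c1, famC4c2, famC4c3, famC4c4, famC4c5, famC4c6, famC4c7, famC4c8, famC4c9, famC4c10, famC4c11, famC4c12, famC4c13, famC4c14, famC4c15, famC4c16, famC4c17, famC4c18, famC4c19, famC4c20, map_add, map_sub, map_mul, map_pow, map_neg, map_ofNat]

theorem map_famC6 (c4 c6 t : R) : f (famC6 c4 c6 t) = famC6 (f c4) (f c6) (f t) := by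
  simp only [famC6, famC6c0, famC6c1, famC6c2, famC6c3, famC6c4, famC6c5, famC6c6, famC6c7, famC6c8, famC6c9, famC6c10, famC6c11, famC6c12, famC6c13, famC6c14, famC6c15, famC6c16, famC6c17, famC6c18, famC6c19, famC6c20, famC6c21, famC6c22, famC6c23, famC6c24, famC6c25, famC6c26, famC6c27, famC6c28, famC6c29, famC6c30, map_add, map_sub, map_mul, map_pow, map_neg, map_ofNat]

theorem map_famF (c4 c6 t : R) : f (famF c4 c6 t) = famF (f c4) (f c6) (f t) := by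
  simp only [famF, famFc0, famFc2, famFc3, famFc4, famFc5, famFc6, famFc7, famFc8, famFc9, famFc10, famFc11, famFc12, map_add, map_sub, map_mul, map_pow, map_neg, map_ofNat, map_one]

theorem map_famG4 (c4 c6 t : R) : f (famG4 c4 c6 t) = famG4 (f c4) (f c6) (f t) := by
  simp only [famG4, famC4c0, famC4c1, famC4c2, famC4c3, famC4c4, famC4c5, famC4c6, famC4c7, famC4c8, famC4c9, famC4c10, famC4c11, famC4c12, famC4c13, famC4c14, famC4c15, famC4c16, famC4c17, famC4c18, famC4c19, famC4c20, map_add, map_sub, map_mul, map_pow, map_neg, map_ofNat]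

theorem map_famG6 (c4 c6 t : R) : f (famG6 c4 c6 t) = famG6 (f c4) (f c6) (f t) := by
  simp only [famG6, famC6c0, famC6c1, famC6c2, famC6c3, famC6c4, famC6c5, famC6c6, famC6c7, famC6c8, famC6c9, famC6c10, famC6c11, famC6c12, famC6c13, famC6c14, famC6c15, famC6c16, famC6c17, famC6c18, famC6c19, famC6c20, famC6c21, famC6c22, famC6c23, famC6c24, famC6c25, famC6c26, famC6c27, famC6c28, famC6c29, famC6c30, map_add, map_sub, map_mul, map_pow, map_neg, map_ofNat]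

theorem famW_map (W : WeierstrassCurve R) (m : R) :
    (famW W m).map f = famW (W.map f) (f m) := by
  ext
  · rfl
  · rfl
  · rfl
  · show f (W.a₄ - 36 * m * famG4 W.c₄ W.c₆ (1728 * m))
      = f W.a₄ - 36 * f m * famG4 (W.map f).c₄ (W.map f).c₆ (1728 * f m)
    rw [WeierstrassCurve.map_c₄, WeierstrassCurve.map_c₆]
    simp only [map_sub, map_mul, map_ofNat, map_famG4]
  · show f (W.a₆ - 3 * W.b₂ * m * famG4 W.c₄ W.c₆ (1728 * m) - 2 * m * famG6 W.c₄ W.c₆ (1728 * m))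
      = f W.a₆ - 3 * (W.map f).b₂ * f m * famG4 (W.map f).c₄ (W.map f).c₆ (1728 * f m)
        - 2 * f m * famG6 (W.map f).c₄ (W.map f).c₆ (1728 * f m)
    rw [WeierstrassCurve.map_c₄, WeierstrassCurve.map_c₆, WeierstrassCurve.map_b₂]
    simp only [map_sub, map_mul, map_ofNat, map_famG4, map_famG6]

end Map

end Fermat.Agent.S52
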