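import Mathlib.AlgebraicGeometry.EllipticCurve.DivisionPolynomial.Basic
import Mathlib.AlgebraicGeometry.EllipticCurve.Affine.Point
import Fermat.Agent.S52.Model
import Fermat.Prelude.Def_FLTPrelim_Modularity
import Fermat.Prelude.Def_FLTPrelim_ModularRep
import Fermat.Prelude.Def_FLTPrelim_GaloisRep
import Fermat.Prelude.Def_FLTPrelim_Ramification

/-!
# S52 (3-5 switch): interfaces of the work packages (coordinator helper65)

Plan: NOTES/plan/E.md.  `famW W m` (Model.lean) is the member of the 5-congruent family with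
parameter `t₀ = 1728 m`.
-/

set_option autoImplicit false

open WeierstrassCurve WeierstrassCurve.Affine

namespace Fermat.Agent.S52

/-- `W[5](ℚ̄)` as a Galois module. -/
abbrev V5 (W : WeierstrassCurve ℤ) : Type :=
  Submodule.torsionBy ℤ ((W.map (Int.castRingHom ℚ)).toAffine⁄(AlgebraicClosure ℚ)).Point
    ((5 : ℕ) : ℤ)

/-- **E-PHI**: outside a finite set of parameters `m`, `W[5]` and `(famW W m)[5]` are isomorphic
Galois modules (the stronger statement with empty exceptional set is also true). -/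
def Stmt_iso5 : Prop :=
  ∀ W : WeierstrassCurve ℤ, W.Δ ≠ 0 → ∃ B : Finset ℤ, ∀ m : ℤ, m ∉ B → (famW W m).Δ ≠ 0 →
    ∃ e : V5 W ≃+ V5 (famW W m),
      ∀ (σ : AlgebraicClosure ℚ ≃ₐ[ℚ] AlgebraicClosure ℚ) (x : V5 W), e (σ • x) = σ • e x

/-- **E-SS**: semistability of the members with `m` divisible by all primes dividing `30 Δ`. -/
def Stmt_ss : Prop :=
  ∀ W : WeierstrassCurve ℤ, W.Δ ≠ 0 → W.IsSemistableModel → ∀ m : ℤ,
    (∀ p : ℕ, p.Prime → (p : ℤ) ∣ 30 * W.Δ → (p : ℤ) ∣ m) →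
    (famW W m).Δ ≠ 0 ∧ (famW W m).IsSemistableModel

/-- **E-IRR**: the `j = 1728` criterion for irreducibility of the mod `3` representation. -/
def Stmt_irr1728 : Prop :=
  ∀ (W : WeierstrassCurve ℤ) (q : ℕ), q.Prime → 5 ≤ q → ¬ (q : ℤ) ∣ W.Δ → (q : ℤ) ∣ W.c₆ →
    ¬ IsSquare (3 : ZMod q) → W.ModRepIsIrreducible 3

/-- **E-GAL + E-UNIP**: an auxiliary prime `q ≡ 19 mod 60` of good reduction at which `W` acquires
a point of order `5` with rational `x`-coordinate. -/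
def Stmt_auxGal : Prop :=
  ∀ W : WeierstrassCurve ℤ, W.Δ ≠ 0 → W.IsSemistableModel →
    ∃ q : ℕ, q.Prime ∧ ¬ (q : ℤ) ∣ 30 * W.Δ ∧ q % 60 = 19 ∧
      ∃ x₀ : ZMod q, ((W.map (Int.castRingHom (ZMod q))).preΨ' 5).IsRoot x₀

/-- **E-FQ**: over `𝔽_q`, `q ≡ 19 mod 60`, a curve with a root of the `5`-division polynomial has
a member of its family with `c₆ = 0` and nonzero discriminant. -/
def Stmt_auxFq : Prop :=
  ∀ (q : ℕ) [Fact q.Prime], q % 60 = 19 → ∀ W : WeierstrassCurve (ZMod q), W.Δ ≠ 0 →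
    ∀ x₀ : ZMod q, (W.preΨ' 5).eval x₀ = 0 →
      ∃ t₁ : ZMod q, famC6 W.c₄ W.c₆ t₁ = 0 ∧ famF W.c₄ W.c₆ t₁ ≠ 0

/-- **E-TR**: Galois-isomorphic `5`-torsion gives congruent `a_ℓ`. -/
def Stmt_cong : Prop :=
  ∀ (W W' : WeierstrassCurve ℤ) (e : V5 W ≃+ V5 W'),
    (∀ (σ : AlgebraicClosure ℚ ≃ₐ[ℚ] AlgebraicClosure ℚ) (x : V5 W), e (σ • x) = σ • e x) →
    ∀ ℓ : ℕ, ℓ.Prime → W.IsGoodPrimeFor ℓ → W'.IsGoodPrimeFor ℓ → ℓ ≠ 5 →
      (5 : ℤ) ∣ W'.apOfModel ℓ - W.apOfModel ℓ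

/-- The conclusion of S52 for a given curve. -/
def Concl (W : WeierstrassCurve ℤ) : Prop :=
  ∃ W' : WeierstrassCurve ℤ, W'.Δ ≠ 0 ∧ W'.IsSemistableModel ∧ W'.ModRepIsIrreducible 3 ∧
    ∀ ℓ : ℕ, ℓ.Prime → W.IsGoodPrimeFor ℓ → W'.IsGoodPrimeFor ℓ → ℓ ≠ 5 →
      (5 : ℤ) ∣ (W'.apOfModel ℓ - W.apOfModel ℓ)

end Fermat.Agent.S52
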