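/-
Cluster E (S52), discriminant identity of the family (helper60):
`famC4 ^ 3 - famC6 ^ 2 = (c4 ^ 3 - c6 ^ 2) * famF ^ 5`, proved in stages with explicit tables
(a single `ring` call is very expensive).
GENERATED by a script (exact integer arithmetic); every identity is checked by `ring`.
-/
import Fermat.Agent.S52.Family

set_option autoImplicit false
set_option linter.unusedSimpArgs false
set_option linter.unusedVariables false

namespace Fermat.Agent.S52.H60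

open Fermat.Agent.S52

variable {R : Type*} [CommRing R]

/-- coefficient of `t ^ 0` in `famC4 ^ 2` -/
def dC4sq0 (c4 c6 : R) : R :=
  c4 ^ 2

/-- coefficient of `t ^ 1` in `famC4 ^ 2` -/
def dC4sq1 (c4 c6 : R) : R :=
  -40 * c4 * c6

/-- coefficient of `t ^ 2` in `famC4 ^ 2` -/
def dC4sq2 (c4 c6 : R) : R :=
  400 * c6 ^ 2 + 380 * c4 ^ 3

/-- coefficient of `t ^ 3` in `famC4 ^ 2` -/
def dC4sq3 (c4 c6 : R) : R :=
  -9880 * c4 ^ 2 * c6

/-- coefficient of `t ^ 4` in `famC4 ^ 2` -/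
def dC4sq4 (c4 c6 : R) : R :=
  57000 * c4 * c6 ^ 2 + 34390 * c4 ^ 4

/-- coefficient of `t ^ 5` in `famC4 ^ 2` -/
def dC4sq5 (c4 c6 : R) : R :=
  -228000 * c6 ^ 3 - 430008 * c4 ^ 3 * c6

/-- coefficient of `t ^ 6` in `famC4 ^ 2` -/
def dC4sq6 (c4 c6 : R) : R :=
  3958080 * c4 ^ 2 * c6 ^ 2 - 119700 * c4 ^ 5

/-- coefficient of `t ^ 7` in `famC4 ^ 2` -/
def dC4sq7 (c4 c6 : R) : R :=
  -10077600 * c4 * c6 ^ 3 - 8565960 * c4 ^ 4 * c6

/-- coefficient of `t ^ 8` in `famC4 ^ 2` -/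
def dC4sq8 (c4 c6 : R) : R :=
  25194000 * c6 ^ 4 + 13992360 * c4 ^ 3 * c6 ^ 2 + 37718325 * c4 ^ 6

/-- coefficient of `t ^ 9` in `famC4 ^ 2` -/
def dC4sq9 (c4 c6 : R) : R :=
  -22739200 * c4 ^ 2 * c6 ^ 3 - 250699680 * c4 ^ 5 * c6

/-- coefficient of `t ^ 10` in `famC4 ^ 2` -/
def dC4sq10 (c4 c6 : R) : R :=
  -795872000 * c4 * c6 ^ 4 + 2219118528 * c4 ^ 4 * c6 ^ 2 - 575586000 * c4 ^ 7

/-- coefficient of `t ^ 11` in `famC4 ^ 2` -/
def dC4sq11 (c4 c6 : R) : R :=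
  1447040000 * c6 ^ 5 - 6751888640 * c4 ^ 3 * c6 ^ 3 + 2993047200 * c4 ^ 6 * c6

/-- coefficient of `t ^ 12` in `famC4 ^ 2` -/
def dC4sq12 (c4 c6 : R) : R :=
  37557923200 * c4 ^ 2 * c6 ^ 4 - 40317066720 * c4 ^ 5 * c6 ^ 2 + 8345997000 * c4 ^ 8

/-- coefficient of `t ^ 13` in `famC4 ^ 2` -/
def dC4sq13 (c4 c6 : R) : R :=
  -151070976000 * c4 * c6 ^ 5 + 129123720320 * c4 ^ 4 * c6 ^ 3 + 9914032800 * c4 ^ 7 * c6

/-- coefficient of `t ^ 14` in `famC4 ^ 2` -/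
def dC4sq14 (c4 c6 : R) : R :=
  215815680000 * c6 ^ 6 + 54493459200 * c4 ^ 3 * c6 ^ 4 - 42245919360 * c4 ^ 6 * c6 ^ 2 -
    204856290000 * c4 ^ 9

/-- coefficient of `t ^ 15` in `famC4 ^ 2` -/
def dC4sq15 (c4 c6 : R) : R :=
  183443328000 * c4 ^ 2 * c6 ^ 5 - 2654629981056 * c4 ^ 5 * c6 ^ 3 + 2430961308000 * c4 ^ 8 * c6

/-- coefficient of `t ^ 16` in `famC4 ^ 2` -/
def dC4sq16 (c4 c6 : R) : R :=
  -4316313600000 * c4 * c6 ^ 6 + 13897585598400 * c4 ^ 4 * c6 ^ 4 -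
    8622173628000 * c4 ^ 7 * c6 ^ 2 - 896246268750 * c4 ^ 10

/-- coefficient of `t ^ 17` in `famC4 ^ 2` -/
def dC4sq17 (c4 c6 : R) : R :=
  5078016000000 * c6 ^ 7 - 22665724416000 * c4 ^ 3 * c6 ^ 5 + 15848075347200 * c4 ^ 6 * c6 ^ 3 +
    1650900690000 * c4 ^ 9 * c6

/-- coefficient of `t ^ 18` in `famC4 ^ 2` -/
def dC4sq18 (c4 c6 : R) : R :=
  79614827520000 * c4 ^ 2 * c6 ^ 6 - 120604054291200 * c4 ^ 5 * c6 ^ 4 +
    30709162908000 * c4 ^ 8 * c6 ^ 2 + 10393444125000 * c4 ^ 11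

/-- coefficient of `t ^ 19` in `famC4 ^ 2` -/
def dC4sq19 (c4 c6 : R) : R :=
  -235227955200000 * c4 * c6 ^ 7 + 182324460672000 * c4 ^ 4 * c6 ^ 5 +
    292076704569600 * c4 ^ 7 * c6 ^ 3 - 239304492450000 * c4 ^ 10 * c6

/-- coefficient of `t ^ 20` in `famC4 ^ 2` -/
def dC4sq20 (c4 c6 : R) : R :=
  235227955200000 * c6 ^ 8 + 777256273920000 * c4 ^ 3 * c6 ^ 6 -
    1952661330103680 * c4 ^ 6 * c6 ^ 4 + 707118882750000 * c4 ^ 9 * c6 ^ 2 +
    233196064762500 * c4 ^ 12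

/-- coefficient of `t ^ 21` in `famC4 ^ 2` -/
def dC4sq21 (c4 c6 : R) : R :=
  -2321544192000000 * c4 ^ 2 * c6 ^ 7 + 2490299042457600 * c4 ^ 5 * c6 ^ 5 +
    1884201998184000 * c4 ^ 8 * c6 ^ 3 - 2053088131050000 * c4 ^ 11 * c6

/-- coefficient of `t ^ 22` in `famC4 ^ 2` -/
def dC4sq22 (c4 c6 : R) : R :=
  1868709888000000 * c4 * c6 ^ 8 + 3068090718720000 * c4 ^ 4 * c6 ^ 6 -
    11155985611603200 * c4 ^ 7 * c6 ^ 4 + 5751593399520000 * c4 ^ 10 * c6 ^ 2 +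
    467704985625000 * c4 ^ 13

/-- coefficient of `t ^ 23` in `famC4 ^ 2` -/
def dC4sq23 (c4 c6 : R) : R :=
  -1624965120000000 * c6 ^ 9 - 9075430195200000 * c4 ^ 3 * c6 ^ 7 +
    21265615494835200 * c4 ^ 6 * c6 ^ 5 - 8930374962264000 * c4 ^ 9 * c6 ^ 3 -
    1634933949750000 * c4 ^ 12 * c6

/-- coefficient of `t ^ 24` in `famC4 ^ 2` -/
def dC4sq24 (c4 c6 : R) : R :=
  25552576512000000 * c4 ^ 2 * c6 ^ 8 - 52229811695616000 * c4 ^ 5 * c6 ^ 6 +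
    26104596669986400 * c4 ^ 8 * c6 ^ 4 + 2387600059950000 * c4 ^ 11 * c6 ^ 2 -
    1814898694218750 * c4 ^ 14

/-- coefficient of `t ^ 25` in `famC4 ^ 2` -/
def dC4sq25 (c4 c6 : R) : R :=
  -28729383321600000 * c4 * c6 ^ 9 + 31498730127360000 * c4 ^ 4 * c6 ^ 7 +
    49918421619154944 * c4 ^ 7 * c6 ^ 5 - 79513739825760000 * c4 ^ 10 * c6 ^ 3 +
    26825931175500000 * c4 ^ 13 * c6

/-- coefficient of `t ^ 26` in `famC4 ^ 2` -/
def dC4sq26 (c4 c6 : R) : R :=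
  22099525632000000 * c6 ^ 10 + 28453139251200000 * c4 ^ 3 * c6 ^ 8 -
    169648672884572160 * c4 ^ 6 * c6 ^ 6 + 146945219552352000 * c4 ^ 9 * c6 ^ 4 -
    9181658917800000 * c4 ^ 12 * c6 ^ 2 - 18667529426250000 * c4 ^ 15

/-- coefficient of `t ^ 27` in `famC4 ^ 2` -/
def dC4sq27 (c4 c6 : R) : R :=
  -133211029504000000 * c4 ^ 2 * c6 ^ 9 + 308585068698009600 * c4 ^ 5 * c6 ^ 7 -
    153700665457812480 * c4 ^ 8 * c6 ^ 5 - 85557819805920000 * c4 ^ 11 * c6 ^ 3 +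
    63884434036500000 * c4 ^ 14 * c6

/-- coefficient of `t ^ 28` in `famC4 ^ 2` -/
def dC4sq28 (c4 c6 : R) : R :=
  68754079744000000 * c4 * c6 ^ 10 + 25953130414080000 * c4 ^ 4 * c6 ^ 8 -
    503030797468139520 * c4 ^ 7 * c6 ^ 6 + 687437727318288000 * c4 ^ 10 * c6 ^ 4 -
    313337938369500000 * c4 ^ 13 * c6 ^ 2 + 34223803948125000 * c4 ^ 16

/-- coefficient of `t ^ 29` in `famC4 ^ 2` -/
def dC4sq29 (c4 c6 : R) : R :=
  -47416606720000000 * c6 ^ 11 - 125975763353600000 * c4 ^ 3 * c6 ^ 9 +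
    691996397322240000 * c4 ^ 6 * c6 ^ 7 - 860786439962941440 * c4 ^ 9 * c6 ^ 5 +
    386555342418000000 * c4 ^ 12 * c6 ^ 3 - 44372932015500000 * c4 ^ 15 * c6

/-- coefficient of `t ^ 30` in `famC4 ^ 2` -/
def dC4sq30 (c4 c6 : R) : R :=
  471016249753600000 * c4 ^ 2 * c6 ^ 10 - 1748397492928512000 * c4 ^ 5 * c6 ^ 8 +
    2534079367381782528 * c4 ^ 8 * c6 ^ 6 - 1813236539729760000 * c4 ^ 11 * c6 ^ 4 +
    662750221726800000 * c4 ^ 14 * c6 ^ 2 - 106211805356250000 * c4 ^ 17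

/-- coefficient of `t ^ 31` in `famC4 ^ 2` -/
def dC4sq31 (c4 c6 : R) : R :=
  -422685179904000000 * c4 * c6 ^ 11 + 1573481991372800000 * c4 ^ 4 * c6 ^ 9 -
    2244156921104302080 * c4 ^ 7 * c6 ^ 7 + 1513964898301363200 * c4 ^ 10 * c6 ^ 5 -
    475963669306800000 * c4 ^ 13 * c6 ^ 3 + 55358880367500000 * c4 ^ 16 * c6

/-- coefficient of `t ^ 32` in `famC4 ^ 2` -/
def dC4sq32 (c4 c6 : R) : R :=
  264178237440000000 * c6 ^ 12 - 1193882419200000000 * c4 ^ 3 * c6 ^ 10 +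
    2552048609565081600 * c4 ^ 6 * c6 ^ 8 - 3445898645011415040 * c4 ^ 9 * c6 ^ 6 +
    3003494957651160000 * c4 ^ 12 * c6 ^ 4 - 1493144870935500000 * c4 ^ 15 * c6 ^ 2 +
    313204130567578125 * c4 ^ 18

/-- coefficient of `t ^ 33` in `famC4 ^ 2` -/
def dC4sq33 (c4 c6 : R) : R :=
  556806438912000000 * c4 ^ 2 * c6 ^ 11 - 3147146197991424000 * c4 ^ 5 * c6 ^ 9 +
    6967928030174576640 * c4 ^ 8 * c6 ^ 7 - 7589683595941171200 * c4 ^ 11 * c6 ^ 5 +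
    4080135443148000000 * c4 ^ 14 * c6 ^ 3 - 868040118320625000 * c4 ^ 17 * c6

/-- coefficient of `t ^ 34` in `famC4 ^ 2` -/
def dC4sq34 (c4 c6 : R) : R :=
  -1338821836800000000 * c4 * c6 ^ 12 + 6942063171993600000 * c4 ^ 4 * c6 ^ 10 -
    14403508500352204800 * c4 ^ 7 * c6 ^ 8 + 14991311339158855680 * c4 ^ 10 * c6 ^ 6 -
    7890968851869600000 * c4 ^ 13 * c6 ^ 4 + 1744652911412250000 * c4 ^ 16 * c6 ^ 2 -
    44728233539062500 * c4 ^ 19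

/-- coefficient of `t ^ 35` in `famC4 ^ 2` -/
def dC4sq35 (c4 c6 : R) : R :=
  765041049600000000 * c6 ^ 13 - 3321808237363200000 * c4 ^ 3 * c6 ^ 11 +
    5034357019901952000 * c4 ^ 6 * c6 ^ 9 - 2227162459162411008 * c4 ^ 9 * c6 ^ 7 -
    1782242933572224000 * c4 ^ 12 * c6 ^ 5 + 2127340041429600000 * c4 ^ 15 * c6 ^ 3 -
    595524480834375000 * c4 ^ 18 * c6

/-- coefficient of `t ^ 36` in `famC4 ^ 2` -/
def dC4sq36 (c4 c6 : R) : R :=
  -297090940928000000 * c4 ^ 2 * c6 ^ 12 + 941602960834560000 * c4 ^ 5 * c6 ^ 10 -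
    215433102806876160 * c4 ^ 8 * c6 ^ 8 - 2610670219529011200 * c4 ^ 11 * c6 ^ 6 +
    4164954773065200000 * c4 ^ 14 * c6 ^ 4 - 2561635632819375000 * c4 ^ 17 * c6 ^ 2 +
    578272162183593750 * c4 ^ 20

/-- coefficient of `t ^ 37` in `famC4 ^ 2` -/
def dC4sq37 (c4 c6 : R) : R :=
  -816043786240000000 * c4 * c6 ^ 13 + 5283564748800000000 * c4 ^ 4 * c6 ^ 11 -
    14186519672861491200 * c4 ^ 7 * c6 ^ 9 + 20230954816863928320 * c4 ^ 10 * c6 ^ 7 -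
    16168738799907072000 * c4 ^ 13 * c6 ^ 5 + 6869130813841500000 * c4 ^ 16 * c6 ^ 3 -
    1212348120496875000 * c4 ^ 19 * c6

/-- coefficient of `t ^ 38` in `famC4 ^ 2` -/
def dC4sq38 (c4 c6 : R) : R :=
  429496729600000000 * c6 ^ 14 - 2404107943936000000 * c4 ^ 3 * c6 ^ 12 +
    5292259389997056000 * c4 ^ 6 * c6 ^ 10 - 5430305136228433920 * c4 ^ 9 * c6 ^ 8 +
    1848449107728691200 * c4 ^ 12 * c6 ^ 6 + 1156077619524000000 * c4 ^ 15 * c6 ^ 4 -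
    1179408410865000000 * c4 ^ 18 * c6 ^ 2 + 287538644179687500 * c4 ^ 21

/-- coefficient of `t ^ 39` in `famC4 ^ 2` -/
def dC4sq39 (c4 c6 : R) : R :=
  -236223201280000000 * c4 ^ 2 * c6 ^ 13 + 1437181956587520000 * c4 ^ 5 * c6 ^ 11 -
    3642762648040243200 * c4 ^ 8 * c6 ^ 9 + 4923690714959708160 * c4 ^ 11 * c6 ^ 7 -
    3742967816703360000 * c4 ^ 14 * c6 ^ 5 + 1517343505429500000 * c4 ^ 17 * c6 ^ 3 -
    256262510953125000 * c4 ^ 20 * c6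

/-- coefficient of `t ^ 40` in `famC4 ^ 2` -/
def dC4sq40 (c4 c6 : R) : R :=
  32480690176000000 * c4 ^ 4 * c6 ^ 12 - 196443214184448000 * c4 ^ 7 * c6 ^ 10 +
    495016766918885376 * c4 ^ 10 * c6 ^ 8 - 665248545865728000 * c4 ^ 13 * c6 ^ 6 +
    502866825748650000 * c4 ^ 16 * c6 ^ 4 - 202723151709375000 * c4 ^ 19 * c6 ^ 2 +
    34050628916015625 * c4 ^ 22

/-- coefficient of `t ^ 0` in `famC4 ^ 3` -/
def dC4cu0 (c4 c6 : R) : R :=
  c4 ^ 3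

/-- coefficient of `t ^ 1` in `famC4 ^ 3` -/
def dC4cu1 (c4 c6 : R) : R :=
  -60 * c4 ^ 2 * c6

/-- coefficient of `t ^ 2` in `famC4 ^ 3` -/
def dC4cu2 (c4 c6 : R) : R :=
  1200 * c4 * c6 ^ 2 + 570 * c4 ^ 4

/-- coefficient of `t ^ 3` in `famC4 ^ 3` -/
def dC4cu3 (c4 c6 : R) : R :=
  -8000 * c6 ^ 3 - 26220 * c4 ^ 3 * c6

/-- coefficient of `t ^ 4` in `famC4 ^ 3` -/
def dC4cu4 (c4 c6 : R) : R :=
  381900 * c4 ^ 2 * c6 ^ 2 + 105735 * c4 ^ 5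

/-- coefficient of `t ^ 5` in `famC4 ^ 3` -/
def dC4cu5 (c4 c6 : R) : R :=
  -2052000 * c4 * c6 ^ 3 - 3409512 * c4 ^ 4 * c6

/-- coefficient of `t ^ 6` in `famC4 ^ 3` -/
def dC4cu6 (c4 c6 : R) : R :=
  6840000 * c6 ^ 4 + 37031760 * c4 ^ 3 * c6 ^ 2 + 6192100 * c4 ^ 6

/-- coefficient of `t ^ 7` in `famC4 ^ 3` -/
def dC4cu7 (c4 c6 : R) : R :=
  -257320800 * c4 ^ 2 * c6 ^ 3 - 128886120 * c4 ^ 5 * c6

/-- coefficient of `t ^ 8` in `famC4 ^ 3` -/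
def dC4cu8 (c4 c6 : R) : R :=
  778734000 * c4 * c6 ^ 4 + 1756327320 * c4 ^ 4 * c6 ^ 2 + 23559525 * c4 ^ 7

/-- coefficient of `t ^ 9` in `famC4 ^ 3` -/
def dC4cu9 (c4 c6 : R) : R :=
  -1730520000 * c6 ^ 5 - 9326248800 * c4 ^ 3 * c6 ^ 3 - 3726373860 * c4 ^ 6 * c6

/-- coefficient of `t ^ 10` in `famC4 ^ 3` -/
def dC4cu10 (c4 c6 : R) : R :=
  37371708000 * c4 ^ 2 * c6 ^ 4 + 28190802816 * c4 ^ 5 * c6 ^ 2 + 9831516750 * c4 ^ 8

/-- coefficient of `t ^ 11` in `famC4 ^ 3` -/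
def dC4cu11 (c4 c6 : R) : R :=
  -47640600000 * c4 * c6 ^ 5 - 188332696800 * c4 ^ 4 * c6 ^ 3 - 106726828500 * c4 ^ 7 * c6

/-- coefficient of `t ^ 12` in `famC4 ^ 3` -/
def dC4cu12 (c4 c6 : R) : R :=
  79401000000 * c6 ^ 6 + 138188862000 * c4 ^ 3 * c6 ^ 4 + 1365563096100 * c4 ^ 6 * c6 ^ 2 -
    183794113125 * c4 ^ 9

/-- coefficient of `t ^ 13` in `famC4 ^ 3` -/
def dC4cu13 (c4 c6 : R) : R :=
  238059360000 * c4 ^ 2 * c6 ^ 5 - 6072223953600 * c4 ^ 5 * c6 ^ 3 + 667301166000 * c4 ^ 8 * c6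

/-- coefficient of `t ^ 14` in `famC4 ^ 3` -/
def dC4cu14 (c4 c6 : R) : R :=
  -3674721600000 * c4 * c6 ^ 6 + 35610698016000 * c4 ^ 4 * c6 ^ 4 -
    20091810391200 * c4 ^ 7 * c6 ^ 2 + 5501732625000 * c4 ^ 10

/-- coefficient of `t ^ 15` in `famC4 ^ 3` -/
def dC4cu15 (c4 c6 : R) : R :=
  4899628800000 * c6 ^ 7 - 154032176160000 * c4 ^ 3 * c6 ^ 5 + 111927298457280 * c4 ^ 6 * c6 ^ 3
    - 15988840290000 * c4 ^ 9 * c6

/-- coefficient of `t ^ 16` in `famC4 ^ 3` -/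
def dC4cu16 (c4 c6 : R) : R :=
  629526103200000 * c4 ^ 2 * c6 ^ 6 - 521591411685600 * c4 ^ 5 * c6 ^ 4 +
    185686903062000 * c4 ^ 8 * c6 ^ 2 - 144013218721875 * c4 ^ 11

/-- coefficient of `t ^ 17` in `famC4 ^ 3` -/
def dC4cu17 (c4 c6 : R) : R :=
  -1623903552000000 * c4 * c6 ^ 7 + 887668811280000 * c4 ^ 4 * c6 ^ 5 -
    1324879283764800 * c4 ^ 7 * c6 ^ 3 + 1673892345802500 * c4 ^ 10 * c6

/-- coefficient of `t ^ 18` in `famC4 ^ 3` -/
def dC4cu18 (c4 c6 : R) : R :=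
  1804337280000000 * c6 ^ 8 - 1926910718400000 * c4 ^ 3 * c6 ^ 6 +
    16932390071716800 * c4 ^ 6 * c6 ^ 4 - 16967321927982000 * c4 ^ 9 * c6 ^ 2 +
    1082534860406250 * c4 ^ 12

/-- coefficient of `t ^ 19` in `famC4 ^ 3` -/
def dC4cu19 (c4 c6 : R) : R :=
  23720004000000000 * c4 ^ 2 * c6 ^ 7 - 110784748791024000 * c4 ^ 5 * c6 ^ 5 +
    86784159981657600 * c4 ^ 8 * c6 ^ 3 - 1764217388587500 * c4 ^ 11 * c6

/-- coefficient of `t ^ 20` in `famC4 ^ 3` -/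
def dC4cu20 (c4 c6 : R) : R :=
  -89120199168000000 * c4 * c6 ^ 8 + 349375339550160000 * c4 ^ 4 * c6 ^ 6 -
    254525874577238880 * c4 ^ 7 * c6 ^ 4 + 20822807893387500 * c4 ^ 10 * c6 ^ 2 -
    22360229192503125 * c4 ^ 13

/-- coefficient of `t ^ 21` in `famC4 ^ 3` -/
def dC4cu21 (c4 c6 : R) : R :=
  84876380160000000 * c6 ^ 9 - 821852436556800000 * c4 ^ 3 * c6 ^ 7 +
    1081427763168403200 * c4 ^ 6 * c6 ^ 5 - 607672037196972000 * c4 ^ 9 * c6 ^ 3 +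
    255235864700025000 * c4 ^ 12 * c6

/-- coefficient of `t ^ 22` in `famC4 ^ 3` -/
def dC4cu22 (c4 c6 : R) : R :=
  2982155053824000000 * c4 ^ 2 * c6 ^ 8 - 5041248604788672000 * c4 ^ 5 * c6 ^ 6 +
    2689008501553617600 * c4 ^ 8 * c6 ^ 4 - 714916347880410000 * c4 ^ 11 * c6 ^ 2 +
    99155677440937500 * c4 ^ 14

/-- coefficient of `t ^ 23` in `famC4 ^ 3` -/
def dC4cu23 (c4 c6 : R) : R :=
  -6769485619200000000 * c4 * c6 ^ 9 + 6129667080172800000 * c4 ^ 4 * c6 ^ 7 +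
    576125139745094400 * c4 ^ 7 * c6 ^ 5 + 4143125230641612000 * c4 ^ 10 * c6 ^ 3 -
    4102817163780375000 * c4 ^ 13 * c6

/-- coefficient of `t ^ 24` in `famC4 ^ 3` -/
def dC4cu24 (c4 c6 : R) : R :=
  5641238016000000000 * c6 ^ 10 + 3785289094656000000 * c4 ^ 3 * c6 ^ 8 +
    30806429600044320000 * c4 ^ 6 * c6 ^ 6 - 84960390447479113200 * c4 ^ 9 * c6 ^ 4 +
    41361926051631825000 * c4 ^ 12 * c6 ^ 2 + 3401560072629140625 * c4 ^ 15

/-- coefficient of `t ^ 25` in `famC4 ^ 3` -/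
def dC4cu25 (c4 c6 : R) : R :=
  33427675861401600000 * c4 ^ 2 * c6 ^ 9 - 284000617454123520000 * c4 ^ 5 * c6 ^ 7 +
    380529200826480374208 * c4 ^ 8 * c6 ^ 5 - 56714694702611220000 * c4 ^ 11 * c6 ^ 3 -
    73293479969121562500 * c4 ^ 14 * c6

/-- coefficient of `t ^ 26` in `famC4 ^ 3` -/
def dC4cu26 (c4 c6 : R) : R :=
  -137347588030464000000 * c4 * c6 ^ 10 + 687523645436544000000 * c4 ^ 4 * c6 ^ 8 -
    517072638018787361280 * c4 ^ 7 * c6 ^ 6 - 421455102776763804000 * c4 ^ 10 * c6 ^ 4 +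
    355660546082417100000 * c4 ^ 13 * c6 ^ 2 + 32761023473557968750 * c4 ^ 16

/-- coefficient of `t ^ 27` in `famC4 ^ 3` -/
def dC4cu27 (c4 c6 : R) : R :=
  101738954096640000000 * c6 ^ 11 - 987676682682368000000 * c4 ^ 3 * c6 ^ 9 +
    619434523618415769600 * c4 ^ 6 * c6 ^ 7 + 1142976040019983028160 * c4 ^ 9 * c6 ^ 5 -
    743036006952276660000 * c4 ^ 12 * c6 ^ 3 - 133524832902658312500 * c4 ^ 15 * c6

/-- coefficient of `t ^ 28` in `famC4 ^ 3` -/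
def dC4cu28 (c4 c6 : R) : R :=
  2751955144015872000000 * c4 ^ 2 * c6 ^ 10 - 2314045782258499584000 * c4 ^ 5 * c6 ^ 8 -
    5086848948015635127360 * c4 ^ 8 * c6 ^ 6 + 5875230146573521674000 * c4 ^ 11 * c6 ^ 4 -
    931655490654342937500 * c4 ^ 14 * c6 ^ 2 - 294531349715390390625 * c4 ^ 17

/-- coefficient of `t ^ 29` in `famC4 ^ 3` -/
def dC4cu29 (c4 c6 : R) : R :=
  -5069291244748800000000 * c4 * c6 ^ 11 - 8126045833283174400000 * c4 ^ 4 * c6 ^ 9 +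
    39462485770726089523200 * c4 ^ 7 * c6 ^ 7 - 27304073245883251192320 * c4 ^ 10 * c6 ^ 5 -
    6015241713170005200000 * c4 ^ 13 * c6 ^ 3 + 7052051816764078500000 * c4 ^ 16 * c6

/-- coefficient of `t ^ 30` in `famC4 ^ 3` -/
def dC4cu30 (c4 c6 : R) : R :=
  3379527496499200000000 * c6 ^ 12 + 45142052224539033600000 * c4 ^ 3 * c6 ^ 10 -
    83872383918673453056000 * c4 ^ 6 * c6 ^ 8 - 34524551099144166552576 * c4 ^ 9 * c6 ^ 6 +
    119716427357093646720000 * c4 ^ 12 * c6 ^ 4 - 46244736482295864600000 * c4 ^ 15 * c6 ^ 2 -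
    3596217313436831250000 * c4 ^ 18

/-- coefficient of `t ^ 31` in `famC4 ^ 3` -/
def dC4cu31 (c4 c6 : R) : R :=
  -70855636056539136000000 * c4 ^ 2 * c6 ^ 11 - 22804773160365588480000 * c4 ^ 5 * c6 ^ 9 +
    415712377113225231790080 * c4 ^ 8 * c6 ^ 7 - 426026915839043115379200 * c4 ^ 11 * c6 ^ 5 +
    50278938258983662800000 * c4 ^ 14 * c6 ^ 3 + 53695895234143882500000 * c4 ^ 17 * c6

/-- coefficient of `t ^ 32` in `famC4 ^ 3` -/
def dC4cu32 (c4 c6 : R) : R :=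
  53718167763025920000000 * c4 * c6 ^ 12 + 336436249393643520000000 * c4 ^ 4 * c6 ^ 10 -
    1021212652864221521510400 * c4 ^ 7 * c6 ^ 8 + 556857004797805052183040 * c4 ^ 10 * c6 ^ 6 +
    322484801109379322040000 * c4 ^ 13 * c6 ^ 4 - 235029555742494199500000 * c4 ^ 16 * c6 ^ 2 -
    13253910737192567578125 * c4 ^ 19

/-- coefficient of `t ^ 33` in `famC4 ^ 3` -/
def dC4cu33 (c4 c6 : R) : R :=
  -32556465310924800000000 * c6 ^ 13 - 716681589216509952000000 * c4 ^ 3 * c6 ^ 11 +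
    1494352097607714537472000 * c4 ^ 6 * c6 ^ 9 + 33557194810100175298560 * c4 ^ 9 * c6 ^ 7 -
    1459930999981478161132800 * c4 ^ 12 * c6 ^ 5 + 620372739389601114000000 * c4 ^ 15 * c6 ^ 3 +
    60886934696694822187500 * c4 ^ 18 * c6

/-- coefficient of `t ^ 34` in `famC4 ^ 3` -/
def dC4cu34 (c4 c6 : R) : R :=
  1151550622154096640000000 * c4 ^ 2 * c6 ^ 12 - 1365873296609401896960000 * c4 ^ 5 * c6 ^ 10 -
    2793584245227080236646400 * c4 ^ 8 * c6 ^ 8 + 5053660929638522523141120 * c4 ^ 11 * c6 ^ 6 -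
    1954337957686689447600000 * c4 ^ 14 * c6 ^ 4 - 157757054917235964750000 * c4 ^ 17 * c6 ^ 2 +
    66341072533954886718750 * c4 ^ 20

/-- coefficient of `t ^ 35` in `famC4 ^ 3` -/
def dC4cu35 (c4 c6 : R) : R :=
  -1039792991109120000000000 * c4 * c6 ^ 13 - 1860470351920889856000000 * c4 ^ 4 * c6 ^ 11 +
    11797511292276062552064000 * c4 ^ 7 * c6 ^ 9 - 12894619214987870010273792 * c4 ^ 10 * c6 ^ 7
    + 2033004794623943000544000 * c4 ^ 13 * c6 ^ 5 + 2968778571301469453400000 * c4 ^ 16 * c6 ^ 3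
    - 1004412152099033114062500 * c4 ^ 19 * c6

/-- coefficient of `t ^ 36` in `famC4 ^ 3` -/
def dC4cu36 (c4 c6 : R) : R :=
  577662772838400000000000 * c6 ^ 14 + 6250372687504343040000000 * c4 ^ 3 * c6 ^ 12 -
    17973794498735171174400000 * c4 ^ 6 * c6 ^ 10 + 5348913561610612796620800 * c4 ^ 9 * c6 ^ 8 +
    20387271185239168899936000 * c4 ^ 12 * c6 ^ 6 - 19333866836435235921000000 * c4 ^ 15 * c6 ^ 4
    + 4433474002411939401562500 * c4 ^ 18 * c6 ^ 2 + 309967161618330439453125 * c4 ^ 21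

/-- coefficient of `t ^ 37` in `famC4 ^ 3` -/
def dC4cu37 (c4 c6 : R) : R :=
  -8964801440199475200000000 * c4 ^ 2 * c6 ^ 13 + 11306770787159506944000000 * c4 ^ 5 * c6 ^ 11 +
    32027521706884428300288000 * c4 ^ 8 * c6 ^ 9 - 71099028516818469036441600 * c4 ^ 11 * c6 ^ 7
    + 42469592407187460788160000 * c4 ^ 14 * c6 ^ 5 - 2497316962269566857500000 * c4 ^ 17 * c6 ^ 3
    - 3242738005329217359375000 * c4 ^ 20 * c6

/-- coefficient of `t ^ 38` in `famC4 ^ 3` -/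
def dC4cu38 (c4 c6 : R) : R :=
  5423396988911616000000000 * c4 * c6 ^ 14 + 18828870880544686080000000 * c4 ^ 4 * c6 ^ 12 -
    108172528557843700776960000 * c4 ^ 7 * c6 ^ 10 +
    146901111383580678121881600 * c4 ^ 10 * c6 ^ 8 - 61656038904835555595136000 * c4 ^ 13 * c6 ^ 6
    - 10979217081251686935000000 * c4 ^ 16 * c6 ^ 4 + 9247805055241998918750000 * c4 ^ 19 * c6 ^ 2
    + 406600249806244335937500 * c4 ^ 22

/-- coefficient of `t ^ 39` in `famC4 ^ 3` -/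
def dC4cu39 (c4 c6 : R) : R :=
  -2781229225082880000000000 * c6 ^ 15 - 38872862600409907200000000 * c4 ^ 3 * c6 ^ 13 +
    141157627485914765721600000 * c4 ^ 6 * c6 ^ 11 - 129010941056532967981056000 * c4 ^ 9 * c6 ^ 9
    - 31734420565308862264012800 * c4 ^ 12 * c6 ^ 7 +
    99144348457756724280000000 * c4 ^ 15 * c6 ^ 5 - 40124068712501454922500000 * c4 ^ 18 * c6 ^ 3
    + 2221546208180116640625000 * c4 ^ 21 * c6

/-- coefficient of `t ^ 40` in `famC4 ^ 3` -/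
def dC4cu40 (c4 c6 : R) : R :=
  56786570899881984000000000 * c4 ^ 2 * c6 ^ 14 - 158377140931043052748800000 * c4 ^ 5 * c6 ^ 12
    + 70442605770555928412160000 * c4 ^ 8 * c6 ^ 10 +
    172478651652787604818821120 * c4 ^ 11 * c6 ^ 8 -
    203957870091048793863360000 * c4 ^ 14 * c6 ^ 6 + 55749575037498084209250000 * c4 ^ 17 * c6 ^ 4
    + 11003698833022955390625000 * c4 ^ 20 * c6 ^ 2 - 4126091167462865712890625 * c4 ^ 23

/-- coefficient of `t ^ 41` in `famC4 ^ 3` -/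
def dC4cu41 (c4 c6 : R) : R :=
  -39731680121978880000000000 * c4 * c6 ^ 15 + 23585014045086842880000000 * c4 ^ 4 * c6 ^ 13 +
    320427850308298525900800000 * c4 ^ 7 * c6 ^ 11 -
    714062383188315511711334400 * c4 ^ 10 * c6 ^ 9 +
    562048253156365470931968000 * c4 ^ 13 * c6 ^ 7 -
    125482521709813879132200000 * c4 ^ 16 * c6 ^ 5 - 44457772320027223762500000 * c4 ^ 19 * c6 ^ 3
    + 17673239828339852695312500 * c4 ^ 22 * c6

/-- coefficient of `t ^ 42` in `famC4 ^ 3` -/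
def dC4cu42 (c4 c6 : R) : R :=
  18919847677132800000000000 * c6 ^ 16 + 83319269840702668800000000 * c4 ^ 3 * c6 ^ 14 -
    457501988474195017728000000 * c4 ^ 6 * c6 ^ 12 +
    513664589676244870103040000 * c4 ^ 9 * c6 ^ 10 +
    207595101823259349038284800 * c4 ^ 12 * c6 ^ 8 -
    785833209420608879130240000 * c4 ^ 15 * c6 ^ 6 +
    558367267376972580322500000 * c4 ^ 18 * c6 ^ 4 -
    147519994260288934125000000 * c4 ^ 21 * c6 ^ 2 + 8989115761705592285156250 * c4 ^ 24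

/-- coefficient of `t ^ 43` in `famC4 ^ 3` -/
def dC4cu43 (c4 c6 : R) : R :=
  -134343300697030656000000000 * c4 ^ 2 * c6 ^ 15 + 348299473218258862080000000 * c4 ^ 5 * c6 ^ 13
    + 122596953361668322099200000 * c4 ^ 8 * c6 ^ 11 -
    1271701471025529368661196800 * c4 ^ 11 * c6 ^ 9 +
    1592071011137675268490752000 * c4 ^ 14 * c6 ^ 7 -
    775264919131382091489000000 * c4 ^ 17 * c6 ^ 5 + 98744184162100754887500000 * c4 ^ 20 * c6 ^ 3
    + 19598068973851686914062500 * c4 ^ 23 * c6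

/-- coefficient of `t ^ 44` in `famC4 ^ 3` -/
def dC4cu44 (c4 c6 : R) : R :=
  36990958813839360000000000 * c4 * c6 ^ 16 + 207439149167699558400000000 * c4 ^ 4 * c6 ^ 14 -
    1474248031252210778112000000 * c4 ^ 7 * c6 ^ 12 +
    3127539551372032512098304000 * c4 ^ 10 * c6 ^ 10 -
    3261916275060488562465177600 * c4 ^ 13 * c6 ^ 8 +
    1928412173432696881613400000 * c4 ^ 16 * c6 ^ 6 -
    767378516722126343988750000 * c4 ^ 19 * c6 ^ 4 +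
    256974330931281023554687500 * c4 ^ 22 * c6 ^ 2 - 53813340682574042724609375 * c4 ^ 25

/-- coefficient of `t ^ 45` in `famC4 ^ 3` -/
def dC4cu45 (c4 c6 : R) : R :=
  -16440426139484160000000000 * c6 ^ 17 - 205079887415869440000000000 * c4 ^ 3 * c6 ^ 15 +
    1203072894068028604416000000 * c4 ^ 6 * c6 ^ 13 -
    2615649984494279967375360000 * c4 ^ 9 * c6 ^ 11 +
    3280989804130916990024417280 * c4 ^ 12 * c6 ^ 9 -
    2932205968148689385164800000 * c4 ^ 15 * c6 ^ 7 +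
    1988093000313133847416800000 * c4 ^ 18 * c6 ^ 5 -
    876632134253807338875000000 * c4 ^ 21 * c6 ^ 3 + 173852701939997655468750000 * c4 ^ 24 * c6

/-- coefficient of `t ^ 46` in `famC4 ^ 3` -/
def dC4cu46 (c4 c6 : R) : R :=
  308239170105507840000000000 * c4 ^ 2 * c6 ^ 16 - 1925914960968202321920000000 * c4 ^ 5 * c6 ^ 14
    + 5675787435278876855500800000 * c4 ^ 8 * c6 ^ 12 -
    10320000416299682836984627200 * c4 ^ 11 * c6 ^ 10 +
    12345474081302287287754752000 * c4 ^ 14 * c6 ^ 8 -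
    9551103680992566638030400000 * c4 ^ 17 * c6 ^ 6 +
    4457177506146157429500000000 * c4 ^ 20 * c6 ^ 4 -
    1082171458527427701562500000 * c4 ^ 23 * c6 ^ 2 + 92512323955067431640625000 * c4 ^ 26

/-- coefficient of `t ^ 47` in `famC4 ^ 3` -/
def dC4cu47 (c4 c6 : R) : R :=
  -204614818961817600000000000 * c4 * c6 ^ 17 + 1669678209995636736000000000 * c4 ^ 4 * c6 ^ 15 -
    6335079437429788114944000000 * c4 ^ 7 * c6 ^ 13 +
    14014869411214696824963072000 * c4 ^ 10 * c6 ^ 11 -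
    19193530543751848783616409600 * c4 ^ 13 * c6 ^ 9 +
    16346286314243775668540160000 * c4 ^ 16 * c6 ^ 7 -
    8334206062371660888900000000 * c4 ^ 19 * c6 ^ 5 +
    2288976007169277916875000000 * c4 ^ 22 * c6 ^ 3 - 252379080108276925781250000 * c4 ^ 25 * c6

/-- coefficient of `t ^ 48` in `famC4 ^ 3` -/
def dC4cu48 (c4 c6 : R) : R :=
  85256174567424000000000000 * c6 ^ 18 - 1597698569278586880000000000 * c4 ^ 3 * c6 ^ 16 +
    9003058973567436718080000000 * c4 ^ 6 * c6 ^ 14 -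
    25132586805797271581491200000 * c4 ^ 9 * c6 ^ 12 +
    40722731245516289341626777600 * c4 ^ 12 * c6 ^ 10 -
    40620028797199193430638592000 * c4 ^ 15 * c6 ^ 8 +
    25107253012143614784276000000 * c4 ^ 18 * c6 ^ 6 -
    9237997286359195713187500000 * c4 ^ 21 * c6 ^ 4 +
    1809085500460985758593750000 * c4 ^ 24 * c6 ^ 2 - 139073447621501597900390625 * c4 ^ 27

/-- coefficient of `t ^ 49` in `famC4 ^ 3` -/
def dC4cu49 (c4 c6 : R) : R :=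
  1613948959221350400000000000 * c4 ^ 2 * c6 ^ 17 -
    11270117298035648102400000000 * c4 ^ 5 * c6 ^ 15 +
    33642800320360105377792000000 * c4 ^ 8 * c6 ^ 13 -
    55711236217154965686190080000 * c4 ^ 11 * c6 ^ 11 +
    55384982311456849035932467200 * c4 ^ 14 * c6 ^ 9 -
    33210675836341935093619200000 * c4 ^ 17 * c6 ^ 7 +
    11274383367431817254730000000 * c4 ^ 20 * c6 ^ 5 -
    1778059895579110625625000000 * c4 ^ 23 * c6 ^ 3 + 53974288641537096679687500 * c4 ^ 26 * c6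

/-- coefficient of `t ^ 50` in `famC4 ^ 3` -/
def dC4cu50 (c4 c6 : R) : R :=
  -1516235468235079680000000000 * c4 * c6 ^ 18 + 10295879434908991488000000000 * c4 ^ 4 * c6 ^ 16
    - 29993981033049537223065600000 * c4 ^ 7 * c6 ^ 14 +
    49065626023977824047595520000 * c4 ^ 10 * c6 ^ 12 -
    49969752399098584934261981184 * c4 ^ 13 * c6 ^ 10 +
    33990567229864044499461120000 * c4 ^ 16 * c6 ^ 8 -
    16993376378877553675128000000 * c4 ^ 19 * c6 ^ 6 +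
    6923313773020642674375000000 * c4 ^ 22 * c6 ^ 4 -
    2136810511046589082031250000 * c4 ^ 25 * c6 ^ 2 + 334769328535841960449218750 * c4 ^ 28

/-- coefficient of `t ^ 51` in `famC4 ^ 3` -/
def dC4cu51 (c4 c6 : R) : R :=
  594602144405913600000000000 * c6 ^ 19 - 3925314235520778240000000000 * c4 ^ 3 * c6 ^ 17 +
    12172929586920249360384000000 * c4 ^ 6 * c6 ^ 15 -
    25224157052516312285184000000 * c4 ^ 9 * c6 ^ 13 +
    40579800733516985760837795840 * c4 ^ 12 * c6 ^ 11 -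
    50738012813984264566603776000 * c4 ^ 15 * c6 ^ 9 +
    45455660098107330647174400000 * c4 ^ 18 * c6 ^ 7 -
    26502954890007313784790000000 * c4 ^ 21 * c6 ^ 5 +
    8877506865213525603750000000 * c4 ^ 24 * c6 ^ 3 - 1290060436135336110351562500 * c4 ^ 27 * c6

/-- coefficient of `t ^ 52` in `famC4 ^ 3` -/
def dC4cu52 (c4 c6 : R) : R :=
  1218875640879513600000000000 * c4 ^ 2 * c6 ^ 18 -
    11372846695285040087040000000 * c4 ^ 5 * c6 ^ 16 +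
    45420535941812944109568000000 * c4 ^ 8 * c6 ^ 14 -
    101902880542312989165669580800 * c4 ^ 11 * c6 ^ 12 +
    140898891654529200224489963520 * c4 ^ 14 * c6 ^ 10 -
    123148780208229471056547840000 * c4 ^ 17 * c6 ^ 8 +
    66438919901481985730178000000 * c4 ^ 20 * c6 ^ 6 -
    20140857246801267620437500000 * c4 ^ 23 * c6 ^ 4 +
    2552041804980557582226562500 * c4 ^ 26 * c6 ^ 2 + 36099748944566685791015625 * c4 ^ 29

/-- coefficient of `t ^ 53` in `famC4 ^ 3` -/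
def dC4cu53 (c4 c6 : R) : R :=
  -2030578074176716800000000000 * c4 * c6 ^ 19 + 16371659108870258688000000000 * c4 ^ 4 * c6 ^ 17
    - 56857346529402952876032000000 * c4 ^ 7 * c6 ^ 15 +
    110173588149934641635131392000 * c4 ^ 10 * c6 ^ 13 -
    128000998880258142519605329920 * c4 ^ 13 * c6 ^ 11 +
    87244925340069854414585856000 * c4 ^ 16 * c6 ^ 9 -
    28678699251515980614528000000 * c4 ^ 19 * c6 ^ 7 -
    1328654992970759647860000000 * c4 ^ 22 * c6 ^ 5 +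
    3980527384341945979687500000 * c4 ^ 25 * c6 ^ 3 - 874422254892148259765625000 * c4 ^ 28 * c6

/-- coefficient of `t ^ 54` in `famC4 ^ 3` -/
def dC4cu54 (c4 c6 : R) : R :=
  752065953398784000000000000 * c6 ^ 20 - 4806745978264616960000000000 * c4 ^ 3 * c6 ^ 18 +
    11320238477364166656000000000 * c4 ^ 6 * c6 ^ 16 -
    8257756567317381749145600000 * c4 ^ 9 * c6 ^ 14 -
    13333077442293521037498777600 * c4 ^ 12 * c6 ^ 12 +
    35608352890078962945317928960 * c4 ^ 15 * c6 ^ 10 -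
    33724656813307307508172800000 * c4 ^ 18 * c6 ^ 8 +
    14083520155464359812104000000 * c4 ^ 21 * c6 ^ 6 -
    343888990867546149375000000 * c4 ^ 24 * c6 ^ 4 -
    1725012605360392221093750000 * c4 ^ 27 * c6 ^ 2 + 426960921104492211914062500 * c4 ^ 30

/-- coefficient of `t ^ 55` in `famC4 ^ 3` -/
def dC4cu55 (c4 c6 : R) : R :=
  -117823666032476160000000000 * c4 ^ 2 * c6 ^ 19 - 425518916433031987200000000 * c4 ^ 5 * c6 ^ 17
    + 7830861740842838025830400000 * c4 ^ 8 * c6 ^ 15 -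
    33003089874931309495713792000 * c4 ^ 11 * c6 ^ 13 +
    72245071381488284798432575488 * c4 ^ 14 * c6 ^ 11 -
    95627066643971581283205120000 * c4 ^ 17 * c6 ^ 9 +
    79765436586644603421753600000 * c4 ^ 20 * c6 ^ 7 -
    41230190507425711301700000000 * c4 ^ 23 * c6 ^ 5 +
    12114052312807045397812500000 * c4 ^ 26 * c6 ^ 3 - 1551732412988661416015625000 * c4 ^ 29 * c6

/-- coefficient of `t ^ 56` in `famC4 ^ 3` -/
def dC4cu56 (c4 c6 : R) : R :=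
  -802203683625369600000000000 * c4 * c6 ^ 20 + 7624225282987130880000000000 * c4 ^ 4 * c6 ^ 18 -
    31840338761786478034944000000 * c4 ^ 7 * c6 ^ 16 +
    76460784331224253087088640000 * c4 ^ 10 * c6 ^ 14 -
    115668425435752440209961123840 * c4 ^ 13 * c6 ^ 12 +
    112896032362749858900285849600 * c4 ^ 16 * c6 ^ 10 -
    68947130198343430833868800000 * c4 ^ 19 * c6 ^ 8 +
    22957743213568084510980000000 * c4 ^ 22 * c6 ^ 6 -
    1644320591938372602656250000 * c4 ^ 25 * c6 ^ 4 -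
    1364447797596867462890625000 * c4 ^ 28 * c6 ^ 2 + 328081278513631365966796875 * c4 ^ 31

/-- coefficient of `t ^ 57` in `famC4 ^ 3` -/
def dC4cu57 (c4 c6 : R) : R :=
  281474976710656000000000000 * c6 ^ 21 - 2142728260209868800000000000 * c4 ^ 3 * c6 ^ 19 +
    6385426565629351034880000000 * c4 ^ 6 * c6 ^ 17 -
    7710379935678899159040000000 * c4 ^ 9 * c6 ^ 15 -
    3939804608725084556545228800 * c4 ^ 12 * c6 ^ 13 +
    27024980259808209887381422080 * c4 ^ 15 * c6 ^ 11 -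
    42270378386596789169111040000 * c4 ^ 18 * c6 ^ 9 +
    36119389848544088194752000000 * c4 ^ 21 * c6 ^ 7 -
    18290754466046575246575000000 * c4 ^ 24 * c6 ^ 5 +
    5177830885657245520312500000 * c4 ^ 27 * c6 ^ 3 - 635056879092333706054687500 * c4 ^ 30 * c6

/-- coefficient of `t ^ 58` in `famC4 ^ 3` -/
def dC4cu58 (c4 c6 : R) : R :=
  -232216855786291200000000000 * c4 ^ 2 * c6 ^ 20 +
    2062724275735678156800000000 * c4 ^ 5 * c6 ^ 18 -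
    8064211285002795614208000000 * c4 ^ 8 * c6 ^ 16 +
    18119820113373409988050944000 * c4 ^ 11 * c6 ^ 14 -
    25544130368389183102129274880 * c4 ^ 14 * c6 ^ 12 +
    22959781197881742179853926400 * c4 ^ 17 * c6 ^ 10 -
    12473583504832293266304000000 * c4 ^ 20 * c6 ^ 8 +
    3178440932950032396120000000 * c4 ^ 23 * c6 ^ 6 +
    343699960299346560937500000 * c4 ^ 26 * c6 ^ 4 -
    429912916542925945312500000 * c4 ^ 29 * c6 ^ 2 + 79588450313279846191406250 * c4 ^ 32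

/-- coefficient of `t ^ 59` in `famC4 ^ 3` -/
def dC4cu59 (c4 c6 : R) : R :=
  63859635341230080000000000 * c4 ^ 4 * c6 ^ 19 - 581633558687923568640000000 * c4 ^ 7 * c6 ^ 17
    + 2354297114179582537236480000 * c4 ^ 10 * c6 ^ 15 -
    5558549023388697220664524800 * c4 ^ 13 * c6 ^ 13 +
    8436219945197333039535882240 * c4 ^ 16 * c6 ^ 11 -
    8535228316506971268710400000 * c4 ^ 19 * c6 ^ 9 +
    5756565203403060530016000000 * c4 ^ 22 * c6 ^ 7 -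
    2495736439103882370375000000 * c4 ^ 25 * c6 ^ 5 +
    631136900547226420312500000 * c4 ^ 28 * c6 ^ 3 - 70931460980958178710937500 * c4 ^ 31 * c6

/-- coefficient of `t ^ 60` in `famC4 ^ 3` -/
def dC4cu60 (c4 c6 : R) : R :=
  -5853799906279424000000000 * c4 ^ 6 * c6 ^ 18 + 53105672749766934528000000 * c4 ^ 9 * c6 ^ 16 -
    214116629899431402012672000 * c4 ^ 12 * c6 ^ 14 +
    503576746050122860908773376 * c4 ^ 15 * c6 ^ 12 -
    761350133264485814894592000 * c4 ^ 18 * c6 ^ 10 +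
    767363217764101020057600000 * c4 ^ 21 * c6 ^ 8 -
    515602894793370647175000000 * c4 ^ 24 * c6 ^ 6 +
    222706707209165597343750000 * c4 ^ 27 * c6 ^ 4 - 56112184618532270507812500 * c4 ^ 30 * c6 ^ 2
    + 6283298708943145751953125 * c4 ^ 33

/-- coefficient of `t ^ 0` in `famC6 ^ 2` -/
def dC6sq0 (c4 c6 : R) : R :=
  c6 ^ 2

/-- coefficient of `t ^ 1` in `famC6 ^ 2` -/
def dC6sq1 (c4 c6 : R) : R :=
  -60 * c4 ^ 2 * c6

/-- coefficient of `t ^ 2` in `famC6 ^ 2` -/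
def dC6sq2 (c4 c6 : R) : R :=
  870 * c4 * c6 ^ 2 + 900 * c4 ^ 4

/-- coefficient of `t ^ 3` in `famC6 ^ 2` -/
def dC6sq3 (c4 c6 : R) : R :=
  -5800 * c6 ^ 3 - 28420 * c4 ^ 3 * c6

/-- coefficient of `t ^ 4` in `famC6 ^ 2` -/
def dC6sq4 (c4 c6 : R) : R :=
  418035 * c4 ^ 2 * c6 ^ 2 + 69600 * c4 ^ 5

/-- coefficient of `t ^ 5` in `famC6 ^ 2` -/
def dC6sq5 (c4 c6 : R) : R :=
  -2616960 * c4 * c6 ^ 3 - 2844552 * c4 ^ 4 * c6

/-- coefficient of `t ^ 6` in `famC6 ^ 2` -/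
def dC6sq6 (c4 c6 : R) : R :=
  8723200 * c6 ^ 4 + 34263500 * c4 ^ 3 * c6 ^ 2 + 7077160 * c4 ^ 6

/-- coefficient of `t ^ 7` in `famC6 ^ 2` -/
def dC6sq7 (c4 c6 : R) : R :=
  -217047600 * c4 ^ 2 * c6 ^ 3 - 169159320 * c4 ^ 5 * c6

/-- coefficient of `t ^ 8` in `famC6 ^ 2` -/
def dC6sq8 (c4 c6 : R) : R :=
  437540400 * c4 * c6 ^ 4 + 2012212125 * c4 ^ 4 * c6 ^ 2 + 108868320 * c4 ^ 7

/-- coefficient of `t ^ 9` in `famC6 ^ 2` -/
def dC6sq9 (c4 c6 : R) : R :=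
  -972312000 * c6 ^ 5 - 9660340800 * c4 ^ 3 * c6 ^ 3 - 4150489860 * c4 ^ 6 * c6

/-- coefficient of `t ^ 10` in `famC6 ^ 2` -/
def dC6sq10 (c4 c6 : R) : R :=
  47519413920 * c4 ^ 2 * c6 ^ 4 + 21650411970 * c4 ^ 5 * c6 ^ 2 + 6224201676 * c4 ^ 8

/-- coefficient of `t ^ 11` in `famC6 ^ 2` -/
def dC6sq11 (c4 c6 : R) : R :=
  -123209956800 * c4 * c6 ^ 5 - 222538152600 * c4 ^ 4 * c6 ^ 3 + 3047984100 * c4 ^ 7 * c6

/-- coefficient of `t ^ 12` in `famC6 ^ 2` -/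
def dC6sq12 (c4 c6 : R) : R :=
  205349928000 * c6 ^ 6 + 845739006000 * c4 ^ 3 * c6 ^ 4 + 641165781375 * c4 ^ 6 * c6 ^ 2 -
    292895870400 * c4 ^ 9

/-- coefficient of `t ^ 13` in `famC6 ^ 2` -/
def dC6sq13 (c4 c6 : R) : R :=
  -1638243129600 * c4 ^ 2 * c6 ^ 5 - 4498500787200 * c4 ^ 5 * c6 ^ 3 + 969880489200 * c4 ^ 8 * c6

/-- coefficient of `t ^ 14` in `famC6 ^ 2` -/
def dC6sq14 (c4 c6 : R) : R :=
  -3063931200000 * c4 * c6 ^ 6 + 17788310928000 * c4 ^ 4 * c6 ^ 4 -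
    6346524285000 * c4 ^ 7 * c6 ^ 2 + 8968043206800 * c4 ^ 10

/-- coefficient of `t ^ 15` in `famC6 ^ 2` -/
def dC6sq15 (c4 c6 : R) : R :=
  4085241600000 * c6 ^ 7 - 1639037349120 * c4 ^ 3 * c6 ^ 5 + 71976066368160 * c4 ^ 6 * c6 ^ 3 -
    127616359811760 * c4 ^ 9 * c6

/-- coefficient of `t ^ 16` in `famC6 ^ 2` -/
def dC6sq16 (c4 c6 : R) : R :=
  49424418259200 * c4 ^ 2 * c6 ^ 6 - 1087009855711200 * c4 ^ 5 * c6 ^ 4 +
    1231527505074525 * c4 ^ 8 * c6 ^ 2 - 44333691768000 * c4 ^ 11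

/-- coefficient of `t ^ 17` in `famC6 ^ 2` -/
def dC6sq17 (c4 c6 : R) : R :=
  -235245371904000 * c4 * c6 ^ 7 + 5918583163075200 * c4 ^ 4 * c6 ^ 5 -
    6013610057577600 * c4 ^ 7 * c6 ^ 3 - 56949412275900 * c4 ^ 10 * c6

/-- coefficient of `t ^ 18` in `famC6 ^ 2` -/
def dC6sq18 (c4 c6 : R) : R :=
  261383746560000 * c6 ^ 8 - 24889252410201600 * c4 ^ 3 * c6 ^ 6 +
    26679483542433600 * c4 ^ 6 * c6 ^ 4 - 2413584712161450 * c4 ^ 9 * c6 ^ 2 +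
    1286999399110500 * c4 ^ 12

/-- coefficient of `t ^ 19` in `famC6 ^ 2` -/
def dC6sq19 (c4 c6 : R) : R :=
  81152321386752000 * c4 ^ 2 * c6 ^ 7 - 80050654073174400 * c4 ^ 5 * c6 ^ 5 +
    4070777912170200 * c4 ^ 8 * c6 ^ 3 - 7217247423701700 * c4 ^ 11 * c6

/-- coefficient of `t ^ 20` in `famC6 ^ 2` -/
def dC6sq20 (c4 c6 : R) : R :=
  -168342607319040000 * c4 * c6 ^ 8 + 123095626480632960 * c4 ^ 4 * c6 ^ 6 -
    48482387578769760 * c4 ^ 7 * c6 ^ 4 + 116825027906882295 * c4 ^ 10 * c6 ^ 2 -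
    18903814983900000 * c4 ^ 13

/-- coefficient of `t ^ 21` in `famC6 ^ 2` -/
def dC6sq21 (c4 c6 : R) : R :=
  160326292684800000 * c6 ^ 9 - 287862919395532800 * c4 ^ 3 * c6 ^ 7 +
    987293641976928000 * c4 ^ 6 * c6 ^ 5 - 923001900491088000 * c4 ^ 9 * c6 ^ 3 +
    55260419499549000 * c4 ^ 12 * c6

/-- coefficient of `t ^ 22` in `famC6 ^ 2` -/
def dC6sq22 (c4 c6 : R) : R :=
  2184291970873344000 * c4 ^ 2 * c6 ^ 8 - 5099368164347635200 * c4 ^ 5 * c6 ^ 6 +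
    1789933923932515200 * c4 ^ 8 * c6 ^ 4 + 836575367512634100 * c4 ^ 11 * c6 ^ 2 +
    302721182178615000 * c4 ^ 14

/-- coefficient of `t ^ 23` in `famC6 ^ 2` -/
def dC6sq23 (c4 c6 : R) : R :=
  -6789202538987520000 * c4 * c6 ^ 9 + 4747823297645414400 * c4 ^ 4 * c6 ^ 7 +
    9041211710663904000 * c4 ^ 7 * c6 ^ 5 - 124818974521938000 * c4 ^ 10 * c6 ^ 3 -
    6898398827220729000 * c4 ^ 13 * c6

/-- coefficient of `t ^ 24` in `famC6 ^ 2` -/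
def dC6sq24 (c4 c6 : R) : R :=
  5657668782489600000 * c6 ^ 10 + 22509365745414144000 * c4 ^ 3 * c6 ^ 8 -
    5469859970882169600 * c4 ^ 6 * c6 ^ 6 - 86642097579124556400 * c4 ^ 9 * c6 ^ 4 +
    60630370798503454425 * c4 ^ 12 * c6 ^ 2 + 3350604611081700000 * c4 ^ 15

/-- coefficient of `t ^ 25` in `famC6 ^ 2` -/
def dC6sq25 (c4 c6 : R) : R :=
  -11386285844152320000 * c4 ^ 2 * c6 ^ 9 - 267129146581408714752 * c4 ^ 5 * c6 ^ 7 +
    516015167710440070080 * c4 ^ 8 * c6 ^ 5 - 164137438380618141120 * c4 ^ 11 * c6 ^ 3 -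
    73414212342235222500 * c4 ^ 14 * c6

/-- coefficient of `t ^ 26` in `famC6 ^ 2` -/
def dC6sq26 (c4 c6 : R) : R :=
  -68653284773068800000 * c4 * c6 ^ 10 + 802827038495307571200 * c4 ^ 4 * c6 ^ 8 -
    934586211657893921280 * c4 ^ 7 * c6 ^ 6 - 268529541211411351200 * c4 ^ 10 * c6 ^ 4 +
    435335464379774117250 * c4 ^ 13 * c6 ^ 2 + 33676420933796287500 * c4 ^ 16

/-- coefficient of `t ^ 27` in `famC6 ^ 2` -/
def dC6sq27 (c4 c6 : R) : R :=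
  50854285017088000000 * c6 ^ 11 - 1453572503618715648000 * c4 ^ 3 * c6 ^ 9 +
    1518825993595321743360 * c4 ^ 6 * c6 ^ 7 + 861688398969768484800 * c4 ^ 9 * c6 ^ 5 -
    658176370993849037400 * c4 ^ 12 * c6 ^ 3 - 319707807771877717500 * c4 ^ 15 * c6

/-- coefficient of `t ^ 28` in `famC6 ^ 2` -/
def dC6sq28 (c4 c6 : R) : R :=
  3432455880950415360000 * c4 ^ 2 * c6 ^ 10 - 3216137701843943424000 * c4 ^ 5 * c6 ^ 8 -
    4447218832482984528960 * c4 ^ 8 * c6 ^ 6 + 4612111343075940771600 * c4 ^ 11 * c6 ^ 4 -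
    273830284179492544125 * c4 ^ 14 * c6 ^ 2 - 107276685574410000000 * c4 ^ 17

/-- coefficient of `t ^ 29` in `famC6 ^ 2` -/
def dC6sq29 (c4 c6 : R) : R :=
  -5370977265490329600000 * c4 * c6 ^ 11 - 6223316389211602944000 * c4 ^ 4 * c6 ^ 9 +
    32141180205680074260480 * c4 ^ 7 * c6 ^ 7 - 18170965326061921190400 * c4 ^ 10 * c6 ^ 5 -
    8202167549244406195200 * c4 ^ 13 * c6 ^ 3 + 5826131874733122900000 * c4 ^ 16 * c6

/-- coefficient of `t ^ 30` in `famC6 ^ 2` -/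
def dC6sq30 (c4 c6 : R) : R :=
  3580651510326886400000 * c6 ^ 12 + 35402111288473026560000 * c4 ^ 3 * c6 ^ 10 -
    56246311088633650544640 * c4 ^ 6 * c6 ^ 8 - 51667791631547360080896 * c4 ^ 9 * c6 ^ 6 +
    107824838965003421256960 * c4 ^ 12 * c6 ^ 4 - 34325962015047379830000 * c4 ^ 15 * c6 ^ 2 -
    4567418763993378900000 * c4 ^ 18

/-- coefficient of `t ^ 31` in `famC6 ^ 2` -/
def dC6sq31 (c4 c6 : R) : R :=
  -51021224951414784000000 * c4 ^ 2 * c6 ^ 11 - 56416940876926235443200 * c4 ^ 5 * c6 ^ 9 +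
    381908861445603084595200 * c4 ^ 8 * c6 ^ 7 - 334885796185005843909120 * c4 ^ 11 * c6 ^ 5 +
    5024098806649868088000 * c4 ^ 14 * c6 ^ 3 + 55390887311498847900000 * c4 ^ 17 * c6

/-- coefficient of `t ^ 32` in `famC6 ^ 2` -/
def dC6sq32 (c4 c6 : R) : R :=
  26851062489022464000000 * c4 * c6 ^ 12 + 337375049889481359360000 * c4 ^ 4 * c6 ^ 10 -
    853486285477415790182400 * c4 ^ 7 * c6 ^ 8 + 328887046735477085053440 * c4 ^ 10 * c6 ^ 6 +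
    413872653232430765841600 * c4 ^ 13 * c6 ^ 4 - 248671972298201908438125 * c4 ^ 16 * c6 ^ 2 -
    4827450850848450000000 * c4 ^ 19

/-- coefficient of `t ^ 33` in `famC6 ^ 2` -/
def dC6sq33 (c4 c6 : R) : R :=
  -16273371205468160000000 * c6 ^ 13 - 617594415991069081600000 * c4 ^ 3 * c6 ^ 11 +
    1099168761810099149209600 * c4 ^ 6 * c6 ^ 9 + 522132495949605716582400 * c4 ^ 9 * c6 ^ 7 -
    1817514826357606370346240 * c4 ^ 12 * c6 ^ 5 + 857806825097321541792000 * c4 ^ 15 * c6 ^ 3 -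
    27725557307685059812500 * c4 ^ 18 * c6

/-- coefficient of `t ^ 34` in `famC6 ^ 2` -/
def dC6sq34 (c4 c6 : R) : R :=
  1033298602440523776000000 * c4 ^ 2 * c6 ^ 12 - 941341456062334107648000 * c4 ^ 5 * c6 ^ 10 -
    3761342324488580467507200 * c4 ^ 8 * c6 ^ 8 + 6625250699467099594245120 * c4 ^ 11 * c6 ^ 6 -
    3299635316798358319555200 * c4 ^ 14 * c6 ^ 4 + 275575112936878546181250 * c4 ^ 17 * c6 ^ 2 +
    68194752390937482187500 * c4 ^ 20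

/-- coefficient of `t ^ 35` in `famC6 ^ 2` -/
def dC6sq35 (c4 c6 : R) : R :=
  -1042821509988483072000000 * c4 * c6 ^ 13 - 2697937420657360896000000 * c4 ^ 4 * c6 ^ 11 +
    15936116756550675993722880 * c4 ^ 7 * c6 ^ 9 - 20283038494358157038776320 * c4 ^ 10 * c6 ^ 7
    + 7747276177933471271547648 * c4 ^ 13 * c6 ^ 5 + 1356916358953136992365000 * c4 ^ 16 * c6 ^ 3
    - 1016511920348721225187500 * c4 ^ 19 * c6

/-- coefficient of `t ^ 36` in `famC6 ^ 2` -/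
def dC6sq36 (c4 c6 : R) : R :=
  579345283326935040000000 * c6 ^ 14 + 9083666173614096384000000 * c4 ^ 3 * c6 ^ 12 -
    29764259462953833018163200 * c4 ^ 6 * c6 ^ 10 + 23044446650185636198809600 * c4 ^ 9 * c6 ^ 8
    + 9731238264025554544070400 * c4 ^ 12 * c6 ^ 6 - 18128026693074834691560000 * c4 ^ 15 * c6 ^ 4
    + 5148265975744013112515625 * c4 ^ 18 * c6 ^ 2 + 305323845184819912500000 * c4 ^ 21

/-- coefficient of `t ^ 37` in `famC6 ^ 2` -/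
def dC6sq37 (c4 c6 : R) : R :=
  -13555920923441233920000000 * c4 ^ 2 * c6 ^ 13 + 28203354154977284063232000 * c4 ^ 5 * c6 ^ 11
    + 10779603616251337605120000 * c4 ^ 8 * c6 ^ 9 - 61846724147626826827776000 * c4 ^ 11 * c6 ^ 7
    + 42061734363949891617830400 * c4 ^ 14 * c6 ^ 5 - 1382825589485871092400000 * c4 ^ 17 * c6 ^ 3
    - 4259221498009913866875000 * c4 ^ 20 * c6

/-- coefficient of `t ^ 38` in `famC6 ^ 2` -/
def dC6sq38 (c4 c6 : R) : R :=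
  10244465319456276480000000 * c4 * c6 ^ 14 + 1799628284479773081600000 * c4 ^ 4 * c6 ^ 12 -
    83528393461129101076070400 * c4 ^ 7 * c6 ^ 10 + 121369800537921915585331200 * c4 ^ 10 * c6 ^ 8
    - 35750538226502168915635200 * c4 ^ 13 * c6 ^ 6 -
    27718431768303452965440000 * c4 ^ 16 * c6 ^ 4 + 12342123280559854825312500 * c4 ^ 19 * c6 ^ 2
    + 1241346047671183134375000 * c4 ^ 22

/-- coefficient of `t ^ 39` in `famC6 ^ 2` -/
def dC6sq39 (c4 c6 : R) : R :=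
  -5253571958695526400000000 * c6 ^ 15 - 26076864187163738112000000 * c4 ^ 3 * c6 ^ 13 +
    100273341049643665981440000 * c4 ^ 6 * c6 ^ 11 - 49812353439929261752320000 * c4 ^ 9 * c6 ^ 9
    - 107343358483618170127872000 * c4 ^ 12 * c6 ^ 7 +
    119573750065337763447283200 * c4 ^ 15 * c6 ^ 5 - 25998465648112951061250000 * c4 ^ 18 * c6 ^ 3
    - 5362477405446247700625000 * c4 ^ 21 * c6

/-- coefficient of `t ^ 40` in `famC6 ^ 2` -/
def dC6sq40 (c4 c6 : R) : R :=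
  36238965633359806464000000 * c4 ^ 2 * c6 ^ 14 - 57458348445187178496000000 * c4 ^ 5 * c6 ^ 12 -
    97752692740047504951214080 * c4 ^ 8 * c6 ^ 10 + 246006243366803948304138240 * c4 ^ 11 * c6 ^ 8
    - 116959737180699710743703040 * c4 ^ 14 * c6 ^ 6 -
    46718859713764162935150000 * c4 ^ 17 * c6 ^ 4 + 40132714618052619051234375 * c4 ^ 20 * c6 ^ 2
    - 3488285534325972187500000 * c4 ^ 23

/-- coefficient of `t ^ 41` in `famC6 ^ 2` -/
def dC6sq41 (c4 c6 : R) : R :=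
  -5755695192090869760000000 * c4 * c6 ^ 15 - 84165246201404325888000000 * c4 ^ 4 * c6 ^ 13 +
    321031573078226785586380800 * c4 ^ 7 * c6 ^ 11 -
    324119806684364821384396800 * c4 ^ 10 * c6 ^ 9 - 36498931407834909395558400 * c4 ^ 13 * c6 ^ 7
    + 227210456832018048182808000 * c4 ^ 16 * c6 ^ 5 -
    108321393094030643247000000 * c4 ^ 19 * c6 ^ 3 + 10619042667435933707812500 * c4 ^ 22 * c6

/-- coefficient of `t ^ 42` in `famC6 ^ 2` -/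
def dC6sq42 (c4 c6 : R) : R :=
  2740807234328985600000000 * c6 ^ 16 + 32159764124144762880000000 * c4 ^ 3 * c6 ^ 14 +
    12401486798502771032064000 * c4 ^ 6 * c6 ^ 12 - 466925366098367235175219200 * c4 ^ 9 * c6 ^ 10
    + 1020968962621874037850521600 * c4 ^ 12 * c6 ^ 8 -
    935986390734440668614681600 * c4 ^ 15 * c6 ^ 6 +
    413302618760882215527900000 * c4 ^ 18 * c6 ^ 4 - 89348824075729265011406250 * c4 ^ 21 * c6 ^ 2
    + 10686941369729425476562500 * c4 ^ 24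

/-- coefficient of `t ^ 43` in `famC6 ^ 2` -/
def dC6sq43 (c4 c6 : R) : R :=
  -47493791273944350720000000 * c4 ^ 2 * c6 ^ 15 + 60354816468194678538240000 * c4 ^ 5 * c6 ^ 13
    + 290382136671993176103321600 * c4 ^ 8 * c6 ^ 11 -
    865439572155984903772569600 * c4 ^ 11 * c6 ^ 9 +
    1009107973379533199161651200 * c4 ^ 14 * c6 ^ 7 -
    646473904642094169990888000 * c4 ^ 17 * c6 ^ 5 +
    245799139933786741396875000 * c4 ^ 20 * c6 ^ 3 - 46236798381871592395312500 * c4 ^ 23 * c6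

/-- coefficient of `t ^ 44` in `famC6 ^ 2` -/
def dC6sq44 (c4 c6 : R) : R :=
  30842541330923520000000000 * c4 * c6 ^ 16 + 203842980224427884544000000 * c4 ^ 4 * c6 ^ 14 -
    1646704879004963215245312000 * c4 ^ 7 * c6 ^ 12 +
    4250495983182628256376422400 * c4 ^ 10 * c6 ^ 10 -
    5705304605983737073660723200 * c4 ^ 13 * c6 ^ 8 +
    4391221784864302235424139200 * c4 ^ 16 * c6 ^ 6 -
    1890511108905801130332750000 * c4 ^ 19 * c6 ^ 4 +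
    382683450650330005645078125 * c4 ^ 22 * c6 ^ 2 - 16566146357960874375000000 * c4 ^ 25

/-- coefficient of `t ^ 45` in `famC6 ^ 2` -/
def dC6sq45 (c4 c6 : R) : R :=
  -13707796147077120000000000 * c6 ^ 17 - 494011539745998372864000000 * c4 ^ 3 * c6 ^ 15 +
    2969739570819616305315840000 * c4 ^ 6 * c6 ^ 13 -
    6924153327831147060406517760 * c4 ^ 9 * c6 ^ 11 +
    8223724502092274205429596160 * c4 ^ 12 * c6 ^ 9 -
    4991579038721167242230661120 * c4 ^ 15 * c6 ^ 7 +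
    1085887117260036376408800000 * c4 ^ 18 * c6 ^ 5 +
    278137235887395833664000000 * c4 ^ 21 * c6 ^ 3 - 134036723613986119406250000 * c4 ^ 24 * c6

/-- coefficient of `t ^ 46` in `famC6 ^ 2` -/
def dC6sq46 (c4 c6 : R) : R :=
  678334372728841175040000000 * c4 ^ 2 * c6 ^ 16 - 3694346089829434707148800000 * c4 ^ 5 * c6 ^ 14
    + 8216722284670209514851532800 * c4 ^ 8 * c6 ^ 12 -
    9495882073000214184591360000 * c4 ^ 11 * c6 ^ 10 +
    6113080580534214394945536000 * c4 ^ 14 * c6 ^ 8 -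
    2511799961267068871160384000 * c4 ^ 17 * c6 ^ 6 +
    1152809750124115050834000000 * c4 ^ 20 * c6 ^ 4 -
    609717634991529754528125000 * c4 ^ 23 * c6 ^ 2 + 150798771030884727656250000 * c4 ^ 26

/-- coefficient of `t ^ 47` in `famC6 ^ 2` -/
def dC6sq47 (c4 c6 : R) : R :=
  -529182734997572812800000000 * c4 * c6 ^ 17 + 2666936470876371025920000000 * c4 ^ 4 * c6 ^ 15 -
    5384196532002290122358784000 * c4 ^ 7 * c6 ^ 13 +
    5820411333423637451715379200 * c4 ^ 10 * c6 ^ 11 -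
    4676861350951936576664371200 * c4 ^ 13 * c6 ^ 9 +
    4478365721097543752673638400 * c4 ^ 16 * c6 ^ 7 -
    4003644284457013311323040000 * c4 ^ 19 * c6 ^ 5 +
    2047665918293395072942500000 * c4 ^ 22 * c6 ^ 3 - 419494541282139646968750000 * c4 ^ 25 * c6

/-- coefficient of `t ^ 48` in `famC6 ^ 2` -/
def dC6sq48 (c4 c6 : R) : R :=
  220492806248988672000000000 * c6 ^ 18 - 998650337949772677120000000 * c4 ^ 3 * c6 ^ 16 +
    2554070842076804174315520000 * c4 ^ 6 * c6 ^ 14 -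
    6867101063396804331464294400 * c4 ^ 9 * c6 ^ 12 +
    15783626051244502818619392000 * c4 ^ 12 * c6 ^ 10 -
    23161226570759586291204096000 * c4 ^ 15 * c6 ^ 8 +
    20161358764548114091666464000 * c4 ^ 18 * c6 ^ 6 -
    9957480477076157358847500000 * c4 ^ 21 * c6 ^ 4 +
    2486538620486663523268359375 * c4 ^ 24 * c6 ^ 2 - 221628635422751221875000000 * c4 ^ 27

/-- coefficient of `t ^ 49` in `famC6 ^ 2` -/
def dC6sq49 (c4 c6 : R) : R :=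
  337266040962967142400000000 * c4 ^ 2 * c6 ^ 17 - 4255270493237687196057600000 * c4 ^ 5 * c6 ^ 15
    + 19047113098275398243844096000 * c4 ^ 8 * c6 ^ 13 -
    43841483472559413729322598400 * c4 ^ 11 * c6 ^ 11 +
    58817782225319428004865638400 * c4 ^ 14 * c6 ^ 9 -
    47751042374938145300883148800 * c4 ^ 17 * c6 ^ 7 +
    22971803172054662402758800000 * c4 ^ 20 * c6 ^ 5 -
    5948104222457451092610000000 * c4 ^ 23 * c6 ^ 3 + 621936026580241182304687500 * c4 ^ 26 * c6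

/-- coefficient of `t ^ 50` in `famC6 ^ 2` -/
def dC6sq50 (c4 c6 : R) : R :=
  -851913841267703808000000000 * c4 * c6 ^ 18 + 7706864260840509407232000000 * c4 ^ 4 * c6 ^ 16 -
    29396074498424852635975680000 * c4 ^ 7 * c6 ^ 14 +
    62464191920080877542101221376 * c4 ^ 10 * c6 ^ 12 -
    81694562318182153654873620480 * c4 ^ 13 * c6 ^ 10 +
    68236702279659784628509777920 * c4 ^ 16 * c6 ^ 8 -
    36446034540104110160360640000 * c4 ^ 19 * c6 ^ 6 +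
    12094897789925618271093000000 * c4 ^ 22 * c6 ^ 4 -
    2326009034095888030699218750 * c4 ^ 25 * c6 ^ 2 + 211937981567918516367187500 * c4 ^ 28

/-- coefficient of `t ^ 51` in `famC6 ^ 2` -/
def dC6sq51 (c4 c6 : R) : R :=
  334083859320668160000000000 * c6 ^ 19 - 3869114853709798440960000000 * c4 ^ 3 * c6 ^ 17 +
    18255751259956764789964800000 * c4 ^ 6 * c6 ^ 15 -
    48062505481746286055207731200 * c4 ^ 9 * c6 ^ 13 +
    79574443366233982281543843840 * c4 ^ 12 * c6 ^ 11 -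
    87143680064708544573525196800 * c4 ^ 15 * c6 ^ 9 +
    63736484421347630029442304000 * c4 ^ 18 * c6 ^ 7 -
    30216803807198948257839600000 * c4 ^ 21 * c6 ^ 5 +
    8457595944592576569103125000 * c4 ^ 24 * c6 ^ 3 - 1066254644088044517304687500 * c4 ^ 27 * c6

/-- coefficient of `t ^ 52` in `famC6 ^ 2` -/
def dC6sq52 (c4 c6 : R) : R :=
  2604415652870278348800000000 * c4 ^ 2 * c6 ^ 18 -
    20484550855678280859648000000 * c4 ^ 5 * c6 ^ 16 +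
    70571752203086944700203008000 * c4 ^ 8 * c6 ^ 14 -
    138933661177384629147512340480 * c4 ^ 11 * c6 ^ 12 +
    170575760837603579253542092800 * c4 ^ 14 * c6 ^ 10 -
    133122654326469540093913497600 * c4 ^ 17 * c6 ^ 8 +
    63758839806769386149027280000 * c4 ^ 20 * c6 ^ 6 -
    16491619984931010082957500000 * c4 ^ 23 * c6 ^ 4 +
    1354901279706919836580078125 * c4 ^ 26 * c6 ^ 2 + 166816564426351898437500000 * c4 ^ 29

/-- coefficient of `t ^ 53` in `famC6 ^ 2` -/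
def dC6sq53 (c4 c6 : R) : R :=
  -2589640154482212864000000000 * c4 * c6 ^ 19 + 19341754783682034401280000000 * c4 ^ 4 * c6 ^ 17
    - 61626704084982189690716160000 * c4 ^ 7 * c6 ^ 15 +
    107235048611716678449679564800 * c4 ^ 10 * c6 ^ 13 -
    106093677432598112146418565120 * c4 ^ 13 * c6 ^ 11 +
    51249029172164448465036902400 * c4 ^ 16 * c6 ^ 9 +
    2565833168519241321010176000 * c4 ^ 19 * c6 ^ 7 -
    16961931985613754549780000000 * c4 ^ 22 * c6 ^ 5 +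
    8247994985461468199850000000 * c4 ^ 25 * c6 ^ 3 - 1367707063867601586328125000 * c4 ^ 28 * c6

/-- coefficient of `t ^ 54` in `famC6 ^ 2` -/
def dC6sq54 (c4 c6 : R) : R :=
  959125983141560320000000000 * c6 ^ 20 - 5563593927634924339200000000 * c4 ^ 3 * c6 ^ 18 +
    10483039028136254216601600000 * c4 ^ 6 * c6 ^ 16 +
    1383202259759232171638784000 * c4 ^ 9 * c6 ^ 14 -
    37243530416373112450465136640 * c4 ^ 12 * c6 ^ 12 +
    66676986369548861577678028800 * c4 ^ 15 * c6 ^ 10 -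
    57360387033192467764434124800 * c4 ^ 18 * c6 ^ 8 +
    24326800097876024877345600000 * c4 ^ 21 * c6 ^ 6 -
    2378613633606333891810000000 * c4 ^ 24 * c6 ^ 4 -
    1771016769257114727070312500 * c4 ^ 27 * c6 ^ 2 + 487988041602020009765625000 * c4 ^ 30

/-- coefficient of `t ^ 55` in `famC6 ^ 2` -/
def dC6sq55 (c4 c6 : R) : R :=
  -768321133303824384000000000 * c4 ^ 2 * c6 ^ 19 +
    4673834894599854332313600000 * c4 ^ 5 * c6 ^ 17 -
    9737798649426094703247360000 * c4 ^ 8 * c6 ^ 15 +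
    1825520140517913370873036800 * c4 ^ 11 * c6 ^ 13 +
    28614330933449393529786728448 * c4 ^ 14 * c6 ^ 11 -
    59991487730400592907544821760 * c4 ^ 17 * c6 ^ 9 +
    60939412597859640604750080000 * c4 ^ 20 * c6 ^ 7 -
    35109467465352456536733600000 * c4 ^ 23 * c6 ^ 5 +
    11030674137292163059031250000 * c4 ^ 26 * c6 ^ 3 - 1476697725235996365234375000 * c4 ^ 29 * c6

/-- coefficient of `t ^ 56` in `famC6 ^ 2` -/
def dC6sq56 (c4 c6 : R) : R :=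
  -581597670628392960000000000 * c4 * c6 ^ 20 + 6031370638341062000640000000 * c4 ^ 4 * c6 ^ 18 -
    27098010503477559558144000000 * c4 ^ 7 * c6 ^ 16 +
    69448278788994506277519360000 * c4 ^ 10 * c6 ^ 14 -
    111890937655128410379465523200 * c4 ^ 13 * c6 ^ 12 +
    117030277141208515350158376960 * c4 ^ 16 * c6 ^ 10 -
    78433532281160594364469248000 * c4 ^ 19 * c6 ^ 8 +
    31205528250924782821341600000 * c4 ^ 22 * c6 ^ 6 -
    5581105924482826309406250000 * c4 ^ 25 * c6 ^ 4 -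
    346230088365128776611328125 * c4 ^ 28 * c6 ^ 2 + 215959303774045898437500000 * c4 ^ 31

/-- coefficient of `t ^ 57` in `famC6 ^ 2` -/
def dC6sq57 (c4 c6 : R) : R :=
  204069358115225600000000000 * c6 ^ 21 - 1601638357167348121600000000 * c4 ^ 3 * c6 ^ 19 +
    4907375554029699465216000000 * c4 ^ 6 * c6 ^ 17 -
    6088277024758551910809600000 * c4 ^ 9 * c6 ^ 15 -
    3105910680224406549037056000 * c4 ^ 12 * c6 ^ 13 +
    22057204724908529481028730880 * c4 ^ 15 * c6 ^ 11 -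
    35172088602622739239197081600 * c4 ^ 18 * c6 ^ 9 +
    30560484634901017067036160000 * c4 ^ 21 * c6 ^ 7 -
    15709147584748467431895000000 * c4 ^ 24 * c6 ^ 5 +
    4507622506514777259375000000 * c4 ^ 27 * c6 ^ 3 - 559694528947735620117187500 * c4 ^ 30 * c6

/-- coefficient of `t ^ 58` in `famC6 ^ 2` -/
def dC6sq58 (c4 c6 : R) : R :=
  -118536149567275008000000000 * c4 ^ 2 * c6 ^ 20 +
    1011525672669271818240000000 * c4 ^ 5 * c6 ^ 18 -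
    3699296654234392461312000000 * c4 ^ 8 * c6 ^ 16 +
    7403775132404269921075200000 * c4 ^ 11 * c6 ^ 14 -
    8321637851023969542891110400 * c4 ^ 14 * c6 ^ 12 +
    4030036957089598654560337920 * c4 ^ 17 * c6 ^ 10 +
    1933375800358251352839168000 * c4 ^ 20 * c6 ^ 8 -
    4316451305011028636328000000 * c4 ^ 23 * c6 ^ 6 +
    2893528359854047454062500000 * c4 ^ 26 * c6 ^ 4 -
    941985936717636467285156250 * c4 ^ 29 * c6 ^ 2 + 125665974178862915039062500 * c4 ^ 32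

/-- coefficient of `t ^ 59` in `famC6 ^ 2` -/
def dC6sq59 (c4 c6 : R) : R :=
  -33776997205278720000000000 * c4 * c6 ^ 21 + 386833699321361203200000000 * c4 ^ 4 * c6 ^ 19 -
    1970843929608204582912000000 * c4 ^ 7 * c6 ^ 17 +
    5893983164755952743219200000 * c4 ^ 10 * c6 ^ 15 -
    11475117031791126758031360000 * c4 ^ 13 * c6 ^ 13 +
    15215072966714983390107402240 * c4 ^ 16 * c6 ^ 11 -
    13926821752264910891699404800 * c4 ^ 19 * c6 ^ 9 +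
    8695956190972191268089600000 * c4 ^ 22 * c6 ^ 7 -
    3546976981786781293575000000 * c4 ^ 25 * c6 ^ 5 +
    853845718622979779296875000 * c4 ^ 28 * c6 ^ 3 - 92155047731166137695312500 * c4 ^ 31 * c6

/-- coefficient of `t ^ 60` in `famC6 ^ 2` -/
def dC6sq60 (c4 c6 : R) : R :=
  11258999068426240000000000 * c6 ^ 22 - 117656540265054208000000000 * c4 ^ 3 * c6 ^ 20 +
    552822945554146263040000000 * c4 ^ 6 * c6 ^ 18 -
    1538028374297492953497600000 * c4 ^ 9 * c6 ^ 16 +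
    2805915853543671406264320000 * c4 ^ 12 * c6 ^ 14 -
    3507527903795465320975564800 * c4 ^ 15 * c6 ^ 12 +
    3042622896479174161833394176 * c4 ^ 18 * c6 ^ 10 -
    1808551975401995782717440000 * c4 ^ 21 * c6 ^ 8 +
    704993658324551841465000000 * c4 ^ 24 * c6 ^ 6 -
    162744651294008772656250000 * c4 ^ 27 * c6 ^ 4 + 16895092084047125244140625 * c4 ^ 30 * c6 ^ 2

/-- coefficient of `t ^ 0` in `famF ^ 2` -/
def dF20 (c4 c6 : R) : R :=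
  1

/-- coefficient of `t ^ 1` in `famF ^ 2` -/
def dF21 (c4 c6 : R) : R :=
  0

/-- coefficient of `t ^ 2` in `famF ^ 2` -/
def dF22 (c4 c6 : R) : R :=
  -132 * c4

/-- coefficient of `t ^ 3` in `famF ^ 2` -/
def dF23 (c4 c6 : R) : R :=
  880 * c6

/-- coefficient of `t ^ 4` in `famF ^ 2` -/
def dF24 (c4 c6 : R) : R :=
  1386 * c4 ^ 2

/-- coefficient of `t ^ 5` in `famF ^ 2` -/
def dF25 (c4 c6 : R) : R :=
  -51744 * c4 * c6

/-- coefficient of `t ^ 6` in `famF ^ 2` -/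
def dF26 (c4 c6 : R) : R :=
  172480 * c6 ^ 2 + 207900 * c4 ^ 3

/-- coefficient of `t ^ 7` in `famF ^ 2` -/
def dF27 (c4 c6 : R) : R :=
  -1715472 * c4 ^ 2 * c6

/-- coefficient of `t ^ 8` in `famF ^ 2` -/
def dF28 (c4 c6 : R) : R :=
  4308480 * c4 * c6 ^ 2 + 1287495 * c4 ^ 4

/-- coefficient of `t ^ 9` in `famF ^ 2` -/
def dF29 (c4 c6 : R) : R :=
  -9574400 * c6 ^ 3 - 4523904 * c4 ^ 3 * c6

/-- coefficient of `t ^ 10` in `famF ^ 2` -/
def dF210 (c4 c6 : R) : R :=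
  37483776 * c4 ^ 2 * c6 ^ 2 - 9088200 * c4 ^ 5

/-- coefficient of `t ^ 11` in `famF ^ 2` -/
def dF211 (c4 c6 : R) : R :=
  7311360 * c4 * c6 ^ 3 - 53978400 * c4 ^ 4 * c6

/-- coefficient of `t ^ 12` in `famF ^ 2` -/
def dF212 (c4 c6 : R) : R :=
  -12185600 * c6 ^ 4 - 176020992 * c4 ^ 3 * c6 ^ 2 + 251577900 * c4 ^ 6

/-- coefficient of `t ^ 13` in `famF ^ 2` -/
def dF213 (c4 c6 : R) : R :=
  844462080 * c4 ^ 2 * c6 ^ 3 - 916090560 * c4 ^ 5 * c6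

/-- coefficient of `t ^ 14` in `famF ^ 2` -/
def dF214 (c4 c6 : R) : R :=
  -2297856000 * c4 * c6 ^ 4 + 2774445696 * c4 ^ 4 * c6 ^ 2 - 408969000 * c4 ^ 7

/-- coefficient of `t ^ 15` in `famF ^ 2` -/
def dF215 (c4 c6 : R) : R :=
  3063808000 * c6 ^ 5 - 3226189824 * c4 ^ 3 * c6 ^ 3 + 109058400 * c4 ^ 6 * c6

/-- coefficient of `t ^ 16` in `famF ^ 2` -/
def dF216 (c4 c6 : R) : R :=
  -827228160 * c4 ^ 2 * c6 ^ 4 - 1744934400 * c4 ^ 5 * c6 ^ 2 + 2607177375 * c4 ^ 8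

/-- coefficient of `t ^ 17` in `famF ^ 2` -/
def dF217 (c4 c6 : R) : R :=
  -15895756800 * c4 * c6 ^ 5 + 34891388928 * c4 ^ 4 * c6 ^ 3 - 19014652800 * c4 ^ 7 * c6

/-- coefficient of `t ^ 18` in `famF ^ 2` -/
def dF218 (c4 c6 : R) : R :=
  17661952000 * c6 ^ 6 - 18563973120 * c4 ^ 3 * c6 ^ 4 - 18034410240 * c4 ^ 6 * c6 ^ 2 +
    18944887500 * c4 ^ 9

/-- coefficient of `t ^ 19` in `famF ^ 2` -/
def dF219 (c4 c6 : R) : R :=
  -44281036800 * c4 ^ 2 * c6 ^ 5 + 89745739776 * c4 ^ 5 * c6 ^ 3 - 45467730000 * c4 ^ 8 * c6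

/-- coefficient of `t ^ 20` in `famF ^ 2` -/
def dF220 (c4 c6 : R) : R :=
  30277632000 * c4 * c6 ^ 6 - 55359811584 * c4 ^ 4 * c6 ^ 4 + 19399564800 * c4 ^ 7 * c6 ^ 2 +
    5683466250 * c4 ^ 10

/-- coefficient of `t ^ 21` in `famF ^ 2` -/
def dF221 (c4 c6 : R) : R :=
  -28835840000 * c6 ^ 7 + 67346104320 * c4 ^ 3 * c6 ^ 5 - 48037017600 * c4 ^ 6 * c6 ^ 3 +
    9526572000 * c4 ^ 9 * c6

/-- coefficient of `t ^ 22` in `famF ^ 2` -/
def dF222 (c4 c6 : R) : R :=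
  31024742400 * c4 ^ 2 * c6 ^ 6 - 86438264832 * c4 ^ 5 * c6 ^ 4 + 79771262400 * c4 ^ 8 * c6 ^ 2 -
    24357712500 * c4 ^ 11

/-- coefficient of `t ^ 23` in `famF ^ 2` -/
def dF223 (c4 c6 : R) : R :=
  -12582912000 * c4 * c6 ^ 7 + 36389191680 * c4 ^ 4 * c6 ^ 5 - 35025592320 * c4 ^ 7 * c6 ^ 3 +
    11219310000 * c4 ^ 10 * c6

/-- coefficient of `t ^ 24` in `famF ^ 2` -/
def dF224 (c4 c6 : R) : R :=
  10485760000 * c6 ^ 8 - 39636172800 * c4 ^ 3 * c6 ^ 6 + 56118583296 * c4 ^ 6 * c6 ^ 4 -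
    35271936000 * c4 ^ 9 * c6 ^ 2 + 8303765625 * c4 ^ 12

/-- coefficient of `t ^ 0` in `famF ^ 4` -/
def dF40 (c4 c6 : R) : R :=
  1

/-- coefficient of `t ^ 1` in `famF ^ 4` -/
def dF41 (c4 c6 : R) : R :=
  0

/-- coefficient of `t ^ 2` in `famF ^ 4` -/
def dF42 (c4 c6 : R) : R :=
  -264 * c4

/-- coefficient of `t ^ 3` in `famF ^ 4` -/
def dF43 (c4 c6 : R) : R :=
  1760 * c6

/-- coefficient of `t ^ 4` in `famF ^ 4` -/
def dF44 (c4 c6 : R) : R :=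
  20196 * c4 ^ 2

/-- coefficient of `t ^ 5` in `famF ^ 4` -/
def dF45 (c4 c6 : R) : R :=
  -335808 * c4 * c6

/-- coefficient of `t ^ 6` in `famF ^ 4` -/
def dF46 (c4 c6 : R) : R :=
  1119360 * c6 ^ 2 + 49896 * c4 ^ 3

/-- coefficient of `t ^ 7` in `famF ^ 4` -/
def dF47 (c4 c6 : R) : R :=
  12668832 * c4 ^ 2 * c6

/-- coefficient of `t ^ 8` in `famF ^ 4` -/
def dF48 (c4 c6 : R) : R :=
  -127987200 * c4 * c6 ^ 2 - 50389614 * c4 ^ 4

/-- coefficient of `t ^ 9` in `famF ^ 4` -/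
def dF49 (c4 c6 : R) : R :=
  284416000 * c6 ^ 3 + 666306432 * c4 ^ 3 * c6

/-- coefficient of `t ^ 10` in `famF ^ 4` -/
def dF410 (c4 c6 : R) : R :=
  -926145792 * c4 ^ 2 * c6 ^ 2 + 218223720 * c4 ^ 5

/-- coefficient of `t ^ 11` in `famF ^ 4` -/
def dF411 (c4 c6 : R) : R :=
  -7724421120 * c4 * c6 ^ 3 - 22918098528 * c4 ^ 4 * c6

/-- coefficient of `t ^ 12` in `famF ^ 4` -/
def dF412 (c4 c6 : R) : R :=
  12874035200 * c6 ^ 4 + 242981227008 * c4 ^ 3 * c6 ^ 2 + 49693786740 * c4 ^ 6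

/-- coefficient of `t ^ 13` in `famF ^ 4` -/
def dF413 (c4 c6 : R) : R :=
  -998455265280 * c4 ^ 2 * c6 ^ 3 - 862650917568 * c4 ^ 5 * c6

/-- coefficient of `t ^ 14` in `famF ^ 4` -/
def dF414 (c4 c6 : R) : R :=
  2488578048000 * c4 * c6 ^ 4 + 5707535695488 * c4 ^ 4 * c6 ^ 2 + 442913427000 * c4 ^ 7

/-- coefficient of `t ^ 15` in `famF ^ 4` -/
def dF415 (c4 c6 : R) : R :=
  -3318104064000 * c6 ^ 5 - 24721796284416 * c4 ^ 3 * c6 ^ 3 - 4822627883040 * c4 ^ 6 * c6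

/-- coefficient of `t ^ 16` in `famF ^ 4` -/
def dF416 (c4 c6 : R) : R :=
  65643449794560 * c4 ^ 2 * c6 ^ 4 + 41816166340608 * c4 ^ 5 * c6 ^ 2 - 1310674075425 * c4 ^ 8

/-- coefficient of `t ^ 17` in `famF ^ 4` -/
def dF417 (c4 c6 : R) : R :=
  -83603895091200 * c4 * c6 ^ 5 - 181459915186176 * c4 ^ 4 * c6 ^ 3 - 32273423930880 * c4 ^ 7 * c6

/-- coefficient of `t ^ 18` in `famF ^ 4` -/
def dF418 (c4 c6 : R) : R :=
  92893216768000 * c6 ^ 6 + 219493508382720 * c4 ^ 3 * c6 ^ 4 + 340576731399168 * c4 ^ 6 * c6 ^ 2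
    + 79419999582000 * c4 ^ 9

/-- coefficient of `t ^ 19` in `famF ^ 4` -/
def dF419 (c4 c6 : R) : R :=
  -72708489216000 * c4 ^ 2 * c6 ^ 5 - 280557773438976 * c4 ^ 5 * c6 ^ 3 -
    1248682434120000 * c4 ^ 8 * c6

/-- coefficient of `t ^ 20` in `famF ^ 4` -/
def dF420 (c4 c6 : R) : R :=
  -1387321098240000 * c4 * c6 ^ 6 - 1673540352000000 * c4 ^ 4 * c6 ^ 4 +
    5632453385349120 * c4 ^ 7 * c6 ^ 2 + 562593658077000 * c4 ^ 10

/-- coefficient of `t ^ 21` in `famF ^ 4` -/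
def dF421 (c4 c6 : R) : R :=
  1321258188800000 * c6 ^ 7 + 19371192090624000 * c4 ^ 3 * c6 ^ 5 -
    23724795332468736 * c4 ^ 6 * c6 ^ 3 - 2482678012003200 * c4 ^ 9 * c6

/-- coefficient of `t ^ 22` in `famF ^ 4` -/
def dF422 (c4 c6 : R) : R :=
  -46020038492160000 * c4 ^ 2 * c6 ^ 6 + 20761229759938560 * c4 ^ 5 * c6 ^ 4 +
    38514453608874240 * c4 ^ 8 * c6 ^ 2 - 4490841196710000 * c4 ^ 11

/-- coefficient of `t ^ 23` in `famF ^ 4` -/
def dF423 (c4 c6 : R) : R :=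
  62973385113600000 * c4 * c6 ^ 7 + 19749560942592000 * c4 ^ 4 * c6 ^ 5 -
    69886779776925696 * c4 ^ 7 * c6 ^ 3 - 25457686247448000 * c4 ^ 10 * c6

/-- coefficient of `t ^ 24` in `famF ^ 4` -/
def dF424 (c4 c6 : R) : R :=
  -52477820928000000 * c6 ^ 8 - 68443530854400000 * c4 ^ 3 * c6 ^ 6 +
    36833471501598720 * c4 ^ 6 * c6 ^ 4 + 15258904053120000 * c4 ^ 9 * c6 ^ 2 +
    85337965403437500 * c4 ^ 12

/-- coefficient of `t ^ 25` in `famF ^ 4` -/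
def dF425 (c4 c6 : R) : R :=
  -24655681290240000 * c4 ^ 2 * c6 ^ 7 + 98747588575494144 * c4 ^ 5 * c6 ^ 5 +
    482089805156044800 * c4 ^ 8 * c6 ^ 3 - 575831288878560000 * c4 ^ 11 * c6

/-- coefficient of `t ^ 26` in `famF ^ 4` -/
def dF426 (c4 c6 : R) : R :=
  570783537561600000 * c4 * c6 ^ 8 + 514308706113945600 * c4 ^ 4 * c6 ^ 6 -
    3910405522604359680 * c4 ^ 7 * c6 ^ 4 + 3048709631508288000 * c4 ^ 10 * c6 ^ 2 -
    202087853851950000 * c4 ^ 13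

/-- coefficient of `t ^ 27` in `famF ^ 4` -/
def dF427 (c4 c6 : R) : R :=
  -422802620416000000 * c6 ^ 9 - 6366476227313664000 * c4 ^ 3 * c6 ^ 7 +
    15922150598314819584 * c4 ^ 6 * c6 ^ 5 - 9720814233096806400 * c4 ^ 9 * c6 ^ 3 +
    566873340640200000 * c4 ^ 12 * c6

/-- coefficient of `t ^ 28` in `famF ^ 4` -/
def dF428 (c4 c6 : R) : R :=
  12786273752186880000 * c4 ^ 2 * c6 ^ 8 - 24934313247910133760 * c4 ^ 5 * c6 ^ 6 +
    10990789595730616320 * c4 ^ 8 * c6 ^ 4 + 36998157144960000 * c4 ^ 11 * c6 ^ 2 +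
    1139252157605925000 * c4 ^ 14

/-- coefficient of `t ^ 29` in `famF ^ 4` -/
def dF429 (c4 c6 : R) : R :=
  -14268398095564800000 * c4 * c6 ^ 9 + 30875228716400640000 * c4 ^ 4 * c6 ^ 7 -
    32702301341510270976 * c4 ^ 7 * c6 ^ 5 + 31671508337441280000 * c4 ^ 10 * c6 ^ 3 -
    15591663284353200000 * c4 ^ 13 * c6

/-- coefficient of `t ^ 30` in `famF ^ 4` -/
def dF430 (c4 c6 : R) : R :=
  9512265397043200000 * c6 ^ 10 - 47684367899688960000 * c4 ^ 3 * c6 ^ 8 +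
    119335769063584432128 * c4 ^ 6 * c6 ^ 6 - 128231005910748364800 * c4 ^ 9 * c6 ^ 4 +
    39841903633007520000 * c4 ^ 12 * c6 ^ 2 + 7237147461909750000 * c4 ^ 15

/-- coefficient of `t ^ 31` in `famF ^ 4` -/
def dF431 (c4 c6 : R) : R :=
  96434763123916800000 * c4 ^ 2 * c6 ^ 9 - 300934412691371458560 * c4 ^ 5 * c6 ^ 7 +
    272126568156940468224 * c4 ^ 8 * c6 ^ 5 - 25602625972813824000 * c4 ^ 11 * c6 ^ 3 -
    42032284842695400000 * c4 ^ 14 * c6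

/-- coefficient of `t ^ 32` in `famF ^ 4` -/
def dF432 (c4 c6 : R) : R :=
  -179400596049100800000 * c4 * c6 ^ 10 + 421798752181813248000 * c4 ^ 4 * c6 ^ 8 -
    124140828578505818112 * c4 ^ 7 * c6 ^ 6 - 306145885599807897600 * c4 ^ 10 * c6 ^ 4 +
    193268099192889600000 * c4 ^ 13 * c6 ^ 2 - 5374582880539640625 * c4 ^ 16

/-- coefficient of `t ^ 33` in `famF ^ 4` -/
def dF433 (c4 c6 : R) : R :=
  108727633969152000000 * c6 ^ 11 + 61908422303416320000 * c4 ^ 3 * c6 ^ 9 -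
    835674222707815219200 * c4 ^ 6 * c6 ^ 7 + 990510849052871491584 * c4 ^ 9 * c6 ^ 5 -
    264379044280550400000 * c4 ^ 12 * c6 ^ 3 - 61096429218686400000 * c4 ^ 15 * c6

/-- coefficient of `t ^ 34` in `famF ^ 4` -/
def dF434 (c4 c6 : R) : R :=
  -235885871864217600000 * c4 ^ 2 * c6 ^ 10 + 274383891735773184000 * c4 ^ 5 * c6 ^ 8 +
    560247640262980927488 * c4 ^ 8 * c6 ^ 6 - 918940613677424640000 * c4 ^ 11 * c6 ^ 4 +
    238466390967849600000 * c4 ^ 14 * c6 ^ 2 + 81729984221634375000 * c4 ^ 17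

/-- coefficient of `t ^ 35` in `famF ^ 4` -/
def dF435 (c4 c6 : R) : R :=
  -242989278009753600000 * c4 * c6 ^ 11 + 946070934446407680000 * c4 ^ 4 * c6 ^ 9 -
    503014563196371468288 * c4 ^ 7 * c6 ^ 7 - 1774626580915055493120 * c4 ^ 10 * c6 ^ 5 +
    2489280756473825280000 * c4 ^ 13 * c6 ^ 3 - 914721922066954500000 * c4 ^ 16 * c6

/-- coefficient of `t ^ 36` in `famF ^ 4` -/
def dF436 (c4 c6 : R) : R :=
  134994043338752000000 * c6 ^ 12 + 1134089201516544000000 * c4 ^ 3 * c6 ^ 10 -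
    6313117577231864954880 * c4 ^ 6 * c6 ^ 8 + 10396673273715279003648 * c4 ^ 9 * c6 ^ 6 -
    6652837639989245952000 * c4 ^ 12 * c6 ^ 4 + 887553410270342400000 * c4 ^ 15 * c6 ^ 2 +
    412645558107692812500 * c4 ^ 18

/-- coefficient of `t ^ 37` in `famF ^ 4` -/
def dF437 (c4 c6 : R) : R :=
  -2213398403717529600000 * c4 ^ 2 * c6 ^ 11 + 7623221761811467468800 * c4 ^ 5 * c6 ^ 9 -
    7684375356649230041088 * c4 ^ 8 * c6 ^ 7 - 566177151364277207040 * c4 ^ 11 * c6 ^ 5 +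
    4759657987617561600000 * c4 ^ 14 * c6 ^ 3 - 1918928937281499000000 * c4 ^ 17 * c6

/-- coefficient of `t ^ 38` in `famF ^ 4` -/
def dF438 (c4 c6 : R) : R :=
  1860966379683840000000 * c4 * c6 ^ 12 - 4778959935645941760000 * c4 ^ 4 * c6 ^ 10 +
    120044778141756948480 * c4 ^ 7 * c6 ^ 8 + 9629392791212170149888 * c4 ^ 10 * c6 ^ 6 -
    9726397246044610560000 * c4 ^ 13 * c6 ^ 4 + 2813409727222208400000 * c4 ^ 16 * c6 ^ 2 +
    81543538111303125000 * c4 ^ 19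

/-- coefficient of `t ^ 39` in `famF ^ 4` -/
def dF439 (c4 c6 : R) : R :=
  -954341733171200000000 * c6 ^ 13 - 507946025248358400000 * c4 ^ 3 * c6 ^ 11 +
    12678766117301256192000 * c4 ^ 6 * c6 ^ 9 - 26278971457484586221568 * c4 ^ 9 * c6 ^ 7 +
    22155897868422709248000 * c4 ^ 12 * c6 ^ 5 - 7924155376602009600000 * c4 ^ 15 * c6 ^ 3 +
    830750597318812500000 * c4 ^ 18 * c6

/-- coefficient of `t ^ 40` in `famF ^ 4` -/
def dF440 (c4 c6 : R) : R :=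
  4949093392161177600000 * c4 ^ 2 * c6 ^ 12 - 20703603820578471936000 * c4 ^ 5 * c6 ^ 10 +
    32343577127007327092736 * c4 ^ 8 * c6 ^ 8 - 21451617234575645736960 * c4 ^ 11 * c6 ^ 6 +
    3094140744552591360000 * c4 ^ 14 * c6 ^ 4 + 2615717471624136000000 * c4 ^ 17 * c6 ^ 2 -
    847307677795192968750 * c4 ^ 20

/-- coefficient of `t ^ 41` in `famF ^ 4` -/
def dF441 (c4 c6 : R) : R :=
  -2523997661036544000000 * c4 * c6 ^ 13 + 8267644326327091200000 * c4 ^ 4 * c6 ^ 11 -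
    5343635116108661391360 * c4 ^ 7 * c6 ^ 9 - 10767915721564448882688 * c4 ^ 10 * c6 ^ 7 +
    19548726945732742348800 * c4 ^ 13 * c6 ^ 5 - 11613401156461420800000 * c4 ^ 16 * c6 ^ 3 +
    2432578382586990000000 * c4 ^ 19 * c6

/-- coefficient of `t ^ 42` in `famF ^ 4` -/
def dF442 (c4 c6 : R) : R :=
  1201903648112640000000 * c6 ^ 14 - 2680301828859494400000 * c4 ^ 3 * c6 ^ 12 -
    3768966076710046924800 * c4 ^ 6 * c6 ^ 10 + 17860234249656751620096 * c4 ^ 9 * c6 ^ 8 -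
    22230104469507664773120 * c4 ^ 12 * c6 ^ 6 + 12183212921121792000000 * c4 ^ 15 * c6 ^ 4 -
    2603733781058388000000 * c4 ^ 18 * c6 ^ 2 + 37755337342078125000 * c4 ^ 21

/-- coefficient of `t ^ 43` in `famF ^ 4` -/
def dF443 (c4 c6 : R) : R :=
  -3479851222695936000000 * c4 ^ 2 * c6 ^ 13 + 18152929638777618432000 * c4 ^ 5 * c6 ^ 11 -
    38899824139182192721920 * c4 ^ 8 * c6 ^ 9 + 43672054961039109783552 * c4 ^ 11 * c6 ^ 7 -
    26948768526664630272000 * c4 ^ 14 * c6 ^ 5 + 8595127899858931200000 * c4 ^ 17 * c6 ^ 3 -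
    1091668611148087500000 * c4 ^ 20 * c6

/-- coefficient of `t ^ 44` in `famF ^ 4` -/
def dF444 (c4 c6 : R) : R :=
  1360645639372800000000 * c4 * c6 ^ 14 - 6392069689127731200000 * c4 ^ 4 * c6 ^ 12 +
    10960382784895451136000 * c4 ^ 7 * c6 ^ 10 - 6447159871062675554304 * c4 ^ 10 * c6 ^ 8 -
    3597487712832061440000 * c4 ^ 13 * c6 ^ 6 + 7179085005764083200000 * c4 ^ 16 * c6 ^ 4 -
    3751082658595800000000 * c4 ^ 19 * c6 ^ 2 + 687686501587851562500 * c4 ^ 22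

/-- coefficient of `t ^ 45` in `famF ^ 4` -/
def dF445 (c4 c6 : R) : R :=
  -604731395276800000000 * c6 ^ 15 + 2917471640931532800000 * c4 ^ 3 * c6 ^ 13 -
    5149325154047754240000 * c4 ^ 6 * c6 ^ 11 + 3129054808864897105920 * c4 ^ 9 * c6 ^ 9 +
    1793381145205045985280 * c4 ^ 12 * c6 ^ 7 - 3723936545959575552000 * c4 ^ 15 * c6 ^ 5 +
    2026426112943840000000 * c4 ^ 18 * c6 ^ 3 - 388340612661375000000 * c4 ^ 21 * c6

/-- coefficient of `t ^ 46` in `famF ^ 4` -/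
def dF446 (c4 c6 : R) : R :=
  808965680136192000000 * c4 ^ 2 * c6 ^ 14 - 5187909894694502400000 * c4 ^ 5 * c6 ^ 12 +
    14212838971840816742400 * c4 ^ 8 * c6 ^ 10 - 21556113889477728927744 * c4 ^ 11 * c6 ^ 8 +
    19540443101291819827200 * c4 ^ 14 * c6 ^ 6 - 10582666500423168000000 * c4 ^ 17 * c6 ^ 4 +
    3168964002848850000000 * c4 ^ 20 * c6 ^ 2 - 404521471522265625000 * c4 ^ 23

/-- coefficient of `t ^ 47` in `famF ^ 4` -/
def dF447 (c4 c6 : R) : R :=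
  -263882790666240000000 * c4 * c6 ^ 15 + 1760613609819340800000 * c4 ^ 4 * c6 ^ 13 -
    5031466879168806912000 * c4 ^ 7 * c6 ^ 11 + 7983713945538590146560 * c4 ^ 10 * c6 ^ 9 -
    7596559844230236733440 * c4 ^ 13 * c6 ^ 7 + 4334399104851394560000 * c4 ^ 16 * c6 ^ 5 -
    1373142187572480000000 * c4 ^ 19 * c6 ^ 3 + 186325041428437500000 * c4 ^ 22 * c6

/-- coefficient of `t ^ 48` in `famF ^ 4` -/
def dF448 (c4 c6 : R) : R :=
  109951162777600000000 * c6 ^ 16 - 831230790598656000000 * c4 ^ 3 * c6 ^ 14 +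
    2747918186195189760000 * c4 ^ 6 * c6 ^ 12 - 5188357840885619097600 * c4 ^ 9 * c6 ^ 10 +
    6119527078603171823616 * c4 ^ 12 * c6 ^ 8 - 4617081135260762112000 * c4 ^ 15 * c6 ^ 6 +
    2176100594982144000000 * c4 ^ 18 * c6 ^ 4 - 585779779368000000000 * c4 ^ 21 * c6 ^ 2 +
    68952523554931640625 * c4 ^ 24

/-- coefficient of `t ^ 0` in `famF ^ 5` -/
def dF50 (c4 c6 : R) : R :=
  1

/-- coefficient of `t ^ 1` in `famF ^ 5` -/
def dF51 (c4 c6 : R) : R :=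
  0

/-- coefficient of `t ^ 2` in `famF ^ 5` -/
def dF52 (c4 c6 : R) : R :=
  -330 * c4

/-- coefficient of `t ^ 3` in `famF ^ 5` -/
def dF53 (c4 c6 : R) : R :=
  2200 * c6

/-- coefficient of `t ^ 4` in `famF ^ 5` -/
def dF54 (c4 c6 : R) : R :=
  36135 * c4 ^ 2

/-- coefficient of `t ^ 5` in `famF ^ 5` -/
def dF55 (c4 c6 : R) : R :=
  -564960 * c4 * c6

/-- coefficient of `t ^ 6` in `famF ^ 5` -/
def dF56 (c4 c6 : R) : R :=
  1883200 * c6 ^ 2 - 885060 * c4 ^ 3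

/-- coefficient of `t ^ 7` in `famF ^ 5` -/
def dF57 (c4 c6 : R) : R :=
  40273200 * c4 ^ 2 * c6

/-- coefficient of `t ^ 8` in `famF ^ 5` -/
def dF58 (c4 c6 : R) : R :=
  -341193600 * c4 * c6 ^ 2 - 85308795 * c4 ^ 4

/-- coefficient of `t ^ 9` in `famF ^ 5` -/
def dF59 (c4 c6 : R) : R :=
  758208000 * c6 ^ 3 + 424116000 * c4 ^ 3 * c6

/-- coefficient of `t ^ 10` in `famF ^ 5` -/
def dF510 (c4 c6 : R) : R :=
  10147705920 * c4 ^ 2 * c6 ^ 2 + 3607315074 * c4 ^ 5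

/-- coefficient of `t ^ 11` in `famF ^ 5` -/
def dF511 (c4 c6 : R) : R :=
  -75569356800 * c4 * c6 ^ 3 - 109774812600 * c4 ^ 4 * c6

/-- coefficient of `t ^ 12` in `famF ^ 5` -/
def dF512 (c4 c6 : R) : R :=
  125948928000 * c6 ^ 4 + 833499072000 * c4 ^ 3 * c6 ^ 2 + 109101757275 * c4 ^ 6

/-- coefficient of `t ^ 13` in `famF ^ 5` -/
def dF513 (c4 c6 : R) : R :=
  -1876302489600 * c4 ^ 2 * c6 ^ 3 - 302579323200 * c4 ^ 5 * c6

/-- coefficient of `t ^ 14` in `famF ^ 5` -/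
def dF514 (c4 c6 : R) : R :=
  610790400000 * c4 * c6 ^ 4 - 17211596688000 * c4 ^ 4 * c6 ^ 2 - 3466310581800 * c4 ^ 7

/-- coefficient of `t ^ 15` in `famF ^ 5` -/
def dF515 (c4 c6 : R) : R :=
  -814387200000 * c6 ^ 5 + 151578751610880 * c4 ^ 3 * c6 ^ 3 + 111627519521760 * c4 ^ 6 * c6

/-- coefficient of `t ^ 16` in `famF ^ 5` -/
def dF516 (c4 c6 : R) : R :=
  -580101684940800 * c4 ^ 2 * c6 ^ 4 - 1145520128966400 * c4 ^ 5 * c6 ^ 2 -
    99679526953875 * c4 ^ 8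

/-- coefficient of `t ^ 17` in `famF ^ 5` -/
def dF517 (c4 c6 : R) : R :=
  1388658180096000 * c4 * c6 ^ 5 + 6419572531891200 * c4 ^ 4 * c6 ^ 3 +
    1730841758078400 * c4 ^ 7 * c6

/-- coefficient of `t ^ 18` in `famF ^ 5` -/
def dF518 (c4 c6 : R) : R :=
  -1542953533440000 * c6 ^ 6 - 24505295225241600 * c4 ^ 3 * c6 ^ 4 -
    14758201754524800 * c4 ^ 6 * c6 ^ 2 - 204464538704250 * c4 ^ 9

/-- coefficient of `t ^ 19` in `famF ^ 5` -/
def dF519 (c4 c6 : R) : R :=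
  57432317386752000 * c4 ^ 2 * c6 ^ 5 + 88166412104601600 * c4 ^ 5 * c6 ^ 3 +
    5453030035114200 * c4 ^ 8 * c6

/-- coefficient of `t ^ 20` in `famF ^ 5` -/
def dF520 (c4 c6 : R) : R :=
  -79222408151040000 * c4 * c6 ^ 6 - 305502121220567040 * c4 ^ 4 * c6 ^ 4 -
    99458634222097920 * c4 ^ 7 * c6 ^ 2 - 3456414208603125 * c4 ^ 10

/-- coefficient of `t ^ 21` in `famF ^ 5` -/
def dF521 (c4 c6 : R) : R :=
  75449912524800000 * c6 ^ 7 + 609439429686067200 * c4 ^ 3 * c6 ^ 5 +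
    515305308494592000 * c4 ^ 6 * c6 ^ 3 + 199975445200476000 * c4 ^ 9 * c6

/-- coefficient of `t ^ 22` in `famF ^ 5` -/
def dF522 (c4 c6 : R) : R :=
  -797863082950656000 * c4 ^ 2 * c6 ^ 6 - 855982642509619200 * c4 ^ 5 * c6 ^ 4 -
    1755057220130721600 * c4 ^ 8 * c6 ^ 2 - 203565504737677500 * c4 ^ 11

/-- coefficient of `t ^ 23` in `famF ^ 5` -/
def dF523 (c4 c6 : R) : R :=
  -19716919787520000 * c4 * c6 ^ 7 - 1401560702314905600 * c4 ^ 4 * c6 ^ 5 +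
    7063525868603904000 * c4 ^ 7 * c6 ^ 3 + 2795581663440354000 * c4 ^ 10 * c6

/-- coefficient of `t ^ 24` in `famF ^ 5` -/
def dF524 (c4 c6 : R) : R :=
  16430766489600000 * c6 ^ 8 + 18740507417247744000 * c4 ^ 3 * c6 ^ 6 -
    17535782153678745600 * c4 ^ 6 * c6 ^ 4 - 19217489285324188800 * c4 ^ 9 * c6 ^ 2 +
    50955461547440625 * c4 ^ 12

/-- coefficient of `t ^ 25` in `famF ^ 5` -/
def dF525 (c4 c6 : R) : R :=
  -44813961705553920000 * c4 ^ 2 * c6 ^ 7 - 27942490832839114752 * c4 ^ 5 * c6 ^ 5 +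
    107543476051120581120 * c4 ^ 8 * c6 ^ 3 + 120732373113660000 * c4 ^ 11 * c6

/-- coefficient of `t ^ 26` in `famF ^ 5` -/
def dF526 (c4 c6 : R) : R :=
  68694303257395200000 * c4 * c6 ^ 8 + 183997696316158771200 * c4 ^ 4 * c6 ^ 6 -
    233515877322947788800 * c4 ^ 7 * c6 ^ 4 - 80590315757595336000 * c4 ^ 10 * c6 ^ 2 -
    915397460238318750 * c4 ^ 13

/-- coefficient of `t ^ 27` in `famF ^ 5` -/
def dF527 (c4 c6 : R) : R :=
  -50884669079552000000 * c6 ^ 9 - 516780490015899648000 * c4 ^ 3 * c6 ^ 7 +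
    382610979961006325760 * c4 ^ 6 * c6 ^ 5 + 101323338910791782400 * c4 ^ 9 * c6 ^ 3 +
    186182974869219405000 * c4 ^ 12 * c6

/-- coefficient of `t ^ 28` in `famF ^ 5` -/
def dF528 (c4 c6 : R) : R :=
  680500736934543360000 * c4 ^ 2 * c6 ^ 8 - 221591182650900480000 * c4 ^ 5 * c6 ^ 6 +
    418038932881750118400 * c4 ^ 8 * c6 ^ 4 - 845079870615830784000 * c4 ^ 11 * c6 ^ 2 -
    187254664140980390625 * c4 ^ 14

/-- coefficient of `t ^ 29` in `famF ^ 5` -/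
def dF529 (c4 c6 : R) : R :=
  -301686020741529600000 * c4 * c6 ^ 9 + 1601043423330041856000 * c4 ^ 4 * c6 ^ 7 -
    5720262141715973406720 * c4 ^ 7 * c6 ^ 5 + 3412845778105356595200 * c4 ^ 10 * c6 ^ 3 +
    1225919942030955600000 * c4 ^ 13 * c6

/-- coefficient of `t ^ 30` in `famF ^ 5` -/
def dF530 (c4 c6 : R) : R :=
  201124013827686400000 * c6 ^ 10 - 9538816922238320640000 * c4 ^ 3 * c6 ^ 8 +
    18087255907801481871360 * c4 ^ 6 * c6 ^ 6 + 944015375398288343040 * c4 ^ 9 * c6 ^ 4 -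
    10947573016691937120000 * c4 ^ 12 * c6 ^ 2 + 971201450556547650000 * c4 ^ 15

/-- coefficient of `t ^ 31` in `famF ^ 5` -/
def dF531 (c4 c6 : R) : R :=
  19834411105124352000000 * c4 ^ 2 * c6 ^ 9 - 13777756611436294963200 * c4 ^ 5 * c6 ^ 7 -
    47581272279058442158080 * c4 ^ 8 * c6 ^ 5 + 43559847374978829312000 * c4 ^ 11 * c6 ^ 3 -
    1694992077354965400000 * c4 ^ 14 * c6

/-- coefficient of `t ^ 32` in `famF ^ 5` -/
def dF532 (c4 c6 : R) : R :=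
  -26867105274003456000000 * c4 * c6 ^ 10 - 25928304778165616640000 * c4 ^ 4 * c6 ^ 8 +
    141798062608640114688000 * c4 ^ 7 * c6 ^ 6 - 86171895453687852441600 * c4 ^ 10 * c6 ^ 4 +
    5215956669363591360000 * c4 ^ 13 * c6 ^ 2 - 8426459886344117578125 * c4 ^ 16

/-- coefficient of `t ^ 33` in `famF ^ 5` -/
def dF533 (c4 c6 : R) : R :=
  16283094105456640000000 * c6 ^ 11 + 115370267330897510400000 * c4 ^ 3 * c6 ^ 9 -
    279813068466717877862400 * c4 ^ 6 * c6 ^ 7 + 208762232672787663421440 * c4 ^ 9 * c6 ^ 5 -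
    148821593703340545792000 * c4 ^ 12 * c6 ^ 3 + 88612492004379882000000 * c4 ^ 15 * c6

/-- coefficient of `t ^ 34` in `famF ^ 5` -/
def dF534 (c4 c6 : R) : R :=
  -118252019713572864000000 * c4 ^ 2 * c6 ^ 10 + 306279820833494925312000 * c4 ^ 5 * c6 ^ 8 -
    661478258428005305548800 * c4 ^ 8 * c6 ^ 6 + 910111511400571765555200 * c4 ^ 11 * c6 ^ 4 -
    435185847711097106400000 * c4 ^ 14 * c6 ^ 2 - 1853679856982595468750 * c4 ^ 17

/-- coefficient of `t ^ 35` in `famF ^ 5` -/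
def dF535 (c4 c6 : R) : R :=
  -3028518879363072000000 * c4 * c6 ^ 11 - 840495587615834112000000 * c4 ^ 4 * c6 ^ 9 +
    3298109876658779329658880 * c4 ^ 7 * c6 ^ 7 - 4090309402711507698843648 * c4 ^ 10 * c6 ^ 5 +
    1623961980598020572160000 * c4 ^ 13 * c6 ^ 3 + 12099768249688111125000 * c4 ^ 16 * c6

/-- coefficient of `t ^ 36` in `famF ^ 5` -/
def dF536 (c4 c6 : R) : R :=
  1682510488535040000000 * c6 ^ 12 + 2834975996598288384000000 * c4 ^ 3 * c6 ^ 10 -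
    8955488967620373459763200 * c4 ^ 6 * c6 ^ 8 + 8740044120954649942425600 * c4 ^ 9 * c6 ^ 6 -
    1915988800258964413440000 * c4 ^ 12 * c6 ^ 4 - 710148656898563184000000 * c4 ^ 15 * c6 ^ 2 +
    4643316433510526953125 * c4 ^ 18

/-- coefficient of `t ^ 37` in `famF ^ 5` -/
def dF537 (c4 c6 : R) : R :=
  -4591119483241758720000000 * c4 ^ 2 * c6 ^ 11 + 12305463884576018399232000 * c4 ^ 5 * c6 ^ 9 -
    8942454206057072295936000 * c4 ^ 8 * c6 ^ 7 + 309850163134569912729600 * c4 ^ 11 * c6 ^ 5 -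
    98007880102999257600000 * c4 ^ 14 * c6 ^ 3 + 1016483492680696507500000 * c4 ^ 17 * c6

/-- coefficient of `t ^ 38` in `famF ^ 5` -/
def dF538 (c4 c6 : R) : R :=
  4821068330544660480000000 * c4 * c6 ^ 12 - 12208174265520252518400000 * c4 ^ 4 * c6 ^ 10 +
    12435960831194347182489600 * c4 ^ 7 * c6 ^ 8 - 13095350014464415354060800 * c4 ^ 10 * c6 ^ 6
    + 12810150663868971325440000 * c4 ^ 13 * c6 ^ 4 - 3929064023182794705000000 * c4 ^ 16 * c6 ^ 2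
    - 834745797864938798437500 * c4 ^ 19

/-- coefficient of `t ^ 39` in `famF ^ 5` -/
def dF539 (c4 c6 : R) : R :=
  -2472342733612646400000000 * c6 ^ 13 + 10323655679633522688000000 * c4 ^ 3 * c6 ^ 11 -
    30560630756637577052160000 * c4 ^ 6 * c6 ^ 9 + 48637956859966129176576000 * c4 ^ 9 * c6 ^ 7 -
    26970981058343178687283200 * c4 ^ 12 * c6 ^ 5 - 6541579450762139520000000 * c4 ^ 15 * c6 ^ 3
    + 7584023613626364341250000 * c4 ^ 18 * c6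

/-- coefficient of `t ^ 40` in `famF ^ 5` -/
def dF540 (c4 c6 : R) : R :=
  -20547605266522177536000000 * c4 ^ 2 * c6 ^ 12 + 80371187219333696716800000 * c4 ^ 5 * c6 ^ 10
    - 87824111291269736646574080 * c4 ^ 8 * c6 ^ 8 - 14296519577253393161256960 * c4 ^ 11 * c6 ^ 6
    + 72701613333095689958400000 * c4 ^ 14 * c6 ^ 4 -
    29766821418166557186000000 * c4 ^ 17 * c6 ^ 2 - 637805633136893525390625 * c4 ^ 20

/-- coefficient of `t ^ 41` in `famF ^ 5` -/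
def dF541 (c4 c6 : R) : R :=
  33975984929888010240000000 * c4 * c6 ^ 13 - 73774275316603158528000000 * c4 ^ 4 * c6 ^ 11 -
    73170552546674898842419200 * c4 ^ 7 * c6 ^ 9 + 316772023957275791484518400 * c4 ^ 10 * c6 ^ 7
    - 281775160606924588843008000 * c4 ^ 13 * c6 ^ 5 +
    70917817934907338472000000 * c4 ^ 16 * c6 ^ 3 + 7054197160903918987500000 * c4 ^ 19 * c6

/-- coefficient of `t ^ 42` in `famF ^ 5` -/
def dF542 (c4 c6 : R) : R :=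
  -16179040442803814400000000 * c6 ^ 14 - 67338546159361720320000000 * c4 ^ 3 * c6 ^ 12 +
    402564929113336068440064000 * c4 ^ 6 * c6 ^ 10 - 578025026661276036838195200 * c4 ^ 9 * c6 ^ 8
    + 235348834137338651974041600 * c4 ^ 12 * c6 ^ 6 +
    85195652823506862489600000 * c4 ^ 15 * c6 ^ 4 - 59868995792583502305000000 * c4 ^ 18 * c6 ^ 2
    - 1697825608023833191406250 * c4 ^ 21

/-- coefficient of `t ^ 43` in `famF ^ 5` -/
def dF543 (c4 c6 : R) : R :=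
  86849509423086305280000000 * c4 ^ 2 * c6 ^ 13 - 201095147326977878261760000 * c4 ^ 5 * c6 ^ 11
    - 33309964016653024257638400 * c4 ^ 8 * c6 ^ 9 +
    372951934852891440630988800 * c4 ^ 11 * c6 ^ 7 -
    210011102905250628698112000 * c4 ^ 14 * c6 ^ 5 - 81220088415962707200000000 * c4 ^ 17 * c6 ^ 3
    + 65834867355723279309375000 * c4 ^ 20 * c6

/-- coefficient of `t ^ 44` in `famF ^ 5` -/
def dF544 (c4 c6 : R) : R :=
  -6148417482915840000000000 * c4 * c6 ^ 14 - 9744586426187513856000000 * c4 ^ 4 * c6 ^ 12 -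
    182201434178939950989312000 * c4 ^ 7 * c6 ^ 10 +
    940754997631655793288806400 * c4 ^ 10 * c6 ^ 8 -
    1502633333291592717906739200 * c4 ^ 13 * c6 ^ 6 +
    960176278140012635904000000 * c4 ^ 16 * c6 ^ 4 -
    162956314043662150440000000 * c4 ^ 19 * c6 ^ 2 - 37247194324613168349609375 * c4 ^ 22

/-- coefficient of `t ^ 45` in `famF ^ 5` -/
def dF545 (c4 c6 : R) : R :=
  2732629992407040000000000 * c6 ^ 15 - 286199022337721892864000000 * c4 ^ 3 * c6 ^ 13 +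
    1480467654413865808035840000 * c4 ^ 6 * c6 ^ 11 -
    2828035688923001284995317760 * c4 ^ 9 * c6 ^ 9 +
    2114699009038355930409861120 * c4 ^ 12 * c6 ^ 7 +
    55325938465878073344000000 * c4 ^ 15 * c6 ^ 5 - 846879944587219397664000000 * c4 ^ 18 * c6 ^ 3
    + 307889425553983774875000000 * c4 ^ 21 * c6

/-- coefficient of `t ^ 46` in `famF ^ 5` -/
def dF546 (c4 c6 : R) : R :=
  370095202623333335040000000 * c4 ^ 2 * c6 ^ 14 - 1398335926237899050188800000 * c4 ^ 5 * c6 ^ 12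
    + 1142598923153433609161932800 * c4 ^ 8 * c6 ^ 10 +
    1966717266452902261555200000 * c4 ^ 11 * c6 ^ 8 -
    4265676234315170631254016000 * c4 ^ 14 * c6 ^ 6 +
    2773627485410327135616000000 * c4 ^ 17 * c6 ^ 4 -
    530740270611715243050000000 * c4 ^ 20 * c6 ^ 2 - 58286447075817296015625000 * c4 ^ 23

/-- coefficient of `t ^ 47` in `famF ^ 5` -/
def dF547 (c4 c6 : R) : R :=
  -324567916035755212800000000 * c4 * c6 ^ 15 + 672690344844979077120000000 * c4 ^ 4 * c6 ^ 13 +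
    1623573250272477069705216000 * c4 ^ 7 * c6 ^ 11 -
    6570884827518582303542476800 * c4 ^ 10 * c6 ^ 9 +
    7945784365281329903409561600 * c4 ^ 13 * c6 ^ 7 -
    3922136227864902012456960000 * c4 ^ 16 * c6 ^ 5 +
    408425550049745565120000000 * c4 ^ 19 * c6 ^ 3 + 167115461173862721187500000 * c4 ^ 22 * c6

/-- coefficient of `t ^ 48` in `famF ^ 5` -/
def dF548 (c4 c6 : R) : R :=
  135236631681564672000000000 * c6 ^ 16 + 734284863010378874880000000 * c4 ^ 3 * c6 ^ 14 -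
    5714703268480253668884480000 * c4 ^ 6 * c6 ^ 12 +
    12550782473920213581142425600 * c4 ^ 9 * c6 ^ 10 -
    12388322720351572941864960000 * c4 ^ 12 * c6 ^ 8 +
    5070479506088034197569536000 * c4 ^ 15 * c6 ^ 6 +
    124585258492533504960000000 * c4 ^ 18 * c6 ^ 4 -
    594897932224428140700000000 * c4 ^ 21 * c6 ^ 2 + 82555187801249623974609375 * c4 ^ 24

/-- coefficient of `t ^ 49` in `famF ^ 5` -/
def dF549 (c4 c6 : R) : R :=
  -1276682918258383257600000000 * c4 ^ 2 * c6 ^ 15 +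
    5738163886539577648742400000 * c4 ^ 5 * c6 ^ 13 -
    8857523335545129485205504000 * c4 ^ 8 * c6 ^ 11 +
    3012229409050422471661977600 * c4 ^ 11 * c6 ^ 9 +
    6445029322913001440595148800 * c4 ^ 14 * c6 ^ 7 -
    8095337215683208766668800000 * c4 ^ 17 * c6 ^ 5 +
    3602082588939636381360000000 * c4 ^ 20 * c6 ^ 3 - 567961737938704085625000000 * c4 ^ 23 * c6

/-- coefficient of `t ^ 50` in `famF ^ 5` -/
def dF550 (c4 c6 : R) : R :=
  664321626967375872000000000 * c4 * c6 ^ 16 - 1924693547101106208768000000 * c4 ^ 4 * c6 ^ 14 -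
    1326787012476421621678080000 * c4 ^ 7 * c6 ^ 12 +
    12071778883626631872827621376 * c4 ^ 10 * c6 ^ 10 -
    19653031035456936847784017920 * c4 ^ 13 * c6 ^ 8 +
    14593104014338803281264640000 * c4 ^ 16 * c6 ^ 6 -
    4859554146887753203968000000 * c4 ^ 19 * c6 ^ 4 +
    312029870017222392750000000 * c4 ^ 22 * c6 ^ 2 + 122831346967923444082031250 * c4 ^ 25

/-- coefficient of `t ^ 51` in `famF ^ 5` -/
def dF551 (c4 c6 : R) : R :=
  -260518285085245440000000000 * c6 ^ 17 - 204318903274265640960000000 * c4 ^ 3 * c6 ^ 15 +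
    5878502769762249788620800000 * c4 ^ 6 * c6 ^ 13 -
    16959845659467723981402931200 * c4 ^ 9 * c6 ^ 11 +
    22034796973249272539303116800 * c4 ^ 12 * c6 ^ 9 -
    14370870277475007467618304000 * c4 ^ 15 * c6 ^ 7 +
    3909954045765291914649600000 * c4 ^ 18 * c6 ^ 5 +
    196105128573657441600000000 * c4 ^ 21 * c6 ^ 3 - 223805792047291593046875000 * c4 ^ 24 * c6

/-- coefficient of `t ^ 52` in `famF ^ 5` -/
def dF552 (c4 c6 : R) : R :=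
  1385540011990764748800000000 * c4 ^ 2 * c6 ^ 16 -
    7726164148402476023808000000 * c4 ^ 5 * c6 ^ 14 +
    17425052112871524566827008000 * c4 ^ 8 * c6 ^ 12 -
    19605728522200115415015751680 * c4 ^ 11 * c6 ^ 10 +
    10071140660874263614036377600 * c4 ^ 14 * c6 ^ 8 +
    97266542634194576670720000 * c4 ^ 17 * c6 ^ 6 -
    2582813552078405004480000000 * c4 ^ 20 * c6 ^ 4 +
    1066423709791852533000000000 * c4 ^ 23 * c6 ^ 2 - 130716815481785212646484375 * c4 ^ 26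

/-- coefficient of `t ^ 53` in `famF ^ 5` -/
def dF553 (c4 c6 : R) : R :=
  -559062080305496064000000000 * c4 * c6 ^ 17 + 2411033594506279649280000000 * c4 ^ 4 * c6 ^ 15 -
    2358323961072957165404160000 * c4 ^ 7 * c6 ^ 13 -
    5296863499290920350855987200 * c4 ^ 10 * c6 ^ 11 +
    16610457948369110022330777600 * c4 ^ 13 * c6 ^ 9 -
    19385438219536295927218176000 * c4 ^ 16 * c6 ^ 7 +
    11859094200498926008320000000 * c4 ^ 19 * c6 ^ 5 -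
    3774182792144068893600000000 * c4 ^ 22 * c6 ^ 3 + 493284808975453326562500000 * c4 ^ 25 * c6

/-- coefficient of `t ^ 54` in `famF ^ 5` -/
def dF554 (c4 c6 : R) : R :=
  207060029742776320000000000 * c6 ^ 18 - 549787919627531059200000000 * c4 ^ 3 * c6 ^ 16 -
    1386987368855443498598400000 * c4 ^ 6 * c6 ^ 14 +
    8253971458221170422185984000 * c4 ^ 9 * c6 ^ 12 -
    15656481515858420990780375040 * c4 ^ 12 * c6 ^ 10 +
    15412151963611477641579724800 * c4 ^ 15 * c6 ^ 8 -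
    8223578256273682614681600000 * c4 ^ 18 * c6 ^ 6 +
    2019701686137982450560000000 * c4 ^ 21 * c6 ^ 4 -
    15022956600805291875000000 * c4 ^ 24 * c6 ^ 2 - 61027120497527797851562500 * c4 ^ 27

/-- coefficient of `t ^ 55` in `famF ^ 5` -/
def dF555 (c4 c6 : R) : R :=
  -650497467271348224000000000 * c4 ^ 2 * c6 ^ 17 +
    4448856343761538095513600000 * c4 ^ 5 * c6 ^ 15 -
    13119804046507394633564160000 * c4 ^ 8 * c6 ^ 13 +
    21708805968941828233022668800 * c4 ^ 11 * c6 ^ 11 -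
    21921934479097063035623178240 * c4 ^ 14 * c6 ^ 9 +
    13713644434473925340037120000 * c4 ^ 17 * c6 ^ 7 -
    5112379554311037476966400000 * c4 ^ 20 * c6 ^ 5 +
    1008343487762217288000000000 * c4 ^ 23 * c6 ^ 3 - 75034687752665050781250000 * c4 ^ 26 * c6

/-- coefficient of `t ^ 56` in `famF ^ 5` -/
def dF556 (c4 c6 : R) : R :=
  220606012996976640000000000 * c4 * c6 ^ 18 - 1372248631649092239360000000 * c4 ^ 4 * c6 ^ 16 +
    3370079626659826237440000000 * c4 ^ 7 * c6 ^ 14 -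
    3642425915569920572129280000 * c4 ^ 10 * c6 ^ 12 +
    135061865054109258366320640 * c4 ^ 13 * c6 ^ 10 +
    4269306643512765708238848000 * c4 ^ 16 * c6 ^ 8 -
    5217095439304397822361600000 * c4 ^ 19 * c6 ^ 6 +
    3030689598052300488000000000 * c4 ^ 22 * c6 ^ 4 -
    906095734492153218750000000 * c4 ^ 25 * c6 ^ 2 + 112121974739585467529296875 * c4 ^ 28

/-- coefficient of `t ^ 57` in `famF ^ 5` -/
def dF557 (c4 c6 : R) : R :=
  -77405618595430400000000000 * c6 ^ 19 + 463684284447090278400000000 * c4 ^ 3 * c6 ^ 17 -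
    1014366727152561291264000000 * c4 ^ 6 * c6 ^ 15 +
    607736183767785956966400000 * c4 ^ 9 * c6 ^ 13 +
    1441630112268463964474572800 * c4 ^ 12 * c6 ^ 11 -
    3526145422631216441878118400 * c4 ^ 15 * c6 ^ 9 +
    3572144361342833488035840000 * c4 ^ 18 * c6 ^ 7 -
    1986760852300237639680000000 * c4 ^ 21 * c6 ^ 5 +
    594846028997870175000000000 * c4 ^ 24 * c6 ^ 3 - 75362350144598085937500000 * c4 ^ 27 * c6

/-- coefficient of `t ^ 58` in `famF ^ 5` -/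
def dF558 (c4 c6 : R) : R :=
  113680706219016192000000000 * c4 ^ 2 * c6 ^ 18 - 937517896847390146560000000 * c4 ^ 5 * c6 ^ 16
    + 3427396733921013006336000000 * c4 ^ 8 * c6 ^ 14 -
    7288648247048127060639744000 * c4 ^ 11 * c6 ^ 12 +
    9933844270317086498598420480 * c4 ^ 14 * c6 ^ 10 -
    8995899970475057026695168000 * c4 ^ 17 * c6 ^ 8 +
    5411059334715487592448000000 * c4 ^ 20 * c6 ^ 6 -
    2083832903245573440000000000 * c4 ^ 23 * c6 ^ 4 +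
    465995496309127453125000000 * c4 ^ 26 * c6 ^ 2 - 46077523865583068847656250 * c4 ^ 29

/-- coefficient of `t ^ 59` in `famF ^ 5` -/
def dF559 (c4 c6 : R) : R :=
  -33776997205278720000000000 * c4 * c6 ^ 19 + 289197066774852403200000000 * c4 ^ 4 * c6 ^ 17 -
    1100013304145428611072000000 * c4 ^ 7 * c6 ^ 15 +
    2439672746430941594910720000 * c4 ^ 10 * c6 ^ 13 -
    3476895261971487942456115200 * c4 ^ 13 * c6 ^ 11 +
    3301957759546162408115404800 * c4 ^ 16 * c6 ^ 9 -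
    2089635676211777214873600000 * c4 ^ 19 * c6 ^ 7 +
    849755311357353523200000000 * c4 ^ 22 * c6 ^ 5 -
    201485231325545400000000000 * c4 ^ 25 * c6 ^ 3 + 21223586750207958984375000 * c4 ^ 28 * c6

/-- coefficient of `t ^ 60` in `famF ^ 5` -/
def dF560 (c4 c6 : R) : R :=
  11258999068426240000000000 * c6 ^ 20 - 106397541196627968000000000 * c4 ^ 3 * c6 ^ 18 +
    452279204263797719040000000 * c4 ^ 6 * c6 ^ 16 -
    1138854842783462168985600000 * c4 ^ 9 * c6 ^ 14 +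
    1881177640659640639291392000 * c4 ^ 12 * c6 ^ 12 -
    2129927009185947542592946176 * c4 ^ 15 * c6 ^ 10 +
    1674046020557712434135040000 * c4 ^ 18 * c6 ^ 8 -
    901869172608384368640000000 * c4 ^ 21 * c6 ^ 6 +
    318727380509538120000000000 * c4 ^ 24 * c6 ^ 4 - 66723977993636250000000000 * c4 ^ 27 * c6 ^ 2
    + 6283298708943145751953125 * c4 ^ 30

/-- `famC4 ^ 2` as a polynomial in `t` -/
def dC4sqP (c4 c6 t : R) : R :=
  dC4sq0 c4 c6 + dC4sq1 c4 c6 * t + dC4sq2 c4 c6 * t ^ 2 + dC4sq3 c4 c6 * t ^ 3 +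
    dC4sq4 c4 c6 * t ^ 4 + dC4sq5 c4 c6 * t ^ 5 + dC4sq6 c4 c6 * t ^ 6 + dC4sq7 c4 c6 * t ^ 7 +
    dC4sq8 c4 c6 * t ^ 8 + dC4sq9 c4 c6 * t ^ 9 + dC4sq10 c4 c6 * t ^ 10 + dC4sq11 c4 c6 * t ^ 11
    + dC4sq12 c4 c6 * t ^ 12 + dC4sq13 c4 c6 * t ^ 13 + dC4sq14 c4 c6 * t ^ 14 +
    dC4sq15 c4 c6 * t ^ 15 + dC4sq16 c4 c6 * t ^ 16 + dC4sq17 c4 c6 * t ^ 17 +
    dC4sq18 c4 c6 * t ^ 18 + dC4sq19 c4 c6 * t ^ 19 + dC4sq20 c4 c6 * t ^ 20 +
    dC4sq21 c4 c6 * t ^ 21 + dC4sq22 c4 c6 * t ^ 22 + dC4sq23 c4 c6 * t ^ 23 +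
    dC4sq24 c4 c6 * t ^ 24 + dC4sq25 c4 c6 * t ^ 25 + dC4sq26 c4 c6 * t ^ 26 +
    dC4sq27 c4 c6 * t ^ 27 + dC4sq28 c4 c6 * t ^ 28 + dC4sq29 c4 c6 * t ^ 29 +
    dC4sq30 c4 c6 * t ^ 30 + dC4sq31 c4 c6 * t ^ 31 + dC4sq32 c4 c6 * t ^ 32 +
    dC4sq33 c4 c6 * t ^ 33 + dC4sq34 c4 c6 * t ^ 34 + dC4sq35 c4 c6 * t ^ 35 +
    dC4sq36 c4 c6 * t ^ 36 + dC4sq37 c4 c6 * t ^ 37 + dC4sq38 c4 c6 * t ^ 38 +
    dC4sq39 c4 c6 * t ^ 39 + dC4sq40 c4 c6 * t ^ 40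

/-- `famC4 ^ 3` as a polynomial in `t` -/
def dC4cuP (c4 c6 t : R) : R :=
  dC4cu0 c4 c6 + dC4cu1 c4 c6 * t + dC4cu2 c4 c6 * t ^ 2 + dC4cu3 c4 c6 * t ^ 3 +
    dC4cu4 c4 c6 * t ^ 4 + dC4cu5 c4 c6 * t ^ 5 + dC4cu6 c4 c6 * t ^ 6 + dC4cu7 c4 c6 * t ^ 7 +
    dC4cu8 c4 c6 * t ^ 8 + dC4cu9 c4 c6 * t ^ 9 + dC4cu10 c4 c6 * t ^ 10 + dC4cu11 c4 c6 * t ^ 11
    + dC4cu12 c4 c6 * t ^ 12 + dC4cu13 c4 c6 * t ^ 13 + dC4cu14 c4 c6 * t ^ 14 +
    dC4cu15 c4 c6 * t ^ 15 + dC4cu16 c4 c6 * t ^ 16 + dC4cu17 c4 c6 * t ^ 17 +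
    dC4cu18 c4 c6 * t ^ 18 + dC4cu19 c4 c6 * t ^ 19 + dC4cu20 c4 c6 * t ^ 20 +
    dC4cu21 c4 c6 * t ^ 21 + dC4cu22 c4 c6 * t ^ 22 + dC4cu23 c4 c6 * t ^ 23 +
    dC4cu24 c4 c6 * t ^ 24 + dC4cu25 c4 c6 * t ^ 25 + dC4cu26 c4 c6 * t ^ 26 +
    dC4cu27 c4 c6 * t ^ 27 + dC4cu28 c4 c6 * t ^ 28 + dC4cu29 c4 c6 * t ^ 29 +
    dC4cu30 c4 c6 * t ^ 30 + dC4cu31 c4 c6 * t ^ 31 + dC4cu32 c4 c6 * t ^ 32 +
    dC4cu33 c4 c6 * t ^ 33 + dC4cu34 c4 c6 * t ^ 34 + dC4cu35 c4 c6 * t ^ 35 +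
    dC4cu36 c4 c6 * t ^ 36 + dC4cu37 c4 c6 * t ^ 37 + dC4cu38 c4 c6 * t ^ 38 +
    dC4cu39 c4 c6 * t ^ 39 + dC4cu40 c4 c6 * t ^ 40 + dC4cu41 c4 c6 * t ^ 41 +
    dC4cu42 c4 c6 * t ^ 42 + dC4cu43 c4 c6 * t ^ 43 + dC4cu44 c4 c6 * t ^ 44 +
    dC4cu45 c4 c6 * t ^ 45 + dC4cu46 c4 c6 * t ^ 46 + dC4cu47 c4 c6 * t ^ 47 +
    dC4cu48 c4 c6 * t ^ 48 + dC4cu49 c4 c6 * t ^ 49 + dC4cu50 c4 c6 * t ^ 50 +
    dC4cu51 c4 c6 * t ^ 51 + dC4cu52 c4 c6 * t ^ 52 + dC4cu53 c4 c6 * t ^ 53 +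
    dC4cu54 c4 c6 * t ^ 54 + dC4cu55 c4 c6 * t ^ 55 + dC4cu56 c4 c6 * t ^ 56 +
    dC4cu57 c4 c6 * t ^ 57 + dC4cu58 c4 c6 * t ^ 58 + dC4cu59 c4 c6 * t ^ 59 +
    dC4cu60 c4 c6 * t ^ 60

/-- `famC6 ^ 2` as a polynomial in `t` -/
def dC6sqP (c4 c6 t : R) : R :=
  dC6sq0 c4 c6 + dC6sq1 c4 c6 * t + dC6sq2 c4 c6 * t ^ 2 + dC6sq3 c4 c6 * t ^ 3 +
    dC6sq4 c4 c6 * t ^ 4 + dC6sq5 c4 c6 * t ^ 5 + dC6sq6 c4 c6 * t ^ 6 + dC6sq7 c4 c6 * t ^ 7 +
    dC6sq8 c4 c6 * t ^ 8 + dC6sq9 c4 c6 * t ^ 9 + dC6sq10 c4 c6 * t ^ 10 + dC6sq11 c4 c6 * t ^ 11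
    + dC6sq12 c4 c6 * t ^ 12 + dC6sq13 c4 c6 * t ^ 13 + dC6sq14 c4 c6 * t ^ 14 +
    dC6sq15 c4 c6 * t ^ 15 + dC6sq16 c4 c6 * t ^ 16 + dC6sq17 c4 c6 * t ^ 17 +
    dC6sq18 c4 c6 * t ^ 18 + dC6sq19 c4 c6 * t ^ 19 + dC6sq20 c4 c6 * t ^ 20 +
    dC6sq21 c4 c6 * t ^ 21 + dC6sq22 c4 c6 * t ^ 22 + dC6sq23 c4 c6 * t ^ 23 +
    dC6sq24 c4 c6 * t ^ 24 + dC6sq25 c4 c6 * t ^ 25 + dC6sq26 c4 c6 * t ^ 26 +
    dC6sq27 c4 c6 * t ^ 27 + dC6sq28 c4 c6 * t ^ 28 + dC6sq29 c4 c6 * t ^ 29 +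
    dC6sq30 c4 c6 * t ^ 30 + dC6sq31 c4 c6 * t ^ 31 + dC6sq32 c4 c6 * t ^ 32 +
    dC6sq33 c4 c6 * t ^ 33 + dC6sq34 c4 c6 * t ^ 34 + dC6sq35 c4 c6 * t ^ 35 +
    dC6sq36 c4 c6 * t ^ 36 + dC6sq37 c4 c6 * t ^ 37 + dC6sq38 c4 c6 * t ^ 38 +
    dC6sq39 c4 c6 * t ^ 39 + dC6sq40 c4 c6 * t ^ 40 + dC6sq41 c4 c6 * t ^ 41 +
    dC6sq42 c4 c6 * t ^ 42 + dC6sq43 c4 c6 * t ^ 43 + dC6sq44 c4 c6 * t ^ 44 +
    dC6sq45 c4 c6 * t ^ 45 + dC6sq46 c4 c6 * t ^ 46 + dC6sq47 c4 c6 * t ^ 47 +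
    dC6sq48 c4 c6 * t ^ 48 + dC6sq49 c4 c6 * t ^ 49 + dC6sq50 c4 c6 * t ^ 50 +
    dC6sq51 c4 c6 * t ^ 51 + dC6sq52 c4 c6 * t ^ 52 + dC6sq53 c4 c6 * t ^ 53 +
    dC6sq54 c4 c6 * t ^ 54 + dC6sq55 c4 c6 * t ^ 55 + dC6sq56 c4 c6 * t ^ 56 +
    dC6sq57 c4 c6 * t ^ 57 + dC6sq58 c4 c6 * t ^ 58 + dC6sq59 c4 c6 * t ^ 59 +
    dC6sq60 c4 c6 * t ^ 60

/-- `famF ^ 2` as a polynomial in `t` -/
def dF2P (c4 c6 t : R) : R :=
  dF20 c4 c6 + dF21 c4 c6 * t + dF22 c4 c6 * t ^ 2 + dF23 c4 c6 * t ^ 3 + dF24 c4 c6 * t ^ 4 +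
    dF25 c4 c6 * t ^ 5 + dF26 c4 c6 * t ^ 6 + dF27 c4 c6 * t ^ 7 + dF28 c4 c6 * t ^ 8 +
    dF29 c4 c6 * t ^ 9 + dF210 c4 c6 * t ^ 10 + dF211 c4 c6 * t ^ 11 + dF212 c4 c6 * t ^ 12 +
    dF213 c4 c6 * t ^ 13 + dF214 c4 c6 * t ^ 14 + dF215 c4 c6 * t ^ 15 + dF216 c4 c6 * t ^ 16 +
    dF217 c4 c6 * t ^ 17 + dF218 c4 c6 * t ^ 18 + dF219 c4 c6 * t ^ 19 + dF220 c4 c6 * t ^ 20 +
    dF221 c4 c6 * t ^ 21 + dF222 c4 c6 * t ^ 22 + dF223 c4 c6 * t ^ 23 + dF224 c4 c6 * t ^ 24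

/-- `famF ^ 4` as a polynomial in `t` -/
def dF4P (c4 c6 t : R) : R :=
  dF40 c4 c6 + dF41 c4 c6 * t + dF42 c4 c6 * t ^ 2 + dF43 c4 c6 * t ^ 3 + dF44 c4 c6 * t ^ 4 +
    dF45 c4 c6 * t ^ 5 + dF46 c4 c6 * t ^ 6 + dF47 c4 c6 * t ^ 7 + dF48 c4 c6 * t ^ 8 +
    dF49 c4 c6 * t ^ 9 + dF410 c4 c6 * t ^ 10 + dF411 c4 c6 * t ^ 11 + dF412 c4 c6 * t ^ 12 +
    dF413 c4 c6 * t ^ 13 + dF414 c4 c6 * t ^ 14 + dF415 c4 c6 * t ^ 15 + dF416 c4 c6 * t ^ 16 +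
    dF417 c4 c6 * t ^ 17 + dF418 c4 c6 * t ^ 18 + dF419 c4 c6 * t ^ 19 + dF420 c4 c6 * t ^ 20 +
    dF421 c4 c6 * t ^ 21 + dF422 c4 c6 * t ^ 22 + dF423 c4 c6 * t ^ 23 + dF424 c4 c6 * t ^ 24 +
    dF425 c4 c6 * t ^ 25 + dF426 c4 c6 * t ^ 26 + dF427 c4 c6 * t ^ 27 + dF428 c4 c6 * t ^ 28 +
    dF429 c4 c6 * t ^ 29 + dF430 c4 c6 * t ^ 30 + dF431 c4 c6 * t ^ 31 + dF432 c4 c6 * t ^ 32 +
    dF433 c4 c6 * t ^ 33 + dF434 c4 c6 * t ^ 34 + dF435 c4 c6 * t ^ 35 + dF436 c4 c6 * t ^ 36 +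
    dF437 c4 c6 * t ^ 37 + dF438 c4 c6 * t ^ 38 + dF439 c4 c6 * t ^ 39 + dF440 c4 c6 * t ^ 40 +
    dF441 c4 c6 * t ^ 41 + dF442 c4 c6 * t ^ 42 + dF443 c4 c6 * t ^ 43 + dF444 c4 c6 * t ^ 44 +
    dF445 c4 c6 * t ^ 45 + dF446 c4 c6 * t ^ 46 + dF447 c4 c6 * t ^ 47 + dF448 c4 c6 * t ^ 48

/-- `famF ^ 5` as a polynomial in `t` -/
def dF5P (c4 c6 t : R) : R :=
  dF50 c4 c6 + dF51 c4 c6 * t + dF52 c4 c6 * t ^ 2 + dF53 c4 c6 * t ^ 3 + dF54 c4 c6 * t ^ 4 +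
    dF55 c4 c6 * t ^ 5 + dF56 c4 c6 * t ^ 6 + dF57 c4 c6 * t ^ 7 + dF58 c4 c6 * t ^ 8 +
    dF59 c4 c6 * t ^ 9 + dF510 c4 c6 * t ^ 10 + dF511 c4 c6 * t ^ 11 + dF512 c4 c6 * t ^ 12 +
    dF513 c4 c6 * t ^ 13 + dF514 c4 c6 * t ^ 14 + dF515 c4 c6 * t ^ 15 + dF516 c4 c6 * t ^ 16 +
    dF517 c4 c6 * t ^ 17 + dF518 c4 c6 * t ^ 18 + dF519 c4 c6 * t ^ 19 + dF520 c4 c6 * t ^ 20 +
    dF521 c4 c6 * t ^ 21 + dF522 c4 c6 * t ^ 22 + dF523 c4 c6 * t ^ 23 + dF524 c4 c6 * t ^ 24 +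
    dF525 c4 c6 * t ^ 25 + dF526 c4 c6 * t ^ 26 + dF527 c4 c6 * t ^ 27 + dF528 c4 c6 * t ^ 28 +
    dF529 c4 c6 * t ^ 29 + dF530 c4 c6 * t ^ 30 + dF531 c4 c6 * t ^ 31 + dF532 c4 c6 * t ^ 32 +
    dF533 c4 c6 * t ^ 33 + dF534 c4 c6 * t ^ 34 + dF535 c4 c6 * t ^ 35 + dF536 c4 c6 * t ^ 36 +
    dF537 c4 c6 * t ^ 37 + dF538 c4 c6 * t ^ 38 + dF539 c4 c6 * t ^ 39 + dF540 c4 c6 * t ^ 40 +
    dF541 c4 c6 * t ^ 41 + dF542 c4 c6 * t ^ 42 + dF543 c4 c6 * t ^ 43 + dF544 c4 c6 * t ^ 44 +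
    dF545 c4 c6 * t ^ 45 + dF546 c4 c6 * t ^ 46 + dF547 c4 c6 * t ^ 47 + dF548 c4 c6 * t ^ 48 +
    dF549 c4 c6 * t ^ 49 + dF550 c4 c6 * t ^ 50 + dF551 c4 c6 * t ^ 51 + dF552 c4 c6 * t ^ 52 +
    dF553 c4 c6 * t ^ 53 + dF554 c4 c6 * t ^ 54 + dF555 c4 c6 * t ^ 55 + dF556 c4 c6 * t ^ 56 +
    dF557 c4 c6 * t ^ 57 + dF558 c4 c6 * t ^ 58 + dF559 c4 c6 * t ^ 59 + dF560 c4 c6 * t ^ 60

theorem famC4_sq_eq (c4 c6 t : R) : famC4 c4 c6 t ^ 2 = dC4sqP c4 c6 t := by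
  simp only [famC4, famC4c0, famC4c1, famC4c2, famC4c3, famC4c4, famC4c5, famC4c6, famC4c7, famC4c8, famC4c9, famC4c10, famC4c11, famC4c12, famC4c13, famC4c14, famC4c15, famC4c16, famC4c17, famC4c18, famC4c19, famC4c20,
    dC4sqP, dC4sq0, dC4sq1, dC4sq2, dC4sq3, dC4sq4, dC4sq5, dC4sq6, dC4sq7, dC4sq8, dC4sq9, dC4sq10, dC4sq11, dC4sq12, dC4sq13, dC4sq14, dC4sq15, dC4sq16, dC4sq17, dC4sq18, dC4sq19, dC4sq20, dC4sq21, dC4sq22, dC4sq23, dC4sq24, dC4sq25, dC4sq26, dC4sq27, dC4sq28, dC4sq29, dC4sq30, dC4sq31, dC4sq32, dC4sq33, dC4sq34, dC4sq35, dC4sq36, dC4sq37, dC4sq38, dC4sq39, dC4sq40]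
  ring

theorem famC4_cu_eq (c4 c6 t : R) : famC4 c4 c6 t ^ 3 = dC4cuP c4 c6 t := by
  have e : famC4 c4 c6 t ^ 3 = famC4 c4 c6 t ^ 2 * famC4 c4 c6 t := by ring
  rw [e, famC4_sq_eq]
  simp only [famC4, famC4c0, famC4c1, famC4c2, famC4c3, famC4c4, famC4c5, famC4c6, famC4c7, famC4c8, famC4c9, famC4c10, famC4c11, famC4c12, famC4c13, famC4c14, famC4c15, famC4c16, famC4c17, famC4c18, famC4c19, famC4c20,
    dC4sqP, dC4sq0, dC4sq1, dC4sq2, dC4sq3, dC4sq4, dC4sq5, dC4sq6, dC4sq7, dC4sq8, dC4sq9, dC4sq10, dC4sq11, dC4sq12, dC4sq13, dC4sq14, dC4sq15, dC4sq16, dC4sq17, dC4sq18, dC4sq19, dC4sq20, dC4sq21, dC4sq22, dC4sq23, dC4sq24, dC4sq25, dC4sq26, dC4sq27, dC4sq28, dC4sq29, dC4sq30, dC4sq31, dC4sq32, dC4sq33, dC4sq34, dC4sq35, dC4sq36, dC4sq37, dC4sq38, dC4sq39, dC4sq40,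
    dC4cuP, dC4cu0, dC4cu1, dC4cu2, dC4cu3, dC4cu4, dC4cu5, dC4cu6, dC4cu7, dC4cu8, dC4cu9, dC4cu10, dC4cu11, dC4cu12, dC4cu13, dC4cu14, dC4cu15, dC4cu16, dC4cu17, dC4cu18, dC4cu19, dC4cu20, dC4cu21, dC4cu22, dC4cu23, dC4cu24, dC4cu25, dC4cu26, dC4cu27, dC4cu28, dC4cu29, dC4cu30, dC4cu31, dC4cu32, dC4cu33, dC4cu34, dC4cu35, dC4cu36, dC4cu37, dC4cu38, dC4cu39, dC4cu40, dC4cu41, dC4cu42, dC4cu43, dC4cu44, dC4cu45, dC4cu46, dC4cu47, dC4cu48, dC4cu49, dC4cu50, dC4cu51, dC4cu52, dC4cu53, dC4cu54, dC4cu55, dC4cu56, dC4cu57, dC4cu58, dC4cu59, dC4cu60]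
  ring

theorem famC6_sq_eq (c4 c6 t : R) : famC6 c4 c6 t ^ 2 = dC6sqP c4 c6 t := by
  simp only [famC6, famC6c0, famC6c1, famC6c2, famC6c3, famC6c4, famC6c5, famC6c6, famC6c7, famC6c8, famC6c9, famC6c10, famC6c11, famC6c12, famC6c13, famC6c14, famC6c15, famC6c16, famC6c17, famC6c18, famC6c19, famC6c20, famC6c21, famC6c22, famC6c23, famC6c24, famC6c25, famC6c26, famC6c27, famC6c28, famC6c29, famC6c30,
    dC6sqP, dC6sq0, dC6sq1, dC6sq2, dC6sq3, dC6sq4, dC6sq5, dC6sq6, dC6sq7, dC6sq8, dC6sq9, dC6sq10, dC6sq11, dC6sq12, dC6sq13, dC6sq14, dC6sq15, dC6sq16, dC6sq17, dC6sq18, dC6sq19, dC6sq20, dC6sq21, dC6sq22, dC6sq23, dC6sq24, dC6sq25, dC6sq26, dC6sq27, dC6sq28, dC6sq29, dC6sq30, dC6sq31, dC6sq32, dC6sq33, dC6sq34, dC6sq35, dC6sq36, dC6sq37, dC6sq38, dC6sq39, dC6sq40, dC6sq41, dC6sq42, dC6sq43, dC6sq44, dC6sq45, dC6sq46, dC6sq47, dC6sq48, dC6sq49, dC6sq50, dC6sq51, dC6sq52, dC6sq53,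 dC6sq54, dC6sq55, dC6sq56, dC6sq57, dC6sq58, dC6sq59, dC6sq60]
  ring

theorem famF_sq_eq (c4 c6 t : R) : famF c4 c6 t ^ 2 = dF2P c4 c6 t := by
  simp only [famF, famFc0, famFc2, famFc3, famFc4, famFc5, famFc6, famFc7, famFc8, famFc9, famFc10, famFc11, famFc12,
    dF2P, dF20, dF21, dF22, dF23, dF24, dF25, dF26, dF27, dF28, dF29, dF210, dF211, dF212, dF213, dF214, dF215, dF216, dF217, dF218, dF219, dF220, dF221, dF222, dF223, dF224]
  ring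

theorem famF_pow4_eq (c4 c6 t : R) : famF c4 c6 t ^ 4 = dF4P c4 c6 t := by
  have e : famF c4 c6 t ^ 4 = (famF c4 c6 t ^ 2) ^ 2 := by ring
  rw [e, famF_sq_eq]
  simp only [dF2P, dF20, dF21, dF22, dF23, dF24, dF25, dF26, dF27, dF28, dF29, dF210, dF211, dF212, dF213, dF214, dF215, dF216, dF217, dF218, dF219, dF220, dF221, dF222, dF223, dF224,
    dF4P, dF40, dF41, dF42, dF43, dF44, dF45, dF46, dF47, dF48, dF49, dF410, dF411, dF412, dF413, dF414, dF415, dF416, dF417, dF418, dF419, dF420, dF421, dF422, dF423, dF424, dF425, dF426, dF427, dF428, dF429, dF430, dF431, dF432, dF433, dF434, dF435, dF436, dF437, dF438, dF439, dF440, dF441, dF442, dF443, dF444, dF445, dF446, dF447, dF448]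
  ring

theorem famF_pow5_eq (c4 c6 t : R) : famF c4 c6 t ^ 5 = dF5P c4 c6 t := by
  have e : famF c4 c6 t ^ 5 = famF c4 c6 t ^ 4 * famF c4 c6 t := by ring
  rw [e, famF_pow4_eq]
  simp only [famF, famFc0, famFc2, famFc3, famFc4, famFc5, famFc6, famFc7, famFc8, famFc9, famFc10, famFc11, famFc12,
    dF4P, dF40, dF41, dF42, dF43, dF44, dF45, dF46, dF47, dF48, dF49, dF410, dF411, dF412, dF413, dF414, dF415, dF416, dF417, dF418, dF419, dF420, dF421, dF422, dF423, dF424, dF425, dF426, dF427, dF428, dF429, dF430, dF431, dF432, dF433, dF434, dF435, dF436, dF437, dF438, dF439, dF440, dF441, dF442, dF443, dF444, dF445, dF446, dF447, dF448,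
    dF5P, dF50, dF51, dF52, dF53, dF54, dF55, dF56, dF57, dF58, dF59, dF510, dF511, dF512, dF513, dF514, dF515, dF516, dF517, dF518, dF519, dF520, dF521, dF522, dF523, dF524, dF525, dF526, dF527, dF528, dF529, dF530, dF531, dF532, dF533, dF534, dF535, dF536, dF537, dF538, dF539, dF540, dF541, dF542, dF543, dF544, dF545, dF546, dF547, dF548, dF549, dF550, dF551, dF552, dF553, dF554, dF555, dF556, dF557, dF558, dF559, dF560]
  ring

/-- **The discriminant identity of the family.** -/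
theorem fam_disc (c4 c6 t : R) :
    famC4 c4 c6 t ^ 3 - famC6 c4 c6 t ^ 2 = (c4 ^ 3 - c6 ^ 2) * famF c4 c6 t ^ 5 := by
  rw [famC4_cu_eq, famC6_sq_eq, famF_pow5_eq]
  simp only [dC4cuP, dC4cu0, dC4cu1, dC4cu2, dC4cu3, dC4cu4, dC4cu5, dC4cu6, dC4cu7, dC4cu8, dC4cu9, dC4cu10, dC4cu11, dC4cu12, dC4cu13, dC4cu14, dC4cu15, dC4cu16, dC4cu17, dC4cu18, dC4cu19, dC4cu20, dC4cu21, dC4cu22, dC4cu23, dC4cu24, dC4cu25, dC4cu26, dC4cu27, dC4cu28, dC4cu29, dC4cu30, dC4cu31, dC4cu32, dC4cu33, dC4cu34, dC4cu35, dC4cu36, dC4cu37, dC4cu38, dC4cu39, dC4cu40, dC4cu41, dC4cu42, dC4cu43, dC4cu44, dC4cu45, dC4cu46, dC4cu47, dC4cu48, dC4cu49, dC4cu50, dC4cu51, dC4cu52, dC4cu53, dC4cu54, dC4cu55, dC4cu56, dC4cu57, dC4cu58, dC4cu59, dC4cu60,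
    dC6sqP, dC6sq0, dC6sq1, dC6sq2, dC6sq3, dC6sq4, dC6sq5, dC6sq6, dC6sq7, dC6sq8, dC6sq9, dC6sq10, dC6sq11, dC6sq12, dC6sq13, dC6sq14, dC6sq15, dC6sq16, dC6sq17, dC6sq18, dC6sq19, dC6sq20, dC6sq21, dC6sq22, dC6sq23, dC6sq24, dC6sq25, dC6sq26, dC6sq27, dC6sq28, dC6sq29, dC6sq30, dC6sq31, dC6sq32, dC6sq33, dC6sq34, dC6sq35, dC6sq36, dC6sq37, dC6sq38, dC6sq39, dC6sq40, dC6sq41, dC6sq42, dC6sq43, dC6sq44, dC6sq45, dC6sq46, dC6sq47, dC6sq48, dC6sq49, dC6sq50, dC6sq51, dC6sq52, dC6sq53, dC6sq54, dC6sq55, dC6sq56, dC6sq57, dC6sq58, dC6sq59, dC6sq60,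
    dF5P, dF50, dF51, dF52, dF53, dF54, dF55, dF56, dF57, dF58, dF59, dF510, dF511, dF512, dF513, dF514, dF515, dF516, dF517, dF518, dF519, dF520, dF521, dF522, dF523, dF524, dF525, dF526, dF527, dF528, dF529, dF530, dF531, dF532, dF533, dF534, dF535, dF536, dF537, dF538, dF539, dF540, dF541, dF542, dF543, dF544, dF545, dF546, dF547, dF548, dF549, dF550, dF551, dF552, dF553, dF554, dF555, dF556, dF557, dF558, dF559, dF560]
  ring

end Fermat.Agent.S52.H60
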