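/-
Cluster E (S52), family identity (I1) (helper60):
`famC4 (v² tC4 b) (v³ tC6 b) t = v² hC4 (tnfN b (v t)) (tnfD b (v t))`,
proved coefficient by coefficient in `τ` (a single `ring` call needs > 6 GB).
GENERATED by a script (exact integer arithmetic); every identity is checked by `ring`.
-/
import Fermat.Agent.S52.Family

set_option autoImplicit false
set_option linter.unusedSimpArgs false
set_option linter.unusedVariables false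

namespace Fermat.Agent.S52.H60

open Fermat.Agent.S52

variable {R : Type*} [CommRing R]

/-- coefficient of `τ ^ 0` in `tnfN ^ 2` -/
def sqA0 (b : R) : R :=
  b ^ 2

/-- coefficient of `τ ^ 1` in `tnfN ^ 2` -/
def sqA1 (b : R) : R :=
  -14 * b ^ 2 - 132 * b ^ 3 + 10 * b ^ 4

/-- coefficient of `τ ^ 2` in `tnfN ^ 2` -/
def sqA2 (b : R) : R :=
  -27 * b ^ 2 + 396 * b ^ 3 + 7830 * b ^ 4 - 1188 * b ^ 5 + 45 * b ^ 6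

/-- coefficient of `τ ^ 3` in `tnfN ^ 2` -/
def sqA3 (b : R) : R :=
  408 * b ^ 2 + 7920 * b ^ 3 + 11592 * b ^ 4 - 281952 * b ^ 5 + 63144 * b ^ 6 - 4752 * b ^ 7 +
    120 * b ^ 8

/-- coefficient of `τ ^ 4` in `tnfN ^ 2` -/
def sqA4 (b : R) : R :=
  2226 * b ^ 2 + 33264 * b ^ 3 - 33576 * b ^ 4 - 799920 * b ^ 5 + 6782220 * b ^ 6 -
    1984752 * b ^ 7 + 221592 * b ^ 8 - 11088 * b ^ 9 + 210 * b ^ 10

/-- coefficient of `τ ^ 5` in `tnfN ^ 2` -/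
def sqA5 (b : R) : R :=
  5292 * b ^ 2 + 72072 * b ^ 3 - 7668 * b ^ 4 + 1054944 * b ^ 5 + 20396376 * b ^ 6 -
    112741200 * b ^ 7 + 40448376 * b ^ 8 - 5965344 * b ^ 9 + 443772 * b ^ 10 - 16632 * b ^ 11 +
    252 * b ^ 12

/-- coefficient of `τ ^ 6` in `tnfN ^ 2` -/
def sqA6 (b : R) : R :=
  7266 * b ^ 2 + 94248 * b ^ 3 + 324180 * b ^ 4 + 7488360 * b ^ 5 + 22984110 * b ^ 6 -
    308286000 * b ^ 7 + 1306691160 * b ^ 8 - 551430000 * b ^ 9 + 100916190 * b ^ 10 -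
    9951480 * b ^ 11 + 555156 * b ^ 12 - 16632 * b ^ 13 + 210 * b ^ 14

/-- coefficient of `τ ^ 7` in `tnfN ^ 2` -/
def sqA7 (b : R) : R :=
  6168 * b ^ 2 + 77616 * b ^ 3 + 733800 * b ^ 4 + 13207392 * b ^ 5 + 21409560 * b ^ 6 -
    145260720 * b ^ 7 + 3229207080 * b ^ 8 - 10480916160 * b ^ 9 + 5022115080 * b ^ 10 -
    1094583600 * b ^ 11 + 134418168 * b ^ 12 - 9957024 * b ^ 13 + 444360 * b ^ 14 - 11088 * b ^ 15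
    + 120 * b ^ 16

/-- coefficient of `τ ^ 8` in `tnfN ^ 2` -/
def sqA8 (b : R) : R :=
  3213 * b ^ 2 + 39600 * b ^ 3 + 707832 * b ^ 4 + 11352528 * b ^ 5 + 29879244 * b ^ 6 +
    316193328 * b ^ 7 + 2920483080 * b ^ 8 - 20803345200 * b ^ 9 + 56116960110 * b ^ 10 -
    29582982000 * b ^ 11 + 7430674248 * b ^ 12 - 1090417680 * b ^ 13 + 100752012 * b ^ 14 -
    5976432 * b ^ 15 + 222264 * b ^ 16 - 4752 * b ^ 17 + 45 * b ^ 18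

/-- coefficient of `τ ^ 9` in `tnfN ^ 2` -/
def sqA9 (b : R) : R :=
  946 * b ^ 2 + 11484 * b ^ 3 + 329274 * b ^ 4 + 4926240 * b ^ 5 + 25736040 * b ^ 6 +
    386855568 * b ^ 7 + 1179196392 * b ^ 8 - 12339901728 * b ^ 9 + 73718474940 * b ^ 10 -
    179709635160 * b ^ 11 + 102638287116 * b ^ 12 - 28961434656 * b ^ 13 + 4919581704 * b ^ 14 -
    543953520 * b ^ 15 + 40284360 * b ^ 16 - 1992672 * b ^ 17 + 63522 * b ^ 18 - 1188 * b ^ 19 +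
    10 * b ^ 20

/-- coefficient of `τ ^ 10` in `tnfN ^ 2` -/
def sqA10 (b : R) : R :=
  121 * b ^ 2 + 1452 * b ^ 3 + 60742 * b ^ 4 + 866844 * b ^ 5 + 7959501 * b ^ 6 +
    122926320 * b ^ 7 + 221456136 * b ^ 8 - 1471996944 * b ^ 9 + 28569774882 * b ^ 10 -
    84698508312 * b ^ 11 + 253729264932 * b ^ 12 - 159058966968 * b ^ 13 + 49727540082 * b ^ 14 -
    9550061136 * b ^ 15 + 1224761736 * b ^ 16 - 108622800 * b ^ 17 + 6712101 * b ^ 18 -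
    284724 * b ^ 19 + 7942 * b ^ 20 - 132 * b ^ 21 + b ^ 22

/-- coefficient of `τ ^ 0` in `tnfN * tnfD` -/
def sqB0 (b : R) : R :=
  b

/-- coefficient of `τ ^ 1` in `tnfN * tnfD` -/
def sqB1 (b : R) : R :=
  -2 * b - 2 * b ^ 3

/-- coefficient of `τ ^ 2` in `tnfN * tnfD` -/
def sqB2 (b : R) : R :=
  -63 * b - 792 * b ^ 2 - 738 * b ^ 3 + 792 * b ^ 4 - 63 * b ^ 5

/-- coefficient of `τ ^ 3` in `tnfN * tnfD` -/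
def sqB3 (b : R) : R :=
  -312 * b - 6336 * b ^ 2 - 31752 * b ^ 3 - 31752 * b ^ 5 + 6336 * b ^ 6 - 312 * b ^ 7

/-- coefficient of `τ ^ 4` in `tnfN * tnfD` -/
def sqB4 (b : R) : R :=
  -798 * b - 22176 * b ^ 2 - 201768 * b ^ 3 - 592416 * b ^ 4 + 129420 * b ^ 5 + 592416 * b ^ 6 -
    201768 * b ^ 7 + 22176 * b ^ 8 - 798 * b ^ 9

/-- coefficient of `τ ^ 5` in `tnfN * tnfD` -/
def sqB5 (b : R) : R :=
  -1260 * b - 44352 * b ^ 2 - 584892 * b ^ 3 - 3510144 * b ^ 4 - 8357976 * b ^ 5 - 8357976 * b ^ 7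
    + 3510144 * b ^ 8 - 584892 * b ^ 9 + 44352 * b ^ 10 - 1260 * b ^ 11

/-- coefficient of `τ ^ 6` in `tnfN * tnfD` -/
def sqB6 (b : R) : R :=
  -1302 * b - 55440 * b ^ 2 - 957852 * b ^ 3 - 8719920 * b ^ 4 - 44838090 * b ^ 5 -
    121572000 * b ^ 6 - 105025800 * b ^ 7 + 121572000 * b ^ 8 - 44838090 * b ^ 9 +
    8719920 * b ^ 10 - 957852 * b ^ 11 + 55440 * b ^ 12 - 1302 * b ^ 13

/-- coefficient of `τ ^ 7` in `tnfN * tnfD` -/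
def sqB7 (b : R) : R :=
  -888 * b - 44352 * b ^ 2 - 947688 * b ^ 3 - 11582208 * b ^ 4 - 92076408 * b ^ 5 -
    474661440 * b ^ 6 - 1180355880 * b ^ 7 - 1180355880 * b ^ 9 + 474661440 * b ^ 10 -
    92076408 * b ^ 11 + 11582208 * b ^ 12 - 947688 * b ^ 13 + 44352 * b ^ 14 - 888 * b ^ 15

/-- coefficient of `τ ^ 8` in `tnfN * tnfD` -/
def sqB8 (b : R) : R :=
  -387 * b - 22176 * b ^ 2 - 564552 * b ^ 3 - 8664480 * b ^ 4 - 93386772 * b ^ 5 -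
    703305504 * b ^ 6 - 2991472632 * b ^ 7 - 4389818400 * b ^ 8 + 795192750 * b ^ 9 +
    4389818400 * b ^ 10 - 2991472632 * b ^ 11 + 703305504 * b ^ 12 - 93386772 * b ^ 13 +
    8664480 * b ^ 14 - 564552 * b ^ 15 + 22176 * b ^ 16 - 387 * b ^ 17

/-- coefficient of `τ ^ 9` in `tnfN * tnfD` -/
def sqB9 (b : R) : R :=
  -98 * b - 6336 * b ^ 2 - 187218 * b ^ 3 - 3459456 * b ^ 4 - 47108520 * b ^ 5 - 465404544 * b ^ 6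
    - 2821399368 * b ^ 7 - 8310766464 * b ^ 8 - 7642099548 * b ^ 9 - 7642099548 * b ^ 11 +
    8310766464 * b ^ 12 - 2821399368 * b ^ 13 + 465404544 * b ^ 14 - 47108520 * b ^ 15 +
    3459456 * b ^ 16 - 187218 * b ^ 17 + 6336 * b ^ 18 - 98 * b ^ 19

/-- coefficient of `τ ^ 10` in `tnfN * tnfD` -/
def sqB10 (b : R) : R :=
  -11 * b - 792 * b ^ 2 - 26642 * b ^ 3 - 575784 * b ^ 4 - 9479151 * b ^ 5 - 115774560 * b ^ 6 -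
    913413336 * b ^ 7 - 4039032096 * b ^ 8 - 9573394182 * b ^ 9 - 37180229328 * b ^ 10 -
    194202431532 * b ^ 11 + 37180229328 * b ^ 12 - 9573394182 * b ^ 13 + 4039032096 * b ^ 14 -
    913413336 * b ^ 15 + 115774560 * b ^ 16 - 9479151 * b ^ 17 + 575784 * b ^ 18 - 26642 * b ^ 19
    + 792 * b ^ 20 - 11 * b ^ 21

/-- coefficient of `τ ^ 0` in `tnfD ^ 2` -/
def sqC0 (b : R) : R :=
  1

/-- coefficient of `τ ^ 1` in `tnfD ^ 2` -/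
def sqC1 (b : R) : R :=
  10 + 132 * b - 14 * b ^ 2

/-- coefficient of `τ ^ 2` in `tnfD ^ 2` -/
def sqC2 (b : R) : R :=
  45 + 1188 * b + 7830 * b ^ 2 - 396 * b ^ 3 - 27 * b ^ 4

/-- coefficient of `τ ^ 3` in `tnfD ^ 2` -/
def sqC3 (b : R) : R :=
  120 + 4752 * b + 63144 * b ^ 2 + 281952 * b ^ 3 + 11592 * b ^ 4 - 7920 * b ^ 5 + 408 * b ^ 6

/-- coefficient of `τ ^ 4` in `tnfD ^ 2` -/
def sqC4 (b : R) : R :=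
  210 + 11088 * b + 221592 * b ^ 2 + 1984752 * b ^ 3 + 6782220 * b ^ 4 + 799920 * b ^ 5 -
    33576 * b ^ 6 - 33264 * b ^ 7 + 2226 * b ^ 8

/-- coefficient of `τ ^ 5` in `tnfD ^ 2` -/
def sqC5 (b : R) : R :=
  252 + 16632 * b + 443772 * b ^ 2 + 5965344 * b ^ 3 + 40448376 * b ^ 4 + 112741200 * b ^ 5 +
    20396376 * b ^ 6 - 1054944 * b ^ 7 - 7668 * b ^ 8 - 72072 * b ^ 9 + 5292 * b ^ 10

/-- coefficient of `τ ^ 6` in `tnfD ^ 2` -/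
def sqC6 (b : R) : R :=
  210 + 16632 * b + 555156 * b ^ 2 + 9951480 * b ^ 3 + 100916190 * b ^ 4 + 551430000 * b ^ 5 +
    1306691160 * b ^ 6 + 308286000 * b ^ 7 + 22984110 * b ^ 8 - 7488360 * b ^ 9 + 324180 * b ^ 10
    - 94248 * b ^ 11 + 7266 * b ^ 12

/-- coefficient of `τ ^ 7` in `tnfD ^ 2` -/
def sqC7 (b : R) : R :=
  120 + 11088 * b + 444360 * b ^ 2 + 9957024 * b ^ 3 + 134418168 * b ^ 4 + 1094583600 * b ^ 5 +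
    5022115080 * b ^ 6 + 10480916160 * b ^ 7 + 3229207080 * b ^ 8 + 145260720 * b ^ 9 +
    21409560 * b ^ 10 - 13207392 * b ^ 11 + 733800 * b ^ 12 - 77616 * b ^ 13 + 6168 * b ^ 14

/-- coefficient of `τ ^ 8` in `tnfD ^ 2` -/
def sqC8 (b : R) : R :=
  45 + 4752 * b + 222264 * b ^ 2 + 5976432 * b ^ 3 + 100752012 * b ^ 4 + 1090417680 * b ^ 5 +
    7430674248 * b ^ 6 + 29582982000 * b ^ 7 + 56116960110 * b ^ 8 + 20803345200 * b ^ 9 +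
    2920483080 * b ^ 10 - 316193328 * b ^ 11 + 29879244 * b ^ 12 - 11352528 * b ^ 13 +
    707832 * b ^ 14 - 39600 * b ^ 15 + 3213 * b ^ 16

/-- coefficient of `τ ^ 9` in `tnfD ^ 2` -/
def sqC9 (b : R) : R :=
  10 + 1188 * b + 63522 * b ^ 2 + 1992672 * b ^ 3 + 40284360 * b ^ 4 + 543953520 * b ^ 5 +
    4919581704 * b ^ 6 + 28961434656 * b ^ 7 + 102638287116 * b ^ 8 + 179709635160 * b ^ 9 +
    73718474940 * b ^ 10 + 12339901728 * b ^ 11 + 1179196392 * b ^ 12 - 386855568 * b ^ 13 +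
    25736040 * b ^ 14 - 4926240 * b ^ 15 + 329274 * b ^ 16 - 11484 * b ^ 17 + 946 * b ^ 18

/-- coefficient of `τ ^ 10` in `tnfD ^ 2` -/
def sqC10 (b : R) : R :=
  1 + 132 * b + 7942 * b ^ 2 + 284724 * b ^ 3 + 6712101 * b ^ 4 + 108622800 * b ^ 5 +
    1224761736 * b ^ 6 + 9550061136 * b ^ 7 + 49727540082 * b ^ 8 + 159058966968 * b ^ 9 +
    253729264932 * b ^ 10 + 84698508312 * b ^ 11 + 28569774882 * b ^ 12 + 1471996944 * b ^ 13 +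
    221456136 * b ^ 14 - 122926320 * b ^ 15 + 7959501 * b ^ 16 - 866844 * b ^ 17 + 60742 * b ^ 18
    - 1452 * b ^ 19 + 121 * b ^ 20

theorem tnfN_sq_eq (b τ : R) :
    tnfN b τ ^ 2 =
      sqA0 b + sqA1 b * τ + sqA2 b * τ ^ 2 + sqA3 b * τ ^ 3 + sqA4 b * τ ^ 4 + sqA5 b * τ ^ 5 +
        sqA6 b * τ ^ 6 + sqA7 b * τ ^ 7 + sqA8 b * τ ^ 8 + sqA9 b * τ ^ 9 + sqA10 b * τ ^ 10 := by
  simp only [tnfN, tnfNc0, tnfNc1, tnfNc2, tnfNc3, tnfNc4, tnfNc5,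
    sqA0, sqA1, sqA2, sqA3, sqA4, sqA5, sqA6, sqA7, sqA8, sqA9, sqA10]
  ring

theorem tnfN_mul_tnfD_eq (b τ : R) :
    tnfN b τ * tnfD b τ =
      sqB0 b + sqB1 b * τ + sqB2 b * τ ^ 2 + sqB3 b * τ ^ 3 + sqB4 b * τ ^ 4 + sqB5 b * τ ^ 5 +
        sqB6 b * τ ^ 6 + sqB7 b * τ ^ 7 + sqB8 b * τ ^ 8 + sqB9 b * τ ^ 9 + sqB10 b * τ ^ 10 := by
  simp only [tnfN, tnfNc0, tnfNc1, tnfNc2, tnfNc3, tnfNc4, tnfNc5,
    tnfD, tnfDc0, tnfDc1, tnfDc2, tnfDc3, tnfDc4, tnfDc5,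
    sqB0, sqB1, sqB2, sqB3, sqB4, sqB5, sqB6, sqB7, sqB8, sqB9, sqB10]
  ring

theorem tnfD_sq_eq (b τ : R) :
    tnfD b τ ^ 2 =
      sqC0 b + sqC1 b * τ + sqC2 b * τ ^ 2 + sqC3 b * τ ^ 3 + sqC4 b * τ ^ 4 + sqC5 b * τ ^ 5 +
        sqC6 b * τ ^ 6 + sqC7 b * τ ^ 7 + sqC8 b * τ ^ 8 + sqC9 b * τ ^ 9 + sqC10 b * τ ^ 10 := by
  simp only [tnfD, tnfDc0, tnfDc1, tnfDc2, tnfDc3, tnfDc4, tnfDc5,
    sqC0, sqC1, sqC2, sqC3, sqC4, sqC5, sqC6, sqC7, sqC8, sqC9, sqC10]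
  ring

theorem quartic_conv4 (a0 a1 a2 a3 a4 a5 a6 a7 a8 a9 a10 b0 b1 b2 b3 b4 b5 b6 b7 b8 b9 b10 c0 c1 c2 c3 c4 c5 c6 c7 c8 c9 c10 τ : R) :
    (a0 + a1 * τ + a2 * τ ^ 2 + a3 * τ ^ 3 + a4 * τ ^ 4 + a5 * τ ^ 5 + a6 * τ ^ 6 + a7 * τ ^ 7 +
      a8 * τ ^ 8 + a9 * τ ^ 9 + a10 * τ ^ 10) ^ 2 + -12 * ((a0 + a1 * τ + a2 * τ ^ 2 + a3 * τ ^ 3
      + a4 * τ ^ 4 + a5 * τ ^ 5 + a6 * τ ^ 6 + a7 * τ ^ 7 + a8 * τ ^ 8 + a9 * τ ^ 9 +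
      a10 * τ ^ 10) * (b0 + b1 * τ + b2 * τ ^ 2 + b3 * τ ^ 3 + b4 * τ ^ 4 + b5 * τ ^ 5 +
      b6 * τ ^ 6 + b7 * τ ^ 7 + b8 * τ ^ 8 + b9 * τ ^ 9 + b10 * τ ^ 10)) + 14 * ((a0 + a1 * τ +
      a2 * τ ^ 2 + a3 * τ ^ 3 + a4 * τ ^ 4 + a5 * τ ^ 5 + a6 * τ ^ 6 + a7 * τ ^ 7 + a8 * τ ^ 8 +
      a9 * τ ^ 9 + a10 * τ ^ 10) * (c0 + c1 * τ + c2 * τ ^ 2 + c3 * τ ^ 3 + c4 * τ ^ 4 +
      c5 * τ ^ 5 + c6 * τ ^ 6 + c7 * τ ^ 7 + c8 * τ ^ 8 + c9 * τ ^ 9 + c10 * τ ^ 10)) + 12 * ((b0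
      + b1 * τ + b2 * τ ^ 2 + b3 * τ ^ 3 + b4 * τ ^ 4 + b5 * τ ^ 5 + b6 * τ ^ 6 + b7 * τ ^ 7 +
      b8 * τ ^ 8 + b9 * τ ^ 9 + b10 * τ ^ 10) * (c0 + c1 * τ + c2 * τ ^ 2 + c3 * τ ^ 3 +
      c4 * τ ^ 4 + c5 * τ ^ 5 + c6 * τ ^ 6 + c7 * τ ^ 7 + c8 * τ ^ 8 + c9 * τ ^ 9 + c10 * τ ^ 10))
      + (c0 + c1 * τ + c2 * τ ^ 2 + c3 * τ ^ 3 + c4 * τ ^ 4 + c5 * τ ^ 5 + c6 * τ ^ 6 + c7 * τ ^ 7
      + c8 * τ ^ 8 + c9 * τ ^ 9 + c10 * τ ^ 10) ^ 2 =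
      ((a0 * a0 + -12 * (a0 * b0) + 14 * (a0 * c0) + 12 * (b0 * c0) + c0 * c0)) + ((a0 * a1 +
        -12 * (a0 * b1) + 14 * (a0 * c1) + 12 * (b0 * c1) + c0 * c1) + (a1 * a0 + -12 * (a1 * b0)
        + 14 * (a1 * c0) + 12 * (b1 * c0) + c1 * c0)) * τ + ((a0 * a2 + -12 * (a0 * b2) +
        14 * (a0 * c2) + 12 * (b0 * c2) + c0 * c2) + (a1 * a1 + -12 * (a1 * b1) + 14 * (a1 * c1)
        + 12 * (b1 * c1) + c1 * c1) + (a2 * a0 + -12 * (a2 * b0) + 14 * (a2 * c0) + 12 * (b2 * c0)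
        + c2 * c0)) * τ ^ 2 + ((a0 * a3 + -12 * (a0 * b3) + 14 * (a0 * c3) + 12 * (b0 * c3) +
        c0 * c3) + (a1 * a2 + -12 * (a1 * b2) + 14 * (a1 * c2) + 12 * (b1 * c2) + c1 * c2) +
        (a2 * a1 + -12 * (a2 * b1) + 14 * (a2 * c1) + 12 * (b2 * c1) + c2 * c1) + (a3 * a0 +
        -12 * (a3 * b0) + 14 * (a3 * c0) + 12 * (b3 * c0) + c3 * c0)) * τ ^ 3 + ((a0 * a4 +
        -12 * (a0 * b4) + 14 * (a0 * c4) + 12 * (b0 * c4) + c0 * c4) + (a1 * a3 + -12 * (a1 * b3)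
        + 14 * (a1 * c3) + 12 * (b1 * c3) + c1 * c3) + (a2 * a2 + -12 * (a2 * b2) + 14 * (a2 * c2)
        + 12 * (b2 * c2) + c2 * c2) + (a3 * a1 + -12 * (a3 * b1) + 14 * (a3 * c1) + 12 * (b3 * c1)
        + c3 * c1) + (a4 * a0 + -12 * (a4 * b0) + 14 * (a4 * c0) + 12 * (b4 * c0) +
        c4 * c0)) * τ ^ 4 + ((a0 * a5 + -12 * (a0 * b5) + 14 * (a0 * c5) + 12 * (b0 * c5) +
        c0 * c5) + (a1 * a4 + -12 * (a1 * b4) + 14 * (a1 * c4) + 12 * (b1 * c4) + c1 * c4) +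
        (a2 * a3 + -12 * (a2 * b3) + 14 * (a2 * c3) + 12 * (b2 * c3) + c2 * c3) + (a3 * a2 +
        -12 * (a3 * b2) + 14 * (a3 * c2) + 12 * (b3 * c2) + c3 * c2) + (a4 * a1 + -12 * (a4 * b1)
        + 14 * (a4 * c1) + 12 * (b4 * c1) + c4 * c1) + (a5 * a0 + -12 * (a5 * b0) + 14 * (a5 * c0)
        + 12 * (b5 * c0) + c5 * c0)) * τ ^ 5 + ((a0 * a6 + -12 * (a0 * b6) + 14 * (a0 * c6) +
        12 * (b0 * c6) + c0 * c6) + (a1 * a5 + -12 * (a1 * b5) + 14 * (a1 * c5) + 12 * (b1 * c5)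
        + c1 * c5) + (a2 * a4 + -12 * (a2 * b4) + 14 * (a2 * c4) + 12 * (b2 * c4) + c2 * c4) +
        (a3 * a3 + -12 * (a3 * b3) + 14 * (a3 * c3) + 12 * (b3 * c3) + c3 * c3) + (a4 * a2 +
        -12 * (a4 * b2) + 14 * (a4 * c2) + 12 * (b4 * c2) + c4 * c2) + (a5 * a1 + -12 * (a5 * b1)
        + 14 * (a5 * c1) + 12 * (b5 * c1) + c5 * c1) + (a6 * a0 + -12 * (a6 * b0) + 14 * (a6 * c0)
        + 12 * (b6 * c0) + c6 * c0)) * τ ^ 6 + ((a0 * a7 + -12 * (a0 * b7) + 14 * (a0 * c7) +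
        12 * (b0 * c7) + c0 * c7) + (a1 * a6 + -12 * (a1 * b6) + 14 * (a1 * c6) + 12 * (b1 * c6)
        + c1 * c6) + (a2 * a5 + -12 * (a2 * b5) + 14 * (a2 * c5) + 12 * (b2 * c5) + c2 * c5) +
        (a3 * a4 + -12 * (a3 * b4) + 14 * (a3 * c4) + 12 * (b3 * c4) + c3 * c4) + (a4 * a3 +
        -12 * (a4 * b3) + 14 * (a4 * c3) + 12 * (b4 * c3) + c4 * c3) + (a5 * a2 + -12 * (a5 * b2)
        + 14 * (a5 * c2) + 12 * (b5 * c2) + c5 * c2) + (a6 * a1 + -12 * (a6 * b1) + 14 * (a6 * c1)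
        + 12 * (b6 * c1) + c6 * c1) + (a7 * a0 + -12 * (a7 * b0) + 14 * (a7 * c0) + 12 * (b7 * c0)
        + c7 * c0)) * τ ^ 7 + ((a0 * a8 + -12 * (a0 * b8) + 14 * (a0 * c8) + 12 * (b0 * c8) +
        c0 * c8) + (a1 * a7 + -12 * (a1 * b7) + 14 * (a1 * c7) + 12 * (b1 * c7) + c1 * c7) +
        (a2 * a6 + -12 * (a2 * b6) + 14 * (a2 * c6) + 12 * (b2 * c6) + c2 * c6) + (a3 * a5 +
        -12 * (a3 * b5) + 14 * (a3 * c5) + 12 * (b3 * c5) + c3 * c5) + (a4 * a4 + -12 * (a4 * b4)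
        + 14 * (a4 * c4) + 12 * (b4 * c4) + c4 * c4) + (a5 * a3 + -12 * (a5 * b3) + 14 * (a5 * c3)
        + 12 * (b5 * c3) + c5 * c3) + (a6 * a2 + -12 * (a6 * b2) + 14 * (a6 * c2) + 12 * (b6 * c2)
        + c6 * c2) + (a7 * a1 + -12 * (a7 * b1) + 14 * (a7 * c1) + 12 * (b7 * c1) + c7 * c1) +
        (a8 * a0 + -12 * (a8 * b0) + 14 * (a8 * c0) + 12 * (b8 * c0) + c8 * c0)) * τ ^ 8 +
        ((a0 * a9 + -12 * (a0 * b9) + 14 * (a0 * c9) + 12 * (b0 * c9) + c0 * c9) + (a1 * a8 +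
        -12 * (a1 * b8) + 14 * (a1 * c8) + 12 * (b1 * c8) + c1 * c8) + (a2 * a7 + -12 * (a2 * b7)
        + 14 * (a2 * c7) + 12 * (b2 * c7) + c2 * c7) + (a3 * a6 + -12 * (a3 * b6) + 14 * (a3 * c6)
        + 12 * (b3 * c6) + c3 * c6) + (a4 * a5 + -12 * (a4 * b5) + 14 * (a4 * c5) + 12 * (b4 * c5)
        + c4 * c5) + (a5 * a4 + -12 * (a5 * b4) + 14 * (a5 * c4) + 12 * (b5 * c4) + c5 * c4) +
        (a6 * a3 + -12 * (a6 * b3) + 14 * (a6 * c3) + 12 * (b6 * c3) + c6 * c3) + (a7 * a2 +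
        -12 * (a7 * b2) + 14 * (a7 * c2) + 12 * (b7 * c2) + c7 * c2) + (a8 * a1 + -12 * (a8 * b1)
        + 14 * (a8 * c1) + 12 * (b8 * c1) + c8 * c1) + (a9 * a0 + -12 * (a9 * b0) + 14 * (a9 * c0)
        + 12 * (b9 * c0) + c9 * c0)) * τ ^ 9 + ((a0 * a10 + -12 * (a0 * b10) + 14 * (a0 * c10) +
        12 * (b0 * c10) + c0 * c10) + (a1 * a9 + -12 * (a1 * b9) + 14 * (a1 * c9) + 12 * (b1 * c9)
        + c1 * c9) + (a2 * a8 + -12 * (a2 * b8) + 14 * (a2 * c8) + 12 * (b2 * c8) + c2 * c8) +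
        (a3 * a7 + -12 * (a3 * b7) + 14 * (a3 * c7) + 12 * (b3 * c7) + c3 * c7) + (a4 * a6 +
        -12 * (a4 * b6) + 14 * (a4 * c6) + 12 * (b4 * c6) + c4 * c6) + (a5 * a5 + -12 * (a5 * b5)
        + 14 * (a5 * c5) + 12 * (b5 * c5) + c5 * c5) + (a6 * a4 + -12 * (a6 * b4) + 14 * (a6 * c4)
        + 12 * (b6 * c4) + c6 * c4) + (a7 * a3 + -12 * (a7 * b3) + 14 * (a7 * c3) + 12 * (b7 * c3)
        + c7 * c3) + (a8 * a2 + -12 * (a8 * b2) + 14 * (a8 * c2) + 12 * (b8 * c2) + c8 * c2) +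
        (a9 * a1 + -12 * (a9 * b1) + 14 * (a9 * c1) + 12 * (b9 * c1) + c9 * c1) + (a10 * a0 +
        -12 * (a10 * b0) + 14 * (a10 * c0) + 12 * (b10 * c0) + c10 * c0)) * τ ^ 10 + ((a1 * a10 +
        -12 * (a1 * b10) + 14 * (a1 * c10) + 12 * (b1 * c10) + c1 * c10) + (a2 * a9 +
        -12 * (a2 * b9) + 14 * (a2 * c9) + 12 * (b2 * c9) + c2 * c9) + (a3 * a8 + -12 * (a3 * b8)
        + 14 * (a3 * c8) + 12 * (b3 * c8) + c3 * c8) + (a4 * a7 + -12 * (a4 * b7) + 14 * (a4 * c7)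
        + 12 * (b4 * c7) + c4 * c7) + (a5 * a6 + -12 * (a5 * b6) + 14 * (a5 * c6) + 12 * (b5 * c6)
        + c5 * c6) + (a6 * a5 + -12 * (a6 * b5) + 14 * (a6 * c5) + 12 * (b6 * c5) + c6 * c5) +
        (a7 * a4 + -12 * (a7 * b4) + 14 * (a7 * c4) + 12 * (b7 * c4) + c7 * c4) + (a8 * a3 +
        -12 * (a8 * b3) + 14 * (a8 * c3) + 12 * (b8 * c3) + c8 * c3) + (a9 * a2 + -12 * (a9 * b2)
        + 14 * (a9 * c2) + 12 * (b9 * c2) + c9 * c2) + (a10 * a1 + -12 * (a10 * b1) +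
        14 * (a10 * c1) + 12 * (b10 * c1) + c10 * c1)) * τ ^ 11 + ((a2 * a10 + -12 * (a2 * b10) +
        14 * (a2 * c10) + 12 * (b2 * c10) + c2 * c10) + (a3 * a9 + -12 * (a3 * b9) +
        14 * (a3 * c9) + 12 * (b3 * c9) + c3 * c9) + (a4 * a8 + -12 * (a4 * b8) + 14 * (a4 * c8)
        + 12 * (b4 * c8) + c4 * c8) + (a5 * a7 + -12 * (a5 * b7) + 14 * (a5 * c7) + 12 * (b5 * c7)
        + c5 * c7) + (a6 * a6 + -12 * (a6 * b6) + 14 * (a6 * c6) + 12 * (b6 * c6) + c6 * c6) +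
        (a7 * a5 + -12 * (a7 * b5) + 14 * (a7 * c5) + 12 * (b7 * c5) + c7 * c5) + (a8 * a4 +
        -12 * (a8 * b4) + 14 * (a8 * c4) + 12 * (b8 * c4) + c8 * c4) + (a9 * a3 + -12 * (a9 * b3)
        + 14 * (a9 * c3) + 12 * (b9 * c3) + c9 * c3) + (a10 * a2 + -12 * (a10 * b2) +
        14 * (a10 * c2) + 12 * (b10 * c2) + c10 * c2)) * τ ^ 12 + ((a3 * a10 + -12 * (a3 * b10) +
        14 * (a3 * c10) + 12 * (b3 * c10) + c3 * c10) + (a4 * a9 + -12 * (a4 * b9) +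
        14 * (a4 * c9) + 12 * (b4 * c9) + c4 * c9) + (a5 * a8 + -12 * (a5 * b8) + 14 * (a5 * c8)
        + 12 * (b5 * c8) + c5 * c8) + (a6 * a7 + -12 * (a6 * b7) + 14 * (a6 * c7) + 12 * (b6 * c7)
        + c6 * c7) + (a7 * a6 + -12 * (a7 * b6) + 14 * (a7 * c6) + 12 * (b7 * c6) + c7 * c6) +
        (a8 * a5 + -12 * (a8 * b5) + 14 * (a8 * c5) + 12 * (b8 * c5) + c8 * c5) + (a9 * a4 +
        -12 * (a9 * b4) + 14 * (a9 * c4) + 12 * (b9 * c4) + c9 * c4) + (a10 * a3 +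
        -12 * (a10 * b3) + 14 * (a10 * c3) + 12 * (b10 * c3) + c10 * c3)) * τ ^ 13 + ((a4 * a10 +
        -12 * (a4 * b10) + 14 * (a4 * c10) + 12 * (b4 * c10) + c4 * c10) + (a5 * a9 +
        -12 * (a5 * b9) + 14 * (a5 * c9) + 12 * (b5 * c9) + c5 * c9) + (a6 * a8 + -12 * (a6 * b8)
        + 14 * (a6 * c8) + 12 * (b6 * c8) + c6 * c8) + (a7 * a7 + -12 * (a7 * b7) + 14 * (a7 * c7)
        + 12 * (b7 * c7) + c7 * c7) + (a8 * a6 + -12 * (a8 * b6) + 14 * (a8 * c6) + 12 * (b8 * c6)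
        + c8 * c6) + (a9 * a5 + -12 * (a9 * b5) + 14 * (a9 * c5) + 12 * (b9 * c5) + c9 * c5) +
        (a10 * a4 + -12 * (a10 * b4) + 14 * (a10 * c4) + 12 * (b10 * c4) + c10 * c4)) * τ ^ 14 +
        ((a5 * a10 + -12 * (a5 * b10) + 14 * (a5 * c10) + 12 * (b5 * c10) + c5 * c10) + (a6 * a9
        + -12 * (a6 * b9) + 14 * (a6 * c9) + 12 * (b6 * c9) + c6 * c9) + (a7 * a8 +
        -12 * (a7 * b8) + 14 * (a7 * c8) + 12 * (b7 * c8) + c7 * c8) + (a8 * a7 + -12 * (a8 * b7)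
        + 14 * (a8 * c7) + 12 * (b8 * c7) + c8 * c7) + (a9 * a6 + -12 * (a9 * b6) + 14 * (a9 * c6)
        + 12 * (b9 * c6) + c9 * c6) + (a10 * a5 + -12 * (a10 * b5) + 14 * (a10 * c5) +
        12 * (b10 * c5) + c10 * c5)) * τ ^ 15 + ((a6 * a10 + -12 * (a6 * b10) + 14 * (a6 * c10) +
        12 * (b6 * c10) + c6 * c10) + (a7 * a9 + -12 * (a7 * b9) + 14 * (a7 * c9) + 12 * (b7 * c9)
        + c7 * c9) + (a8 * a8 + -12 * (a8 * b8) + 14 * (a8 * c8) + 12 * (b8 * c8) + c8 * c8) +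
        (a9 * a7 + -12 * (a9 * b7) + 14 * (a9 * c7) + 12 * (b9 * c7) + c9 * c7) + (a10 * a6 +
        -12 * (a10 * b6) + 14 * (a10 * c6) + 12 * (b10 * c6) + c10 * c6)) * τ ^ 16 + ((a7 * a10 +
        -12 * (a7 * b10) + 14 * (a7 * c10) + 12 * (b7 * c10) + c7 * c10) + (a8 * a9 +
        -12 * (a8 * b9) + 14 * (a8 * c9) + 12 * (b8 * c9) + c8 * c9) + (a9 * a8 + -12 * (a9 * b8)
        + 14 * (a9 * c8) + 12 * (b9 * c8) + c9 * c8) + (a10 * a7 + -12 * (a10 * b7) +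
        14 * (a10 * c7) + 12 * (b10 * c7) + c10 * c7)) * τ ^ 17 + ((a8 * a10 + -12 * (a8 * b10) +
        14 * (a8 * c10) + 12 * (b8 * c10) + c8 * c10) + (a9 * a9 + -12 * (a9 * b9) +
        14 * (a9 * c9) + 12 * (b9 * c9) + c9 * c9) + (a10 * a8 + -12 * (a10 * b8) +
        14 * (a10 * c8) + 12 * (b10 * c8) + c10 * c8)) * τ ^ 18 + ((a9 * a10 + -12 * (a9 * b10) +
        14 * (a9 * c10) + 12 * (b9 * c10) + c9 * c10) + (a10 * a9 + -12 * (a10 * b9) +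
        14 * (a10 * c9) + 12 * (b10 * c9) + c10 * c9)) * τ ^ 19 + ((a10 * a10 + -12 * (a10 * b10)
        + 14 * (a10 * c10) + 12 * (b10 * c10) + c10 * c10)) * τ ^ 20 := by
  ring

theorem famC4c0_tnf (b : R) :
    famC4c0 (tC4 b) (tC6 b) =
      (sqA0 b * sqA0 b + -12 * (sqA0 b * sqB0 b) + 14 * (sqA0 b * sqC0 b) + 12 * (sqB0 b * sqC0 b)
        + sqC0 b * sqC0 b) := by
  simp only [famC4c0, tC4, tC6, sqA0, sqA1, sqA2, sqA3, sqA4, sqA5, sqA6, sqA7, sqA8, sqA9, sqA10,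
    sqB0, sqB1, sqB2, sqB3, sqB4, sqB5, sqB6, sqB7, sqB8, sqB9, sqB10,
    sqC0, sqC1, sqC2, sqC3, sqC4, sqC5, sqC6, sqC7, sqC8, sqC9, sqC10]
  ring

theorem famC4c1_tnf (b : R) :
    famC4c1 (tC4 b) (tC6 b) =
      (sqA0 b * sqA1 b + -12 * (sqA0 b * sqB1 b) + 14 * (sqA0 b * sqC1 b) + 12 * (sqB0 b * sqC1 b)
        + sqC0 b * sqC1 b) + (sqA1 b * sqA0 b + -12 * (sqA1 b * sqB0 b) + 14 * (sqA1 b * sqC0 b)
        + 12 * (sqB1 b * sqC0 b) + sqC1 b * sqC0 b) := by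
  simp only [famC4c1, tC4, tC6, sqA0, sqA1, sqA2, sqA3, sqA4, sqA5, sqA6, sqA7, sqA8, sqA9, sqA10,
    sqB0, sqB1, sqB2, sqB3, sqB4, sqB5, sqB6, sqB7, sqB8, sqB9, sqB10,
    sqC0, sqC1, sqC2, sqC3, sqC4, sqC5, sqC6, sqC7, sqC8, sqC9, sqC10]
  ring

theorem famC4c2_tnf (b : R) :
    famC4c2 (tC4 b) (tC6 b) =
      (sqA0 b * sqA2 b + -12 * (sqA0 b * sqB2 b) + 14 * (sqA0 b * sqC2 b) + 12 * (sqB0 b * sqC2 b)
        + sqC0 b * sqC2 b) + (sqA1 b * sqA1 b + -12 * (sqA1 b * sqB1 b) + 14 * (sqA1 b * sqC1 b)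
        + 12 * (sqB1 b * sqC1 b) + sqC1 b * sqC1 b) + (sqA2 b * sqA0 b + -12 * (sqA2 b * sqB0 b)
        + 14 * (sqA2 b * sqC0 b) + 12 * (sqB2 b * sqC0 b) + sqC2 b * sqC0 b) := by
  simp only [famC4c2, tC4, tC6, sqA0, sqA1, sqA2, sqA3, sqA4, sqA5, sqA6, sqA7, sqA8, sqA9, sqA10,
    sqB0, sqB1, sqB2, sqB3, sqB4, sqB5, sqB6, sqB7, sqB8, sqB9, sqB10,
    sqC0, sqC1, sqC2, sqC3, sqC4, sqC5, sqC6, sqC7, sqC8, sqC9, sqC10]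
  ring

theorem famC4c3_tnf (b : R) :
    famC4c3 (tC4 b) (tC6 b) =
      (sqA0 b * sqA3 b + -12 * (sqA0 b * sqB3 b) + 14 * (sqA0 b * sqC3 b) + 12 * (sqB0 b * sqC3 b)
        + sqC0 b * sqC3 b) + (sqA1 b * sqA2 b + -12 * (sqA1 b * sqB2 b) + 14 * (sqA1 b * sqC2 b)
        + 12 * (sqB1 b * sqC2 b) + sqC1 b * sqC2 b) + (sqA2 b * sqA1 b + -12 * (sqA2 b * sqB1 b)
        + 14 * (sqA2 b * sqC1 b) + 12 * (sqB2 b * sqC1 b) + sqC2 b * sqC1 b) + (sqA3 b * sqA0 b +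
        -12 * (sqA3 b * sqB0 b) + 14 * (sqA3 b * sqC0 b) + 12 * (sqB3 b * sqC0 b) +
        sqC3 b * sqC0 b) := by
  simp only [famC4c3, tC4, tC6, sqA0, sqA1, sqA2, sqA3, sqA4, sqA5, sqA6, sqA7, sqA8, sqA9, sqA10,
    sqB0, sqB1, sqB2, sqB3, sqB4, sqB5, sqB6, sqB7, sqB8, sqB9, sqB10,
    sqC0, sqC1, sqC2, sqC3, sqC4, sqC5, sqC6, sqC7, sqC8, sqC9, sqC10]
  ring

theorem famC4c4_tnf (b : R) :
    famC4c4 (tC4 b) (tC6 b) =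
      (sqA0 b * sqA4 b + -12 * (sqA0 b * sqB4 b) + 14 * (sqA0 b * sqC4 b) + 12 * (sqB0 b * sqC4 b)
        + sqC0 b * sqC4 b) + (sqA1 b * sqA3 b + -12 * (sqA1 b * sqB3 b) + 14 * (sqA1 b * sqC3 b)
        + 12 * (sqB1 b * sqC3 b) + sqC1 b * sqC3 b) + (sqA2 b * sqA2 b + -12 * (sqA2 b * sqB2 b)
        + 14 * (sqA2 b * sqC2 b) + 12 * (sqB2 b * sqC2 b) + sqC2 b * sqC2 b) + (sqA3 b * sqA1 b +
        -12 * (sqA3 b * sqB1 b) + 14 * (sqA3 b * sqC1 b) + 12 * (sqB3 b * sqC1 b) +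
        sqC3 b * sqC1 b) + (sqA4 b * sqA0 b + -12 * (sqA4 b * sqB0 b) + 14 * (sqA4 b * sqC0 b) +
        12 * (sqB4 b * sqC0 b) + sqC4 b * sqC0 b) := by
  simp only [famC4c4, tC4, tC6, sqA0, sqA1, sqA2, sqA3, sqA4, sqA5, sqA6, sqA7, sqA8, sqA9, sqA10,
    sqB0, sqB1, sqB2, sqB3, sqB4, sqB5, sqB6, sqB7, sqB8, sqB9, sqB10,
    sqC0, sqC1, sqC2, sqC3, sqC4, sqC5, sqC6, sqC7, sqC8, sqC9, sqC10]
  ring

theorem famC4c5_tnf (b : R) :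
    famC4c5 (tC4 b) (tC6 b) =
      (sqA0 b * sqA5 b + -12 * (sqA0 b * sqB5 b) + 14 * (sqA0 b * sqC5 b) + 12 * (sqB0 b * sqC5 b)
        + sqC0 b * sqC5 b) + (sqA1 b * sqA4 b + -12 * (sqA1 b * sqB4 b) + 14 * (sqA1 b * sqC4 b)
        + 12 * (sqB1 b * sqC4 b) + sqC1 b * sqC4 b) + (sqA2 b * sqA3 b + -12 * (sqA2 b * sqB3 b)
        + 14 * (sqA2 b * sqC3 b) + 12 * (sqB2 b * sqC3 b) + sqC2 b * sqC3 b) + (sqA3 b * sqA2 b +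
        -12 * (sqA3 b * sqB2 b) + 14 * (sqA3 b * sqC2 b) + 12 * (sqB3 b * sqC2 b) +
        sqC3 b * sqC2 b) + (sqA4 b * sqA1 b + -12 * (sqA4 b * sqB1 b) + 14 * (sqA4 b * sqC1 b) +
        12 * (sqB4 b * sqC1 b) + sqC4 b * sqC1 b) + (sqA5 b * sqA0 b + -12 * (sqA5 b * sqB0 b) +
        14 * (sqA5 b * sqC0 b) + 12 * (sqB5 b * sqC0 b) + sqC5 b * sqC0 b) := by
  simp only [famC4c5, tC4, tC6, sqA0, sqA1, sqA2, sqA3, sqA4, sqA5, sqA6, sqA7, sqA8, sqA9, sqA10,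
    sqB0, sqB1, sqB2, sqB3, sqB4, sqB5, sqB6, sqB7, sqB8, sqB9, sqB10,
    sqC0, sqC1, sqC2, sqC3, sqC4, sqC5, sqC6, sqC7, sqC8, sqC9, sqC10]
  ring

theorem famC4c6_tnf (b : R) :
    famC4c6 (tC4 b) (tC6 b) =
      (sqA0 b * sqA6 b + -12 * (sqA0 b * sqB6 b) + 14 * (sqA0 b * sqC6 b) + 12 * (sqB0 b * sqC6 b)
        + sqC0 b * sqC6 b) + (sqA1 b * sqA5 b + -12 * (sqA1 b * sqB5 b) + 14 * (sqA1 b * sqC5 b)
        + 12 * (sqB1 b * sqC5 b) + sqC1 b * sqC5 b) + (sqA2 b * sqA4 b + -12 * (sqA2 b * sqB4 b)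
        + 14 * (sqA2 b * sqC4 b) + 12 * (sqB2 b * sqC4 b) + sqC2 b * sqC4 b) + (sqA3 b * sqA3 b +
        -12 * (sqA3 b * sqB3 b) + 14 * (sqA3 b * sqC3 b) + 12 * (sqB3 b * sqC3 b) +
        sqC3 b * sqC3 b) + (sqA4 b * sqA2 b + -12 * (sqA4 b * sqB2 b) + 14 * (sqA4 b * sqC2 b) +
        12 * (sqB4 b * sqC2 b) + sqC4 b * sqC2 b) + (sqA5 b * sqA1 b + -12 * (sqA5 b * sqB1 b) +
        14 * (sqA5 b * sqC1 b) + 12 * (sqB5 b * sqC1 b) + sqC5 b * sqC1 b) + (sqA6 b * sqA0 b +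
        -12 * (sqA6 b * sqB0 b) + 14 * (sqA6 b * sqC0 b) + 12 * (sqB6 b * sqC0 b) +
        sqC6 b * sqC0 b) := by
  simp only [famC4c6, tC4, tC6, sqA0, sqA1, sqA2, sqA3, sqA4, sqA5, sqA6, sqA7, sqA8, sqA9, sqA10,
    sqB0, sqB1, sqB2, sqB3, sqB4, sqB5, sqB6, sqB7, sqB8, sqB9, sqB10,
    sqC0, sqC1, sqC2, sqC3, sqC4, sqC5, sqC6, sqC7, sqC8, sqC9, sqC10]
  ring

theorem famC4c7_tnf (b : R) :
    famC4c7 (tC4 b) (tC6 b) =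
      (sqA0 b * sqA7 b + -12 * (sqA0 b * sqB7 b) + 14 * (sqA0 b * sqC7 b) + 12 * (sqB0 b * sqC7 b)
        + sqC0 b * sqC7 b) + (sqA1 b * sqA6 b + -12 * (sqA1 b * sqB6 b) + 14 * (sqA1 b * sqC6 b)
        + 12 * (sqB1 b * sqC6 b) + sqC1 b * sqC6 b) + (sqA2 b * sqA5 b + -12 * (sqA2 b * sqB5 b)
        + 14 * (sqA2 b * sqC5 b) + 12 * (sqB2 b * sqC5 b) + sqC2 b * sqC5 b) + (sqA3 b * sqA4 b +
        -12 * (sqA3 b * sqB4 b) + 14 * (sqA3 b * sqC4 b) + 12 * (sqB3 b * sqC4 b) +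
        sqC3 b * sqC4 b) + (sqA4 b * sqA3 b + -12 * (sqA4 b * sqB3 b) + 14 * (sqA4 b * sqC3 b) +
        12 * (sqB4 b * sqC3 b) + sqC4 b * sqC3 b) + (sqA5 b * sqA2 b + -12 * (sqA5 b * sqB2 b) +
        14 * (sqA5 b * sqC2 b) + 12 * (sqB5 b * sqC2 b) + sqC5 b * sqC2 b) + (sqA6 b * sqA1 b +
        -12 * (sqA6 b * sqB1 b) + 14 * (sqA6 b * sqC1 b) + 12 * (sqB6 b * sqC1 b) +
        sqC6 b * sqC1 b) + (sqA7 b * sqA0 b + -12 * (sqA7 b * sqB0 b) + 14 * (sqA7 b * sqC0 b) +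
        12 * (sqB7 b * sqC0 b) + sqC7 b * sqC0 b) := by
  simp only [famC4c7, tC4, tC6, sqA0, sqA1, sqA2, sqA3, sqA4, sqA5, sqA6, sqA7, sqA8, sqA9, sqA10,
    sqB0, sqB1, sqB2, sqB3, sqB4, sqB5, sqB6, sqB7, sqB8, sqB9, sqB10,
    sqC0, sqC1, sqC2, sqC3, sqC4, sqC5, sqC6, sqC7, sqC8, sqC9, sqC10]
  ring

theorem famC4c8_tnf (b : R) :
    famC4c8 (tC4 b) (tC6 b) =
      (sqA0 b * sqA8 b + -12 * (sqA0 b * sqB8 b) + 14 * (sqA0 b * sqC8 b) + 12 * (sqB0 b * sqC8 b)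
        + sqC0 b * sqC8 b) + (sqA1 b * sqA7 b + -12 * (sqA1 b * sqB7 b) + 14 * (sqA1 b * sqC7 b)
        + 12 * (sqB1 b * sqC7 b) + sqC1 b * sqC7 b) + (sqA2 b * sqA6 b + -12 * (sqA2 b * sqB6 b)
        + 14 * (sqA2 b * sqC6 b) + 12 * (sqB2 b * sqC6 b) + sqC2 b * sqC6 b) + (sqA3 b * sqA5 b +
        -12 * (sqA3 b * sqB5 b) + 14 * (sqA3 b * sqC5 b) + 12 * (sqB3 b * sqC5 b) +
        sqC3 b * sqC5 b) + (sqA4 b * sqA4 b + -12 * (sqA4 b * sqB4 b) + 14 * (sqA4 b * sqC4 b) +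
        12 * (sqB4 b * sqC4 b) + sqC4 b * sqC4 b) + (sqA5 b * sqA3 b + -12 * (sqA5 b * sqB3 b) +
        14 * (sqA5 b * sqC3 b) + 12 * (sqB5 b * sqC3 b) + sqC5 b * sqC3 b) + (sqA6 b * sqA2 b +
        -12 * (sqA6 b * sqB2 b) + 14 * (sqA6 b * sqC2 b) + 12 * (sqB6 b * sqC2 b) +
        sqC6 b * sqC2 b) + (sqA7 b * sqA1 b + -12 * (sqA7 b * sqB1 b) + 14 * (sqA7 b * sqC1 b) +
        12 * (sqB7 b * sqC1 b) + sqC7 b * sqC1 b) + (sqA8 b * sqA0 b + -12 * (sqA8 b * sqB0 b) +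
        14 * (sqA8 b * sqC0 b) + 12 * (sqB8 b * sqC0 b) + sqC8 b * sqC0 b) := by
  simp only [famC4c8, tC4, tC6, sqA0, sqA1, sqA2, sqA3, sqA4, sqA5, sqA6, sqA7, sqA8, sqA9, sqA10,
    sqB0, sqB1, sqB2, sqB3, sqB4, sqB5, sqB6, sqB7, sqB8, sqB9, sqB10,
    sqC0, sqC1, sqC2, sqC3, sqC4, sqC5, sqC6, sqC7, sqC8, sqC9, sqC10]
  ring

theorem famC4c9_tnf (b : R) :
    famC4c9 (tC4 b) (tC6 b) =
      (sqA0 b * sqA9 b + -12 * (sqA0 b * sqB9 b) + 14 * (sqA0 b * sqC9 b) + 12 * (sqB0 b * sqC9 b)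
        + sqC0 b * sqC9 b) + (sqA1 b * sqA8 b + -12 * (sqA1 b * sqB8 b) + 14 * (sqA1 b * sqC8 b)
        + 12 * (sqB1 b * sqC8 b) + sqC1 b * sqC8 b) + (sqA2 b * sqA7 b + -12 * (sqA2 b * sqB7 b)
        + 14 * (sqA2 b * sqC7 b) + 12 * (sqB2 b * sqC7 b) + sqC2 b * sqC7 b) + (sqA3 b * sqA6 b +
        -12 * (sqA3 b * sqB6 b) + 14 * (sqA3 b * sqC6 b) + 12 * (sqB3 b * sqC6 b) +
        sqC3 b * sqC6 b) + (sqA4 b * sqA5 b + -12 * (sqA4 b * sqB5 b) + 14 * (sqA4 b * sqC5 b) +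
        12 * (sqB4 b * sqC5 b) + sqC4 b * sqC5 b) + (sqA5 b * sqA4 b + -12 * (sqA5 b * sqB4 b) +
        14 * (sqA5 b * sqC4 b) + 12 * (sqB5 b * sqC4 b) + sqC5 b * sqC4 b) + (sqA6 b * sqA3 b +
        -12 * (sqA6 b * sqB3 b) + 14 * (sqA6 b * sqC3 b) + 12 * (sqB6 b * sqC3 b) +
        sqC6 b * sqC3 b) + (sqA7 b * sqA2 b + -12 * (sqA7 b * sqB2 b) + 14 * (sqA7 b * sqC2 b) +
        12 * (sqB7 b * sqC2 b) + sqC7 b * sqC2 b) + (sqA8 b * sqA1 b + -12 * (sqA8 b * sqB1 b) +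
        14 * (sqA8 b * sqC1 b) + 12 * (sqB8 b * sqC1 b) + sqC8 b * sqC1 b) + (sqA9 b * sqA0 b +
        -12 * (sqA9 b * sqB0 b) + 14 * (sqA9 b * sqC0 b) + 12 * (sqB9 b * sqC0 b) +
        sqC9 b * sqC0 b) := by
  simp only [famC4c9, tC4, tC6, sqA0, sqA1, sqA2, sqA3, sqA4, sqA5, sqA6, sqA7, sqA8, sqA9, sqA10,
    sqB0, sqB1, sqB2, sqB3, sqB4, sqB5, sqB6, sqB7, sqB8, sqB9, sqB10,
    sqC0, sqC1, sqC2, sqC3, sqC4, sqC5, sqC6, sqC7, sqC8, sqC9, sqC10]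
  ring

theorem famC4c10_tnf (b : R) :
    famC4c10 (tC4 b) (tC6 b) =
      (sqA0 b * sqA10 b + -12 * (sqA0 b * sqB10 b) + 14 * (sqA0 b * sqC10 b) +
        12 * (sqB0 b * sqC10 b) + sqC0 b * sqC10 b) + (sqA1 b * sqA9 b + -12 * (sqA1 b * sqB9 b)
        + 14 * (sqA1 b * sqC9 b) + 12 * (sqB1 b * sqC9 b) + sqC1 b * sqC9 b) + (sqA2 b * sqA8 b +
        -12 * (sqA2 b * sqB8 b) + 14 * (sqA2 b * sqC8 b) + 12 * (sqB2 b * sqC8 b) +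
        sqC2 b * sqC8 b) + (sqA3 b * sqA7 b + -12 * (sqA3 b * sqB7 b) + 14 * (sqA3 b * sqC7 b) +
        12 * (sqB3 b * sqC7 b) + sqC3 b * sqC7 b) + (sqA4 b * sqA6 b + -12 * (sqA4 b * sqB6 b) +
        14 * (sqA4 b * sqC6 b) + 12 * (sqB4 b * sqC6 b) + sqC4 b * sqC6 b) + (sqA5 b * sqA5 b +
        -12 * (sqA5 b * sqB5 b) + 14 * (sqA5 b * sqC5 b) + 12 * (sqB5 b * sqC5 b) +
        sqC5 b * sqC5 b) + (sqA6 b * sqA4 b + -12 * (sqA6 b * sqB4 b) + 14 * (sqA6 b * sqC4 b) +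
        12 * (sqB6 b * sqC4 b) + sqC6 b * sqC4 b) + (sqA7 b * sqA3 b + -12 * (sqA7 b * sqB3 b) +
        14 * (sqA7 b * sqC3 b) + 12 * (sqB7 b * sqC3 b) + sqC7 b * sqC3 b) + (sqA8 b * sqA2 b +
        -12 * (sqA8 b * sqB2 b) + 14 * (sqA8 b * sqC2 b) + 12 * (sqB8 b * sqC2 b) +
        sqC8 b * sqC2 b) + (sqA9 b * sqA1 b + -12 * (sqA9 b * sqB1 b) + 14 * (sqA9 b * sqC1 b) +
        12 * (sqB9 b * sqC1 b) + sqC9 b * sqC1 b) + (sqA10 b * sqA0 b + -12 * (sqA10 b * sqB0 b)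
        + 14 * (sqA10 b * sqC0 b) + 12 * (sqB10 b * sqC0 b) + sqC10 b * sqC0 b) := by
  simp only [famC4c10, tC4, tC6, sqA0, sqA1, sqA2, sqA3, sqA4, sqA5, sqA6, sqA7, sqA8, sqA9, sqA10,
    sqB0, sqB1, sqB2, sqB3, sqB4, sqB5, sqB6, sqB7, sqB8, sqB9, sqB10,
    sqC0, sqC1, sqC2, sqC3, sqC4, sqC5, sqC6, sqC7, sqC8, sqC9, sqC10]
  ring

theorem famC4c11_tnf (b : R) :
    famC4c11 (tC4 b) (tC6 b) =
      (sqA1 b * sqA10 b + -12 * (sqA1 b * sqB10 b) + 14 * (sqA1 b * sqC10 b) +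
        12 * (sqB1 b * sqC10 b) + sqC1 b * sqC10 b) + (sqA2 b * sqA9 b + -12 * (sqA2 b * sqB9 b)
        + 14 * (sqA2 b * sqC9 b) + 12 * (sqB2 b * sqC9 b) + sqC2 b * sqC9 b) + (sqA3 b * sqA8 b +
        -12 * (sqA3 b * sqB8 b) + 14 * (sqA3 b * sqC8 b) + 12 * (sqB3 b * sqC8 b) +
        sqC3 b * sqC8 b) + (sqA4 b * sqA7 b + -12 * (sqA4 b * sqB7 b) + 14 * (sqA4 b * sqC7 b) +
        12 * (sqB4 b * sqC7 b) + sqC4 b * sqC7 b) + (sqA5 b * sqA6 b + -12 * (sqA5 b * sqB6 b) +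
        14 * (sqA5 b * sqC6 b) + 12 * (sqB5 b * sqC6 b) + sqC5 b * sqC6 b) + (sqA6 b * sqA5 b +
        -12 * (sqA6 b * sqB5 b) + 14 * (sqA6 b * sqC5 b) + 12 * (sqB6 b * sqC5 b) +
        sqC6 b * sqC5 b) + (sqA7 b * sqA4 b + -12 * (sqA7 b * sqB4 b) + 14 * (sqA7 b * sqC4 b) +
        12 * (sqB7 b * sqC4 b) + sqC7 b * sqC4 b) + (sqA8 b * sqA3 b + -12 * (sqA8 b * sqB3 b) +
        14 * (sqA8 b * sqC3 b) + 12 * (sqB8 b * sqC3 b) + sqC8 b * sqC3 b) + (sqA9 b * sqA2 b +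
        -12 * (sqA9 b * sqB2 b) + 14 * (sqA9 b * sqC2 b) + 12 * (sqB9 b * sqC2 b) +
        sqC9 b * sqC2 b) + (sqA10 b * sqA1 b + -12 * (sqA10 b * sqB1 b) + 14 * (sqA10 b * sqC1 b)
        + 12 * (sqB10 b * sqC1 b) + sqC10 b * sqC1 b) := by
  simp only [famC4c11, tC4, tC6, sqA0, sqA1, sqA2, sqA3, sqA4, sqA5, sqA6, sqA7, sqA8, sqA9, sqA10,
    sqB0, sqB1, sqB2, sqB3, sqB4, sqB5, sqB6, sqB7, sqB8, sqB9, sqB10,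
    sqC0, sqC1, sqC2, sqC3, sqC4, sqC5, sqC6, sqC7, sqC8, sqC9, sqC10]
  ring

theorem famC4c12_tnf (b : R) :
    famC4c12 (tC4 b) (tC6 b) =
      (sqA2 b * sqA10 b + -12 * (sqA2 b * sqB10 b) + 14 * (sqA2 b * sqC10 b) +
        12 * (sqB2 b * sqC10 b) + sqC2 b * sqC10 b) + (sqA3 b * sqA9 b + -12 * (sqA3 b * sqB9 b)
        + 14 * (sqA3 b * sqC9 b) + 12 * (sqB3 b * sqC9 b) + sqC3 b * sqC9 b) + (sqA4 b * sqA8 b +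
        -12 * (sqA4 b * sqB8 b) + 14 * (sqA4 b * sqC8 b) + 12 * (sqB4 b * sqC8 b) +
        sqC4 b * sqC8 b) + (sqA5 b * sqA7 b + -12 * (sqA5 b * sqB7 b) + 14 * (sqA5 b * sqC7 b) +
        12 * (sqB5 b * sqC7 b) + sqC5 b * sqC7 b) + (sqA6 b * sqA6 b + -12 * (sqA6 b * sqB6 b) +
        14 * (sqA6 b * sqC6 b) + 12 * (sqB6 b * sqC6 b) + sqC6 b * sqC6 b) + (sqA7 b * sqA5 b +
        -12 * (sqA7 b * sqB5 b) + 14 * (sqA7 b * sqC5 b) + 12 * (sqB7 b * sqC5 b) +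
        sqC7 b * sqC5 b) + (sqA8 b * sqA4 b + -12 * (sqA8 b * sqB4 b) + 14 * (sqA8 b * sqC4 b) +
        12 * (sqB8 b * sqC4 b) + sqC8 b * sqC4 b) + (sqA9 b * sqA3 b + -12 * (sqA9 b * sqB3 b) +
        14 * (sqA9 b * sqC3 b) + 12 * (sqB9 b * sqC3 b) + sqC9 b * sqC3 b) + (sqA10 b * sqA2 b +
        -12 * (sqA10 b * sqB2 b) + 14 * (sqA10 b * sqC2 b) + 12 * (sqB10 b * sqC2 b) +
        sqC10 b * sqC2 b) := by
  simp only [famC4c12, tC4, tC6, sqA0, sqA1, sqA2, sqA3, sqA4, sqA5, sqA6, sqA7, sqA8, sqA9, sqA10,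
    sqB0, sqB1, sqB2, sqB3, sqB4, sqB5, sqB6, sqB7, sqB8, sqB9, sqB10,
    sqC0, sqC1, sqC2, sqC3, sqC4, sqC5, sqC6, sqC7, sqC8, sqC9, sqC10]
  ring

theorem famC4c13_tnf (b : R) :
    famC4c13 (tC4 b) (tC6 b) =
      (sqA3 b * sqA10 b + -12 * (sqA3 b * sqB10 b) + 14 * (sqA3 b * sqC10 b) +
        12 * (sqB3 b * sqC10 b) + sqC3 b * sqC10 b) + (sqA4 b * sqA9 b + -12 * (sqA4 b * sqB9 b)
        + 14 * (sqA4 b * sqC9 b) + 12 * (sqB4 b * sqC9 b) + sqC4 b * sqC9 b) + (sqA5 b * sqA8 b +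
        -12 * (sqA5 b * sqB8 b) + 14 * (sqA5 b * sqC8 b) + 12 * (sqB5 b * sqC8 b) +
        sqC5 b * sqC8 b) + (sqA6 b * sqA7 b + -12 * (sqA6 b * sqB7 b) + 14 * (sqA6 b * sqC7 b) +
        12 * (sqB6 b * sqC7 b) + sqC6 b * sqC7 b) + (sqA7 b * sqA6 b + -12 * (sqA7 b * sqB6 b) +
        14 * (sqA7 b * sqC6 b) + 12 * (sqB7 b * sqC6 b) + sqC7 b * sqC6 b) + (sqA8 b * sqA5 b +
        -12 * (sqA8 b * sqB5 b) + 14 * (sqA8 b * sqC5 b) + 12 * (sqB8 b * sqC5 b) +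
        sqC8 b * sqC5 b) + (sqA9 b * sqA4 b + -12 * (sqA9 b * sqB4 b) + 14 * (sqA9 b * sqC4 b) +
        12 * (sqB9 b * sqC4 b) + sqC9 b * sqC4 b) + (sqA10 b * sqA3 b + -12 * (sqA10 b * sqB3 b)
        + 14 * (sqA10 b * sqC3 b) + 12 * (sqB10 b * sqC3 b) + sqC10 b * sqC3 b) := by
  simp only [famC4c13, tC4, tC6, sqA0, sqA1, sqA2, sqA3, sqA4, sqA5, sqA6, sqA7, sqA8, sqA9, sqA10,
    sqB0, sqB1, sqB2, sqB3, sqB4, sqB5, sqB6, sqB7, sqB8, sqB9, sqB10,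
    sqC0, sqC1, sqC2, sqC3, sqC4, sqC5, sqC6, sqC7, sqC8, sqC9, sqC10]
  ring

theorem famC4c14_tnf (b : R) :
    famC4c14 (tC4 b) (tC6 b) =
      (sqA4 b * sqA10 b + -12 * (sqA4 b * sqB10 b) + 14 * (sqA4 b * sqC10 b) +
        12 * (sqB4 b * sqC10 b) + sqC4 b * sqC10 b) + (sqA5 b * sqA9 b + -12 * (sqA5 b * sqB9 b)
        + 14 * (sqA5 b * sqC9 b) + 12 * (sqB5 b * sqC9 b) + sqC5 b * sqC9 b) + (sqA6 b * sqA8 b +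
        -12 * (sqA6 b * sqB8 b) + 14 * (sqA6 b * sqC8 b) + 12 * (sqB6 b * sqC8 b) +
        sqC6 b * sqC8 b) + (sqA7 b * sqA7 b + -12 * (sqA7 b * sqB7 b) + 14 * (sqA7 b * sqC7 b) +
        12 * (sqB7 b * sqC7 b) + sqC7 b * sqC7 b) + (sqA8 b * sqA6 b + -12 * (sqA8 b * sqB6 b) +
        14 * (sqA8 b * sqC6 b) + 12 * (sqB8 b * sqC6 b) + sqC8 b * sqC6 b) + (sqA9 b * sqA5 b +
        -12 * (sqA9 b * sqB5 b) + 14 * (sqA9 b * sqC5 b) + 12 * (sqB9 b * sqC5 b) +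
        sqC9 b * sqC5 b) + (sqA10 b * sqA4 b + -12 * (sqA10 b * sqB4 b) + 14 * (sqA10 b * sqC4 b)
        + 12 * (sqB10 b * sqC4 b) + sqC10 b * sqC4 b) := by
  simp only [famC4c14, tC4, tC6, sqA0, sqA1, sqA2, sqA3, sqA4, sqA5, sqA6, sqA7, sqA8, sqA9, sqA10,
    sqB0, sqB1, sqB2, sqB3, sqB4, sqB5, sqB6, sqB7, sqB8, sqB9, sqB10,
    sqC0, sqC1, sqC2, sqC3, sqC4, sqC5, sqC6, sqC7, sqC8, sqC9, sqC10]
  ring

theorem famC4c15_tnf (b : R) :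
    famC4c15 (tC4 b) (tC6 b) =
      (sqA5 b * sqA10 b + -12 * (sqA5 b * sqB10 b) + 14 * (sqA5 b * sqC10 b) +
        12 * (sqB5 b * sqC10 b) + sqC5 b * sqC10 b) + (sqA6 b * sqA9 b + -12 * (sqA6 b * sqB9 b)
        + 14 * (sqA6 b * sqC9 b) + 12 * (sqB6 b * sqC9 b) + sqC6 b * sqC9 b) + (sqA7 b * sqA8 b +
        -12 * (sqA7 b * sqB8 b) + 14 * (sqA7 b * sqC8 b) + 12 * (sqB7 b * sqC8 b) +
        sqC7 b * sqC8 b) + (sqA8 b * sqA7 b + -12 * (sqA8 b * sqB7 b) + 14 * (sqA8 b * sqC7 b) +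
        12 * (sqB8 b * sqC7 b) + sqC8 b * sqC7 b) + (sqA9 b * sqA6 b + -12 * (sqA9 b * sqB6 b) +
        14 * (sqA9 b * sqC6 b) + 12 * (sqB9 b * sqC6 b) + sqC9 b * sqC6 b) + (sqA10 b * sqA5 b +
        -12 * (sqA10 b * sqB5 b) + 14 * (sqA10 b * sqC5 b) + 12 * (sqB10 b * sqC5 b) +
        sqC10 b * sqC5 b) := by
  simp only [famC4c15, tC4, tC6, sqA0, sqA1, sqA2, sqA3, sqA4, sqA5, sqA6, sqA7, sqA8, sqA9, sqA10,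
    sqB0, sqB1, sqB2, sqB3, sqB4, sqB5, sqB6, sqB7, sqB8, sqB9, sqB10,
    sqC0, sqC1, sqC2, sqC3, sqC4, sqC5, sqC6, sqC7, sqC8, sqC9, sqC10]
  ring

theorem famC4c16_tnf (b : R) :
    famC4c16 (tC4 b) (tC6 b) =
      (sqA6 b * sqA10 b + -12 * (sqA6 b * sqB10 b) + 14 * (sqA6 b * sqC10 b) +
        12 * (sqB6 b * sqC10 b) + sqC6 b * sqC10 b) + (sqA7 b * sqA9 b + -12 * (sqA7 b * sqB9 b)
        + 14 * (sqA7 b * sqC9 b) + 12 * (sqB7 b * sqC9 b) + sqC7 b * sqC9 b) + (sqA8 b * sqA8 b +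
        -12 * (sqA8 b * sqB8 b) + 14 * (sqA8 b * sqC8 b) + 12 * (sqB8 b * sqC8 b) +
        sqC8 b * sqC8 b) + (sqA9 b * sqA7 b + -12 * (sqA9 b * sqB7 b) + 14 * (sqA9 b * sqC7 b) +
        12 * (sqB9 b * sqC7 b) + sqC9 b * sqC7 b) + (sqA10 b * sqA6 b + -12 * (sqA10 b * sqB6 b)
        + 14 * (sqA10 b * sqC6 b) + 12 * (sqB10 b * sqC6 b) + sqC10 b * sqC6 b) := by
  simp only [famC4c16, tC4, tC6, sqA0, sqA1, sqA2, sqA3, sqA4, sqA5, sqA6, sqA7, sqA8, sqA9, sqA10,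
    sqB0, sqB1, sqB2, sqB3, sqB4, sqB5, sqB6, sqB7, sqB8, sqB9, sqB10,
    sqC0, sqC1, sqC2, sqC3, sqC4, sqC5, sqC6, sqC7, sqC8, sqC9, sqC10]
  ring

theorem famC4c17_tnf (b : R) :
    famC4c17 (tC4 b) (tC6 b) =
      (sqA7 b * sqA10 b + -12 * (sqA7 b * sqB10 b) + 14 * (sqA7 b * sqC10 b) +
        12 * (sqB7 b * sqC10 b) + sqC7 b * sqC10 b) + (sqA8 b * sqA9 b + -12 * (sqA8 b * sqB9 b)
        + 14 * (sqA8 b * sqC9 b) + 12 * (sqB8 b * sqC9 b) + sqC8 b * sqC9 b) + (sqA9 b * sqA8 b +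
        -12 * (sqA9 b * sqB8 b) + 14 * (sqA9 b * sqC8 b) + 12 * (sqB9 b * sqC8 b) +
        sqC9 b * sqC8 b) + (sqA10 b * sqA7 b + -12 * (sqA10 b * sqB7 b) + 14 * (sqA10 b * sqC7 b)
        + 12 * (sqB10 b * sqC7 b) + sqC10 b * sqC7 b) := by
  simp only [famC4c17, tC4, tC6, sqA0, sqA1, sqA2, sqA3, sqA4, sqA5, sqA6, sqA7, sqA8, sqA9, sqA10,
    sqB0, sqB1, sqB2, sqB3, sqB4, sqB5, sqB6, sqB7, sqB8, sqB9, sqB10,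
    sqC0, sqC1, sqC2, sqC3, sqC4, sqC5, sqC6, sqC7, sqC8, sqC9, sqC10]
  ring

theorem famC4c18_tnf (b : R) :
    famC4c18 (tC4 b) (tC6 b) =
      (sqA8 b * sqA10 b + -12 * (sqA8 b * sqB10 b) + 14 * (sqA8 b * sqC10 b) +
        12 * (sqB8 b * sqC10 b) + sqC8 b * sqC10 b) + (sqA9 b * sqA9 b + -12 * (sqA9 b * sqB9 b)
        + 14 * (sqA9 b * sqC9 b) + 12 * (sqB9 b * sqC9 b) + sqC9 b * sqC9 b) + (sqA10 b * sqA8 b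
        + -12 * (sqA10 b * sqB8 b) + 14 * (sqA10 b * sqC8 b) + 12 * (sqB10 b * sqC8 b) +
        sqC10 b * sqC8 b) := by
  simp only [famC4c18, tC4, tC6, sqA0, sqA1, sqA2, sqA3, sqA4, sqA5, sqA6, sqA7, sqA8, sqA9, sqA10,
    sqB0, sqB1, sqB2, sqB3, sqB4, sqB5, sqB6, sqB7, sqB8, sqB9, sqB10,
    sqC0, sqC1, sqC2, sqC3, sqC4, sqC5, sqC6, sqC7, sqC8, sqC9, sqC10]
  ring

theorem famC4c19_tnf (b : R) :
    famC4c19 (tC4 b) (tC6 b) =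
      (sqA9 b * sqA10 b + -12 * (sqA9 b * sqB10 b) + 14 * (sqA9 b * sqC10 b) +
        12 * (sqB9 b * sqC10 b) + sqC9 b * sqC10 b) + (sqA10 b * sqA9 b + -12 * (sqA10 b * sqB9 b)
        + 14 * (sqA10 b * sqC9 b) + 12 * (sqB10 b * sqC9 b) + sqC10 b * sqC9 b) := by
  simp only [famC4c19, tC4, tC6, sqA0, sqA1, sqA2, sqA3, sqA4, sqA5, sqA6, sqA7, sqA8, sqA9, sqA10,
    sqB0, sqB1, sqB2, sqB3, sqB4, sqB5, sqB6, sqB7, sqB8, sqB9, sqB10,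
    sqC0, sqC1, sqC2, sqC3, sqC4, sqC5, sqC6, sqC7, sqC8, sqC9, sqC10]
  ring

theorem famC4c20_tnf (b : R) :
    famC4c20 (tC4 b) (tC6 b) =
      (sqA10 b * sqA10 b + -12 * (sqA10 b * sqB10 b) + 14 * (sqA10 b * sqC10 b) +
        12 * (sqB10 b * sqC10 b) + sqC10 b * sqC10 b) := by
  simp only [famC4c20, tC4, tC6, sqA0, sqA1, sqA2, sqA3, sqA4, sqA5, sqA6, sqA7, sqA8, sqA9, sqA10,
    sqB0, sqB1, sqB2, sqB3, sqB4, sqB5, sqB6, sqB7, sqB8, sqB9, sqB10,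
    sqC0, sqC1, sqC2, sqC3, sqC4, sqC5, sqC6, sqC7, sqC8, sqC9, sqC10]
  ring

/-- (I1) for `v = 1`. -/
theorem famC4_tnf_one (b τ : R) : famC4 (tC4 b) (tC6 b) τ = hC4 (tnfN b τ) (tnfD b τ) := by
  have e : hC4 (tnfN b τ) (tnfD b τ) =
      (tnfN b τ ^ 2) ^ 2 + -12 * (tnfN b τ ^ 2 * (tnfN b τ * tnfD b τ)) +
        14 * (tnfN b τ ^ 2 * tnfD b τ ^ 2) + 12 * (tnfN b τ * tnfD b τ * tnfD b τ ^ 2) +
        (tnfD b τ ^ 2) ^ 2 := by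
    unfold hC4; ring
  rw [e, tnfN_sq_eq, tnfN_mul_tnfD_eq, tnfD_sq_eq, quartic_conv4]
  unfold famC4
  rw [famC4c0_tnf, famC4c1_tnf, famC4c2_tnf, famC4c3_tnf, famC4c4_tnf, famC4c5_tnf, famC4c6_tnf, famC4c7_tnf, famC4c8_tnf, famC4c9_tnf, famC4c10_tnf, famC4c11_tnf, famC4c12_tnf, famC4c13_tnf, famC4c14_tnf, famC4c15_tnf, famC4c16_tnf, famC4c17_tnf, famC4c18_tnf, famC4c19_tnf, famC4c20_tnf]

/-- weighted homogeneity of `famC4` -/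
theorem famC4_homog (c4 c6 v t : R) :
    famC4 (v ^ 2 * c4) (v ^ 3 * c6) t = v ^ 2 * famC4 c4 c6 (v * t) := by
  simp only [famC4, famC4c0, famC4c1, famC4c2, famC4c3, famC4c4, famC4c5, famC4c6, famC4c7, famC4c8, famC4c9, famC4c10, famC4c11, famC4c12, famC4c13, famC4c14, famC4c15, famC4c16, famC4c17, famC4c18, famC4c19, famC4c20]
  ring

/-- **(I1)** -/
theorem famC4_tnf (b v t : R) :
    famC4 (v ^ 2 * tC4 b) (v ^ 3 * tC6 b) t = v ^ 2 * hC4 (tnfN b (v * t)) (tnfD b (v * t)) := by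
  rw [famC4_homog, famC4_tnf_one]

end Fermat.Agent.S52.H60
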