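/-
Cluster E (S52), family identities (I3) and (I4) (helper60):
`2 N - (11 ± 5 s) D = (2 b - 11 ∓ 5 s) (1 + (b² ± 6 s b + 1) τ)⁵` for `s² = 5`, and
`b famF (v² tC4 b) (v³ tC6 b) t = N D tnfQ`.
-/
import Fermat.Agent.S52.Family

set_option autoImplicit false

namespace Fermat.Agent.S52.H60

open Fermat.Agent.S52

variable {R : Type*} [CommRing R]

/-- **(I4)** -/
theorem famF_tnf (b v t : R) :
    b * famF (v ^ 2 * tC4 b) (v ^ 3 * tC6 b) t =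
      tnfN b (v * t) * tnfD b (v * t) * tnfQ b (v * t) := by
  simp only [famF, famFc0, famFc2, famFc3, famFc4, famFc5, famFc6, famFc7, famFc8, famFc9, famFc10,
    famFc11, famFc12, tC4, tC6, tnfN, tnfD, tnfQ, tnfNc0, tnfNc1, tnfNc2, tnfNc3, tnfNc4, tnfNc5,
    tnfDc0, tnfDc1, tnfDc2, tnfDc3, tnfDc4, tnfDc5]
  ring

/-- `(A + B s)⁵` with `s² = 5`. -/
lemma pow5_sqrt5 (s A B : R) (hs : s ^ 2 = 5) :
    (A + B * s) ^ 5 = (A ^ 5 + 50 * A ^ 3 * B ^ 2 + 125 * A * B ^ 4) +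
      (5 * A ^ 4 * B + 50 * A ^ 2 * B ^ 3 + 25 * B ^ 5) * s := by
  linear_combination (10 * A ^ 3 * B ^ 2 + 10 * A ^ 2 * B ^ 3 * s + 5 * A * B ^ 4 * (s ^ 2 + 5) +
    B ^ 5 * s * (s ^ 2 + 5)) * hs

/-- **(I3)**, sign `+`. -/
theorem tnf_fifth_power_pos (s b τ : R) (hs : s ^ 2 = 5) :
    2 * tnfN b τ - (11 + 5 * s) * tnfD b τ =
      (2 * b - 11 - 5 * s) * (1 + (b ^ 2 + 6 * s * b + 1) * τ) ^ 5 := by
  have h := pow5_sqrt5 s (1 + (b ^ 2 + 1) * τ) (6 * b * τ) hs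
  have e : (1 + (b ^ 2 + 6 * s * b + 1) * τ) = (1 + (b ^ 2 + 1) * τ) + (6 * b * τ) * s := by ring
  rw [e, h]
  simp only [tnfN, tnfD, tnfNc0, tnfNc1, tnfNc2, tnfNc3, tnfNc4, tnfNc5,
    tnfDc0, tnfDc1, tnfDc2, tnfDc3, tnfDc4, tnfDc5]
  linear_combination (5 * (5 * (1 + (b ^ 2 + 1) * τ) ^ 4 * (6 * b * τ) +
    50 * (1 + (b ^ 2 + 1) * τ) ^ 2 * (6 * b * τ) ^ 3 + 25 * (6 * b * τ) ^ 5)) * hs

/-- **(I3)**, sign `-`. -/
theorem tnf_fifth_power_neg (s b τ : R) (hs : s ^ 2 = 5) :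
    2 * tnfN b τ - (11 - 5 * s) * tnfD b τ =
      (2 * b - 11 + 5 * s) * (1 + (b ^ 2 - 6 * s * b + 1) * τ) ^ 5 := by
  have hs' : (-s) ^ 2 = 5 := by rw [neg_sq]; exact hs
  have := tnf_fifth_power_pos (-s) b τ hs'
  linear_combination this

end Fermat.Agent.S52.H60
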