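/-
Cluster E, package E-SS (helper60), algebraic core: in Tate-normal-form coordinates the
fibre `E_t` of the 5-congruent family cannot have `c₄ = 0 = Δ` (additive reduction) unless
`τ = 0`.
-/
import Mathlib.Tactic.LinearCombination
import Mathlib.Tactic.FieldSimp
import Mathlib.Tactic.Ring
import Mathlib.Algebra.Field.Basic

set_option autoImplicit false

namespace Fermat.Agent.S52.H60

variable {k : Type*} [Field k]

/-- `C4h(b₊, 1) = 5 b₊²`-type statement: if `N = β D` with `β² - 11β - 1 = 0` then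
`C4h(N, D) = 5 (11 β + 1) D⁴`. -/
lemma c4h_of_root (β N D : k) (hβ : β ^ 2 - 11 * β - 1 = 0) (hN : N = β * D) :
    (N ^ 2 - 11 * N * D - D ^ 2) * (N ^ 2 - N * D + 4 * D ^ 2) + 5 * D ^ 3 * (11 * N + D) =
      5 * (11 * β + 1) * D ^ 4 := by
  subst hN
  linear_combination (D ^ 4 * (β ^ 2 - β + 4)) * hβ

/-- The algebraic core of E-SS.  `s = √5`, `P± = 1 + (b² ± 6 s b + 1) τ`,
`2N - (11 ± 5s) D = (2b - 11 ∓ 5s) P±⁵` (identity (I3)), `C4h(N, D) = 0` (identity (I5)),
`N D P₊ P₋ = 0` (identity (I4)); `b ≠ 0`, `b² - 11 b - 1 ≠ 0`: contradiction. -/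
theorem false_of_additive (h2 : (2 : k) ≠ 0) (h3 : (3 : k) ≠ 0) (h5 : (5 : k) ≠ 0)
    (s b τ N D : k) (hs : s ^ 2 = 5) (hb : b ≠ 0) (hΔ : b ^ 2 - 11 * b - 1 ≠ 0)
    (hI3p : 2 * N - (11 + 5 * s) * D = (2 * b - 11 - 5 * s) * (1 + (b ^ 2 + 6 * s * b + 1) * τ) ^ 5)
    (hI3m : 2 * N - (11 - 5 * s) * D = (2 * b - 11 + 5 * s) * (1 + (b ^ 2 - 6 * s * b + 1) * τ) ^ 5)
    (hC4 : (N ^ 2 - 11 * N * D - D ^ 2) * (N ^ 2 - N * D + 4 * D ^ 2) +
      5 * D ^ 3 * (11 * N + D) = 0)
    (hF : N * D * ((1 + (b ^ 2 + 6 * s * b + 1) * τ) * (1 + (b ^ 2 - 6 * s * b + 1) * τ)) = 0) :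
    False := by
  have hs0 : s ≠ 0 := by
    intro h0; rw [h0] at hs; apply h5; rw [← hs]; ring
  -- `2b - 11 ∓ 5s ≠ 0`
  have hbp : 2 * b - 11 - 5 * s ≠ 0 := by
    intro h0
    apply hΔ
    have : 4 * (b ^ 2 - 11 * b - 1) = 0 := by
      linear_combination (2 * b - 11 + 5 * s) * h0 + 25 * hs
    have h4 : (4 : k) ≠ 0 := by
      have : (4 : k) = 2 * 2 := by norm_num
      rw [this]; exact mul_ne_zero h2 h2
    exact (mul_eq_zero.mp this).resolve_left h4
  have hbm : 2 * b - 11 + 5 * s ≠ 0 := by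
    intro h0
    apply hΔ
    have : 4 * (b ^ 2 - 11 * b - 1) = 0 := by
      linear_combination (2 * b - 11 - 5 * s) * h0 + 25 * hs
    have h4 : (4 : k) ≠ 0 := by
      have : (4 : k) = 2 * 2 := by norm_num
      rw [this]; exact mul_ne_zero h2 h2
    exact (mul_eq_zero.mp this).resolve_left h4
  -- first: `N = 0` and `D = 0`
  have hD : D = 0 := by
    rcases mul_eq_zero.mp hF with hND | hQ
    · rcases mul_eq_zero.mp hND with hN | hD
      · rw [hN] at hC4
        have : D ^ 4 = 0 := by linear_combination hC4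
        exact pow_eq_zero_iff (by norm_num) |>.mp this
      · exact hD
    · rcases mul_eq_zero.mp hQ with hP | hP
      · -- `P₊ = 0`, so `2N = (11 + 5s) D`
        rw [hP] at hI3p
        have hN : N = ((11 + 5 * s) / 2) * D := by
          field_simp
          linear_combination hI3p
        have hβ : ((11 + 5 * s) / 2) ^ 2 - 11 * ((11 + 5 * s) / 2) - 1 = 0 := by
          field_simp
          linear_combination 25 * hs
        rw [c4h_of_root _ N D hβ hN] at hC4
        have hne : 5 * (11 * ((11 + 5 * s) / 2) + 1) ≠ 0 := by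
          -- `11 β + 1 = β²` and `β ≠ 0`
          have : 11 * ((11 + 5 * s) / 2) + 1 = ((11 + 5 * s) / 2) ^ 2 := by
            linear_combination -hβ
          rw [this]
          refine mul_ne_zero h5 (pow_ne_zero 2 ?_)
          intro h0
          rw [h0] at hβ
          norm_num at hβ
        have : D ^ 4 = 0 := (mul_eq_zero.mp hC4).resolve_left hne
        exact pow_eq_zero_iff (by norm_num) |>.mp this
      · rw [hP] at hI3m
        have hN : N = ((11 - 5 * s) / 2) * D := by
          field_simp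
          linear_combination hI3m
        have hβ : ((11 - 5 * s) / 2) ^ 2 - 11 * ((11 - 5 * s) / 2) - 1 = 0 := by
          field_simp
          linear_combination 25 * hs
        rw [c4h_of_root _ N D hβ hN] at hC4
        have hne : 5 * (11 * ((11 - 5 * s) / 2) + 1) ≠ 0 := by
          have : 11 * ((11 - 5 * s) / 2) + 1 = ((11 - 5 * s) / 2) ^ 2 := by
            linear_combination -hβ
          rw [this]
          refine mul_ne_zero h5 (pow_ne_zero 2 ?_)
          intro h0
          rw [h0] at hβ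
          norm_num at hβ
        have : D ^ 4 = 0 := (mul_eq_zero.mp hC4).resolve_left hne
        exact pow_eq_zero_iff (by norm_num) |>.mp this
  have hN : N = 0 := by
    rw [hD] at hC4
    have : N ^ 4 = 0 := by linear_combination hC4
    exact pow_eq_zero_iff (by norm_num) |>.mp this
  -- hence `P₊ = P₋ = 0`
  rw [hN, hD] at hI3p hI3m
  have hPp : 1 + (b ^ 2 + 6 * s * b + 1) * τ = 0 := by
    have : (2 * b - 11 - 5 * s) * (1 + (b ^ 2 + 6 * s * b + 1) * τ) ^ 5 = 0 := by
      rw [← hI3p]; ring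
    exact pow_eq_zero_iff (by norm_num) |>.mp ((mul_eq_zero.mp this).resolve_left hbp)
  have hPm : 1 + (b ^ 2 - 6 * s * b + 1) * τ = 0 := by
    have : (2 * b - 11 + 5 * s) * (1 + (b ^ 2 - 6 * s * b + 1) * τ) ^ 5 = 0 := by
      rw [← hI3m]; ring
    exact pow_eq_zero_iff (by norm_num) |>.mp ((mul_eq_zero.mp this).resolve_left hbm)
  have h12 : (12 : k) * s * b * τ = 0 := by linear_combination hPp - hPm
  have h12' : (12 : k) ≠ 0 := by
    have : (12 : k) = 2 * 2 * 3 := by norm_num
    rw [this]; exact mul_ne_zero (mul_ne_zero h2 h2) h3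
  have hτ : τ = 0 := by
    rcases mul_eq_zero.mp h12 with h | h
    · rcases mul_eq_zero.mp h with h | h
      · rcases mul_eq_zero.mp h with h | h
        · exact absurd h h12'
        · exact absurd h hs0
      · exact absurd h hb
    · exact h
  rw [hτ] at hPp
  simp at hPp

end Fermat.Agent.S52.H60
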