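/-
Cluster E, package E-TNF (helper60): a point of order 5 on a Weierstrass curve over a field puts
the curve in Tate normal form  `y² + (1-b)xy - by = x³ - bx²`.
-/
import Fermat.Agent.Lib.Torsion35.Main
import Fermat.Agent.Lib.PointVariableChange

set_option autoImplicit false

namespace Fermat.Agent.S52.H60

open WeierstrassCurve
open Fermat.Agent.Lib.Torsion35 Fermat.Agent.Lib.PointVariableChange

variable {F : Type*} [Field F]

/-- Tate normal form with parameter `b`: `y² + (1-b)xy - by = x³ - bx²`. -/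
def tnfCurve (b : F) : WeierstrassCurve F := ⟨1 - b, -b, -b, 0, 0⟩

/-- `Ψ₅(0)` for a curve with `a₄ = a₆ = 0`. -/
lemma vP5_zero_of_a4_a6 (W : Affine F) (h4 : W.a₄ = 0) (h6 : W.a₆ = 0) :
    vP5 W 0 = -(W.a₃ ^ 6 * (W.a₃ ^ 2 - W.a₁ * W.a₂ * W.a₃ + W.a₂ ^ 3)) := by
  simp only [vP5, vQ4, vB, vP3, b₂, b₄, b₆, b₈, h4, h6]
  ring

/-- The translation moving `(x0, y0)` to `(0, 0)` with horizontal tangent. -/
def shiftVC (W : Affine F) [DecidableEq F] (x0 y0 : F) : VariableChange F :=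
  ⟨1, x0, W.slope x0 x0 y0 y0, y0⟩

section

variable [DecidableEq F] (W : Affine F)

lemma shift_a₃ (x0 y0 : F) :
    (shiftVC W x0 y0 • W).a₃ = y0 - W.negY x0 y0 := by
  simp only [shiftVC, variableChange_a₃, Affine.negY]
  simp
  ring

lemma shift_a₆ {x0 y0 : F} (h : W.Equation x0 y0) :
    (shiftVC W x0 y0 • W).a₆ = 0 := by
  rw [Affine.equation_iff] at h
  simp only [shiftVC, variableChange_a₆]
  simp
  linear_combination -h

lemma shift_a₄ {x0 y0 : F} (hy : y0 ≠ W.negY x0 y0) :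
    (shiftVC W x0 y0 • W).a₄ = 0 := by
  have hne : y0 - W.negY x0 y0 ≠ 0 := sub_ne_zero.mpr hy
  have hD : y0 - W.negY x0 y0 = 2 * y0 + W.a₁ * x0 + W.a₃ := by
    simp only [Affine.negY]; ring
  simp only [shiftVC, variableChange_a₄]
  rw [Affine.slope_of_Y_ne rfl hy]
  generalize y0 - W.negY x0 y0 = D at hne hD
  simp
  field_simp
  linear_combination (3 * x0 ^ 2 + 2 * W.a₂ * x0 + W.a₄ - W.a₁ * y0) * hD

lemma not_two_torsion {x0 y0 : F} (h : W.Nonsingular x0 y0)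
    (h5 : 5 • Affine.Point.some x0 y0 h = 0) : y0 ≠ W.negY x0 y0 := by
  intro hy
  have h2 : Affine.Point.some x0 y0 h + Affine.Point.some x0 y0 h = 0 :=
    Affine.Point.add_self_of_Y_eq hy
  have e : 5 • Affine.Point.some x0 y0 h =
      (Affine.Point.some x0 y0 h + Affine.Point.some x0 y0 h) +
        (Affine.Point.some x0 y0 h + Affine.Point.some x0 y0 h) + Affine.Point.some x0 y0 h := by
    simp only [succ_nsmul, zero_nsmul, zero_add]
    abel
  rw [e, h2, zero_add, zero_add] at h5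
  exact Affine.Point.some_ne_zero _ h5

lemma shift_nonsingular {x0 y0 : F} (h : W.Nonsingular x0 y0) :
    (shiftVC W x0 y0 • W).toAffine.Nonsingular 0 0 := by
  rw [← nonsingular_vc W (shiftVC W x0 y0) 0 0]
  have e1 : vcX (shiftVC W x0 y0) 0 = x0 := by simp [vcX, shiftVC]
  have e2 : vcY (shiftVC W x0 y0) 0 0 = y0 := by simp [vcY, shiftVC]
  rw [e1, e2]
  exact h

lemma shift_five {x0 y0 : F} (h : W.Nonsingular x0 y0)
    (h5 : 5 • Affine.Point.some x0 y0 h = 0) :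
    5 • Affine.Point.some (W' := (shiftVC W x0 y0 • W).toAffine) 0 0 (shift_nonsingular W h) = 0 := by
  apply (equiv W (shiftVC W x0 y0)).injective
  rw [map_nsmul, map_zero, equiv_some]
  have e1 : vcX (shiftVC W x0 y0) 0 = x0 := by simp [vcX, shiftVC]
  have e2 : vcY (shiftVC W x0 y0) 0 0 = y0 := by simp [vcY, shiftVC]
  have : Affine.Point.some (vcX (shiftVC W x0 y0) 0) (vcY (shiftVC W x0 y0) 0 0)
      ((nonsingular_vc W (shiftVC W x0 y0) 0 0).mpr (shift_nonsingular W h)) =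
      Affine.Point.some x0 y0 h := by
    congr 1
  rw [this]
  exact h5

/-- The relation between the coefficients of the shifted curve coming from `5 • P = 0`. -/
lemma shift_rel {x0 y0 : F} (h : W.Nonsingular x0 y0)
    (h5 : 5 • Affine.Point.some x0 y0 h = 0) :
    (shiftVC W x0 y0 • W).a₃ ^ 2 - (shiftVC W x0 y0 • W).a₁ * (shiftVC W x0 y0 • W).a₂ *
      (shiftVC W x0 y0 • W).a₃ + (shiftVC W x0 y0 • W).a₂ ^ 3 = 0 := by
  have hy := not_two_torsion W h h5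
  have h3 : (shiftVC W x0 y0 • W).a₃ ≠ 0 := by
    rw [shift_a₃]; exact sub_ne_zero.mpr hy
  have hv := (five_nsmul_eq_zero_iff (shiftVC W x0 y0 • W).toAffine (shift_nonsingular W h)).mp
    (shift_five W h h5)
  rw [vP5_zero_of_a4_a6 _ (shift_a₄ W hy) (shift_a₆ W h.1)] at hv
  have := neg_eq_zero.mp hv
  rcases mul_eq_zero.mp this with h0 | h0
  · exact absurd (pow_eq_zero_iff (by norm_num) |>.mp h0) h3
  · exact h0

/-- `a₂` of the shifted curve is `Ψ₃(x0) / Ψ₂Sq(x0)`: a function of `x0` alone. -/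
lemma shift_a₂_mul {x0 y0 : F} (h : W.Equation x0 y0) (hy : y0 ≠ W.negY x0 y0) :
    (shiftVC W x0 y0 • W).a₂ * vB W x0 = vP3 W x0 := by
  have hne : y0 - W.negY x0 y0 ≠ 0 := sub_ne_zero.mpr hy
  rw [vP3_eq_of_equation W h, ← psi2_sq W h]
  simp only [shiftVC, variableChange_a₂]
  rw [Affine.slope_of_Y_ne rfl hy]
  simp only [vN]
  generalize y0 - W.negY x0 y0 = D at hne
  simp
  field_simp
  ring

lemma shift_a₃_sq {x0 y0 : F} (h : W.Equation x0 y0) :
    (shiftVC W x0 y0 • W).a₃ ^ 2 = vB W x0 := by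
  rw [shift_a₃, psi2_sq W h]

end

section TNF

/-- `c₄` of the Tate normal form. -/
def tnfC4 (b : F) : F := b ^ 4 - 12 * b ^ 3 + 14 * b ^ 2 + 12 * b + 1

/-- `c₆` of the Tate normal form. -/
def tnfC6 (b : F) : F := -((b ^ 2 + 1) * (b ^ 4 - 18 * b ^ 3 + 74 * b ^ 2 + 18 * b + 1))

/-- `Δ` of the Tate normal form. -/
def tnfDelta (b : F) : F := b ^ 5 * (b ^ 2 - 11 * b - 1)

lemma tnfCurve_c₄ (b : F) : (tnfCurve b).c₄ = tnfC4 b := by
  simp only [tnfCurve, tnfC4, c₄, b₂, b₄]; ring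

lemma tnfCurve_c₆ (b : F) : (tnfCurve b).c₆ = tnfC6 b := by
  simp only [tnfCurve, tnfC6, c₆, b₂, b₄, b₆]; ring

lemma tnfCurve_Δ (b : F) : (tnfCurve b).Δ = tnfDelta b := by
  simp only [tnfCurve, tnfDelta, Δ, b₂, b₄, b₆, b₈]; ring

lemma tnfCurve_nonsingular {b : F} (hb : b ≠ 0) : (tnfCurve b).toAffine.Nonsingular 0 0 := by
  rw [Affine.nonsingular_iff, Affine.equation_iff]
  refine ⟨by simp [tnfCurve], Or.inr ?_⟩
  simpa [tnfCurve] using hb.symm

/-- Converse: `(0, 0)` is a point of order (dividing) 5 on the Tate normal form. -/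
lemma tnfCurve_five [DecidableEq F] {b : F} (hb : b ≠ 0) :
    5 • Affine.Point.some (W' := (tnfCurve b).toAffine) 0 0 (tnfCurve_nonsingular hb) = 0 := by
  rw [five_nsmul_eq_zero_iff, vP5_zero_of_a4_a6 _ rfl rfl]
  simp only [tnfCurve]
  ring

end TNF

section Main

variable [DecidableEq F] (W : Affine F)

/-- **E-TNF (core).** A point `P = (x0, y0)` with `5 • P = 0` on a Weierstrass curve over a
field: after the change of variables `(u, r, s, t) = (u, x0, λ, y0)` (`λ` the tangent slope at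
`P`) the curve is the Tate normal form `tnfCurve b`.  Moreover `u²` and `b` are rational
functions of `x0` alone: `u² = Ψ₂Sq(x0)³ / Ψ₃(x0)²`, `b = -Ψ₃(x0)³ / Ψ₂Sq(x0)⁴`. -/
theorem exists_tnf {x0 y0 : F} (h : W.Nonsingular x0 y0)
    (h5 : 5 • Affine.Point.some x0 y0 h = 0) :
    ∃ (u : Fˣ) (b : F), b ≠ 0 ∧
      (⟨u, x0, W.slope x0 x0 y0 y0, y0⟩ : VariableChange F) • W = tnfCurve b ∧
      vB W x0 ≠ 0 ∧ vP3 W x0 ≠ 0 ∧
      (u : F) ^ 2 * vP3 W x0 ^ 2 = vB W x0 ^ 3 ∧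
      b * vB W x0 ^ 4 = -vP3 W x0 ^ 3 ∧
      (u : F) * vP3 W x0 = (y0 - W.negY x0 y0) ^ 3 := by
  have hy := not_two_torsion W h h5
  have hD : y0 - W.negY x0 y0 ≠ 0 := sub_ne_zero.mpr hy
  have h3 := shift_a₃ W x0 y0
  have h4 := shift_a₄ W hy
  have h6 := shift_a₆ W h.1
  have hrel := shift_rel W h h5
  have h2 := shift_a₂_mul W h.1 hy
  have hB : vB W x0 ≠ 0 := by
    rw [← psi2_sq W h.1]; exact pow_ne_zero 2 hD
  set A1 := (shiftVC W x0 y0 • W).a₁ with hA1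
  set A2 := (shiftVC W x0 y0 • W).a₂ with hA2
  set A3 := (shiftVC W x0 y0 • W).a₃ with hA3
  have hA3ne : A3 ≠ 0 := by rw [h3]; exact hD
  have hA2ne : A2 ≠ 0 := by
    intro h0
    rw [h0] at hrel
    have : A3 ^ 2 = 0 := by linear_combination hrel
    exact hA3ne (pow_eq_zero_iff (by norm_num) |>.mp this)
  have hP3 : vP3 W x0 ≠ 0 := by
    rw [← h2]; exact mul_ne_zero hA2ne hB
  have hBsq : A3 ^ 2 = vB W x0 := by rw [h3, psi2_sq W h.1]
  refine ⟨Units.mk0 (A3 / A2) (div_ne_zero hA3ne hA2ne), -(A2 ^ 3 / A3 ^ 2), ?_, ?_, hB, hP3,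
    ?_, ?_, ?_⟩
  · exact neg_ne_zero.mpr (div_ne_zero (pow_ne_zero 3 hA2ne) (pow_ne_zero 2 hA3ne))
  · -- the curve
    have e1 : ((⟨Units.mk0 (A3 / A2) (div_ne_zero hA3ne hA2ne), x0, W.slope x0 x0 y0 y0, y0⟩ :
        VariableChange F) • W).a₁ = (A3 / A2)⁻¹ * A1 := by
      simp [hA1, shiftVC, variableChange_a₁]
    have e2 : ((⟨Units.mk0 (A3 / A2) (div_ne_zero hA3ne hA2ne), x0, W.slope x0 x0 y0 y0, y0⟩ :
        VariableChange F) • W).a₂ = (A3 / A2)⁻¹ ^ 2 * A2 := by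
      simp [hA2, shiftVC, variableChange_a₂]
    have e3 : ((⟨Units.mk0 (A3 / A2) (div_ne_zero hA3ne hA2ne), x0, W.slope x0 x0 y0 y0, y0⟩ :
        VariableChange F) • W).a₃ = (A3 / A2)⁻¹ ^ 3 * A3 := by
      simp [hA3, shiftVC, variableChange_a₃]
    have e4 : ((⟨Units.mk0 (A3 / A2) (div_ne_zero hA3ne hA2ne), x0, W.slope x0 x0 y0 y0, y0⟩ :
        VariableChange F) • W).a₄ = (A3 / A2)⁻¹ ^ 4 * (shiftVC W x0 y0 • W).a₄ := by
      simp [shiftVC, variableChange_a₄]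
    have e6 : ((⟨Units.mk0 (A3 / A2) (div_ne_zero hA3ne hA2ne), x0, W.slope x0 x0 y0 y0, y0⟩ :
        VariableChange F) • W).a₆ = (A3 / A2)⁻¹ ^ 6 * (shiftVC W x0 y0 • W).a₆ := by
      simp [shiftVC, variableChange_a₆]
    ext
    · rw [e1]; simp only [tnfCurve]
      field_simp
      linear_combination -hrel
    · rw [e2]; simp only [tnfCurve]
      field_simp
    · rw [e3]; simp only [tnfCurve]
      field_simp
    · rw [e4, h4]; simp [tnfCurve]
    · rw [e6, h6]; simp [tnfCurve]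
  · simp only [Units.val_mk0]
    rw [← h2, ← hBsq]
    field_simp
  · rw [← h2, ← hBsq]
    field_simp
  · simp only [Units.val_mk0]
    rw [← h2, ← hBsq, ← h3]
    field_simp

omit [DecidableEq F] in
/-- The invariants `c₄, c₆, Δ` of a curve that is `tnfCurve b` after a change of variables
with scaling `u`. -/
theorem invariants_of_tnf {C : VariableChange F} {b : F} (hC : C • W = tnfCurve b) :
    W.c₄ = (C.u : F) ^ 4 * tnfC4 b ∧ W.c₆ = (C.u : F) ^ 6 * tnfC6 b ∧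
      W.Δ = (C.u : F) ^ 12 * tnfDelta b := by
  have hu : (C.u : F) ≠ 0 := C.u.ne_zero
  have h4 := variableChange_c₄ W C
  have h6 := variableChange_c₆ W C
  have hΔ := variableChange_Δ W C
  rw [hC, tnfCurve_c₄] at h4
  rw [hC, tnfCurve_c₆] at h6
  rw [hC, tnfCurve_Δ] at hΔ
  rw [h4, h6, hΔ]
  simp only [Units.val_inv_eq_inv_val]
  refine ⟨?_, ?_, ?_⟩ <;> field_simp

/-- **E-TNF** with the invariants. -/
theorem exists_tnf_invariants {x0 y0 : F} (h : W.Nonsingular x0 y0)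
    (h5 : 5 • Affine.Point.some x0 y0 h = 0) :
    ∃ (u : Fˣ) (b : F), b ≠ 0 ∧
      (⟨u, x0, W.slope x0 x0 y0 y0, y0⟩ : VariableChange F) • W = tnfCurve b ∧
      W.c₄ = (u : F) ^ 4 * tnfC4 b ∧ W.c₆ = (u : F) ^ 6 * tnfC6 b ∧
      W.Δ = (u : F) ^ 12 * tnfDelta b ∧
      (u : F) ^ 2 * vP3 W x0 ^ 2 = vB W x0 ^ 3 ∧
      b * vB W x0 ^ 4 = -vP3 W x0 ^ 3 := by
  obtain ⟨u, b, hb, hC, -, -, hu, hbb, -⟩ := exists_tnf W h h5
  obtain ⟨h4, h6, hΔ⟩ := invariants_of_tnf W hC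
  exact ⟨u, b, hb, hC, h4, h6, hΔ, hu, hbb⟩

end Main

end Fermat.Agent.S52.H60
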