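/-
Cluster E, package E-SS (helper60): Tate normal form of the reduction of an integral Weierstrass
curve at a good prime `p ≠ 5`, over the algebraic closure of `𝔽_p`.
-/
import Fermat.Agent.S52.H60_TNF
import Fermat.Agent.Lib.Torsion35.Card
import Fermat.Agent.S52.H60_SSCore
import Mathlib.FieldTheory.IsAlgClosed.AlgebraicClosure
import Mathlib.Algebra.CharP.Algebra
import Mathlib.Algebra.Field.ZMod

set_option autoImplicit false

namespace Fermat.Agent.S52.H60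

open WeierstrassCurve
open Fermat.Agent.Lib.Torsion35

/-- The reduction map `ℤ → 𝔽̄_p`. -/
noncomputable def redBar (p : ℕ) [Fact p.Prime] : ℤ →+* AlgebraicClosure (ZMod p) :=
  (algebraMap (ZMod p) (AlgebraicClosure (ZMod p))).comp (Int.castRingHom (ZMod p))

lemma redBar_eq_zero_iff (p : ℕ) [Fact p.Prime] (n : ℤ) : redBar p n = 0 ↔ (p : ℤ) ∣ n := by
  simp only [eq_intCast]
  exact CharP.intCast_eq_zero_iff (AlgebraicClosure (ZMod p)) p n

lemma redBar_natCast_ne_zero (p : ℕ) [Fact p.Prime] (n : ℕ) (hn : ¬ p ∣ n) :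
    (n : AlgebraicClosure (ZMod p)) ≠ 0 := by
  intro h
  apply hn
  have : redBar p (n : ℤ) = 0 := by simpa using h
  rw [redBar_eq_zero_iff] at this
  exact_mod_cast this

/-- Over any algebraically closed field in which `5 ≠ 0`, an elliptic curve is a scaled Tate
normal form. -/
theorem exists_tnf_params {k : Type*} [Field k] [IsAlgClosed k] (h5 : (5 : k) ≠ 0)
    (W : WeierstrassCurve k) (hΔ : W.Δ ≠ 0) :
    ∃ u b : k, u ≠ 0 ∧ b ≠ 0 ∧ b ^ 2 - 11 * b - 1 ≠ 0 ∧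
      W.c₄ = u ^ 4 * tnfC4 b ∧ W.c₆ = u ^ 6 * tnfC6 b := by
  classical
  have h5' : ((5 : ℕ) : k) ≠ 0 := by exact_mod_cast h5
  have hdeg : (W.preΨ' 5).degree ≠ 0 := by
    rw [Polynomial.degree_eq_natDegree (W.preΨ'_ne_zero h5'), natDegree_preΨ'_five W h5]
    norm_num
  obtain ⟨x, hx⟩ := IsAlgClosed.exists_root (W.preΨ' 5) hdeg
  obtain ⟨y, h, -⟩ := exists_point_of_x W.toAffine hΔ x
  have hP : 5 • Affine.Point.some x y h = 0 := (five_nsmul_eq_zero_iff_isRoot W.toAffine h).mpr hx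
  obtain ⟨u, b, hb, -, h4, h6, hD, -, -⟩ := exists_tnf_invariants W.toAffine h hP
  refine ⟨u, b, u.ne_zero, hb, ?_, h4, h6⟩
  intro h0
  apply hΔ
  rw [hD, tnfDelta, h0, mul_zero, mul_zero]

/-- Tate normal form parameters of the reduction of `W / ℤ` at a good prime `p ≠ 5`. -/
theorem exists_tnf_mod (W : WeierstrassCurve ℤ) (p : ℕ) [Fact p.Prime] (hp5 : p ≠ 5)
    (hΔ : ¬ (p : ℤ) ∣ W.Δ) :
    ∃ u b : AlgebraicClosure (ZMod p), u ≠ 0 ∧ b ≠ 0 ∧ b ^ 2 - 11 * b - 1 ≠ 0 ∧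
      redBar p W.c₄ = u ^ 4 * tnfC4 b ∧ redBar p W.c₆ = u ^ 6 * tnfC6 b := by
  have hp : p.Prime := Fact.out
  have h5 : (5 : AlgebraicClosure (ZMod p)) ≠ 0 := by
    have := redBar_natCast_ne_zero p 5 (by
      intro h
      exact hp5 ((Nat.prime_dvd_prime_iff_eq hp Nat.prime_five).mp h))
    simpa using this
  have hΔ' : (W.map (redBar p)).Δ ≠ 0 := by
    rw [map_Δ]
    intro h
    exact hΔ ((redBar_eq_zero_iff p _).mp h)
  obtain ⟨u, b, hu, hb, hd, h4, h6⟩ := exists_tnf_params h5 (W.map (redBar p)) hΔ'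
  rw [map_c₄] at h4
  rw [map_c₆] at h6
  exact ⟨u, b, hu, hb, hd, h4, h6⟩

end Fermat.Agent.S52.H60
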