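/-
Cluster E, package E-SS (helper60): semistability of a member `W'` of the 5-congruent family,
from the identities (I1), (I3), (I4) of the family (taken as hypotheses here, in reduced form).
-/
import Fermat.Agent.S52.H60_SSMod
import Fermat.Prelude.Def_FLTPrelim_Modularity

set_option autoImplicit false

namespace Fermat.Agent.S52.H60

open WeierstrassCurve

/-- `C4h(N, D)`: the homogeneous form of `c₄` of the Tate normal form, in the shape (I5). -/
def c4hForm {R : Type*} [CommRing R] (N D : R) : R :=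
  (N ^ 2 - 11 * N * D - D ^ 2) * (N ^ 2 - N * D + 4 * D ^ 2) + 5 * D ^ 3 * (11 * N + D)

/-- The fibre identities of the family at a prime `p`, for given values `X = c₄(W')`,
`Fv = famF(t₀)`: for every Tate-normal-form presentation `(u, b)` of `W mod p` over `𝔽̄_p` and
every square root `s` of `5` there are `N, D, τ` with (I1), (I4), (I3±). -/
def FibreIdentities (W : WeierstrassCurve ℤ) (X Fv : ℤ) (p : ℕ) [Fact p.Prime] : Prop :=
  ∀ u b s : AlgebraicClosure (ZMod p), u ≠ 0 → s ^ 2 = 5 →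
    redBar p W.c₄ = u ^ 4 * tnfC4 b → redBar p W.c₆ = u ^ 6 * tnfC6 b →
    ∃ N D τ : AlgebraicClosure (ZMod p),
      redBar p X = u ^ 4 * c4hForm N D ∧
      b * redBar p Fv =
        N * D * ((1 + (b ^ 2 + 6 * s * b + 1) * τ) * (1 + (b ^ 2 - 6 * s * b + 1) * τ)) ∧
      2 * N - (11 + 5 * s) * D = (2 * b - 11 - 5 * s) * (1 + (b ^ 2 + 6 * s * b + 1) * τ) ^ 5 ∧
      2 * N - (11 - 5 * s) * D = (2 * b - 11 + 5 * s) * (1 + (b ^ 2 - 6 * s * b + 1) * τ) ^ 5

/-- At a good prime `p ∤ 30` of `W`, the values `X = c₄(W')` and `Fv = famF(t₀)` are not both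
divisible by `p`. -/
theorem not_dvd_both (W : WeierstrassCurve ℤ) (X Fv : ℤ) (p : ℕ) [Fact p.Prime]
    (h2 : p ≠ 2) (h3 : p ≠ 3) (h5 : p ≠ 5) (hΔ : ¬ (p : ℤ) ∣ W.Δ)
    (hfib : FibreIdentities W X Fv p) (hX : (p : ℤ) ∣ X) (hF : (p : ℤ) ∣ Fv) : False := by
  have hp : p.Prime := Fact.out
  obtain ⟨u, b, hu, hb, hd, h4, h6⟩ := exists_tnf_mod W p h5 hΔ
  have hne : ∀ q : ℕ, q.Prime → p ≠ q → (q : AlgebraicClosure (ZMod p)) ≠ 0 := by
    intro q hq hpq
    exact redBar_natCast_ne_zero p q (fun h => hpq ((Nat.prime_dvd_prime_iff_eq hp hq).mp h))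
  have k2 : (2 : AlgebraicClosure (ZMod p)) ≠ 0 := by
    simpa using hne 2 Nat.prime_two h2
  have k3 : (3 : AlgebraicClosure (ZMod p)) ≠ 0 := by
    simpa using hne 3 Nat.prime_three h3
  have k5 : (5 : AlgebraicClosure (ZMod p)) ≠ 0 := by
    simpa using hne 5 Nat.prime_five h5
  obtain ⟨s, hs⟩ := IsAlgClosed.exists_pow_nat_eq (5 : AlgebraicClosure (ZMod p))
    (n := 2) (by norm_num)
  obtain ⟨N, D, τ, hI1, hI4, hI3p, hI3m⟩ := hfib u b s hu hs h4 h6
  have hX0 : redBar p X = 0 := (redBar_eq_zero_iff p X).mpr hX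
  have hF0 : redBar p Fv = 0 := (redBar_eq_zero_iff p Fv).mpr hF
  rw [hX0] at hI1
  rw [hF0, mul_zero] at hI4
  have hC4 : c4hForm N D = 0 :=
    (mul_eq_zero.mp hI1.symm).resolve_left (pow_ne_zero 4 hu)
  exact false_of_additive k2 k3 k5 s b τ N D hs hb hd hI3p hI3m hC4 hI4.symm

/-- **E-SS, abstract form.**  `W` semistable with `Δ ≠ 0`, `m` divisible by every prime dividing
`30 Δ`; `W'` with `c₄(W') = X ≡ c₄(W) mod m`, `Δ(W') = Δ(W) Fv⁵`, `Fv ≡ 1 mod m`, and the fibre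
identities at every prime.  Then `W'` is semistable with `Δ ≠ 0`. -/
theorem semistable_of_identities (W : WeierstrassCurve ℤ) (hΔ : W.Δ ≠ 0)
    (hW : W.IsSemistableModel) (m : ℤ)
    (hm : ∀ p : ℕ, p.Prime → (p : ℤ) ∣ 30 * W.Δ → (p : ℤ) ∣ m)
    (W' : WeierstrassCurve ℤ) (X Fv : ℤ) (hc4 : W'.c₄ = X) (hΔ' : W'.Δ = W.Δ * Fv ^ 5)
    (hX : m ∣ X - W.c₄) (hF : m ∣ Fv - 1)
    (hfib : ∀ (p : ℕ) [Fact p.Prime], FibreIdentities W X Fv p) :
    W'.Δ ≠ 0 ∧ W'.IsSemistableModel := by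
  -- primes dividing `m` do not divide `Fv`
  have hFm : ∀ p : ℕ, p.Prime → (p : ℤ) ∣ m → ¬ (p : ℤ) ∣ Fv := by
    intro p hp hpm hpF
    have h1 : (p : ℤ) ∣ Fv - 1 := hpm.trans hF
    have h2 : (p : ℤ) ∣ 1 := by
      have := dvd_sub hpF h1
      simpa using this
    have := Int.natAbs_dvd_natAbs.mpr h2
    simp at this
    exact hp.one_lt.ne' this
  have h2m : (2 : ℤ) ∣ m := by
    have := hm 2 Nat.prime_two (Dvd.dvd.mul_right (by norm_num) _)
    simpa using this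
  have hF0 : Fv ≠ 0 := by
    intro h0
    exact hFm 2 Nat.prime_two (by simpa using h2m) (by rw [h0]; exact dvd_zero _)
  refine ⟨by rw [hΔ']; exact mul_ne_zero hΔ (pow_ne_zero 5 hF0), ?_⟩
  intro p hp hpΔ' hpc4
  rw [hΔ'] at hpΔ'
  rw [hc4] at hpc4
  have hp' : Prime (p : ℤ) := Nat.prime_iff_prime_int.mp hp
  by_cases hpΔ : (p : ℤ) ∣ W.Δ
  · -- old bad prime: `c₄(W') ≡ c₄(W)`
    have hpm : (p : ℤ) ∣ m := hm p hp (Dvd.dvd.mul_left hpΔ _)
    have : (p : ℤ) ∣ W.c₄ := by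
      have h1 : (p : ℤ) ∣ X - W.c₄ := hpm.trans hX
      have := dvd_sub hpc4 h1
      simpa using this
    exact hW p hp hpΔ this
  · -- new bad prime
    have hpF : (p : ℤ) ∣ Fv := by
      rcases hp'.dvd_or_dvd hpΔ' with h | h
      · exact absurd h hpΔ
      · exact hp'.dvd_of_dvd_pow h
    have hpm : ¬ (p : ℤ) ∣ m := fun h => hFm p hp h hpF
    have hp30 : ¬ (p : ℤ) ∣ 30 := fun h => hpm (hm p hp (Dvd.dvd.mul_right h _))
    have : Fact p.Prime := ⟨hp⟩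
    refine not_dvd_both W X Fv p ?_ ?_ ?_ hpΔ (hfib p) hpc4 hpF
    · rintro rfl; exact hp30 (by norm_num)
    · rintro rfl; exact hp30 (by norm_num)
    · rintro rfl; exact hp30 (by norm_num)

end Fermat.Agent.S52.H60
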