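/-
Cluster E, package E-SS (helper60): semistability of the members of the 5-congruent family,
from the family identities (I1), (I3), (I4) over `𝔽̄_p` (hypotheses `FamIdent`).
-/
import Fermat.Agent.S52.H60_SSAbs
import Fermat.Agent.S52.Family

set_option autoImplicit false

namespace Fermat.Agent.S52.H60

open WeierstrassCurve Fermat.Agent.S52

section Map

variable {R S : Type*} [CommRing R] [CommRing S] (φ : R →+* S)

lemma map_famC4 (c4 c6 t : R) : φ (famC4 c4 c6 t) = famC4 (φ c4) (φ c6) (φ t) := by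
  simp only [famC4, famC4c0, famC4c1, famC4c2, famC4c3, famC4c4, famC4c5, famC4c6, famC4c7,
    famC4c8, famC4c9, famC4c10, famC4c11, famC4c12, famC4c13, famC4c14, famC4c15, famC4c16,
    famC4c17, famC4c18, famC4c19, famC4c20, map_add, map_sub, map_mul, map_pow, map_neg,
    map_ofNat]

lemma map_famF (c4 c6 t : R) : φ (famF c4 c6 t) = famF (φ c4) (φ c6) (φ t) := by
  simp only [famF, famFc0, famFc2, famFc3, famFc4, famFc5, famFc6, famFc7, famFc8, famFc9,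
    famFc10, famFc11, famFc12, map_add, map_sub, map_mul, map_pow, map_neg, map_ofNat, map_one]

end Map

section Cong

variable {R : Type*} [CommRing R]

lemma famC4_sub_dvd (c4 c6 t : R) : t ∣ famC4 c4 c6 t - c4 := by
  refine ⟨famC4c1 c4 c6 + famC4c2 c4 c6 * t + famC4c3 c4 c6 * t ^ 2 + famC4c4 c4 c6 * t ^ 3 +
    famC4c5 c4 c6 * t ^ 4 + famC4c6 c4 c6 * t ^ 5 + famC4c7 c4 c6 * t ^ 6 + famC4c8 c4 c6 * t ^ 7 +
    famC4c9 c4 c6 * t ^ 8 + famC4c10 c4 c6 * t ^ 9 + famC4c11 c4 c6 * t ^ 10 +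
    famC4c12 c4 c6 * t ^ 11 + famC4c13 c4 c6 * t ^ 12 + famC4c14 c4 c6 * t ^ 13 +
    famC4c15 c4 c6 * t ^ 14 + famC4c16 c4 c6 * t ^ 15 + famC4c17 c4 c6 * t ^ 16 +
    famC4c18 c4 c6 * t ^ 17 + famC4c19 c4 c6 * t ^ 18 + famC4c20 c4 c6 * t ^ 19, ?_⟩
  simp only [famC4, famC4c0]
  ring

lemma famF_sub_dvd (c4 c6 t : R) : t ∣ famF c4 c6 t - 1 := by
  refine ⟨famFc2 c4 c6 * t + famFc3 c4 c6 * t ^ 2 + famFc4 c4 c6 * t ^ 3 +
    famFc5 c4 c6 * t ^ 4 + famFc6 c4 c6 * t ^ 5 + famFc7 c4 c6 * t ^ 6 + famFc8 c4 c6 * t ^ 7 +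
    famFc9 c4 c6 * t ^ 8 + famFc10 c4 c6 * t ^ 9 + famFc11 c4 c6 * t ^ 10 +
    famFc12 c4 c6 * t ^ 11, ?_⟩
  simp only [famF, famFc0]
  ring

end Cong

/-- The family identities (I1), (I3±), (I4) over a field `k`. -/
structure FamIdent (k : Type*) [Field k] : Prop where
  /-- (I1) -/
  i1 : ∀ b v t : k,
    famC4 (v ^ 2 * tC4 b) (v ^ 3 * tC6 b) t = v ^ 2 * hC4 (tnfN b (v * t)) (tnfD b (v * t))
  /-- (I4) -/
  i4 : ∀ b v t : k,
    b * famF (v ^ 2 * tC4 b) (v ^ 3 * tC6 b) t =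
      tnfN b (v * t) * tnfD b (v * t) * tnfQ b (v * t)
  /-- (I3), sign `+` -/
  i3p : ∀ s b τ : k, s ^ 2 = 5 →
    2 * tnfN b τ - (11 + 5 * s) * tnfD b τ =
      (2 * b - 11 - 5 * s) * (1 + (b ^ 2 + 6 * s * b + 1) * τ) ^ 5
  /-- (I3), sign `-` -/
  i3m : ∀ s b τ : k, s ^ 2 = 5 →
    2 * tnfN b τ - (11 - 5 * s) * tnfD b τ =
      (2 * b - 11 + 5 * s) * (1 + (b ^ 2 - 6 * s * b + 1) * τ) ^ 5

lemma tnfQ_eq {k : Type*} [Field k] (s b τ : k) (hs : s ^ 2 = 5) :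
    tnfQ b τ = (1 + (b ^ 2 + 6 * s * b + 1) * τ) * (1 + (b ^ 2 - 6 * s * b + 1) * τ) := by
  simp only [tnfQ]
  linear_combination (36 * b ^ 2 * τ ^ 2) * hs

/-- The fibre identities of `H60_SSAbs` from the family identities. -/
theorem fibreIdentities_of_famIdent (W : WeierstrassCurve ℤ) (t0 : ℤ) (p : ℕ) [Fact p.Prime]
    (hI : FamIdent (AlgebraicClosure (ZMod p))) :
    FibreIdentities W (famC4 W.c₄ W.c₆ t0) (famF W.c₄ W.c₆ t0) p := by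
  intro u b s hu hs h4 h6
  have e4 : redBar p W.c₄ = (u ^ 2) ^ 2 * tC4 b := by
    rw [h4]; simp only [tnfC4, tC4]; ring
  have e6 : redBar p W.c₆ = (u ^ 2) ^ 3 * tC6 b := by
    rw [h6]; simp only [tnfC6, tC6]; ring
  refine ⟨tnfN b (u ^ 2 * redBar p t0), tnfD b (u ^ 2 * redBar p t0), u ^ 2 * redBar p t0,
    ?_, ?_, hI.i3p s b _ hs, hI.i3m s b _ hs⟩
  · rw [map_famC4, e4, e6, hI.i1, c4hForm, hC4_eq]
    ring
  · rw [map_famF, e4, e6, hI.i4, tnfQ_eq s b _ hs]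

/-- **E-SS.**  Let `W / ℤ` be semistable with `Δ ≠ 0` and let `m` be divisible by every prime
dividing `30 Δ`.  Any `W'` with `c₄(W') = famC4 c₄ c₆ (1728 m)` and
`Δ(W') = Δ(W) famF(c₄, c₆, 1728 m)⁵` is semistable with `Δ(W') ≠ 0`. -/
theorem semistable_of_famIdent
    (hI : ∀ (p : ℕ) [Fact p.Prime], FamIdent (AlgebraicClosure (ZMod p)))
    (W : WeierstrassCurve ℤ) (hΔ : W.Δ ≠ 0) (hW : W.IsSemistableModel) (m : ℤ)
    (hm : ∀ p : ℕ, p.Prime → (p : ℤ) ∣ 30 * W.Δ → (p : ℤ) ∣ m)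
    (W' : WeierstrassCurve ℤ) (hc4 : W'.c₄ = famC4 W.c₄ W.c₆ (1728 * m))
    (hΔ' : W'.Δ = W.Δ * famF W.c₄ W.c₆ (1728 * m) ^ 5) :
    W'.Δ ≠ 0 ∧ W'.IsSemistableModel := by
  refine semistable_of_identities W hΔ hW m hm W' _ _ hc4 hΔ' ?_ ?_
    (fun p _ => fibreIdentities_of_famIdent W (1728 * m) p (hI p))
  · exact (Dvd.intro_left 1728 rfl).trans (famC4_sub_dvd W.c₄ W.c₆ (1728 * m))
  · exact (Dvd.intro_left 1728 rfl).trans (famF_sub_dvd W.c₄ W.c₆ (1728 * m))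

end Fermat.Agent.S52.H60
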