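/-
Cluster E, package E-SS (helper60): FINAL form.  Semistability of the members of the
5-congruent family, unconditional.
-/
import Fermat.Agent.S52.H60_SS
import Fermat.Agent.S52.H60_FamI1
import Fermat.Agent.S52.H60_FamI34

set_option autoImplicit false

namespace Fermat.Agent.S52.H60

open WeierstrassCurve Fermat.Agent.S52

/-- The family identities hold over every field. -/
theorem famIdent (k : Type*) [Field k] : FamIdent k where
  i1 := famC4_tnf
  i4 := famF_tnf
  i3p := tnf_fifth_power_pos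
  i3m := tnf_fifth_power_neg

/-- **E-SS.**  Let `W / ℤ` be semistable with `Δ ≠ 0` and let `m` be divisible by every prime
dividing `30 Δ`.  Any integral curve `W'` with `c₄(W') = famC4 c₄ c₆ (1728 m)` and
`Δ(W') = Δ(W) famF(c₄, c₆, 1728 m)⁵` is semistable with `Δ(W') ≠ 0`. -/
theorem semistable_fam (W : WeierstrassCurve ℤ) (hΔ : W.Δ ≠ 0) (hW : W.IsSemistableModel) (m : ℤ)
    (hm : ∀ p : ℕ, p.Prime → (p : ℤ) ∣ 30 * W.Δ → (p : ℤ) ∣ m)
    (W' : WeierstrassCurve ℤ) (hc4 : W'.c₄ = famC4 W.c₄ W.c₆ (1728 * m))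
    (hΔ' : W'.Δ = W.Δ * famF W.c₄ W.c₆ (1728 * m) ^ 5) :
    W'.Δ ≠ 0 ∧ W'.IsSemistableModel :=
  semistable_of_famIdent (fun p _ => famIdent (AlgebraicClosure (ZMod p))) W hΔ hW m hm W' hc4 hΔ'

end Fermat.Agent.S52.H60
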