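/-
Cluster E, package E-SS (helper60): `Stmt_ss` of `S52/Defs.lean`.
-/
import Fermat.Agent.S52.Defs
import Fermat.Agent.S52.H60_SSFinal
import Fermat.Agent.S52.H60_FamDisc

set_option autoImplicit false

namespace Fermat.Agent.S52.H60

open WeierstrassCurve Fermat.Agent.S52

/-- The discriminant of the member `famW W m` of the family. -/
theorem famW_Δ (W : WeierstrassCurve ℤ) (m : ℤ) :
    (famW W m).Δ = W.Δ * famF W.c₄ W.c₆ (1728 * m) ^ 5 := by
  have h1 := (famW W m).c_relation
  have h2 := W.c_relation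
  rw [famW_c₄, famW_c₆, H60.fam_disc, ← h2] at h1
  have h1728 : (1728 : ℤ) ≠ 0 := by norm_num
  apply mul_left_cancel₀ h1728
  linear_combination h1

/-- **E-SS** = `Stmt_ss`. -/
theorem stmt_ss : Stmt_ss := by
  intro W hΔ hW m hm
  exact semistable_fam W hΔ hW m hm (famW W m) (famW_c₄ W m) (famW_Δ W m)

end Fermat.Agent.S52.H60
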