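import Fermat.Agent.S52.H60_FamDisc

/-! # S52 family: discriminant identity (helper65). Plan: NOTES/plan/E.md.
Thin wrapper of the staged proof `H60.fam_disc` (helper60): the direct `ring` proof needs 6 GB
of memory. -/

set_option autoImplicit false

namespace Fermat.Agent.S52

variable {R : Type*} [CommRing R]

/-- The discriminant identity of the family. -/
theorem fam_disc (c4 c6 t : R) :
    famC4 c4 c6 t ^ 3 - famC6 c4 c6 t ^ 2 = (c4 ^ 3 - c6 ^ 2) * famF c4 c6 t ^ 5 :=
  H60.fam_disc c4 c6 t

end Fermat.Agent.S52
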