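import Fermat.Agent.S52.H60_FamI1

/-! # S52 family: identity (I1), c4 of the family in Tate normal form (helper65).
Plan: NOTES/plan/E.md.  Thin wrapper of the staged proof `H60.famC4_tnf` (helper60): the direct
`ring` proof needs 11 GB of memory. -/

set_option autoImplicit false

namespace Fermat.Agent.S52

variable {R : Type*} [CommRing R]

/-- (I1). -/
theorem famC4_tnf (b v t : R) :
    famC4 (v ^ 2 * tC4 b) (v ^ 3 * tC6 b) t = v ^ 2 * hC4 (tnfN b (v * t)) (tnfD b (v * t)) :=
  H60.famC4_tnf b v t

end Fermat.Agent.S52
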