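import Fermat.Agent.S52.Family

/-! # S52 family: identity (I4), factorisation of famF (helper65). Plan: NOTES/plan/E.md -/

set_option autoImplicit false
set_option maxRecDepth 100000
set_option maxHeartbeats 4000000

namespace Fermat.Agent.S52

variable {R : Type*} [CommRing R]

/-- (I4): the factorisation of the cusp polynomial. -/
theorem famF_tnf (b v t : R) :
    b * famF (v ^ 2 * tC4 b) (v ^ 3 * tC6 b) t = tnfN b (v * t) * tnfD b (v * t) * tnfQ b (v * t) := by
  unfold famF famFc0 famFc2 famFc3 famFc4 famFc5 famFc6 famFc7 famFc8 famFc9 famFc10 famFc11 famFc12 tC4 tC6 tnfN tnfNc0 tnfNc1 tnfNc2 tnfNc3 tnfNc4 tnfNc5 tnfD tnfDc0 tnfDc1 tnfDc2 tnfDc3 tnfDc4 tnfDc5 tnfQ; ring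

end Fermat.Agent.S52
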