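import Mathlib.Algebra.MvPolynomial.CommRing
import Mathlib.Algebra.MvPolynomial.Eval
import Mathlib.RingTheory.Polynomial.Basic
import Mathlib.Data.Int.CharZero
import Fermat.Agent.S52.Model
import Fermat.Agent.S52.FamI1
import Fermat.Agent.S52.FamI4
import Fermat.Agent.S52.FamDisc

/-!
# S52 family: identity (I2), `c₆` of the family in Tate normal form (helper65)

Direct expansion of (I2) is too expensive for `ring`.  Instead: `famC6 ^ 2 = (v³ hC6 N D) ^ 2` follows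
in any commutative ring from (I1), (I4), the discriminant identity and the norm identity
`N² - 11 N D - D² = (b² - 11 b - 1) Q⁵`; in the universal domain `ℤ[B, V, T]` the sign is fixed
by evaluating at `(0, 1, 0)`; then specialise.  Plan: NOTES/plan/E.md.
-/

set_option autoImplicit false

namespace Fermat.Agent.S52

variable {R : Type*} [CommRing R]

/-- The norm identity: `N² - 11 N D - D² = (b² - 11 b - 1) Q⁵`. -/
theorem tnf_norm (b τ : R) :
    tnfN b τ ^ 2 - 11 * tnfN b τ * tnfD b τ - tnfD b τ ^ 2 = (b ^ 2 - 11 * b - 1) * tnfQ b τ ^ 5 := by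
  unfold tnfN tnfNc0 tnfNc1 tnfNc2 tnfNc3 tnfNc4 tnfNc5 tnfD tnfDc0 tnfDc1 tnfDc2 tnfDc3 tnfDc4 tnfDc5
    tnfQ
  ring

/-- The discriminant relation of the homogeneous Tate forms. -/
theorem hC4_cube_sub_hC6_sq (n d : R) :
    hC4 n d ^ 3 - hC6 n d ^ 2 = 1728 * (n ^ 5 * d ^ 5 * (n ^ 2 - 11 * n * d - d ^ 2)) := by
  unfold hC4 hC6; ring

/-- (I2) up to sign, in any commutative ring, multiplied by `b ^ 5`. -/
theorem famC6_tnf_sq (b v t : R) :
    b ^ 5 * famC6 (v ^ 2 * tC4 b) (v ^ 3 * tC6 b) t ^ 2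
      = b ^ 5 * (v ^ 3 * hC6 (tnfN b (v * t)) (tnfD b (v * t))) ^ 2 := by
  have h1 := famC4_tnf b v t
  have h4 := famF_tnf b v t
  have hd := fam_disc (v ^ 2 * tC4 b) (v ^ 3 * tC6 b) t
  have hn := tnf_norm b (v * t)
  have hh := hC4_cube_sub_hC6_sq (tnfN b (v * t)) (tnfD b (v * t))
  have ht := tC4_cube_sub_tC6_sq b
  rw [h1] at hd
  set N := tnfN b (v * t)
  set D := tnfD b (v * t)
  set Q := tnfQ b (v * t)
  set F := famF (v ^ 2 * tC4 b) (v ^ 3 * tC6 b) t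
  set C := famC6 (v ^ 2 * tC4 b) (v ^ 3 * tC6 b) t
  have h4' : b ^ 5 * F ^ 5 = N ^ 5 * D ^ 5 * Q ^ 5 := by
    rw [← mul_pow, h4]; ring
  have ht' : (v ^ 2 * tC4 b) ^ 3 - (v ^ 3 * tC6 b) ^ 2 = 1728 * v ^ 6 * tDisc b := by
    linear_combination v ^ 6 * ht
  rw [ht'] at hd
  unfold tDisc at hd
  -- hd : (v^2 hC4)^3 - C^2 = 1728 v^6 (b^5 (b^2 - 11 b - 1)) F^5
  linear_combination (-(b ^ 5)) * hd + (b ^ 5 * v ^ 6) * hh
    + (-(1728 * v ^ 6 * b ^ 5 * (b ^ 2 - 11 * b - 1))) * h4'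
    + (1728 * v ^ 6 * b ^ 5 * N ^ 5 * D ^ 5) * hn

section Map

variable {S : Type*} [CommRing S] (f : R →+* S)

theorem map_tC4 (b : R) : f (tC4 b) = tC4 (f b) := by
  simp only [tC4, map_add, map_sub, map_mul, map_pow, map_ofNat, map_one]

theorem map_tC6 (b : R) : f (tC6 b) = tC6 (f b) := by
  simp only [tC6, map_add, map_sub, map_mul, map_pow, map_neg, map_ofNat, map_one]

theorem map_hC4 (n d : R) : f (hC4 n d) = hC4 (f n) (f d) := by
  simp only [hC4, map_add, map_sub, map_mul, map_pow, map_ofNat]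

theorem map_hC6 (n d : R) : f (hC6 n d) = hC6 (f n) (f d) := by
  simp only [hC6, map_add, map_sub, map_mul, map_pow, map_neg, map_ofNat]

theorem map_tnfN (b τ : R) : f (tnfN b τ) = tnfN (f b) (f τ) := by
  simp only [tnfN, tnfNc0, tnfNc1, tnfNc2, tnfNc3, tnfNc4, tnfNc5, map_add, map_sub, map_mul,
    map_pow, map_neg, map_ofNat]

theorem map_tnfD (b τ : R) : f (tnfD b τ) = tnfD (f b) (f τ) := by
  simp only [tnfD, tnfDc0, tnfDc1, tnfDc2, tnfDc3, tnfDc4, tnfDc5, map_add, map_sub, map_mul,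
    map_pow, map_neg, map_ofNat, map_one]

theorem map_tnfQ (b τ : R) : f (tnfQ b τ) = tnfQ (f b) (f τ) := by
  simp only [tnfQ, map_add, map_sub, map_mul, map_pow, map_ofNat, map_one]

end Map

open MvPolynomial in
/-- (I2) in the universal ring `ℤ[B, V, T]`. -/
theorem famC6_tnf_univ :
    famC6 ((X 1 : MvPolynomial (Fin 3) ℤ) ^ 2 * tC4 (X 0)) (X 1 ^ 3 * tC6 (X 0)) (X 2)
      = X 1 ^ 3 * hC6 (tnfN (X 0) (X 1 * X 2)) (tnfD (X 0) (X 1 * X 2)) := by
  have hsq := famC6_tnf_sq (X 0 : MvPolynomial (Fin 3) ℤ) (X 1) (X 2)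
  have hB : (X 0 : MvPolynomial (Fin 3) ℤ) ^ 5 ≠ 0 := pow_ne_zero 5 (X_ne_zero 0)
  have h2 := mul_left_cancel₀ hB hsq
  rcases sq_eq_sq_iff_eq_or_eq_neg.mp h2 with h | h
  · exact h
  · exfalso
    have h3 := congrArg (MvPolynomial.eval (![0, 1, 0] : Fin 3 → ℤ)) h
    rw [map_neg, map_famC6, map_mul, map_mul, map_mul, map_pow, map_pow, map_tC4, map_tC6,
      map_hC6, map_tnfN, map_tnfD, map_mul] at h3
    simp only [eval_X, Matrix.cons_val_zero, Matrix.cons_val_one, Matrix.cons_val] at h3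
    rw [famC6_zero] at h3
    simp only [mul_zero, tnfN_zero, tnfD_zero, hC6_one, one_pow, one_mul] at h3
    simp [tC6] at h3

/-- (I2). -/
theorem famC6_tnf (b v t : R) :
    famC6 (v ^ 2 * tC4 b) (v ^ 3 * tC6 b) t = v ^ 3 * hC6 (tnfN b (v * t)) (tnfD b (v * t)) := by
  have h := congrArg (MvPolynomial.eval₂Hom (Int.castRingHom R) (![b, v, t] : Fin 3 → R))
    famC6_tnf_univ
  rw [map_famC6, map_mul, map_mul, map_mul, map_pow, map_pow, map_tC4, map_tC6,
    map_hC6, map_tnfN, map_tnfD, map_mul] at h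
  simpa using h

end Fermat.Agent.S52
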