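import Fermat.Agent.S52.H61_FqMain

/-!
# S52, package E-FQ: the identities (I3), (I4) and E-FQ from (I2) alone (helper61)
-/

set_option autoImplicit false
set_option linter.all false

namespace Fermat.Agent.S52.H61

variable {R : Type*} [CommRing R]

/-- fifth power of `1 + (A + B s) τ` with `s² = 5`, split into rational and `s`-part. -/
lemma pow_five_split (s A B τ : R) (hs : s ^ 2 = 5) :
    (1 + (A + B * s) * τ) ^ 5 =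
      (1 + 5 * A * τ + 10 * (A ^ 2 + 5 * B ^ 2) * τ ^ 2 + 10 * (A ^ 3 + 15 * A * B ^ 2) * τ ^ 3
        + 5 * (A ^ 4 + 30 * A ^ 2 * B ^ 2 + 25 * B ^ 4) * τ ^ 4
        + (A ^ 5 + 50 * A ^ 3 * B ^ 2 + 125 * A * B ^ 4) * τ ^ 5)
      + s * (5 * B * τ + 10 * (2 * A * B) * τ ^ 2 + 10 * (3 * A ^ 2 * B + 5 * B ^ 3) * τ ^ 3
        + 5 * (4 * A ^ 3 * B + 20 * A * B ^ 3) * τ ^ 4
        + (5 * A ^ 4 * B + 50 * A ^ 2 * B ^ 3 + 25 * B ^ 5) * τ ^ 5) := by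
  have h3 : s ^ 3 = 5 * s := by linear_combination s * hs
  have h4 : s ^ 4 = 25 := by linear_combination (s ^ 2 + 5) * hs
  have h5 : s ^ 5 = 25 * s := by linear_combination (s ^ 3 + 5 * s) * hs
  linear_combination (10 * B ^ 2 * τ ^ 2 + 30 * A * B ^ 2 * τ ^ 3 + 30 * A ^ 2 * B ^ 2 * τ ^ 4
      + 10 * A ^ 3 * B ^ 2 * τ ^ 5) * hs
    + (10 * B ^ 3 * τ ^ 3 + 20 * A * B ^ 3 * τ ^ 4 + 10 * A ^ 2 * B ^ 3 * τ ^ 5) * h3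
    + (5 * B ^ 4 * τ ^ 4 + 5 * A * B ^ 4 * τ ^ 5) * h4
    + (B ^ 5 * τ ^ 5) * h5

/-- **(I3)**: the fifth-power structure of the quintics `tnfN`, `tnfD`. -/
theorem idI3 : IdI3 R := by
  intro s b τ hs
  have e : b ^ 2 + 6 * s * b + 1 = (b ^ 2 + 1) + (6 * b) * s := by ring
  rw [e, pow_five_split s (b ^ 2 + 1) (6 * b) τ hs]
  simp only [tnfN, tnfD, tnfNc0, tnfNc1, tnfNc2, tnfNc3, tnfNc4, tnfNc5, tnfDc0, tnfDc1, tnfDc2,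
    tnfDc3, tnfDc4, tnfDc5]
  linear_combination (5 * (5 * (6 * b) * τ + 10 * (2 * (b ^ 2 + 1) * (6 * b)) * τ ^ 2
      + 10 * (3 * (b ^ 2 + 1) ^ 2 * (6 * b) + 5 * (6 * b) ^ 3) * τ ^ 3
      + 5 * (4 * (b ^ 2 + 1) ^ 3 * (6 * b) + 20 * (b ^ 2 + 1) * (6 * b) ^ 3) * τ ^ 4
      + (5 * (b ^ 2 + 1) ^ 4 * (6 * b) + 50 * (b ^ 2 + 1) ^ 2 * (6 * b) ^ 3 + 25 * (6 * b) ^ 5)
        * τ ^ 5)) * hs

set_option maxHeartbeats 2000000 in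
/-- **(I4)**: `b * famF = N * D * Q` along the Tate normal form. -/
theorem idI4 : IdI4 R := by
  intro b v t
  simp only [famF, famFc0, famFc2, famFc3, famFc4, famFc5, famFc6, famFc7, famFc8, famFc9,
    famFc10, famFc11, famFc12, tC4, tC6, tnfQ,
    tnfN, tnfD, tnfNc0, tnfNc1, tnfNc2, tnfNc3, tnfNc4, tnfNc5, tnfDc0, tnfDc1, tnfDc2,
    tnfDc3, tnfDc4, tnfDc5]
  ring

/-- **E-FQ** from (I2) alone. -/
theorem aux_of_I2 (q : ℕ) [hq : Fact q.Prime] (h60 : q % 60 = 19) (hI2 : IdI2 (ZMod q))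
    (W : WeierstrassCurve (ZMod q)) (hΔ : W.Δ ≠ 0) (x0 : ZMod q)
    (hx0 : (W.preΨ' 5).eval x0 = 0) :
    ∃ t1 : ZMod q, famC6 W.c₄ W.c₆ t1 = 0 ∧ famF W.c₄ W.c₆ t1 ≠ 0 :=
  aux_of_identities q h60 hI2 idI3 idI4 W hΔ x0 hx0

end Fermat.Agent.S52.H61
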