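import Fermat.Agent.S51.H80_Galois
import Mathlib.RingTheory.Polynomial.RationalRoot
import Mathlib.Data.ZMod.Basic

/-!
# S52, package E-IRR (helper61)

`W` a Weierstrass curve over `ℤ`, `q ≥ 5` a prime with `q ∤ Δ`, `q ∣ c₆` and `3` a non-square
mod `q`.  Then the mod-3 representation of `W` is irreducible.

Proof.  Otherwise `ψ₃` has a rational root `x` (S51, helper80).  `y = 3x` is a root of the monic
integer polynomial `y⁴ + b₂y³ + 9b₄y² + 27b₆y + 27b₈`, hence an integer.  With `X = 12y + 3b₂`: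
`X⁴ - 54c₄X² - 216c₆X - 243c₄² = 0`, so mod `q`: `(X² - 27c₄)² = 3 (18c₄)²`, and `18c₄` is a unit
mod `q` since `q ∤ 6Δ`.  So `3` is a square mod `q`.
-/

set_option autoImplicit false

namespace Fermat.Agent.S52.H61

open WeierstrassCurve Polynomial

/-- the monic integer quartic satisfied by `3x` for a root `x` of `ψ₃`. -/
noncomputable def monicPsi3 (W : WeierstrassCurve ℤ) : ℤ[X] :=
  X ^ 4 + C W.b₂ * X ^ 3 + C (9 * W.b₄) * X ^ 2 + C (27 * W.b₆) * X + C (27 * W.b₈)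

lemma monicPsi3_monic (W : WeierstrassCurve ℤ) : (monicPsi3 W).Monic := by
  unfold monicPsi3
  monicity!

lemma aeval_monicPsi3 (W : WeierstrassCurve ℤ) (y : ℚ) :
    aeval y (monicPsi3 W) =
      y ^ 4 + (W.b₂ : ℚ) * y ^ 3 + 9 * (W.b₄ : ℚ) * y ^ 2 + 27 * (W.b₆ : ℚ) * y
        + 27 * (W.b₈ : ℚ) := by
  simp only [monicPsi3, map_add, map_mul, map_pow, aeval_X, eq_intCast, map_intCast, map_ofNat]

/-- a rational root of `ψ₃` gives an integer root of the monic quartic. -/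
lemma exists_int_root (W : WeierstrassCurve ℤ) (x : ℚ)
    (hx : Fermat.Agent.S51.H80.psi3 (W.map (Int.castRingHom ℚ)).toAffine x = 0) :
    ∃ y : ℤ, y ^ 4 + W.b₂ * y ^ 3 + 9 * W.b₄ * y ^ 2 + 27 * W.b₆ * y + 27 * W.b₈ = 0 := by
  have hx' : 3 * x ^ 4 + (W.b₂ : ℚ) * x ^ 3 + 3 * (W.b₄ : ℚ) * x ^ 2 + 3 * (W.b₆ : ℚ) * x
      + (W.b₈ : ℚ) = 0 := by
    have := hx
    simp only [Fermat.Agent.S51.H80.psi3, map_b₂, map_b₄, map_b₆, map_b₈] at this
    simpa using this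
  have hroot : aeval (3 * x) (monicPsi3 W) = 0 := by
    rw [aeval_monicPsi3]
    linear_combination 27 * hx'
  obtain ⟨y, hy⟩ := isInteger_of_is_root_of_monic (monicPsi3_monic W) hroot
  refine ⟨y, ?_⟩
  have hy' : ((y : ℤ) : ℚ) = 3 * x := by simpa using hy
  rw [aeval_monicPsi3, ← hy'] at hroot
  exact_mod_cast hroot

/-- the integral quartic identity: with `X = 12 y + 3 b₂`,
`X⁴ - 54 c₄ X² - 216 c₆ X - 243 c₄² = 12⁴ (y⁴ + b₂ y³ + 9 b₄ y² + 27 b₆ y + 27 b₈)`. -/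
lemma quartic_identity (W : WeierstrassCurve ℤ) (y : ℤ) :
    (12 * y + 3 * W.b₂) ^ 4 - 54 * W.c₄ * (12 * y + 3 * W.b₂) ^ 2
        - 216 * W.c₆ * (12 * y + 3 * W.b₂) - 243 * W.c₄ ^ 2
      = 20736 * (y ^ 4 + W.b₂ * y ^ 3 + 9 * W.b₄ * y ^ 2 + 27 * W.b₆ * y + 27 * W.b₈) := by
  simp only [WeierstrassCurve.c₄, WeierstrassCurve.c₆, WeierstrassCurve.b₂, WeierstrassCurve.b₄,
    WeierstrassCurve.b₆, WeierstrassCurve.b₈]
  ring

/-- **E-IRR core**: under the hypotheses, `3` is a square mod `q` as soon as `ψ₃` has a rational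
root. -/
lemma isSquare_three_of_root (W : WeierstrassCurve ℤ) (q : ℕ) (hq : q.Prime) (hq5 : 5 ≤ q)
    (hΔ : ¬ (q : ℤ) ∣ W.Δ) (hc6 : (q : ℤ) ∣ W.c₆) (x : ℚ)
    (hx : Fermat.Agent.S51.H80.psi3 (W.map (Int.castRingHom ℚ)).toAffine x = 0) :
    IsSquare (3 : ZMod q) := by
  have hfact : Fact q.Prime := ⟨hq⟩
  obtain ⟨y, hy⟩ := exists_int_root W x hx
  have hid := quartic_identity W y
  rw [hy, mul_zero] at hid
  -- reduce mod q
  have hc6' : ((W.c₆ : ℤ) : ZMod q) = 0 := by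
    rw [ZMod.intCast_zmod_eq_zero_iff_dvd]; exact hc6
  set Xq : ZMod q := ((12 * y + 3 * W.b₂ : ℤ) : ZMod q) with hXq
  set c : ZMod q := ((W.c₄ : ℤ) : ZMod q) with hc
  have hidq : Xq ^ 4 - 54 * c * Xq ^ 2 - 243 * c ^ 2 = 0 := by
    have := congrArg (fun z : ℤ => (z : ZMod q)) hid
    simp only [Int.cast_sub, Int.cast_mul, Int.cast_pow, Int.cast_zero, Int.cast_ofNat] at this
    rw [hc6'] at this
    rw [hXq, hc]
    linear_combination this
  -- 18 c₄ is a unit mod q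
  have h2 : (2 : ZMod q) ≠ 0 := by
    intro h
    have : ((2 : ℕ) : ZMod q) = 0 := by exact_mod_cast h
    rw [ZMod.natCast_eq_zero_iff] at this
    have := Nat.le_of_dvd (by norm_num) this
    omega
  have h3 : (3 : ZMod q) ≠ 0 := by
    intro h
    have : ((3 : ℕ) : ZMod q) = 0 := by exact_mod_cast h
    rw [ZMod.natCast_eq_zero_iff] at this
    have := Nat.le_of_dvd (by norm_num) this
    omega
  have hc0 : c ≠ 0 := by
    intro h0
    rw [hc, ZMod.intCast_zmod_eq_zero_iff_dvd] at h0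
    have hrel : 1728 * W.Δ = W.c₄ ^ 3 - W.c₆ ^ 2 := W.c_relation
    have hdvd : (q : ℤ) ∣ 1728 * W.Δ := by
      rw [hrel]
      exact dvd_sub (dvd_pow h0 (by norm_num)) (dvd_pow hc6 (by norm_num))
    have hqp : Prime (q : ℤ) := Nat.prime_iff_prime_int.mp hq
    rcases hqp.dvd_mul.mp hdvd with h1728 | hΔ'
    · have h1 : q ∣ 1728 := by exact_mod_cast h1728
      have h1728' : (1728 : ℕ) = 2 ^ 6 * 3 ^ 3 := by norm_num
      rw [h1728'] at h1
      rcases (Nat.Prime.dvd_mul hq).mp h1 with h | h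
      · have := (Nat.prime_dvd_prime_iff_eq hq Nat.prime_two).mp (hq.dvd_of_dvd_pow h)
        omega
      · have := (Nat.prime_dvd_prime_iff_eq hq Nat.prime_three).mp (hq.dvd_of_dvd_pow h)
        omega
    · exact hΔ hΔ'
  have h18 : (18 : ZMod q) * c ≠ 0 := by
    have : (18 : ZMod q) = 2 * 3 * 3 := by norm_num
    rw [this]
    exact mul_ne_zero (mul_ne_zero (mul_ne_zero h2 h3) h3) hc0
  have key : (Xq ^ 2 - 27 * c) ^ 2 = 3 * (18 * c) ^ 2 := by linear_combination hidq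
  refine ⟨(Xq ^ 2 - 27 * c) / (18 * c), ?_⟩
  rw [← pow_two, div_pow, key, mul_div_assoc, div_self (pow_ne_zero 2 h18), mul_one]

/-- **E-IRR**: `q ≥ 5` prime, `q ∤ Δ`, `q ∣ c₆`, `3` a non-square mod `q` ⟹ the mod-3
representation is irreducible. -/
theorem irr1728 (W : WeierstrassCurve ℤ) (q : ℕ) (hq : q.Prime) (hq5 : 5 ≤ q)
    (hΔ : ¬ (q : ℤ) ∣ W.Δ) (hc6 : (q : ℤ) ∣ W.c₆) (h3 : ¬ IsSquare (3 : ZMod q)) :
    W.ModRepIsIrreducible 3 := by
  by_contra hirr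
  have hΔ0 : W.Δ ≠ 0 := by
    intro h0
    exact hΔ (h0 ▸ dvd_zero _)
  obtain ⟨x, hx⟩ := Fermat.Agent.S51.H80.exists_rat_root_psi3 W hΔ0 hirr
  exact h3 (isSquare_three_of_root W q hq hq5 hΔ hc6 x hx)

end Fermat.Agent.S52.H61
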