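import Fermat.Agent.S52.Defs
import Fermat.Agent.S52.H61_Irr
import Fermat.Agent.S52.H61_FqIds
import Fermat.Agent.S52.FamI2

/-!
# S52 packages E-IRR and E-FQ at the interfaces of `S52/Defs.lean`, light closure (helper65)

Same content as `H61_Final.lean` (helper61), but (I2) is taken from `S52/FamI2.lean` (sign trick in the
universal domain, a few seconds) instead of the staged coefficient-wise proof `H60_FamI2.lean`
(7 GB of memory, 430 MB of compiled proof), which keeps the closure of `S52` small.
Plan: NOTES/plan/E.md.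
-/

set_option autoImplicit false

namespace Fermat.Agent.S52.H65

/-- (I2), from the sign trick. -/
theorem idI2 (R : Type*) [CommRing R] : H61.IdI2 R :=
  fun b v t => Fermat.Agent.S52.famC6_tnf b v t

/-- **E-FQ** at the interface. -/
theorem stmt_auxFq : Stmt_auxFq :=
  fun q _ h60 W hΔ x₀ hx₀ => H61.aux_of_I2 q h60 (idI2 (ZMod q)) W hΔ x₀ hx₀

/-- **E-IRR** at the interface. -/
theorem stmt_irr1728 : Stmt_irr1728 :=
  fun W q hq hq5 hΔ hc6 h3 => H61.irr1728 W q hq hq5 hΔ hc6 h3

end Fermat.Agent.S52.H65
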