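/-
Cluster E, package E-TR (helper7): an additive Galois-equivariant bijection `W[p] → W'[p]`
(points over `Q̄`) forces `a_ℓ(W') ≡ a_ℓ(W) mod p` at every common good prime `ℓ ≠ p`.
Inputs: item 62 `Stmt_main` (as a hypothesis) and Lib/FrobExists.
-/
import Fermat.Agent.Lib.EllFinite.H7_Main
import Fermat.Agent.Lib.FrobExists

set_option autoImplicit false

namespace Fermat.Agent.S52.H7

open WeierstrassCurve WeierstrassCurve.Affine
open Fermat.Agent.Lib.EllFinite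

/-- An additive equivalence of `ZMod p`-modules is `ZMod p`-linear. -/
noncomputable def zmodLinearEquivOfAddEquiv (p : ℕ) {M M' : Type*} [AddCommGroup M]
    [AddCommGroup M'] [Module (ZMod p) M] [Module (ZMod p) M'] (e : M ≃+ M') : M ≃ₗ[ZMod p] M' :=
  { e with
    map_smul' := fun c x => (AddMonoidHom.toZModLinearMap p e.toAddMonoidHom).map_smul c x }

@[simp] lemma zmodLinearEquivOfAddEquiv_apply (p : ℕ) {M M' : Type*} [AddCommGroup M]
    [AddCommGroup M'] [Module (ZMod p) M] [Module (ZMod p) M'] (e : M ≃+ M') (x : M) :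
    zmodLinearEquivOfAddEquiv p e x = e x := rfl

/-- (E-TR, generic form) -/
theorem apOfModel_congr (hmain : Stmt_main) (W W' : WeierstrassCurve ℤ) (p : ℕ) [Fact p.Prime]
    (e : Submodule.torsionBy ℤ ((W.map (Int.castRingHom ℚ)).toAffine⁄QbarE).Point p ≃+
      Submodule.torsionBy ℤ ((W'.map (Int.castRingHom ℚ)).toAffine⁄QbarE).Point p)
    (he : ∀ (σ : QbarE ≃ₐ[ℚ] QbarE) x, e (σ • x) = σ • e x)
    (ℓ : ℕ) (hℓ : ℓ.Prime) (hpℓ : p ≠ ℓ) (hg : W.IsGoodPrimeFor ℓ) (hg' : W'.IsGoodPrimeFor ℓ) :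
    (p : ℤ) ∣ W'.apOfModel ℓ - W.apOfModel ℓ := by
  obtain ⟨A, σ, hA, hσ⟩ := Fermat.Agent.Lib.FrobExists.exists_place_and_frobenius ℓ hℓ
  obtain ⟨-, h1, -⟩ := hmain W p ℓ hℓ hpℓ hg A hA σ hσ
  obtain ⟨-, h2, -⟩ := hmain W' p ℓ hℓ hpℓ hg' A hA σ hσ
  have h3 := (Fermat.Agent.Lib.EllFinite.H7.trace_det_of_intertwine (zmodLinearEquivOfAddEquiv p e)
    (Point.galoisRepModuleEnd ℚ (W.map (Int.castRingHom ℚ)).toAffine p σ)
    (Point.galoisRepModuleEnd ℚ (W'.map (Int.castRingHom ℚ)).toAffine p σ)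
    (fun x => he σ x)).1
  rw [Point.galoisTrace_def] at h1 h2
  rw [h1, h2] at h3
  have h4 : (((W'.apOfModel ℓ - W.apOfModel ℓ : ℤ)) : ZMod p) = 0 := by
    push_cast
    rw [h3, sub_self]
  exact (ZMod.intCast_zmod_eq_zero_iff_dvd _ p).mp h4

/-- The case `p = 5`, in the shape of the frozen statement S52. -/
theorem apOfModel_congr_five (hmain : Stmt_main) (W W' : WeierstrassCurve ℤ)
    (e : Submodule.torsionBy ℤ ((W.map (Int.castRingHom ℚ)).toAffine⁄QbarE).Point ((5 : ℕ) : ℤ) ≃+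
      Submodule.torsionBy ℤ ((W'.map (Int.castRingHom ℚ)).toAffine⁄QbarE).Point ((5 : ℕ) : ℤ))
    (he : ∀ (σ : QbarE ≃ₐ[ℚ] QbarE) x, e (σ • x) = σ • e x)
    (ℓ : ℕ) (hℓ : ℓ.Prime) (hg : W.IsGoodPrimeFor ℓ) (hg' : W'.IsGoodPrimeFor ℓ) (h5 : ℓ ≠ 5) :
    (5 : ℤ) ∣ W'.apOfModel ℓ - W.apOfModel ℓ := by
  have : Fact (Nat.Prime 5) := ⟨by norm_num⟩
  have := apOfModel_congr hmain W W' 5 e he ℓ hℓ (fun h => h5 h.symm) hg hg'
  exact_mod_cast this

end Fermat.Agent.S52.H7
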