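import Fermat.Agent.S52.H97_GalFinal
import Fermat.Agent.S52.H5_Unip

/-!
# S52, package E-GAL: unconditional form (helper97)

`auxGal`: for an integral Weierstrass curve `W` with `Δ ≠ 0` which is semistable at `3`
(`3 ∣ Δ → 3 ∤ c₄`), there are a prime `q ∤ 30 Δ`, `q ≡ 19 mod 60`, and a root in `ZMod q` of
the fifth division polynomial of `W` modulo `q`.

Combines `auxGal_of_unip` (items 61 + 62) with E-UNIP (`H5.unip_torsionBy`, helper5).
-/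

set_option autoImplicit false

open WeierstrassCurve WeierstrassCurve.Affine

noncomputable section

namespace Fermat.Agent.S52.H97

/-- **E-GAL**, unconditional. -/
theorem auxGal (W : WeierstrassCurve ℤ) (hΔ : W.Δ ≠ 0)
    (h3 : (3 : ℤ) ∣ W.Δ → ¬ (3 : ℤ) ∣ W.c₄) :
    ∃ q : ℕ, q.Prime ∧ ¬ (q : ℤ) ∣ 30 * W.Δ ∧ q % 60 = 19 ∧
      ∃ x₀ : ZMod q, ((W.map (Int.castRingHom (ZMod q))).preΨ' 5).IsRoot x₀ :=
  auxGal_of_unip W hΔ (fun A hA σ hσ v =>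
    Fermat.Agent.S52.H5.unip_torsionBy W 3 5 A hΔ h3 Nat.prime_three (by norm_num) hA σ hσ v)

/-- **E-GAL** for a semistable curve (all primes). -/
theorem auxGal_of_semistable (W : WeierstrassCurve ℤ) (hΔ : W.Δ ≠ 0)
    (hss : ∀ p : ℕ, p.Prime → (p : ℤ) ∣ W.Δ → ¬ (p : ℤ) ∣ W.c₄) :
    ∃ q : ℕ, q.Prime ∧ ¬ (q : ℤ) ∣ 30 * W.Δ ∧ q % 60 = 19 ∧
      ∃ x₀ : ZMod q, ((W.map (Int.castRingHom (ZMod q))).preΨ' 5).IsRoot x₀ :=
  auxGal W hΔ (fun h => by exact_mod_cast hss 3 Nat.prime_three (by exact_mod_cast h))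

end Fermat.Agent.S52.H97
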