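import Fermat.Agent.S52.Wiring
import Fermat.Agent.S52.H60_StmtSS
import Fermat.Agent.S52.H65_Fq
import Fermat.Agent.S52.H7_Cong
import Fermat.Agent.S52.H97_AuxGal
import Fermat.Agent.Lib.EllFinite.Main

/-!
# S52 (3-5 switch): the work packages in the shape of `Defs.lean`, and S52 from E-PHI (helper65)

Plan: NOTES/plan/E.md.
-/

set_option autoImplicit false

open WeierstrassCurve

namespace Fermat.Agent.S52

theorem stmt_auxGal : Stmt_auxGal := fun W hΔ hW =>
  H97.auxGal W hΔ (by exact_mod_cast hW 3 Nat.prime_three)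

theorem stmt_cong : Stmt_cong := fun W W' e he ℓ hℓ hg hg' h5 =>
  H7.apOfModel_congr_five Fermat.Agent.Lib.EllFinite.stmt_main W W' e he ℓ hℓ hg hg' h5

/-- S52 from E-PHI alone. -/
theorem concl_of_iso5 (hiso : Stmt_iso5) (W : WeierstrassCurve ℤ) (hΔ : W.Δ ≠ 0)
    (hW : W.IsSemistableModel) : Concl W :=
  concl_of H60.famW_Δ H60.stmt_ss hiso H65.stmt_irr1728 stmt_auxGal H65.stmt_auxFq stmt_cong
    W hΔ hW

end Fermat.Agent.S52
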