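/-
Cluster E, package E-PHI, sub-package GEN (helper60): the explicit 5-torsion point on a curve
whose invariants are `c₄ = u⁴ C4h(N, D)`, `c₆ = u⁶ C6h(N, D)` (a scaled Tate normal form
`TNF(N/D)`), in terms of `u, N, D` and the coefficients `a₁, a₂, a₃` of the curve.  Family-free.
-/
import Fermat.Agent.S52.H60_TNF

set_option autoImplicit false

namespace Fermat.Agent.S52.H60

open WeierstrassCurve
open Fermat.Agent.Lib.Torsion35 Fermat.Agent.Lib.PointVariableChange

variable {F : Type*} [Field F]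

/-- Homogeneous `c₄` of the Tate normal form: `C4h(N, D) = D⁴ tnfC4(N/D)`. -/
def c4h {R : Type*} [CommRing R] (N D : R) : R :=
  N ^ 4 - 12 * N ^ 3 * D + 14 * N ^ 2 * D ^ 2 + 12 * N * D ^ 3 + D ^ 4

/-- Homogeneous `c₆` of the Tate normal form: `C6h(N, D) = D⁶ tnfC6(N/D)`. -/
def c6h {R : Type*} [CommRing R] (N D : R) : R :=
  -((N ^ 2 + D ^ 2) * (N ^ 4 - 18 * N ^ 3 * D + 74 * N ^ 2 * D ^ 2 + 18 * N * D ^ 3 + D ^ 4))

lemma c4h_eq_form {R : Type*} [CommRing R] (N D : R) :
    c4h N D =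
      (N ^ 2 - 11 * N * D - D ^ 2) * (N ^ 2 - N * D + 4 * D ^ 2) + 5 * D ^ 3 * (11 * N + D) := by
  simp only [c4h]; ring

lemma c4h_div {N D : F} (hD : D ≠ 0) : c4h N D = D ^ 4 * tnfC4 (N / D) := by
  simp only [c4h, tnfC4]; field_simp

lemma c6h_div {N D : F} (hD : D ≠ 0) : c6h N D = D ^ 6 * tnfC6 (N / D) := by
  simp only [c6h, tnfC6]; field_simp

lemma c4h_one (b : F) : c4h b 1 = tnfC4 b := by simp only [c4h, tnfC4]; ring

lemma c6h_one (b : F) : c6h b 1 = tnfC6 b := by simp only [c6h, tnfC6]; ring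

/-- The `x`-coordinate of the 5-torsion point. -/
def genX (E : WeierstrassCurve F) (u N D : F) : F :=
  (u ^ 2 * (N ^ 2 - 6 * N * D + D ^ 2) - E.b₂) / 12

/-- The `y`-coordinate of the 5-torsion point. -/
def genY (E : WeierstrassCurve F) (u N D : F) : F :=
  (-(u ^ 3 * N * D ^ 2) - E.a₁ * genX E u N D - E.a₃) / 2

/-- The `s` of the change of variables. -/
def genS (E : WeierstrassCurve F) (u N D : F) : F := (u * (D - N) - E.a₁) / 2

/-- The change of variables taking `E` to `tnfCurve (N / D)`. -/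
def genVC (E : WeierstrassCurve F) (u N D : F) (hu : u ≠ 0) (hD : D ≠ 0) : VariableChange F :=
  ⟨Units.mk0 (u * D) (mul_ne_zero hu hD), genX E u N D, genS E u N D, genY E u N D⟩

/-- A curve is determined by `a₁, a₂, a₃, c₄, c₆` when `2, 3 ≠ 0`. -/
lemma ext_of_c4_c6 (h2 : (2 : F) ≠ 0) (h3 : (3 : F) ≠ 0) {E E' : WeierstrassCurve F}
    (h1 : E.a₁ = E'.a₁) (h2' : E.a₂ = E'.a₂) (h3' : E.a₃ = E'.a₃) (hc4 : E.c₄ = E'.c₄)
    (hc6 : E.c₆ = E'.c₆) : E = E' := by
  have h4 : E.a₄ = E'.a₄ := by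
    simp only [c₄, b₂, b₄, h1, h2', h3'] at hc4
    have : (48 : F) * (E.a₄ - E'.a₄) = 0 := by linear_combination -hc4
    have h48 : (48 : F) ≠ 0 := by
      have : (48 : F) = 2 * 2 * 2 * 2 * 3 := by norm_num
      rw [this]
      exact mul_ne_zero (mul_ne_zero (mul_ne_zero (mul_ne_zero h2 h2) h2) h2) h3
    exact sub_eq_zero.mp ((mul_eq_zero.mp this).resolve_left h48)
  have h6 : E.a₆ = E'.a₆ := by
    simp only [c₆, b₂, b₄, b₆, h1, h2', h3', h4] at hc6
    have : (864 : F) * (E.a₆ - E'.a₆) = 0 := by linear_combination -hc6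
    have h864 : (864 : F) ≠ 0 := by
      have : (864 : F) = 2 * 2 * 2 * 2 * 2 * 3 * 3 * 3 := by norm_num
      rw [this]
      exact mul_ne_zero (mul_ne_zero (mul_ne_zero (mul_ne_zero (mul_ne_zero (mul_ne_zero
        (mul_ne_zero h2 h2) h2) h2) h2) h3) h3) h3
    exact sub_eq_zero.mp ((mul_eq_zero.mp this).resolve_left h864)
  ext <;> assumption

/-- **GEN, curve form.** -/
theorem genVC_smul (h2 : (2 : F) ≠ 0) (h3 : (3 : F) ≠ 0) (E : WeierstrassCurve F) (u N D : F)
    (hu : u ≠ 0) (hD : D ≠ 0) (h4 : E.c₄ = u ^ 4 * c4h N D) (h6 : E.c₆ = u ^ 6 * c6h N D) :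
    genVC E u N D hu hD • E = tnfCurve (N / D) := by
  have h12 : (12 : F) ≠ 0 := by
    have : (12 : F) = 2 * 2 * 3 := by norm_num
    rw [this]; exact mul_ne_zero (mul_ne_zero h2 h2) h3
  apply ext_of_c4_c6 h2 h3
  · simp only [genVC, variableChange_a₁, tnfCurve, genS, Units.val_inv_eq_inv_val, Units.val_mk0]
    field_simp
    ring
  · simp only [genVC, variableChange_a₂, tnfCurve, genS, genX, b₂, Units.val_inv_eq_inv_val,
      Units.val_mk0]
    field_simp
    ring
  · simp only [genVC, variableChange_a₃, tnfCurve, genY, Units.val_inv_eq_inv_val, Units.val_mk0]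
    field_simp
    ring
  · rw [variableChange_c₄, tnfCurve_c₄, h4, c4h_div hD]
    simp only [genVC, Units.val_inv_eq_inv_val, Units.val_mk0]
    field_simp
  · rw [variableChange_c₆, tnfCurve_c₆, h6, c6h_div hD]
    simp only [genVC, Units.val_inv_eq_inv_val, Units.val_mk0]
    field_simp

/-- **GEN, base point.** If `C • W = tnfCurve b` then the point `(genX, genY)` for
`(u, N, D) = (C.u, b, 1)` is `(C.r, C.t)`, the preimage of `(0, 0)`. -/
theorem gen_base (h2 : (2 : F) ≠ 0) (h3 : (3 : F) ≠ 0) (W : WeierstrassCurve F)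
    (C : VariableChange F) (b : F) (hC : C • W = tnfCurve b) :
    genX W C.u b 1 = C.r ∧ genY W C.u b 1 = C.t ∧ genS W C.u b 1 = C.s := by
  have hu : (C.u : F) ≠ 0 := C.u.ne_zero
  have h12 : (12 : F) ≠ 0 := by
    have : (12 : F) = 2 * 2 * 3 := by norm_num
    rw [this]; exact mul_ne_zero (mul_ne_zero h2 h2) h3
  have e1 : (C • W).a₁ = 1 - b := by rw [hC]; rfl
  have e2 : (C • W).a₂ = -b := by rw [hC]; rfl
  have e3 : (C • W).a₃ = -b := by rw [hC]; rfl
  simp only [variableChange_a₁, Units.val_inv_eq_inv_val] at e1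
  simp only [variableChange_a₂, Units.val_inv_eq_inv_val] at e2
  simp only [variableChange_a₃, Units.val_inv_eq_inv_val] at e3
  have e1' : W.a₁ + 2 * C.s = (C.u : F) * (1 - b) := by
    field_simp at e1
    linear_combination e1
  have e2' : W.a₂ - C.s * W.a₁ + 3 * C.r - C.s ^ 2 = -((C.u : F) ^ 2 * b) := by
    field_simp at e2
    linear_combination e2
  have e3' : W.a₃ + C.r * W.a₁ + 2 * C.t = -((C.u : F) ^ 3 * b) := by
    field_simp at e3
    linear_combination e3
  have hs : genS W C.u b 1 = C.s := by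
    simp only [genS]
    field_simp
    linear_combination -e1'
  have hX : genX W C.u b 1 = C.r := by
    simp only [genX, b₂]
    field_simp
    linear_combination (-4 : F) * e2' - (W.a₁ + 2 * C.s + (C.u : F) * (1 - b)) * e1'
  refine ⟨hX, ?_, hs⟩
  simp only [genY, hX]
  field_simp
  linear_combination -e3'

section Point

variable [DecidableEq F]

/-- **GEN.** The point `(genX, genY)` is a nonsingular point of `E` killed by `5`. -/
theorem gen_point (h2 : (2 : F) ≠ 0) (h3 : (3 : F) ≠ 0) (E : WeierstrassCurve F) (u N D : F)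
    (hu : u ≠ 0) (hN : N ≠ 0) (hD : D ≠ 0) (h4 : E.c₄ = u ^ 4 * c4h N D)
    (h6 : E.c₆ = u ^ 6 * c6h N D) :
    ∃ h : E.toAffine.Nonsingular (genX E u N D) (genY E u N D),
      5 • Affine.Point.some (genX E u N D) (genY E u N D) h = 0 := by
  have hC := genVC_smul h2 h3 E u N D hu hD h4 h6
  have hb : N / D ≠ 0 := div_ne_zero hN hD
  have hC' : (tnfCurve (N / D)).toAffine = (genVC E u N D hu hD • E.toAffine).toAffine := hC.symm
  have hns := nonsingular_of_eq hC' (tnfCurve_nonsingular hb)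
  have eX : vcX (genVC E u N D hu hD) 0 = genX E u N D := by simp [vcX, genVC]
  have eY : vcY (genVC E u N D hu hD) 0 0 = genY E u N D := by simp [vcY, genVC]
  have hns' : E.toAffine.Nonsingular (genX E u N D) (genY E u N D) := by
    rw [← eX, ← eY]; exact hns
  refine ⟨hns', ?_⟩
  have h5 := tnfCurve_five hb
  have := congrArg (equivOfEq hC') h5
  rw [map_nsmul, map_zero, equivOfEq_some] at this
  have e : Affine.Point.some (vcX (genVC E u N D hu hD) 0) (vcY (genVC E u N D hu hD) 0 0)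
      (nonsingular_of_eq hC' (tnfCurve_nonsingular hb)) =
      Affine.Point.some (genX E u N D) (genY E u N D) hns' := by
    congr 1
  rw [e] at this
  exact this

end Point

end Fermat.Agent.S52.H60
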