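/-
Cluster E, package E-PHI, sub-package GEN (helper60): explicit Tate-normal-form parameters
`u = ψ₂(P)³ / Ψ₃(x0)`, `b = -Ψ₃(x0)³ / Ψ₂Sq(x0)⁴` of a point of order 5, and compatibility of all
the formulas with ring homomorphisms (for Galois equivariance and reduction).
-/
import Fermat.Agent.S52.H60_Gen

set_option autoImplicit false

namespace Fermat.Agent.S52.H60

open WeierstrassCurve
open Fermat.Agent.Lib.Torsion35 Fermat.Agent.Lib.PointVariableChange

variable {F : Type*} [Field F]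

/-- The scaling `u` of the Tate normal form of `(W, P)`, `P = (x0, y0)`. -/
def tnfU (W : WeierstrassCurve F) (x0 y0 : F) : F :=
  (y0 - W.toAffine.negY x0 y0) ^ 3 / vP3 W.toAffine x0

/-- The parameter `b` of the Tate normal form of `(W, P)`; depends on `x0` only. -/
def tnfB (W : WeierstrassCurve F) (x0 : F) : F :=
  -(vP3 W.toAffine x0 ^ 3 / vB W.toAffine x0 ^ 4)

section

variable [DecidableEq F] (W : WeierstrassCurve F)

/-- **E-TNF, explicit form.** -/
theorem tnf_explicit {x0 y0 : F} (h : W.toAffine.Nonsingular x0 y0)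
    (h5 : 5 • Affine.Point.some x0 y0 h = 0) :
    ∃ hu : tnfU W x0 y0 ≠ 0, tnfB W x0 ≠ 0 ∧
      (⟨Units.mk0 (tnfU W x0 y0) hu, x0, W.toAffine.slope x0 x0 y0 y0, y0⟩ :
        VariableChange F) • W = tnfCurve (tnfB W x0) := by
  obtain ⟨u, b, hb, hC, hB, hP3, -, hbB, huP⟩ := exists_tnf W.toAffine h h5
  have e1 : tnfU W x0 y0 = (u : F) := by
    simp only [tnfU]
    rw [← huP]
    field_simp
  have e2 : tnfB W x0 = b := by
    simp only [tnfB]
    rw [eq_comm, ← sub_eq_zero]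
    have hB4 : vB W.toAffine x0 ^ 4 ≠ 0 := pow_ne_zero 4 hB
    field_simp
    linear_combination hbB
  have hu : tnfU W x0 y0 ≠ 0 := by rw [e1]; exact u.ne_zero
  refine ⟨hu, by rw [e2]; exact hb, ?_⟩
  have e3 : Units.mk0 (tnfU W x0 y0) hu = u := by
    ext; simp [e1]
  rw [e3, e2]
  exact hC

/-- With the explicit parameters, the base point of the family is `P` itself. -/
theorem gen_base_explicit (h2 : (2 : F) ≠ 0) (h3 : (3 : F) ≠ 0) {x0 y0 : F}
    (h : W.toAffine.Nonsingular x0 y0) (h5 : 5 • Affine.Point.some x0 y0 h = 0) :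
    genX W (tnfU W x0 y0) (tnfB W x0) 1 = x0 ∧ genY W (tnfU W x0 y0) (tnfB W x0) 1 = y0 := by
  obtain ⟨hu, -, hC⟩ := tnf_explicit W h h5
  obtain ⟨hX, hY, -⟩ := gen_base h2 h3 W _ _ hC
  exact ⟨hX, hY⟩

/-- With the explicit parameters: `c₄ = u⁴ tnfC4 b`, `c₆ = u⁶ tnfC6 b`, `Δ = u¹² tnfDelta b`. -/
theorem invariants_explicit {x0 y0 : F} (h : W.toAffine.Nonsingular x0 y0)
    (h5 : 5 • Affine.Point.some x0 y0 h = 0) :
    W.c₄ = tnfU W x0 y0 ^ 4 * tnfC4 (tnfB W x0) ∧ W.c₆ = tnfU W x0 y0 ^ 6 * tnfC6 (tnfB W x0) ∧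
      W.Δ = tnfU W x0 y0 ^ 12 * tnfDelta (tnfB W x0) := by
  obtain ⟨hu, -, hC⟩ := tnf_explicit W h h5
  exact invariants_of_tnf W.toAffine hC

end

section Map

variable {F' : Type*} [Field F'] (φ : F →+* F') (W : WeierstrassCurve F)

lemma map_vB (x : F) : φ (vB W.toAffine x) = vB (W.map φ).toAffine (φ x) := by
  simp only [vB, map_b₂, map_b₄, map_b₆, map_add, map_mul, map_pow, map_ofNat]

lemma map_vP3 (x : F) : φ (vP3 W.toAffine x) = vP3 (W.map φ).toAffine (φ x) := by
  simp only [vP3, map_b₂, map_b₄, map_b₆, map_b₈, map_add, map_mul, map_pow, map_ofNat]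

lemma map_negY (x y : F) : φ (W.toAffine.negY x y) = (W.map φ).toAffine.negY (φ x) (φ y) := by
  simp [Affine.negY]

lemma map_tnfU (x y : F) : φ (tnfU W x y) = tnfU (W.map φ) (φ x) (φ y) := by
  simp only [tnfU, map_div₀, map_pow, map_sub, map_vP3, map_negY]

lemma map_tnfB (x : F) : φ (tnfB W x) = tnfB (W.map φ) (φ x) := by
  simp only [tnfB, map_neg, map_div₀, map_pow, map_vP3, map_vB]

lemma map_genX (u N D : F) : φ (genX W u N D) = genX (W.map φ) (φ u) (φ N) (φ D) := by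
  simp only [genX, map_div₀, map_sub, map_mul, map_pow, map_add, map_ofNat, map_b₂]

lemma map_genY (u N D : F) : φ (genY W u N D) = genY (W.map φ) (φ u) (φ N) (φ D) := by
  simp only [genY, map_div₀, map_sub, map_mul, map_pow, map_neg, map_ofNat, map_genX]
  simp

end Map

end Fermat.Agent.S52.H60
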