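/-
Cluster E, package E-PHI, sub-package GEN (helper60): the polynomial 5-torsion point
`(X_P(t), Y_P(t))` of the 5-congruent family through `(W, P)`.

`K` a field with `2, 3 ≠ 0`, `W / K`, `P = (x0, y0)` with `5 • P = 0`, `t ∈ K[X]` the family
parameter.  `genPolyX W x0 y0 t`, `genPolyY W x0 y0 t ∈ K[X]` are explicit; for every ring hom
`ι : K[X] → F` to a field and every curve `E / F` with `a₁, a₂, a₃` those of `W` and
`c₄ = famC4 c₄(W) c₆(W) t`, `c₆ = famC6 c₄(W) c₆(W) t` the pair `(ι X_P, ι Y_P)` is a nonsingular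
point of `E` killed by `5` (if `ι N, ι D ≠ 0`), and `(X_P(0), Y_P(0)) = (x0, y0)` if `t(0) = 0`.
The identities (I1), (I2) over `F` are hypotheses.
-/
import Fermat.Agent.S52.H60_GenMap
import Fermat.Agent.S52.Family
import Mathlib.Algebra.Polynomial.AlgebraMap

set_option autoImplicit false

namespace Fermat.Agent.S52.H60

open WeierstrassCurve Polynomial Fermat.Agent.S52
open Fermat.Agent.Lib.Torsion35

section Map

variable {R S : Type*} [CommRing R] [CommRing S] (φ : R →+* S)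

lemma map_tnfN (b τ : R) : φ (tnfN b τ) = tnfN (φ b) (φ τ) := by
  simp only [tnfN, tnfNc0, tnfNc1, tnfNc2, tnfNc3, tnfNc4, tnfNc5, map_add, map_sub, map_mul,
    map_pow, map_neg, map_ofNat]

lemma map_tnfD (b τ : R) : φ (tnfD b τ) = tnfD (φ b) (φ τ) := by
  simp only [tnfD, tnfDc0, tnfDc1, tnfDc2, tnfDc3, tnfDc4, tnfDc5, map_add, map_sub, map_mul,
    map_pow, map_ofNat, map_one]

end Map

variable {K : Type*} [Field K]

/-- The numerator quintic `N` of the family through `(W, P)`, as a polynomial in the parameter. -/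
noncomputable def genPolyN (W : WeierstrassCurve K) (x0 y0 : K) (t : K[X]) : K[X] :=
  tnfN (C (tnfB W x0)) (C (tnfU W x0 y0 ^ 2) * t)

/-- The denominator quintic `D` of the family through `(W, P)`. -/
noncomputable def genPolyD (W : WeierstrassCurve K) (x0 y0 : K) (t : K[X]) : K[X] :=
  tnfD (C (tnfB W x0)) (C (tnfU W x0 y0 ^ 2) * t)

/-- The `x`-coordinate `X_P(t)` of the moving 5-torsion point. -/
noncomputable def genPolyX (W : WeierstrassCurve K) (x0 y0 : K) (t : K[X]) : K[X] :=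
  C (tnfU W x0 y0 ^ 2 / 12) *
      (genPolyN W x0 y0 t ^ 2 - 6 * genPolyN W x0 y0 t * genPolyD W x0 y0 t +
        genPolyD W x0 y0 t ^ 2) -
    C (W.b₂ / 12)

/-- The `y`-coordinate `Y_P(t)` of the moving 5-torsion point. -/
noncomputable def genPolyY (W : WeierstrassCurve K) (x0 y0 : K) (t : K[X]) : K[X] :=
  -(C (tnfU W x0 y0 ^ 3 / 2) * genPolyN W x0 y0 t * genPolyD W x0 y0 t ^ 2) -
    C (W.a₁ / 2) * genPolyX W x0 y0 t - C (W.a₃ / 2)

section Eval

variable (W : WeierstrassCurve K) (x0 y0 : K) (t : K[X])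

lemma eval_genPolyN (a : K) :
    (genPolyN W x0 y0 t).eval a = tnfN (tnfB W x0) (tnfU W x0 y0 ^ 2 * t.eval a) := by
  have := map_tnfN (evalRingHom a) (C (tnfB W x0)) (C (tnfU W x0 y0 ^ 2) * t)
  simpa [genPolyN] using this

lemma eval_genPolyD (a : K) :
    (genPolyD W x0 y0 t).eval a = tnfD (tnfB W x0) (tnfU W x0 y0 ^ 2 * t.eval a) := by
  have := map_tnfD (evalRingHom a) (C (tnfB W x0)) (C (tnfU W x0 y0 ^ 2) * t)
  simpa [genPolyD] using this

lemma eval_genPolyX (a : K) :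
    (genPolyX W x0 y0 t).eval a =
      genX W (tnfU W x0 y0) ((genPolyN W x0 y0 t).eval a) ((genPolyD W x0 y0 t).eval a) := by
  simp only [genPolyX, genX, eval_sub, eval_mul, eval_add, eval_pow, eval_C, eval_ofNat]
  ring

lemma eval_genPolyY (a : K) :
    (genPolyY W x0 y0 t).eval a =
      genY W (tnfU W x0 y0) ((genPolyN W x0 y0 t).eval a) ((genPolyD W x0 y0 t).eval a) := by
  simp only [genPolyY, genY, eval_sub, eval_mul, eval_neg, eval_pow, eval_C, eval_genPolyX]
  ring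

lemma genPolyN_eval_zero (ht : t.eval 0 = 0) : (genPolyN W x0 y0 t).eval 0 = tnfB W x0 := by
  rw [eval_genPolyN, ht, mul_zero, tnfN_zero]

lemma genPolyD_eval_zero (ht : t.eval 0 = 0) : (genPolyD W x0 y0 t).eval 0 = 1 := by
  rw [eval_genPolyD, ht, mul_zero, tnfD_zero]

end Eval

section MapPoly

variable {K' : Type*} [Field K'] (σ : K →+* K') (W : WeierstrassCurve K) (x0 y0 : K) (t : K[X])

lemma map_genPolyN :
    (genPolyN W x0 y0 t).map σ = genPolyN (W.map σ) (σ x0) (σ y0) (t.map σ) := by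
  unfold genPolyN
  rw [← coe_mapRingHom, map_tnfN, coe_mapRingHom, Polynomial.map_mul, Polynomial.map_C,
    Polynomial.map_C, map_pow, map_tnfB, map_tnfU]

lemma map_genPolyD :
    (genPolyD W x0 y0 t).map σ = genPolyD (W.map σ) (σ x0) (σ y0) (t.map σ) := by
  unfold genPolyD
  rw [← coe_mapRingHom, map_tnfD, coe_mapRingHom, Polynomial.map_mul, Polynomial.map_C,
    Polynomial.map_C, map_pow, map_tnfB, map_tnfU]

lemma map_genPolyX :
    (genPolyX W x0 y0 t).map σ = genPolyX (W.map σ) (σ x0) (σ y0) (t.map σ) := by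
  simp only [genPolyX, Polynomial.map_sub, Polynomial.map_mul, Polynomial.map_add,
    Polynomial.map_pow, Polynomial.map_C, map_genPolyN, map_genPolyD, map_div₀, map_pow,
    map_tnfU, map_ofNat, map_b₂, Polynomial.map_ofNat]

lemma map_genPolyY :
    (genPolyY W x0 y0 t).map σ = genPolyY (W.map σ) (σ x0) (σ y0) (t.map σ) := by
  simp only [genPolyY, Polynomial.map_sub, Polynomial.map_mul, Polynomial.map_neg,
    Polynomial.map_pow, Polynomial.map_C, map_genPolyN, map_genPolyD, map_genPolyX, map_div₀,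
    map_pow, map_tnfU, map_ofNat, map_a₁, map_a₃]

end MapPoly

section Base

variable [DecidableEq K] (W : WeierstrassCurve K)

/-- **GEN (b).** At `t = 0` the moving point is `P`. -/
theorem genPoly_eval_zero (h2 : (2 : K) ≠ 0) (h3 : (3 : K) ≠ 0) {x0 y0 : K}
    (h : W.toAffine.Nonsingular x0 y0) (h5 : 5 • Affine.Point.some x0 y0 h = 0) (t : K[X])
    (ht : t.eval 0 = 0) :
    (genPolyX W x0 y0 t).eval 0 = x0 ∧ (genPolyY W x0 y0 t).eval 0 = y0 := by
  obtain ⟨hX, hY⟩ := gen_base_explicit W h2 h3 h h5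
  rw [eval_genPolyX, eval_genPolyY, genPolyN_eval_zero W x0 y0 t ht,
    genPolyD_eval_zero W x0 y0 t ht]
  exact ⟨hX, hY⟩

/-- `N ≠ 0` as a polynomial. -/
theorem genPolyN_ne_zero {x0 y0 : K} (h : W.toAffine.Nonsingular x0 y0)
    (h5 : 5 • Affine.Point.some x0 y0 h = 0) (t : K[X]) (ht : t.eval 0 = 0) :
    genPolyN W x0 y0 t ≠ 0 := by
  obtain ⟨-, hb, -⟩ := tnf_explicit W h h5
  intro h0
  have := genPolyN_eval_zero W x0 y0 t ht
  rw [h0, eval_zero] at this
  exact hb this.symm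

omit [DecidableEq K] in
/-- `D ≠ 0` as a polynomial. -/
theorem genPolyD_ne_zero (x0 y0 : K) (t : K[X]) (ht : t.eval 0 = 0) :
    genPolyD W x0 y0 t ≠ 0 := by
  intro h0
  have := genPolyD_eval_zero W x0 y0 t ht
  rw [h0, eval_zero] at this
  exact zero_ne_one this

end Base

section Point

variable {F : Type*} [Field F] [DecidableEq K] [DecidableEq F]

/-- **GEN (a).** The moving point is a nonsingular point of the member of the family, killed
by `5`.  `ι : K[X] → F` is any ring hom to a field (generic fibre: `F = K(X)`; special fibre: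
evaluation), `E / F` any curve with the `a₁, a₂, a₃` of `W` and the `c₄, c₆` of the family. -/
theorem genPoly_point (h2 : (2 : K) ≠ 0) (h3 : (3 : K) ≠ 0) (W : WeierstrassCurve K) {x0 y0 : K}
    (h : W.toAffine.Nonsingular x0 y0) (h5 : 5 • Affine.Point.some x0 y0 h = 0) (t : K[X])
    (ι : K[X] →+* F)
    (hI1 : ∀ b v s : F,
      famC4 (v ^ 2 * tC4 b) (v ^ 3 * tC6 b) s = v ^ 2 * hC4 (tnfN b (v * s)) (tnfD b (v * s)))
    (hI2 : ∀ b v s : F,
      famC6 (v ^ 2 * tC4 b) (v ^ 3 * tC6 b) s = v ^ 3 * hC6 (tnfN b (v * s)) (tnfD b (v * s)))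
    (E : WeierstrassCurve F) (ha1 : E.a₁ = ι (C W.a₁)) (ha2 : E.a₂ = ι (C W.a₂))
    (ha3 : E.a₃ = ι (C W.a₃))
    (hc4 : E.c₄ = famC4 (ι (C W.c₄)) (ι (C W.c₆)) (ι t))
    (hc6 : E.c₆ = famC6 (ι (C W.c₄)) (ι (C W.c₆)) (ι t))
    (hN : ι (genPolyN W x0 y0 t) ≠ 0) (hD : ι (genPolyD W x0 y0 t) ≠ 0) :
    ∃ hns : E.toAffine.Nonsingular (ι (genPolyX W x0 y0 t)) (ι (genPolyY W x0 y0 t)),
      5 • Affine.Point.some (ι (genPolyX W x0 y0 t)) (ι (genPolyY W x0 y0 t)) hns = 0 := by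
  obtain ⟨hu, hb, -⟩ := tnf_explicit W h h5
  obtain ⟨e4, e6, -⟩ := invariants_explicit W h h5
  set u := tnfU W x0 y0 with hu_def
  set b := tnfB W x0 with hb_def
  set φ : K →+* F := ι.comp C with hφ
  have hφ' : ∀ a : K, ι (C a) = φ a := fun a => rfl
  have h2F : (2 : F) ≠ 0 := by
    have := (map_ne_zero φ).mpr h2
    rwa [map_ofNat] at this
  have h3F : (3 : F) ≠ 0 := by
    have := (map_ne_zero φ).mpr h3
    rwa [map_ofNat] at this
  have huF : φ u ≠ 0 := (map_ne_zero φ).mpr hu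
  have eN : ι (genPolyN W x0 y0 t) = tnfN (φ b) (φ u ^ 2 * ι t) := by
    simp only [genPolyN, map_tnfN, map_mul, hφ', map_pow]
    rfl
  have eD : ι (genPolyD W x0 y0 t) = tnfD (φ b) (φ u ^ 2 * ι t) := by
    simp only [genPolyD, map_tnfD, map_mul, hφ', map_pow]
    rfl
  have a4 : φ (u ^ 4 * tnfC4 b) = (φ u ^ 2) ^ 2 * tC4 (φ b) := by
    simp only [map_mul, map_pow, tnfC4, tC4, map_add, map_sub, map_ofNat, map_one]; ring
  have a6 : φ (u ^ 6 * tnfC6 b) = (φ u ^ 2) ^ 3 * tC6 (φ b) := by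
    simp only [map_mul, map_pow, tnfC6, tC6, map_add, map_sub, map_neg, map_ofNat, map_one]; ring
  have hc4' : E.c₄ = φ u ^ 4 * c4h (ι (genPolyN W x0 y0 t)) (ι (genPolyD W x0 y0 t)) := by
    rw [hc4, hφ', hφ', e4, e6, a4, a6, hI1, eN, eD]
    simp only [c4h, hC4]; ring
  have hc6' : E.c₆ = φ u ^ 6 * c6h (ι (genPolyN W x0 y0 t)) (ι (genPolyD W x0 y0 t)) := by
    rw [hc6, hφ', hφ', e4, e6, a4, a6, hI2, eN, eD]
    simp only [c6h, hC6]; ring
  obtain ⟨hns, h5'⟩ := gen_point h2F h3F E (φ u) _ _ huF hN hD hc4' hc6'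
  have h12 : (12 : F) ≠ 0 := by
    have : (12 : F) = 2 * 2 * 3 := by norm_num
    rw [this]; exact mul_ne_zero (mul_ne_zero h2F h2F) h3F
  have eX : genX E (φ u) (ι (genPolyN W x0 y0 t)) (ι (genPolyD W x0 y0 t)) =
      ι (genPolyX W x0 y0 t) := by
    simp only [genX, genPolyX, b₂, ha1, ha2, map_sub, map_mul, map_add, map_pow, hφ',
      map_div₀, map_ofNat]
    field_simp
    rw [← hu_def]
    ring
  have eY : genY E (φ u) (ι (genPolyN W x0 y0 t)) (ι (genPolyD W x0 y0 t)) =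
      ι (genPolyY W x0 y0 t) := by
    simp only [genY, genPolyY, eX, ha1, ha3, map_sub, map_mul, map_neg, map_pow, hφ',
      map_div₀, map_ofNat]
    field_simp
    rw [← hu_def]
    ring
  have hns' : E.toAffine.Nonsingular (ι (genPolyX W x0 y0 t)) (ι (genPolyY W x0 y0 t)) := by
    rw [← eX, ← eY]; exact hns
  refine ⟨hns', ?_⟩
  have e : Affine.Point.some _ _ hns = Affine.Point.some _ _ hns' := by
    congr 1
  rw [← e]
  exact h5'

end Point

end Fermat.Agent.S52.H60
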