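/-
Cluster E, package E-PHI (helper88), part PLACE: for a field `K` and `t₀ : K` there is a valuation
subring of `RatFunc K` containing `K[X]` in which every polynomial vanishing at `t₀` is a non-unit.
Consequently the residue of a polynomial `p` is the residue of the constant `p(t₀)`.
-/
import Mathlib.RingTheory.Valuation.LocalSubring
import Mathlib.FieldTheory.RatFunc.AsPolynomial
import Mathlib.RingTheory.LocalRing.ResidueField.Basic

set_option autoImplicit false

namespace Fermat.Agent.S52.H88

open Polynomial IsLocalRing

variable {K : Type*} [Field K]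

/-- A valuation subring of `RatFunc K` "centred at `t₀`". -/
theorem exists_place (t₀ : K) :
    ∃ B : ValuationSubring (RatFunc K),
      (∀ p : K[X], algebraMap K[X] (RatFunc K) p ∈ B) ∧
      (∀ p : K[X], p.eval t₀ = 0 → algebraMap K[X] (RatFunc K) p ∈ B.nonunits) := by
  classical
  set φ : K[X] →+* RatFunc K := algebraMap K[X] (RatFunc K) with hφ
  have hinj : Function.Injective φ := RatFunc.algebraMap_injective K
  set A : Subring (RatFunc K) := φ.range with hA
  set I : Ideal A := (RingHom.ker (evalRingHom t₀)).map φ.rangeRestrict with hI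
  have hsurj : Function.Surjective φ.rangeRestrict := φ.rangeRestrict_surjective
  have hIne : I ≠ ⊤ := by
    intro htop
    have h1 : (1 : A) ∈ I := by rw [htop]; trivial
    rw [hI, Ideal.mem_map_iff_of_surjective _ hsurj] at h1
    obtain ⟨p, hp, hp1⟩ := h1
    have hp1' : φ p = 1 := by
      have := congrArg Subtype.val hp1
      simpa using this
    have hp_one : p = 1 := hinj (by rw [hp1', map_one])
    rw [RingHom.mem_ker, hp_one, map_one] at hp
    exact one_ne_zero hp
  obtain ⟨B, hAB, hIB⟩ := Ideal.image_subset_nonunits_valuationSubring I hIne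
  refine ⟨B, fun p => hAB ⟨p, rfl⟩, fun p hp => ?_⟩
  apply hIB
  refine ⟨φ.rangeRestrict p, ?_, rfl⟩
  exact Ideal.mem_map_of_mem _ (by rw [RingHom.mem_ker]; exact hp)

/-- The inclusion `K[X] → B` for a valuation subring containing `K[X]`. -/
noncomputable def polyToPlace (B : ValuationSubring (RatFunc K))
    (hB : ∀ p : K[X], algebraMap K[X] (RatFunc K) p ∈ B) : K[X] →+* B :=
  (algebraMap K[X] (RatFunc K)).codRestrict B.toSubring hB

@[simp] lemma coe_polyToPlace (B : ValuationSubring (RatFunc K))
    (hB : ∀ p : K[X], algebraMap K[X] (RatFunc K) p ∈ B) (p : K[X]) :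
    ((polyToPlace B hB p : B) : RatFunc K) = algebraMap K[X] (RatFunc K) p := rfl

lemma algebraMap_comp_polyToPlace (B : ValuationSubring (RatFunc K))
    (hB : ∀ p : K[X], algebraMap K[X] (RatFunc K) p ∈ B) :
    (algebraMap B (RatFunc K)).comp (polyToPlace B hB) = algebraMap K[X] (RatFunc K) := by
  ext p <;> rfl

/-- The embedding of the constants into the residue field. -/
noncomputable def constToResidue (B : ValuationSubring (RatFunc K))
    (hB : ∀ p : K[X], algebraMap K[X] (RatFunc K) p ∈ B) : K →+* ResidueField B :=
  ((residue B).comp (polyToPlace B hB)).comp (C : K →+* K[X])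

/-- The residue of a polynomial is the residue of its value at `t₀`. -/
theorem residue_comp_polyToPlace (t₀ : K) (B : ValuationSubring (RatFunc K))
    (hB : ∀ p : K[X], algebraMap K[X] (RatFunc K) p ∈ B)
    (hB0 : ∀ p : K[X], p.eval t₀ = 0 → algebraMap K[X] (RatFunc K) p ∈ B.nonunits) :
    (residue B).comp (polyToPlace B hB) = (constToResidue B hB).comp (evalRingHom t₀) := by
  ext p
  · simp only [RingHom.comp_apply, constToResidue, coe_evalRingHom, eval_C]
  · -- the variable `X`
    simp only [RingHom.comp_apply, constToResidue, coe_evalRingHom, eval_X]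
    have h0 : (X - C t₀ : K[X]).eval t₀ = 0 := by simp
    have hmem := hB0 _ h0
    have hres : residue B (polyToPlace B hB (X - C t₀)) = 0 := by
      rw [residue_eq_zero_iff]
      exact ValuationSubring.coe_mem_nonunits_iff.mp hmem
    rw [map_sub, map_sub, sub_eq_zero] at hres
    exact hres

end Fermat.Agent.S52.H88
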