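/-
Cluster E, package E-PHI (helper88), part SPEC: specialisation of points of a Weierstrass curve
over `K[X]` at `X = t₀` as a GROUP HOMOMORPHISM from the points over `RatFunc K`, via helper4's
reduction map at a valuation subring centred at `t₀`.
-/
import Fermat.Agent.S52.H88_Place
import Fermat.Agent.Lib.EllFinite.H4_RedOf
import Fermat.Agent.Lib.EllFinite.H46_RedTors

set_option autoImplicit false

namespace Fermat.Agent.S52.H88

open Polynomial IsLocalRing WeierstrassCurve WeierstrassCurve.Affine
open Fermat.Agent.Lib.EllFinite.H4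

section PtMap

variable {k κ : Type*} [Field k] [Field κ] [DecidableEq k] [DecidableEq κ]

/-- The map on points induced by a homomorphism of fields (cast-free). -/
noncomputable def ptMap (j : k →+* κ) (W : Affine k) : W.Point →+ (W.map j).toAffine.Point where
  toFun P := match P with
    | 0 => 0
    | .some x y h => .some (j x) (j y) ((W.map_nonsingular j.injective x y).mpr h)
  map_zero' := rfl
  map_add' := by
    rintro (_ | ⟨x₁, y₁, h₁⟩) (_ | ⟨x₂, y₂, h₂⟩)
    any_goals rfl
    by_cases hxy : x₁ = x₂ ∧ y₁ = W.negY x₂ y₂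
    · rw [Point.add_of_Y_eq hxy.left hxy.right,
        Point.add_of_Y_eq (congr_arg _ hxy.left) <| by rw [hxy.right, map_negY]]
    · simpa only [Point.add_some hxy, ← map_addX, ← map_addY, ← map_slope] using
        (Point.add_some fun h ↦ hxy ⟨j.injective h.1,
          j.injective (W.map_negY j .. ▸ h).2⟩).symm

@[simp] lemma ptMap_zero (j : k →+* κ) (W : Affine k) : ptMap j W 0 = 0 := rfl

lemma ptMap_some (j : k →+* κ) (W : Affine k) {x y : k} (h : W.Nonsingular x y) :
    ptMap j W (.some x y h) =
      .some (j x) (j y) ((W.map_nonsingular j.injective x y).mpr h) := rfl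

lemma ptMap_injective (j : k →+* κ) (W : Affine k) : Function.Injective (ptMap j W) := by
  rintro (_ | ⟨x₁, y₁, h₁⟩) (_ | ⟨x₂, y₂, h₂⟩) h
  · rfl
  · exact absurd h.symm (Point.some_ne_zero _)
  · exact absurd h (Point.some_ne_zero _)
  · rw [ptMap_some, ptMap_some] at h
    have := Point.some.inj h
    obtain ⟨hx, hy⟩ := this
    have hx' := j.injective hx
    have hy' := j.injective hy
    subst hx' hy'
    rfl

end PtMap

section TorsInj

variable {F : Type*} [Field F] {A : ValuationSubring F} {V : Affine F}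
  {Vk : Affine (ResidueField A)} [DecidableEq F] [DecidableEq (ResidueField A)]

/-- Reduction is injective on `n`-torsion when `n` is invertible in the residue field
(cast-free form of helper46's `eq_zero_of_red_eq_zero`). -/
theorem redOf_eq_zero_of_nsmul (h : IsRedOf A V Vk) (hΔ : Vk.Δ ≠ 0) {n : ℕ}
    (hn : (n : ResidueField A) ≠ 0) {P : V.Point} (h0 : n • P = 0)
    (hred : redOf h hΔ P = 0) : P = 0 := by
  rcases (redOf_eq_zero_iff h hΔ P).mp hred with hP | ⟨x, y, hxy, rfl, hx⟩
  · exact hP
  · exfalso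
    obtain ⟨W, rfl, rfl⟩ := h
    have := Fermat.Agent.Lib.EllFinite.H46.x_mem_of_nsmul_eq_zero hn hxy h0
    rw [← A.valuation_le_one_iff] at this
    exact absurd hx (not_lt.mpr this)

end TorsInj

section Spec

universe u

variable {K : Type u} [Field K]

/-- The generic fibre: the curve over `RatFunc K`. -/
noncomputable abbrev genCurve (𝒲 : WeierstrassCurve K[X]) : Affine (RatFunc K) :=
  (𝒲.map (algebraMap K[X] (RatFunc K))).toAffine

/-- The special fibre at `t₀`: the curve over `K`. -/
noncomputable abbrev specCurve (𝒲 : WeierstrassCurve K[X]) (t₀ : K) : Affine K :=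
  (𝒲.map (evalRingHom t₀)).toAffine

lemma specCurve_Δ (𝒲 : WeierstrassCurve K[X]) (t₀ : K) :
    (specCurve 𝒲 t₀).Δ = 𝒲.Δ.eval t₀ := by
  simp [specCurve, WeierstrassCurve.map_Δ]

/-- **SPEC.** If `Δ(t₀) ≠ 0`, there are a field `κ ⊇ K` and a group homomorphism `sp` from the
points of the generic fibre to the points of the special fibre over `κ` which sends a point with
polynomial coordinates `(p, q)` to the point `(p(t₀), q(t₀))`. -/
theorem exists_spec [DecidableEq K] [DecidableEq (RatFunc K)] (𝒲 : WeierstrassCurve K[X]) (t₀ : K)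
    (hΔ : 𝒲.Δ.eval t₀ ≠ 0) :
    ∃ (κ : Type u) (_ : Field κ) (_ : DecidableEq κ) (j : K →+* κ)
      (sp : (genCurve 𝒲).Point →+ ((specCurve 𝒲 t₀).map j).toAffine.Point),
      (∀ (n : ℕ), (n : K) ≠ 0 → ∀ P : (genCurve 𝒲).Point, n • P = 0 → sp P = 0 → P = 0) ∧
      ∀ (p q : K[X])
        (h : (genCurve 𝒲).Nonsingular (algebraMap K[X] (RatFunc K) p)
          (algebraMap K[X] (RatFunc K) q)),
        ∃ h0 : (specCurve 𝒲 t₀).Nonsingular (p.eval t₀) (q.eval t₀),
          sp (.some _ _ h) = ptMap j (specCurve 𝒲 t₀) (.some _ _ h0) := by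
  classical
  obtain ⟨B, hB, hB0⟩ := exists_place t₀
  set f := polyToPlace B hB with hf
  set j := constToResidue B hB with hj
  have hres : (residue B).comp f = j.comp (evalRingHom t₀) :=
    residue_comp_polyToPlace t₀ B hB hB0
  have hgen : (𝒲.map ((algebraMap B (RatFunc K)).comp f)).toAffine = genCurve 𝒲 := by
    rw [algebraMap_comp_polyToPlace]
  have hspec : (𝒲.map ((residue B).comp f)).toAffine = ((specCurve 𝒲 t₀).map j).toAffine := by
    rw [hres]
    change 𝒲.map (j.comp (evalRingHom t₀)) = (𝒲.map (evalRingHom t₀)).map j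
    rw [WeierstrassCurve.map_map]
  have hred : IsRedOf B (genCurve 𝒲) ((specCurve 𝒲 t₀).map j).toAffine := by
    have := isRedOf_map (A := B) 𝒲 f
    rw [hgen, hspec] at this
    exact this
  have hΔ0 : (specCurve 𝒲 t₀).Δ ≠ 0 := by rw [specCurve_Δ]; exact hΔ
  have hΔ' : ((specCurve 𝒲 t₀).map j).toAffine.Δ ≠ 0 := by
    rw [WeierstrassCurve.map_Δ]
    exact (map_ne_zero j).mpr hΔ0
  refine ⟨ResidueField (↥B), inferInstance, Classical.decEq _, j, redOf hred hΔ', ?_, ?_⟩
  · intro n hn P h0 hP
    have hn' : (n : ResidueField (↥B)) ≠ 0 := by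
      have := (map_ne_zero j).mpr hn
      rwa [map_natCast] at this
    exact redOf_eq_zero_of_nsmul hred hΔ' hn' h0 hP
  intro p q h
  have hcoe := redOf_some_coe hred hΔ' (f p) (f q) h
  have hp : residue B (f p) = j (p.eval t₀) := by
    have := congrArg (fun g : K[X] →+* ResidueField B => g p) hres
    simpa using this
  have hq : residue B (f q) = j (q.eval t₀) := by
    have := congrArg (fun g : K[X] →+* ResidueField B => g q) hres
    simpa using this
  have hns : ((specCurve 𝒲 t₀).map j).toAffine.Nonsingular (j (p.eval t₀)) (j (q.eval t₀)) := by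
    have := hred.nonsingular_res hΔ' (a := f p) (b := f q) h
    rwa [hp, hq] at this
  have h0 : (specCurve 𝒲 t₀).Nonsingular (p.eval t₀) (q.eval t₀) :=
    ((specCurve 𝒲 t₀).map_nonsingular j.injective _ _).mp hns
  refine ⟨h0, ?_⟩
  rw [ptMap_some]
  have : redOf hred hΔ' (.some (algebraMap K[X] (RatFunc K) p) (algebraMap K[X] (RatFunc K) q) h)
      = .some (residue B (f p)) (residue B (f q)) (hred.nonsingular_res hΔ' h) := hcoe
  rw [this]
  exact some_eq_some _ _ hp hq

end Spec

end Fermat.Agent.S52.H88
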