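/-
Cluster E, package E-PHI (helper88), part ASM: the abstract additivity lemma.

`𝒲` a Weierstrass curve over `K[X]` (`K` algebraically closed, `5 ≠ 0`), `t₀ t₁ : K` with
`Δ(t₀), Δ(t₁) ≠ 0`.  If every affine `5`-torsion point `(x0, y0)` of the fibre at `t₀` is the value
at `t₀` of a point `(px, py)` with polynomial coordinates of the generic fibre which is killed by
`5`, then `(x0, y0) ↦ (px(t₁), py(t₁))`, `0 ↦ 0` is an additive bijection between the `5`-torsion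
of the fibre at `t₀` and of the fibre at `t₁`.

Proof: the specialisation maps `sp₀`, `sp₁` (H88_Spec) are group homomorphisms, injective on
`5`-torsion; `e = sp₁ ∘ sp₀⁻¹`.  No chord formulas.
-/
import Fermat.Agent.S52.H88_Spec
import Fermat.Agent.Lib.TorsionGen.Count

set_option autoImplicit false

namespace Fermat.Agent.S52.H88

open Polynomial WeierstrassCurve WeierstrassCurve.Affine

section LiftInj

variable {A B C : Type*} [AddCommGroup A] [AddCommGroup B] [AddCommGroup C]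

/-- Lift a homomorphism `g : B →+ C` through an injective homomorphism `f : A →+ C` whose range
contains the range of `g`. -/
noncomputable def liftInj (f : A →+ C) (hf : Function.Injective f) (g : B →+ C)
    (hg : ∀ b, ∃ a, f a = g b) : B →+ A where
  toFun b := (hg b).choose
  map_zero' := hf (by rw [(hg 0).choose_spec, map_zero, map_zero])
  map_add' b b' := hf (by
    rw [(hg (b + b')).choose_spec, map_add, map_add, (hg b).choose_spec, (hg b').choose_spec])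

lemma liftInj_spec (f : A →+ C) (hf : Function.Injective f) (g : B →+ C)
    (hg : ∀ b, ∃ a, f a = g b) (b : B) : f (liftInj f hf g hg b) = g b :=
  (hg b).choose_spec

lemma liftInj_eq (f : A →+ C) (hf : Function.Injective f) (g : B →+ C)
    (hg : ∀ b, ∃ a, f a = g b) {b : B} {a : A} (h : f a = g b) : liftInj f hf g hg b = a :=
  hf (by rw [liftInj_spec, h])

end LiftInj

universe u

variable {K : Type u} [Field K] [DecidableEq K] [DecidableEq (RatFunc K)]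

/-- **ASM** (abstract additivity lemma). -/
theorem exists_addEquiv_of_polyPoints [IsAlgClosed K] (h5 : (5 : K) ≠ 0)
    (𝒲 : WeierstrassCurve K[X]) (t₀ t₁ : K)
    (hΔ₀ : 𝒲.Δ.eval t₀ ≠ 0) (hΔ₁ : 𝒲.Δ.eval t₁ ≠ 0)
    (px py : K → K → K[X])
    (hpt : ∀ (x0 y0 : K) (h : (specCurve 𝒲 t₀).Nonsingular x0 y0),
      5 • Point.some x0 y0 h = 0 →
      (px x0 y0).eval t₀ = x0 ∧ (py x0 y0).eval t₀ = y0 ∧
      ∃ hns : (genCurve 𝒲).Nonsingular (algebraMap K[X] (RatFunc K) (px x0 y0))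
          (algebraMap K[X] (RatFunc K) (py x0 y0)),
        5 • Point.some _ _ hns = 0) :
    ∃ e : Submodule.torsionBy ℤ (specCurve 𝒲 t₀).Point ((5 : ℕ) : ℤ) ≃+
          Submodule.torsionBy ℤ (specCurve 𝒲 t₁).Point ((5 : ℕ) : ℤ),
      ∀ (x0 y0 : K) (h : (specCurve 𝒲 t₀).Nonsingular x0 y0)
        (hmem : Point.some x0 y0 h ∈
          Submodule.torsionBy ℤ (specCurve 𝒲 t₀).Point ((5 : ℕ) : ℤ)),
        ∃ h1 : (specCurve 𝒲 t₁).Nonsingular ((px x0 y0).eval t₁) ((py x0 y0).eval t₁),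
          ((e ⟨Point.some x0 y0 h, hmem⟩ :
              Submodule.torsionBy ℤ (specCurve 𝒲 t₁).Point ((5 : ℕ) : ℤ)) :
            (specCurve 𝒲 t₁).Point) = Point.some _ _ h1 := by
  classical
  have h5' : ((5 : ℕ) : K) ≠ 0 := by exact_mod_cast h5
  obtain ⟨κ₀, _, _, j₀, sp₀, hinj₀, hsp₀⟩ := exists_spec 𝒲 t₀ hΔ₀
  obtain ⟨κ₁, _, _, j₁, sp₁, hinj₁, hsp₁⟩ := exists_spec 𝒲 t₁ hΔ₁
  -- membership in torsion
  have mem_iff : ∀ {M : Type u} [AddCommGroup M] (P : M),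
      P ∈ Submodule.torsionBy ℤ M ((5 : ℕ) : ℤ) ↔ 5 • P = 0 := by
    intro M _ P
    rw [Submodule.mem_torsionBy_iff, natCast_zsmul]
  -- `sp₀` restricted to the torsion of the generic fibre is injective
  let s₀ : (Submodule.torsionBy ℤ (genCurve 𝒲).Point ((5 : ℕ) : ℤ)) →+ ((specCurve 𝒲 t₀).map j₀).toAffine.Point := sp₀.comp (Submodule.torsionBy ℤ (genCurve 𝒲).Point ((5 : ℕ) : ℤ)).subtype.toAddMonoidHom
  have hs₀ : Function.Injective s₀ := by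
    rw [injective_iff_map_eq_zero]
    intro P hP
    exact Subtype.ext (hinj₀ 5 h5' P.1 ((mem_iff P.1).mp P.2) hP)
  let ι₀ : (Submodule.torsionBy ℤ (specCurve 𝒲 t₀).Point ((5 : ℕ) : ℤ)) →+ ((specCurve 𝒲 t₀).map j₀).toAffine.Point := (ptMap j₀ (specCurve 𝒲 t₀)).comp (Submodule.torsionBy ℤ (specCurve 𝒲 t₀).Point ((5 : ℕ) : ℤ)).subtype.toAddMonoidHom
  -- every torsion point of the fibre at `t₀` lifts
  have hlift : ∀ P : (Submodule.torsionBy ℤ (specCurve 𝒲 t₀).Point ((5 : ℕ) : ℤ)), ∃ R : (Submodule.torsionBy ℤ (genCurve 𝒲).Point ((5 : ℕ) : ℤ)), s₀ R = ι₀ P := by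
    rintro ⟨P, hP⟩
    rcases P with _ | ⟨x0, y0, h⟩
    · exact ⟨0, by simp [s₀, ι₀]; rfl⟩
    · have h50 : 5 • Point.some x0 y0 h = 0 := (mem_iff _).mp hP
      obtain ⟨hx, hy, hns, hR5⟩ := hpt x0 y0 h h50
      refine ⟨⟨Point.some _ _ hns, (mem_iff _).mpr hR5⟩, ?_⟩
      obtain ⟨h0, hsp⟩ := hsp₀ (px x0 y0) (py x0 y0) hns
      change sp₀ (Point.some _ _ hns) = ptMap j₀ (specCurve 𝒲 t₀) (Point.some x0 y0 h)
      rw [hsp]
      congr 1
      exact Fermat.Agent.Lib.EllFinite.H4.some_eq_some _ _ hx hy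
  let Φ : (Submodule.torsionBy ℤ (specCurve 𝒲 t₀).Point ((5 : ℕ) : ℤ)) →+ (Submodule.torsionBy ℤ (genCurve 𝒲).Point ((5 : ℕ) : ℤ)) := liftInj s₀ hs₀ ι₀ hlift
  have hΦ : ∀ P : (Submodule.torsionBy ℤ (specCurve 𝒲 t₀).Point ((5 : ℕ) : ℤ)), s₀ (Φ P) = ι₀ P := liftInj_spec s₀ hs₀ ι₀ hlift
  -- description of `Φ` on affine points
  have hΦsome : ∀ (x0 y0 : K) (h : (specCurve 𝒲 t₀).Nonsingular x0 y0) (hmem : Point.some x0 y0 h ∈ (Submodule.torsionBy ℤ (specCurve 𝒲 t₀).Point ((5 : ℕ) : ℤ))),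
      ∃ hns : (genCurve 𝒲).Nonsingular (algebraMap K[X] (RatFunc K) (px x0 y0))
          (algebraMap K[X] (RatFunc K) (py x0 y0)),
        ((Φ ⟨Point.some x0 y0 h, hmem⟩ : (Submodule.torsionBy ℤ (genCurve 𝒲).Point ((5 : ℕ) : ℤ))) : (genCurve 𝒲).Point) = Point.some _ _ hns := by
    intro x0 y0 h hmem
    have h50 : 5 • Point.some x0 y0 h = 0 := (mem_iff _).mp hmem
    obtain ⟨hx, hy, hns, hR5⟩ := hpt x0 y0 h h50
    refine ⟨hns, ?_⟩
    have : Φ ⟨Point.some x0 y0 h, hmem⟩ = ⟨Point.some _ _ hns, (mem_iff _).mpr hR5⟩ := by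
      apply liftInj_eq
      obtain ⟨h0, hsp⟩ := hsp₀ (px x0 y0) (py x0 y0) hns
      change sp₀ (Point.some _ _ hns) = ptMap j₀ (specCurve 𝒲 t₀) (Point.some x0 y0 h)
      rw [hsp]
      congr 1
      exact Fermat.Agent.Lib.EllFinite.H4.some_eq_some _ _ hx hy
    rw [this]
  -- second specialisation
  let s₁ : (Submodule.torsionBy ℤ (specCurve 𝒲 t₀).Point ((5 : ℕ) : ℤ)) →+ ((specCurve 𝒲 t₁).map j₁).toAffine.Point :=
    (sp₁.comp (Submodule.torsionBy ℤ (genCurve 𝒲).Point ((5 : ℕ) : ℤ)).subtype.toAddMonoidHom).comp Φ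
  have hlift₁ : ∀ P : (Submodule.torsionBy ℤ (specCurve 𝒲 t₀).Point ((5 : ℕ) : ℤ)), ∃ Q : (specCurve 𝒲 t₁).Point, ptMap j₁ (specCurve 𝒲 t₁) Q = s₁ P := by
    rintro ⟨P, hP⟩
    rcases P with _ | ⟨x0, y0, h⟩
    · refine ⟨0, ?_⟩
      have : (⟨Point.zero, hP⟩ : (Submodule.torsionBy ℤ (specCurve 𝒲 t₀).Point ((5 : ℕ) : ℤ))) = 0 := rfl
      rw [this, map_zero, map_zero]
    · obtain ⟨hns, hΦP⟩ := hΦsome x0 y0 h hP
      obtain ⟨h1, hsp⟩ := hsp₁ (px x0 y0) (py x0 y0) hns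
      refine ⟨Point.some _ _ h1, ?_⟩
      change _ = sp₁ ((Φ ⟨Point.some x0 y0 h, hP⟩ : (Submodule.torsionBy ℤ (genCurve 𝒲).Point ((5 : ℕ) : ℤ))) : (genCurve 𝒲).Point)
      rw [hΦP, hsp]
  let e₀ : (Submodule.torsionBy ℤ (specCurve 𝒲 t₀).Point ((5 : ℕ) : ℤ)) →+ (specCurve 𝒲 t₁).Point := liftInj (ptMap j₁ (specCurve 𝒲 t₁)) (ptMap_injective j₁ (specCurve 𝒲 t₁)) s₁ hlift₁
  have he₀ : ∀ P : (Submodule.torsionBy ℤ (specCurve 𝒲 t₀).Point ((5 : ℕ) : ℤ)), ptMap j₁ (specCurve 𝒲 t₁) (e₀ P) = s₁ P :=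
    liftInj_spec (ptMap j₁ (specCurve 𝒲 t₁)) (ptMap_injective j₁ (specCurve 𝒲 t₁)) s₁ hlift₁
  have he₀mem : ∀ P : (Submodule.torsionBy ℤ (specCurve 𝒲 t₀).Point ((5 : ℕ) : ℤ)), e₀ P ∈ (Submodule.torsionBy ℤ (specCurve 𝒲 t₁).Point ((5 : ℕ) : ℤ)) := by
    intro P
    rw [mem_iff, ← map_nsmul]
    have : (5 : ℕ) • P = 0 := by
      apply Subtype.ext
      have := (mem_iff P.1).mp P.2
      simpa using this
    rw [this, map_zero]
  let e₁ : (Submodule.torsionBy ℤ (specCurve 𝒲 t₀).Point ((5 : ℕ) : ℤ)) →+ (Submodule.torsionBy ℤ (specCurve 𝒲 t₁).Point ((5 : ℕ) : ℤ)) := e₀.codRestrict (Submodule.torsionBy ℤ (specCurve 𝒲 t₁).Point ((5 : ℕ) : ℤ)).toAddSubgroup he₀mem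
  have he₁inj : Function.Injective e₁ := by
    rw [injective_iff_map_eq_zero]
    intro P hP
    have h0 : e₀ P = 0 := congrArg Subtype.val hP
    have h1 : s₁ P = 0 := by rw [← he₀, h0, map_zero]
    have h2 : Φ P = 0 := by
      apply Subtype.ext
      exact hinj₁ 5 h5' (Φ P).1 ((mem_iff _).mp (Φ P).2) h1
    have h3 : ι₀ P = 0 := by rw [← hΦ, h2, map_zero]
    apply Subtype.ext
    apply ptMap_injective j₀ (specCurve 𝒲 t₀)
    have h4 : ptMap j₀ (specCurve 𝒲 t₀) (P : (specCurve 𝒲 t₀).Point) = 0 := h3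
    rw [h4]
    rfl
  -- cardinalities
  have hΔE₀ : (specCurve 𝒲 t₀).Δ ≠ 0 := by rw [specCurve_Δ]; exact hΔ₀
  have hΔE₁ : (specCurve 𝒲 t₁).Δ ≠ 0 := by rw [specCurve_Δ]; exact hΔ₁
  have hc₀ : Nat.card (Submodule.torsionBy ℤ (specCurve 𝒲 t₀).Point ((5 : ℕ) : ℤ)) = 5 ^ 2 :=
    Fermat.Agent.Lib.TorsionGen.card_torsionBy_eq (W := (specCurve 𝒲 t₀)) hΔE₀ h5'
  have hc₁ : Nat.card (Submodule.torsionBy ℤ (specCurve 𝒲 t₁).Point ((5 : ℕ) : ℤ)) = 5 ^ 2 :=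
    Fermat.Agent.Lib.TorsionGen.card_torsionBy_eq (W := (specCurve 𝒲 t₁)) hΔE₁ h5'
  have hfin₁ : Finite (Submodule.torsionBy ℤ (specCurve 𝒲 t₁).Point ((5 : ℕ) : ℤ)) := Nat.finite_of_card_ne_zero (by rw [hc₁]; norm_num)
  have hbij : Function.Bijective e₁ :=
    he₁inj.bijective_of_nat_card_le (by rw [hc₀, hc₁])
  refine ⟨AddEquiv.ofBijective e₁ hbij, ?_⟩
  intro x0 y0 h hmem
  obtain ⟨hns, hΦP⟩ := hΦsome x0 y0 h hmem
  obtain ⟨h1, hsp⟩ := hsp₁ (px x0 y0) (py x0 y0) hns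
  refine ⟨h1, ?_⟩
  change e₀ ⟨Point.some x0 y0 h, hmem⟩ = _
  apply liftInj_eq
  change _ = sp₁ ((Φ ⟨Point.some x0 y0 h, hmem⟩ : (Submodule.torsionBy ℤ (genCurve 𝒲).Point ((5 : ℕ) : ℤ))) : (genCurve 𝒲).Point)
  rw [hΦP, hsp]

end Fermat.Agent.S52.H88
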