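/-
Cluster E, package E-PHI (helper88), final part: the additive bijection `W[5] ≃+ W'[5]` for a
member `W'` of the 5-congruent family through `W` (over an algebraically closed field with
`2, 3, 5 ≠ 0`), with its explicit description `P = (x0, y0) ↦ (X_P(t₁), Y_P(t₁))`
(`X_P = genPolyX W x0 y0 X`, `Y_P = genPolyY W x0 y0 X` of helper60).

`W'` is ANY curve with the `a₁, a₂, a₃` of `W`, `c₄(W') = famC4 c₄ c₆ t₁`, `c₆(W') = famC6 c₄ c₆ t₁`
and `Δ(W') ≠ 0`.  The family identities (I1), (I2) over `RatFunc K` are hypotheses.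
-/
import Fermat.Agent.S52.H88_Asm
import Fermat.Agent.S52.H60_GenPoly
import Fermat.Agent.S52.FamI1
import Fermat.Agent.S52.FamI2

set_option autoImplicit false

namespace Fermat.Agent.S52.H88

open Polynomial WeierstrassCurve WeierstrassCurve.Affine
open Fermat.Agent.S52 Fermat.Agent.S52.H60

section Map

variable {R S : Type*} [CommRing R] [CommRing S] (φ : R →+* S)

lemma map_famC4' (c4 c6 t : R) : φ (famC4 c4 c6 t) = famC4 (φ c4) (φ c6) (φ t) := by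
  simp only [famC4, famC4c0, famC4c1, famC4c2, famC4c3, famC4c4, famC4c5, famC4c6, famC4c7,
    famC4c8, famC4c9, famC4c10, famC4c11, famC4c12, famC4c13, famC4c14, famC4c15, famC4c16,
    famC4c17, famC4c18, famC4c19, famC4c20, map_add, map_sub, map_mul, map_pow, map_neg,
    map_ofNat]

lemma map_famC6' (c4 c6 t : R) : φ (famC6 c4 c6 t) = famC6 (φ c4) (φ c6) (φ t) := by
  simp only [famC6, famC6c0, famC6c1, famC6c2, famC6c3, famC6c4, famC6c5, famC6c6, famC6c7,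
    famC6c8, famC6c9, famC6c10, famC6c11, famC6c12, famC6c13, famC6c14, famC6c15, famC6c16,
    famC6c17, famC6c18, famC6c19, famC6c20, famC6c21, famC6c22, famC6c23, famC6c24, famC6c25,
    famC6c26, famC6c27, famC6c28, famC6c29, famC6c30, map_add, map_sub, map_mul, map_pow,
    map_neg, map_ofNat]

end Map

section Curve

variable {R : Type*} [CommRing R]

/-- A Weierstrass curve is determined by `a₁, a₂, a₃, c₄, c₆` when `2` and `3` are
non-zero-divisors; here in the form needed: formulas for `a₄`, `a₆`. -/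
lemma a₄_formula (W : WeierstrassCurve R) :
    48 * W.a₄ = W.b₂ ^ 2 - 24 * W.a₁ * W.a₃ - W.c₄ := by
  simp only [c₄, b₂, b₄]; ring

lemma a₆_formula (W : WeierstrassCurve R) :
    1728 * W.a₆ = W.b₂ ^ 3 - 432 * W.a₃ ^ 2 - 3 * W.b₂ * W.c₄ - 2 * W.c₆ := by
  simp only [c₆, c₄, b₂, b₄, b₆]; ring

end Curve

universe u

variable {K : Type u} [Field K]

/-- The family through `W` as a Weierstrass curve over `K[X]` (parameter `t = X`). -/
noncomputable def famPoly (W : WeierstrassCurve K) : WeierstrassCurve K[X] where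
  a₁ := C W.a₁
  a₂ := C W.a₂
  a₃ := C W.a₃
  a₄ := C (1 / 48) * (C (W.b₂ ^ 2 - 24 * W.a₁ * W.a₃) - famC4 (C W.c₄) (C W.c₆) X)
  a₆ := C (1 / 1728) * (C (W.b₂ ^ 3 - 432 * W.a₃ ^ 2) - 3 * C W.b₂ * famC4 (C W.c₄) (C W.c₆) X
    - 2 * famC6 (C W.c₄) (C W.c₆) X)

section FamPoly

variable (W : WeierstrassCurve K) (h2 : (2 : K) ≠ 0) (h3 : (3 : K) ≠ 0)
include h2 h3

lemma ne48 : (48 : K) ≠ 0 := by
  have : (48 : K) = 2 ^ 4 * 3 := by norm_num
  rw [this]; exact mul_ne_zero (pow_ne_zero 4 h2) h3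

lemma ne1728 : (1728 : K) ≠ 0 := by
  have : (1728 : K) = 2 ^ 6 * 3 ^ 3 := by norm_num
  rw [this]; exact mul_ne_zero (pow_ne_zero 6 h2) (pow_ne_zero 3 h3)

lemma famPoly_a₄ : 48 * (famPoly W).a₄ =
    (famPoly W).b₂ ^ 2 - 24 * (famPoly W).a₁ * (famPoly W).a₃ - famC4 (C W.c₄) (C W.c₆) X := by
  have h48 : (48 : K[X]) * C (1 / 48 : K) = 1 := by
    rw [← map_ofNat (C : K →+* K[X]) 48, ← C_mul, mul_one_div_cancel (ne48 h2 h3), C_1]
  simp only [famPoly, b₂, C_sub, C_mul, C_pow, C_add, C_ofNat]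
  linear_combination (C W.a₁ ^ 2 + 4 * C W.a₂) ^ 2 * h48 - 24 * C W.a₁ * C W.a₃ * h48
    - famC4 (C W.c₄) (C W.c₆) X * h48 + 0 * h48

lemma famPoly_c₄ : (famPoly W).c₄ = famC4 (C W.c₄) (C W.c₆) X := by
  have := a₄_formula (famPoly W)
  rw [famPoly_a₄ W h2 h3] at this
  linear_combination this

lemma famPoly_a₆ : 1728 * (famPoly W).a₆ =
    (famPoly W).b₂ ^ 3 - 432 * (famPoly W).a₃ ^ 2
      - 3 * (famPoly W).b₂ * famC4 (C W.c₄) (C W.c₆) X - 2 * famC6 (C W.c₄) (C W.c₆) X := by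
  have h : (1728 : K[X]) * C (1 / 1728 : K) = 1 := by
    rw [← map_ofNat (C : K →+* K[X]) 1728, ← C_mul, mul_one_div_cancel (ne1728 h2 h3), C_1]
  simp only [famPoly, b₂, C_sub, C_mul, C_pow, C_add, C_ofNat]
  linear_combination ((C W.a₁ ^ 2 + 4 * C W.a₂) ^ 3 - 432 * C W.a₃ ^ 2
    - 3 * (C W.a₁ ^ 2 + 4 * C W.a₂) * famC4 (C W.c₄) (C W.c₆) X
    - 2 * famC6 (C W.c₄) (C W.c₆) X) * h

lemma famPoly_c₆ : (famPoly W).c₆ = famC6 (C W.c₄) (C W.c₆) X := by
  have h6 := a₆_formula (famPoly W)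
  rw [famPoly_a₆ W h2 h3, famPoly_c₄ W h2 h3] at h6
  have h2' : (2 : K[X]) ≠ 0 := by
    rw [← map_ofNat (C : K →+* K[X]) 2]
    exact C_ne_zero.mpr h2
  have : 2 * (famPoly W).c₆ = 2 * famC6 (C W.c₄) (C W.c₆) X := by linear_combination h6
  exact mul_left_cancel₀ h2' this

/-- The fibre of `famPoly W` at `t₁` is any curve `W'` with the `a₁, a₂, a₃` of `W` and the
`c₄, c₆` of the family at `t₁`. -/
lemma famPoly_spec (W' : WeierstrassCurve K) (t₁ : K) (ha1 : W'.a₁ = W.a₁)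
    (ha2 : W'.a₂ = W.a₂) (ha3 : W'.a₃ = W.a₃) (hc4 : W'.c₄ = famC4 W.c₄ W.c₆ t₁)
    (hc6 : W'.c₆ = famC6 W.c₄ W.c₆ t₁) : specCurve (famPoly W) t₁ = W' := by
  have hb2 : W'.b₂ = W.b₂ := by simp only [b₂, ha1, ha2]
  have e4 : eval t₁ (famC4 (C W.c₄) (C W.c₆) X) = famC4 W.c₄ W.c₆ t₁ := by
    have := map_famC4' (evalRingHom t₁) (C W.c₄) (C W.c₆) X
    simpa using this
  have e6 : eval t₁ (famC6 (C W.c₄) (C W.c₆) X) = famC6 W.c₄ W.c₆ t₁ := by
    have := map_famC6' (evalRingHom t₁) (C W.c₄) (C W.c₆) X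
    simpa using this
  have h4 := congrArg (eval t₁) (famPoly_a₄ W h2 h3)
  have h6 := congrArg (eval t₁) (famPoly_a₆ W h2 h3)
  simp only [eval_mul, eval_sub, eval_pow, eval_ofNat, e4, e6, b₂, eval_add] at h4 h6
  have hA1 : eval t₁ (famPoly W).a₁ = W.a₁ := by simp [famPoly]
  have hA2 : eval t₁ (famPoly W).a₂ = W.a₂ := by simp [famPoly]
  have hA3 : eval t₁ (famPoly W).a₃ = W.a₃ := by simp [famPoly]
  rw [hA1, hA2, hA3] at h4 h6
  have f4 := a₄_formula W'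
  have f6 := a₆_formula W'
  simp only [b₂] at f4 f6
  rw [ha1, ha2, ha3, hc4] at f4
  rw [ha1, ha2, ha3, hc4, hc6] at f6
  ext
  · simp [specCurve, famPoly, ha1]
  · simp [specCurve, famPoly, ha2]
  · simp [specCurve, famPoly, ha3]
  · change (WeierstrassCurve.map (famPoly W) (evalRingHom t₁)).a₄ = W'.a₄
    rw [WeierstrassCurve.map_a₄, coe_evalRingHom]
    apply mul_left_cancel₀ (ne48 h2 h3)
    rw [h4, f4]
  · change (WeierstrassCurve.map (famPoly W) (evalRingHom t₁)).a₆ = W'.a₆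
    rw [WeierstrassCurve.map_a₆, coe_evalRingHom]
    apply mul_left_cancel₀ (ne1728 h2 h3)
    rw [h6, f6]

end FamPoly

section Core

variable [DecidableEq K] [DecidableEq (RatFunc K)]

omit [DecidableEq (RatFunc K)] in
/-- Transport of the conclusion of `exists_addEquiv_of_polyPoints` along equalities of curves. -/
private lemma transport_iso {V₀ V₁ W W' : Affine K} (h0 : V₀ = W) (h1 : V₁ = W')
    (f g : K → K → K)
    (H : ∃ e : Submodule.torsionBy ℤ V₀.Point ((5 : ℕ) : ℤ) ≃+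
          Submodule.torsionBy ℤ V₁.Point ((5 : ℕ) : ℤ),
      ∀ (x0 y0 : K) (h : V₀.Nonsingular x0 y0)
        (hmem : Point.some x0 y0 h ∈ Submodule.torsionBy ℤ V₀.Point ((5 : ℕ) : ℤ)),
        ∃ h1 : V₁.Nonsingular (f x0 y0) (g x0 y0),
          ((e ⟨Point.some x0 y0 h, hmem⟩ : Submodule.torsionBy ℤ V₁.Point ((5 : ℕ) : ℤ)) :
            V₁.Point) = Point.some _ _ h1) :
    ∃ e : Submodule.torsionBy ℤ W.Point ((5 : ℕ) : ℤ) ≃+
          Submodule.torsionBy ℤ W'.Point ((5 : ℕ) : ℤ),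
      ∀ (x0 y0 : K) (h : W.Nonsingular x0 y0)
        (hmem : Point.some x0 y0 h ∈ Submodule.torsionBy ℤ W.Point ((5 : ℕ) : ℤ)),
        ∃ h1 : W'.Nonsingular (f x0 y0) (g x0 y0),
          ((e ⟨Point.some x0 y0 h, hmem⟩ : Submodule.torsionBy ℤ W'.Point ((5 : ℕ) : ℤ)) :
            W'.Point) = Point.some _ _ h1 := by
  subst h0 h1
  exact H

/-- **E-PHI (core).** `K` algebraically closed, `2, 3, 5 ≠ 0`; `W` with `Δ ≠ 0`; `W'` with the
`a₁, a₂, a₃` of `W`, `c₄(W') = famC4 c₄ c₆ t₁`, `c₆(W') = famC6 c₄ c₆ t₁`, `Δ(W') ≠ 0`.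
Then `P = (x0, y0) ↦ (X_P(t₁), Y_P(t₁))`, `0 ↦ 0` is an additive bijection `W[5] ≃+ W'[5]`. -/
theorem exists_iso5 [IsAlgClosed K] (h2 : (2 : K) ≠ 0) (h3 : (3 : K) ≠ 0) (h5 : (5 : K) ≠ 0)
    (W W' : WeierstrassCurve K) (hΔ : W.Δ ≠ 0) (hΔ' : W'.Δ ≠ 0) (t₁ : K)
    (ha1 : W'.a₁ = W.a₁) (ha2 : W'.a₂ = W.a₂) (ha3 : W'.a₃ = W.a₃)
    (hc4 : W'.c₄ = famC4 W.c₄ W.c₆ t₁) (hc6 : W'.c₆ = famC6 W.c₄ W.c₆ t₁) :
    ∃ e : Submodule.torsionBy ℤ W.toAffine.Point ((5 : ℕ) : ℤ) ≃+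
          Submodule.torsionBy ℤ W'.toAffine.Point ((5 : ℕ) : ℤ),
      ∀ (x0 y0 : K) (h : W.toAffine.Nonsingular x0 y0)
        (hmem : Point.some x0 y0 h ∈ Submodule.torsionBy ℤ W.toAffine.Point ((5 : ℕ) : ℤ)),
        ∃ h1 : W'.toAffine.Nonsingular ((genPolyX W x0 y0 X).eval t₁)
            ((genPolyY W x0 y0 X).eval t₁),
          ((e ⟨Point.some x0 y0 h, hmem⟩ :
              Submodule.torsionBy ℤ W'.toAffine.Point ((5 : ℕ) : ℤ)) : W'.toAffine.Point) =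
            Point.some _ _ h1 := by
  have e0 : specCurve (famPoly W) 0 = W :=
    famPoly_spec W h2 h3 W 0 rfl rfl rfl (famC4_zero _ _).symm (famC6_zero _ _).symm
  have e1 : specCurve (famPoly W) t₁ = W' := famPoly_spec W h2 h3 W' t₁ ha1 ha2 ha3 hc4 hc6
  have hΔ₀ : (famPoly W).Δ.eval 0 ≠ 0 := by rw [← specCurve_Δ, e0]; exact hΔ
  have hΔ₁ : (famPoly W).Δ.eval t₁ ≠ 0 := by rw [← specCurve_Δ, e1]; exact hΔ'
  set ι : K[X] →+* RatFunc K := algebraMap K[X] (RatFunc K) with hι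
  have hιinj : Function.Injective ι := RatFunc.algebraMap_injective K
  -- the polynomial points
  have hpt : ∀ (V : Affine K), V = W → ∀ (x0 y0 : K) (h : V.Nonsingular x0 y0),
      5 • Point.some x0 y0 h = 0 →
      (genPolyX W x0 y0 X).eval 0 = x0 ∧ (genPolyY W x0 y0 X).eval 0 = y0 ∧
      ∃ hns : (genCurve (famPoly W)).Nonsingular (ι (genPolyX W x0 y0 X))
          (ι (genPolyY W x0 y0 X)),
        5 • Point.some _ _ hns = 0 := by
    rintro V rfl x0 y0 h h50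
    obtain ⟨hx, hy⟩ := genPoly_eval_zero V h2 h3 h h50 X (by simp)
    refine ⟨hx, hy, ?_⟩
    have hN : ι (genPolyN V x0 y0 X) ≠ 0 := by
      rw [Ne, map_eq_zero_iff ι hιinj]
      exact genPolyN_ne_zero V h h50 X (by simp)
    have hD : ι (genPolyD V x0 y0 X) ≠ 0 := by
      rw [Ne, map_eq_zero_iff ι hιinj]
      exact genPolyD_ne_zero V x0 y0 X (by simp)
    refine genPoly_point h2 h3 V h h50 X ι (fun b v s => famC4_tnf b v s)
      (fun b v s => famC6_tnf b v s) (genCurve (famPoly V)) rfl rfl rfl ?_ ?_ hN hD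
    · change (WeierstrassCurve.map (famPoly V) ι).c₄ = _
      rw [WeierstrassCurve.map_c₄, famPoly_c₄ V h2 h3, map_famC4']
    · change (WeierstrassCurve.map (famPoly V) ι).c₆ = _
      rw [WeierstrassCurve.map_c₆, famPoly_c₆ V h2 h3, map_famC6']
  have key := exists_addEquiv_of_polyPoints h5 (famPoly W) 0 t₁ hΔ₀ hΔ₁
    (fun x0 y0 => genPolyX W x0 y0 X) (fun x0 y0 => genPolyY W x0 y0 X)
    (fun x0 y0 h h50 => hpt _ e0 x0 y0 h h50)
  exact transport_iso e0 e1 (fun x0 y0 => (genPolyX W x0 y0 X).eval t₁)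
    (fun x0 y0 => (genPolyY W x0 y0 X).eval t₁) key

end Core

end Fermat.Agent.S52.H88
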