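/-
Cluster E, package E-PHI (helper88): `Stmt_iso5` over `ℚ̄`.

For integral Weierstrass curves `W`, `W'` with the same `a₁, a₂, a₃`, `Δ(W), Δ(W') ≠ 0` and
`c₄(W') = famC4 c₄ c₆ t₁`, `c₆(W') = famC6 c₄ c₆ t₁` (`t₁ : ℤ`; e.g. `W' = famW W m`,
`t₁ = 1728 m`) there is a `Gal(ℚ̄/ℚ)`-equivariant additive bijection `W[5](ℚ̄) ≃+ W'[5](ℚ̄)`.
The exceptional set of `Stmt_iso5` is empty.
-/
import Fermat.Agent.S52.H88_Iso5
import Fermat.Agent.S52.Defs
import Fermat.Prelude.Def_FLTPrelim_GaloisRep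

set_option autoImplicit false

namespace Fermat.Agent.S52.H88

open Polynomial WeierstrassCurve WeierstrassCurve.Affine
open Fermat.Agent.S52 Fermat.Agent.S52.H60

section Coord

variable {K : Type*} [Field K]

/-- Naturality of the moving point under a field automorphism fixing the curve and `t₁`. -/
lemma map_eval_genPolyX (σ : K →+* K) (W : WeierstrassCurve K) (hW : W.map σ = W) (t₁ : K)
    (ht : σ t₁ = t₁) (x0 y0 : K) :
    σ ((genPolyX W x0 y0 X).eval t₁) = (genPolyX W (σ x0) (σ y0) X).eval t₁ := by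
  have h := map_genPolyX σ W x0 y0 X
  rw [hW, Polynomial.map_X] at h
  rw [← h, ← ht, Polynomial.eval_map_apply, ht]

lemma map_eval_genPolyY (σ : K →+* K) (W : WeierstrassCurve K) (hW : W.map σ = W) (t₁ : K)
    (ht : σ t₁ = t₁) (x0 y0 : K) :
    σ ((genPolyY W x0 y0 X).eval t₁) = (genPolyY W (σ x0) (σ y0) X).eval t₁ := by
  have h := map_genPolyY σ W x0 y0 X
  rw [hW, Polynomial.map_X] at h
  rw [← h, ← ht, Polynomial.eval_map_apply, ht]

end Coord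

section Equivariance

variable {K : Type*} [Field K] [DecidableEq K] [Algebra ℚ K]

/-- An additive map `V[5] → V'[5]` with the explicit description of `exists_iso5`
(`t₁` rational) commutes with the Galois action. -/
lemma equivariant_of_desc (V V' : WeierstrassCurve ℚ) (t₁ : ℚ)
    (e : Submodule.torsionBy ℤ (V.toAffine⁄K).Point ((5 : ℕ) : ℤ) ≃+
      Submodule.torsionBy ℤ (V'.toAffine⁄K).Point ((5 : ℕ) : ℤ))
    (he : ∀ (x0 y0 : K) (h : (V.toAffine⁄K).Nonsingular x0 y0)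
        (hmem : Point.some x0 y0 h ∈
          Submodule.torsionBy ℤ (V.toAffine⁄K).Point ((5 : ℕ) : ℤ)),
        ∃ h1 : (V'.toAffine⁄K).Nonsingular
            ((genPolyX (V.toAffine⁄K) x0 y0 X).eval (algebraMap ℚ K t₁))
            ((genPolyY (V.toAffine⁄K) x0 y0 X).eval (algebraMap ℚ K t₁)),
          ((e ⟨Point.some x0 y0 h, hmem⟩ :
              Submodule.torsionBy ℤ (V'.toAffine⁄K).Point ((5 : ℕ) : ℤ)) :
                (V'.toAffine⁄K).Point) = Point.some _ _ h1)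
    (σ : K ≃ₐ[ℚ] K)
    (x : Submodule.torsionBy ℤ (V.toAffine⁄K).Point ((5 : ℕ) : ℤ)) :
    e (σ • x) = σ • e x := by
  have hσW : (V.toAffine⁄K).map (σ : K →+* K) = (V.toAffine⁄K) := by
    change (V.map (algebraMap ℚ K)).map (σ : K →+* K) = V.map (algebraMap ℚ K)
    rw [WeierstrassCurve.map_map]
    congr 1
    ext q
    simp
  have hσt : (σ : K →+* K) (algebraMap ℚ K t₁) = algebraMap ℚ K t₁ := by
    simp
  obtain ⟨P, hP⟩ := x
  rcases P with _ | ⟨x0, y0, h⟩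
  · have h0 : (⟨Point.zero, hP⟩ :
        Submodule.torsionBy ℤ (V.toAffine⁄K).Point ((5 : ℕ) : ℤ)) = 0 := rfl
    have hs0 : σ • (0 : Submodule.torsionBy ℤ (V.toAffine⁄K).Point ((5 : ℕ) : ℤ)) = 0 :=
      Subtype.ext rfl
    have hs0' : σ • (0 : Submodule.torsionBy ℤ (V'.toAffine⁄K).Point ((5 : ℕ) : ℤ)) = 0 :=
      Subtype.ext rfl
    rw [h0, hs0, map_zero, hs0']
  · obtain ⟨h1, hval⟩ := he x0 y0 h hP
    have hmem' := Point.smul_mem_torsionBy (S := ℚ) σ hP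
    have hsm : σ • (Point.some x0 y0 h : (V.toAffine⁄K).Point) =
        Point.some (σ x0) (σ y0)
          ((WeierstrassCurve.Affine.baseChange_nonsingular _ σ.toAlgHom.injective x0 y0).mpr h) :=
      rfl
    rw [hsm] at hmem'
    obtain ⟨h2, hval2⟩ := he (σ x0) (σ y0) _ hmem'
    apply Subtype.ext
    have lhs : ((e (σ • ⟨Point.some x0 y0 h, hP⟩) :
        Submodule.torsionBy ℤ (V'.toAffine⁄K).Point ((5 : ℕ) : ℤ)) : (V'.toAffine⁄K).Point) =
        Point.some _ _ h2 := hval2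
    have rhs : ((σ • e ⟨Point.some x0 y0 h, hP⟩ :
        Submodule.torsionBy ℤ (V'.toAffine⁄K).Point ((5 : ℕ) : ℤ)) : (V'.toAffine⁄K).Point) =
        σ • (Point.some _ _ h1 : (V'.toAffine⁄K).Point) := by
      rw [← hval]; rfl
    rw [lhs, rhs]
    have hsm' : σ • (Point.some _ _ h1 : (V'.toAffine⁄K).Point) =
        Point.some (σ _) (σ _)
          ((WeierstrassCurve.Affine.baseChange_nonsingular _ σ.toAlgHom.injective _ _).mpr h1) :=
      rfl
    rw [hsm']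
    have hx := map_eval_genPolyX (σ : K →+* K) (V.toAffine⁄K) hσW _ hσt x0 y0
    have hy := map_eval_genPolyY (σ : K →+* K) (V.toAffine⁄K) hσW _ hσt x0 y0
    exact Fermat.Agent.Lib.EllFinite.H4.some_eq_some _ _ hx.symm hy.symm

end Equivariance

/-- **E-PHI** (family-free form). -/
theorem iso5_of_coeffs (W W' : WeierstrassCurve ℤ) (hΔ : W.Δ ≠ 0) (hΔ' : W'.Δ ≠ 0) (t₁ : ℤ)
    (ha1 : W'.a₁ = W.a₁) (ha2 : W'.a₂ = W.a₂) (ha3 : W'.a₃ = W.a₃)
    (hc4 : W'.c₄ = famC4 W.c₄ W.c₆ t₁) (hc6 : W'.c₆ = famC6 W.c₄ W.c₆ t₁) :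
    ∃ e : V5 W ≃+ V5 W',
      ∀ (σ : AlgebraicClosure ℚ ≃ₐ[ℚ] AlgebraicClosure ℚ) (x : V5 W), e (σ • x) = σ • e x := by
  let _ : DecidableEq (RatFunc (AlgebraicClosure ℚ)) := Classical.decEq _
  have hφinj : Function.Injective
      ((algebraMap ℚ (AlgebraicClosure ℚ)).comp (Int.castRingHom ℚ)) :=
    (algebraMap ℚ (AlgebraicClosure ℚ)).injective.comp (Int.cast_injective (α := ℚ))
  have hmap : ∀ U : WeierstrassCurve ℤ,
      ((U.map (Int.castRingHom ℚ)).toAffine⁄(AlgebraicClosure ℚ)) =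
        U.map ((algebraMap ℚ (AlgebraicClosure ℚ)).comp (Int.castRingHom ℚ)) := fun U => by
    change (U.map (Int.castRingHom ℚ)).map (algebraMap ℚ (AlgebraicClosure ℚ)) = _
    rw [WeierstrassCurve.map_map]
  have h2 : (2 : AlgebraicClosure ℚ) ≠ 0 := two_ne_zero
  have h3 : (3 : AlgebraicClosure ℚ) ≠ 0 := by norm_num
  have h5 : (5 : AlgebraicClosure ℚ) ≠ 0 := by norm_num
  have hΔK : ((W.map (Int.castRingHom ℚ)).toAffine⁄(AlgebraicClosure ℚ)).Δ ≠ 0 := by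
    rw [hmap, WeierstrassCurve.map_Δ]
    exact (map_ne_zero_iff _ hφinj).mpr hΔ
  have hΔK' : ((W'.map (Int.castRingHom ℚ)).toAffine⁄(AlgebraicClosure ℚ)).Δ ≠ 0 := by
    rw [hmap, WeierstrassCurve.map_Δ]
    exact (map_ne_zero_iff _ hφinj).mpr hΔ'
  have ht : algebraMap ℚ (AlgebraicClosure ℚ) (t₁ : ℚ) =
      ((algebraMap ℚ (AlgebraicClosure ℚ)).comp (Int.castRingHom ℚ)) t₁ := rfl
  have hc4K : ((W'.map (Int.castRingHom ℚ)).toAffine⁄(AlgebraicClosure ℚ)).c₄ =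
      famC4 ((W.map (Int.castRingHom ℚ)).toAffine⁄(AlgebraicClosure ℚ)).c₄
        ((W.map (Int.castRingHom ℚ)).toAffine⁄(AlgebraicClosure ℚ)).c₆
        (algebraMap ℚ (AlgebraicClosure ℚ) (t₁ : ℚ)) := by
    rw [hmap, hmap, WeierstrassCurve.map_c₄, WeierstrassCurve.map_c₄, WeierstrassCurve.map_c₆,
      hc4, map_famC4', ht]
  have hc6K : ((W'.map (Int.castRingHom ℚ)).toAffine⁄(AlgebraicClosure ℚ)).c₆ =
      famC6 ((W.map (Int.castRingHom ℚ)).toAffine⁄(AlgebraicClosure ℚ)).c₄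
        ((W.map (Int.castRingHom ℚ)).toAffine⁄(AlgebraicClosure ℚ)).c₆
        (algebraMap ℚ (AlgebraicClosure ℚ) (t₁ : ℚ)) := by
    rw [hmap, hmap, WeierstrassCurve.map_c₆, WeierstrassCurve.map_c₄, WeierstrassCurve.map_c₆,
      hc6, map_famC6', ht]
  have ha1K : ((W'.map (Int.castRingHom ℚ)).toAffine⁄(AlgebraicClosure ℚ)).a₁ =
      ((W.map (Int.castRingHom ℚ)).toAffine⁄(AlgebraicClosure ℚ)).a₁ := by
    rw [hmap, hmap, WeierstrassCurve.map_a₁, WeierstrassCurve.map_a₁, ha1]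
  have ha2K : ((W'.map (Int.castRingHom ℚ)).toAffine⁄(AlgebraicClosure ℚ)).a₂ =
      ((W.map (Int.castRingHom ℚ)).toAffine⁄(AlgebraicClosure ℚ)).a₂ := by
    rw [hmap, hmap, WeierstrassCurve.map_a₂, WeierstrassCurve.map_a₂, ha2]
  have ha3K : ((W'.map (Int.castRingHom ℚ)).toAffine⁄(AlgebraicClosure ℚ)).a₃ =
      ((W.map (Int.castRingHom ℚ)).toAffine⁄(AlgebraicClosure ℚ)).a₃ := by
    rw [hmap, hmap, WeierstrassCurve.map_a₃, WeierstrassCurve.map_a₃, ha3]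
  obtain ⟨e, he⟩ := exists_iso5 h2 h3 h5
    ((W.map (Int.castRingHom ℚ)).toAffine⁄(AlgebraicClosure ℚ))
    ((W'.map (Int.castRingHom ℚ)).toAffine⁄(AlgebraicClosure ℚ)) hΔK hΔK'
    (algebraMap ℚ (AlgebraicClosure ℚ) (t₁ : ℚ)) ha1K ha2K ha3K hc4K hc6K
  exact ⟨e, fun σ x =>
    equivariant_of_desc (W.map (Int.castRingHom ℚ)) (W'.map (Int.castRingHom ℚ)) (t₁ : ℚ) e he σ x⟩

/-- **E-PHI** = `Stmt_iso5`, with empty exceptional set. -/
theorem stmt_iso5 : Stmt_iso5 := by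
  intro W hΔ
  refine ⟨∅, fun m _ hΔ' => ?_⟩
  exact iso5_of_coeffs W (famW W m) hΔ hΔ' (1728 * m) (famW_a₁ W m) (famW_a₂ W m) (famW_a₃ W m)
    (famW_c₄ W m) (famW_c₆ W m)

end Fermat.Agent.S52.H88
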