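import Fermat.Agent.S52.Family

/-! # S52 family: identity (I3), fifth-power structure (helper65). Plan: NOTES/plan/E.md -/

set_option autoImplicit false
set_option maxRecDepth 100000
set_option maxHeartbeats 4000000

namespace Fermat.Agent.S52

variable {R : Type*} [CommRing R]

/-- (I3): with `s² = 5`, `N - b₊ D = (b - b₊) (1 + (b² + 6 s b + 1) τ)⁵`, `2 b₊ = 11 + 5 s`
(multiplied by `2` to avoid division). Apply with `-s` for the conjugate identity. -/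
theorem tnf_fifth_power (s b τ : R) (hs : s ^ 2 = 5) :
    2 * tnfN b τ - (11 + 5 * s) * tnfD b τ
      = (2 * b - (11 + 5 * s)) * (1 + (b ^ 2 + 6 * s * b + 1) * τ) ^ 5 := by
  unfold tnfN tnfNc0 tnfNc1 tnfNc2 tnfNc3 tnfNc4 tnfNc5 tnfD tnfDc0 tnfDc1 tnfDc2 tnfDc3 tnfDc4 tnfDc5
  linear_combination
    (38880 * s ^ 4 * b ^ 5 * τ ^ 5 + 16848 * s ^ 3 * b ^ 6 * τ ^ 5 + 85536 * s ^ 3 * b ^ 5 * τ ^ 5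
      + 32400 * s ^ 3 * b ^ 4 * τ ^ 5 + 32400 * s ^ 3 * b ^ 4 * τ ^ 4 - 2160 * s ^ 2 * b ^ 7 * τ ^ 5
      + 71280 * s ^ 2 * b ^ 6 * τ ^ 5 + 203040 * s ^ 2 * b ^ 5 * τ ^ 5 + 8640 * s ^ 2 * b ^ 5 * τ ^ 4
      + 71280 * s ^ 2 * b ^ 4 * τ ^ 5 + 71280 * s ^ 2 * b ^ 4 * τ ^ 4 + 10800 * s ^ 2 * b ^ 3 * τ ^ 5
      + 21600 * s ^ 2 * b ^ 3 * τ ^ 4 + 10800 * s ^ 2 * b ^ 3 * τ ^ 3 - 2520 * s * b ^ 8 * τ ^ 5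
      + 23760 * s * b ^ 7 * τ ^ 5 + 81000 * s * b ^ 6 * τ ^ 5 - 3240 * s * b ^ 6 * τ ^ 4
      + 475200 * s * b ^ 5 * τ ^ 5 + 47520 * s * b ^ 5 * τ ^ 4 + 163080 * s * b ^ 4 * τ ^ 5
      + 164160 * s * b ^ 4 * τ ^ 4 + 1080 * s * b ^ 4 * τ ^ 3 + 23760 * s * b ^ 3 * τ ^ 5
      + 47520 * s * b ^ 3 * τ ^ 4 + 23760 * s * b ^ 3 * τ ^ 3 + 1800 * s * b ^ 2 * τ ^ 5
      + 5400 * s * b ^ 2 * τ ^ 4 + 5400 * s * b ^ 2 * τ ^ 3 + 1800 * s * b ^ 2 * τ ^ 2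
      - 570 * b ^ 9 * τ ^ 5 + 3960 * b ^ 8 * τ ^ 5 - 12360 * b ^ 7 * τ ^ 5 - 1560 * b ^ 7 * τ ^ 4
      + 368280 * b ^ 6 * τ ^ 5 + 11880 * b ^ 6 * τ ^ 4 + 1013940 * b ^ 5 * τ ^ 5
      + 40680 * b ^ 5 * τ ^ 4 - 1260 * b ^ 5 * τ ^ 3 + 368280 * b ^ 4 * τ ^ 5 + 380160 * b ^ 4 * τ ^ 4
      + 11880 * b ^ 4 * τ ^ 3 + 53880 * b ^ 3 * τ ^ 5 + 107640 * b ^ 3 * τ ^ 4 + 53640 * b ^ 3 * τ ^ 3
      - 120 * b ^ 3 * τ ^ 2 + 3960 * b ^ 2 * τ ^ 5 + 11880 * b ^ 2 * τ ^ 4 + 11880 * b ^ 2 * τ ^ 3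
      + 3960 * b ^ 2 * τ ^ 2 + 150 * b * τ ^ 5 + 600 * b * τ ^ 4 + 900 * b * τ ^ 3 + 600 * b * τ ^ 2
      + 150 * b * τ) * hs

end Fermat.Agent.S52
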