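/-
Cluster E (S52), family identity (I2) (helper60):
`famC6 (v² tC4 b) (v³ tC6 b) t = v³ hC6 (tnfN b (v t)) (tnfD b (v t))`,
proved coefficient by coefficient in `τ`.
GENERATED by a script (exact integer arithmetic); every identity is checked by `ring`.
-/
import Fermat.Agent.S52.H60_FamI1

set_option autoImplicit false
set_option linter.unusedSimpArgs false
set_option linter.unusedVariables false

namespace Fermat.Agent.S52.H60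

open Fermat.Agent.S52

variable {R : Type*} [CommRing R]

/-- coefficient of `τ ^ 0` in `N⁴ - 18 N³D + 74 N²D² + 18 ND³ + D⁴` -/
def sxQ0 (b : R) : R :=
  1 + 18 * b + 74 * b ^ 2 - 18 * b ^ 3 + b ^ 4

/-- coefficient of `τ ^ 1` in `N⁴ - 18 N³D + 74 N²D² + 18 ND³ + D⁴` -/
def sxQ1 (b : R) : R :=
  20 + 408 * b + 2052 * b ^ 2 + 2052 * b ^ 4 - 408 * b ^ 5 + 20 * b ^ 6

/-- coefficient of `τ ^ 2` in `N⁴ - 18 N³D + 74 N²D² + 18 ND³ + D⁴` -/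
def sxQ2 (b : R) : R :=
  190 + 4332 * b + 26152 * b ^ 2 + 7212 * b ^ 3 - 103596 * b ^ 4 - 7212 * b ^ 5 + 26152 * b ^ 6 -
    4332 * b ^ 7 + 190 * b ^ 8

/-- coefficient of `τ ^ 3` in `N⁴ - 18 N³D + 74 N²D² + 18 ND³ + D⁴` -/
def sxQ3 (b : R) : R :=
  1140 + 28728 * b + 204204 * b ^ 2 + 150768 * b ^ 3 - 1490016 * b ^ 4 - 1490016 * b ^ 6 -
    150768 * b ^ 7 + 204204 * b ^ 8 - 28728 * b ^ 9 + 1140 * b ^ 10

/-- coefficient of `τ ^ 4` in `N⁴ - 18 N³D + 74 N²D² + 18 ND³ + D⁴` -/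
def sxQ4 (b : R) : R :=
  4845 + 133722 * b + 1100070 * b ^ 2 + 1546830 * b ^ 3 - 7858125 * b ^ 4 + 21762900 * b ^ 5 +
    94161012 * b ^ 6 - 21762900 * b ^ 7 - 7858125 * b ^ 8 - 1546830 * b ^ 9 + 1100070 * b ^ 10 -
    133722 * b ^ 11 + 4845 * b ^ 12

/-- coefficient of `τ ^ 5` in `N⁴ - 18 N³D + 74 N²D² + 18 ND³ + D⁴` -/
def sxQ5 (b : R) : R :=
  15504 + 465120 * b + 4363152 * b ^ 2 + 9850752 * b ^ 3 - 15560208 * b ^ 4 + 250590816 * b ^ 5 +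
    1301059056 * b ^ 6 + 1301059056 * b ^ 8 - 250590816 * b ^ 9 - 15560208 * b ^ 10 -
    9850752 * b ^ 11 + 4363152 * b ^ 12 - 465120 * b ^ 13 + 15504 * b ^ 14

/-- coefficient of `τ ^ 6` in `N⁴ - 18 N³D + 74 N²D² + 18 ND³ + D⁴` -/
def sxQ6 (b : R) : R :=
  38760 + 1255824 * b + 13264896 * b ^ 2 + 43292880 * b ^ 3 + 37186656 * b ^ 4 +
    1164638736 * b ^ 5 + 4038666240 * b ^ 6 - 17218805040 * b ^ 7 - 34162542480 * b ^ 8 +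
    17218805040 * b ^ 9 + 4038666240 * b ^ 10 - 1164638736 * b ^ 11 + 37186656 * b ^ 12 -
    43292880 * b ^ 13 + 13264896 * b ^ 14 - 1255824 * b ^ 15 + 38760 * b ^ 16

/-- coefficient of `τ ^ 7` in `N⁴ - 18 N³D + 74 N²D² + 18 ND³ + D⁴` -/
def sxQ7 (b : R) : R :=
  77520 + 2697696 * b + 31743216 * b ^ 2 + 139565376 * b ^ 3 + 356915232 * b ^ 4 +
    2129408064 * b ^ 5 - 23569941024 * b ^ 6 - 301839201216 * b ^ 7 - 658458878400 * b ^ 8 -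
    658458878400 * b ^ 10 + 301839201216 * b ^ 11 - 23569941024 * b ^ 12 - 2129408064 * b ^ 13 +
    356915232 * b ^ 14 - 139565376 * b ^ 15 + 31743216 * b ^ 16 - 2697696 * b ^ 17 +
    77520 * b ^ 18

/-- coefficient of `τ ^ 8` in `N⁴ - 18 N³D + 74 N²D² + 18 ND³ + D⁴` -/
def sxQ8 (b : R) : R :=
  125970 + 4686084 * b + 60866052 * b ^ 2 + 342895644 * b ^ 3 + 1284012522 * b ^ 4 -
    3776151600 * b ^ 5 - 263023729488 * b ^ 6 - 2318242412304 * b ^ 7 - 5492684319228 * b ^ 8 +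
    3831150192696 * b ^ 9 + 6034670207640 * b ^ 10 - 3831150192696 * b ^ 11 -
    5492684319228 * b ^ 12 + 2318242412304 * b ^ 13 - 263023729488 * b ^ 14 + 3776151600 * b ^ 15
    + 1284012522 * b ^ 16 - 342895644 * b ^ 17 + 60866052 * b ^ 18 - 4686084 * b ^ 19 +
    125970 * b ^ 20

/-- coefficient of `τ ^ 9` in `N⁴ - 18 N³D + 74 N²D² + 18 ND³ + D⁴` -/
def sxQ9 (b : R) : R :=
  167960 + 6651216 * b + 94614520 * b ^ 2 + 658120320 * b ^ 3 + 3008771480 * b ^ 4 -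
    34673942160 * b ^ 5 - 1193133966024 * b ^ 6 - 10636428591360 * b ^ 7 - 28800375861840 * b ^ 8
    + 38061189476640 * b ^ 9 + 169389473086320 * b ^ 10 + 169389473086320 * b ^ 12 -
    38061189476640 * b ^ 13 - 28800375861840 * b ^ 14 + 10636428591360 * b ^ 15 -
    1193133966024 * b ^ 16 + 34673942160 * b ^ 17 + 3008771480 * b ^ 18 - 658120320 * b ^ 19 +
    94614520 * b ^ 20 - 6651216 * b ^ 21 + 167960 * b ^ 22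

/-- coefficient of `τ ^ 10` in `N⁴ - 18 N³D + 74 N²D² + 18 ND³ + D⁴` -/
def sxQ10 (b : R) : R :=
  184756 + 7759752 * b + 120071952 * b ^ 2 + 1002408264 * b ^ 3 + 5150831400 * b ^ 4 -
    110455216872 * b ^ 5 - 3425696900912 * b ^ 6 - 32915168268840 * b ^ 7 -
    104435532355572 * b ^ 8 + 147840451772112 * b ^ 9 + 967266649145376 * b ^ 10 -
    391897957133232 * b ^ 11 - 908340224285136 * b ^ 12 + 391897957133232 * b ^ 13 +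
    967266649145376 * b ^ 14 - 147840451772112 * b ^ 15 - 104435532355572 * b ^ 16 +
    32915168268840 * b ^ 17 - 3425696900912 * b ^ 18 + 110455216872 * b ^ 19 + 5150831400 * b ^ 20
    - 1002408264 * b ^ 21 + 120071952 * b ^ 22 - 7759752 * b ^ 23 + 184756 * b ^ 24

/-- coefficient of `τ ^ 11` in `N⁴ - 18 N³D + 74 N²D² + 18 ND³ + D⁴` -/
def sxQ11 (b : R) : R :=
  167960 + 7457424 * b + 124780136 * b ^ 2 + 1222784160 * b ^ 3 + 6739882656 * b ^ 4 -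
    224711133504 * b ^ 5 - 6959010366880 * b ^ 6 - 73063972718880 * b ^ 7 -
    272927165860360 * b ^ 8 + 263601396265680 * b ^ 9 + 2162846861183880 * b ^ 10 -
    9069960366631872 * b ^ 11 - 29550124106366208 * b ^ 12 - 29550124106366208 * b ^ 14 +
    9069960366631872 * b ^ 15 + 2162846861183880 * b ^ 16 - 263601396265680 * b ^ 17 -
    272927165860360 * b ^ 18 + 73063972718880 * b ^ 19 - 6959010366880 * b ^ 20 +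
    224711133504 * b ^ 21 + 6739882656 * b ^ 22 - 1222784160 * b ^ 23 + 124780136 * b ^ 24 -
    7457424 * b ^ 25 + 167960 * b ^ 26

/-- coefficient of `τ ^ 12` in `N⁴ - 18 N³D + 74 N²D² + 18 ND³ + D⁴` -/
def sxQ12 (b : R) : R :=
  125970 + 5895396 * b + 106114476 * b ^ 2 + 1199056716 * b ^ 3 + 6880965702 * b ^ 4 -
    328034679336 * b ^ 5 - 10484622210504 * b ^ 6 - 120356273373336 * b ^ 7 -
    526296872382270 * b ^ 8 + 49967740795500 * b ^ 9 + 41044894228500 * b ^ 10 -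
    61705913089804668 * b ^ 11 - 231716242616119578 * b ^ 12 - 35597138481240048 * b ^ 13 +
    199770342319935504 * b ^ 14 + 35597138481240048 * b ^ 15 - 231716242616119578 * b ^ 16 +
    61705913089804668 * b ^ 17 + 41044894228500 * b ^ 18 - 49967740795500 * b ^ 19 -
    526296872382270 * b ^ 20 + 120356273373336 * b ^ 21 - 10484622210504 * b ^ 22 +
    328034679336 * b ^ 23 + 6880965702 * b ^ 24 - 1199056716 * b ^ 25 + 106114476 * b ^ 26 -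
    5895396 * b ^ 27 + 125970 * b ^ 28

/-- coefficient of `τ ^ 13` in `N⁴ - 18 N³D + 74 N²D² + 18 ND³ + D⁴` -/
def sxQ13 (b : R) : R :=
  77520 + 3813984 * b + 73510992 * b ^ 2 + 943968384 * b ^ 3 + 5523774192 * b ^ 4 -
    358431184800 * b ^ 5 - 11975400182928 * b ^ 6 - 149778959675904 * b ^ 7 -
    759139424920368 * b ^ 8 - 814285347457824 * b ^ 9 - 11437308434942640 * b ^ 10 -
    217712648577912192 * b ^ 11 - 959134486491359376 * b ^ 12 - 494959796756711712 * b ^ 13 +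
    2665350176514945264 * b ^ 14 + 2665350176514945264 * b ^ 16 + 494959796756711712 * b ^ 17 -
    959134486491359376 * b ^ 18 + 217712648577912192 * b ^ 19 - 11437308434942640 * b ^ 20 +
    814285347457824 * b ^ 21 - 759139424920368 * b ^ 22 + 149778959675904 * b ^ 23 -
    11975400182928 * b ^ 24 + 358431184800 * b ^ 25 + 5523774192 * b ^ 26 - 943968384 * b ^ 27 +
    73510992 * b ^ 28 - 3813984 * b ^ 29 + 77520 * b ^ 30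

/-- coefficient of `τ ^ 14` in `N⁴ - 18 N³D + 74 N²D² + 18 ND³ + D⁴` -/
def sxQ14 (b : R) : R :=
  38760 + 2000016 * b + 41110080 * b ^ 2 + 592722000 * b ^ 3 + 3482170560 * b ^ 4 -
    297677484720 * b ^ 5 - 10448166974784 * b ^ 6 - 141714961380720 * b ^ 7 -
    823365090667680 * b ^ 8 - 2011735247240880 * b ^ 9 - 31117504994205120 * b ^ 10 -
    471739685304659184 * b ^ 11 - 2434052949037752000 * b ^ 12 - 2570027122731060720 * b ^ 13 +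
    8926952102068390080 * b ^ 14 - 2210181042371252400 * b ^ 15 - 36028969595525562768 * b ^ 16 +
    2210181042371252400 * b ^ 17 + 8926952102068390080 * b ^ 18 + 2570027122731060720 * b ^ 19 -
    2434052949037752000 * b ^ 20 + 471739685304659184 * b ^ 21 - 31117504994205120 * b ^ 22 +
    2011735247240880 * b ^ 23 - 823365090667680 * b ^ 24 + 141714961380720 * b ^ 25 -
    10448166974784 * b ^ 26 + 297677484720 * b ^ 27 + 3482170560 * b ^ 28 - 592722000 * b ^ 29 +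
    41110080 * b ^ 30 - 2000016 * b ^ 31 + 38760 * b ^ 32

/-- coefficient of `τ ^ 15` in `N⁴ - 18 N³D + 74 N²D² + 18 ND³ + D⁴` -/
def sxQ15 (b : R) : R :=
  15504 + 837216 * b + 18285744 * b ^ 2 + 293025600 * b ^ 3 + 1707196128 * b ^ 4 -
    187877040192 * b ^ 5 - 6938073127392 * b ^ 6 - 101561906738880 * b ^ 7 -
    669150562108512 * b ^ 8 - 2644988377652928 * b ^ 9 - 45613451928933024 * b ^ 10 -
    673371944336438208 * b ^ 11 - 4026766910194681248 * b ^ 12 - 6901265501445946176 * b ^ 13 +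
    12756661934513930400 * b ^ 14 - 14867498242293257664 * b ^ 15 - 206713009258009725504 * b ^ 16
    - 206713009258009725504 * b ^ 18 + 14867498242293257664 * b ^ 19 +
    12756661934513930400 * b ^ 20 + 6901265501445946176 * b ^ 21 - 4026766910194681248 * b ^ 22 +
    673371944336438208 * b ^ 23 - 45613451928933024 * b ^ 24 + 2644988377652928 * b ^ 25 -
    669150562108512 * b ^ 26 + 101561906738880 * b ^ 27 - 6938073127392 * b ^ 28 +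
    187877040192 * b ^ 29 + 1707196128 * b ^ 30 - 293025600 * b ^ 31 + 18285744 * b ^ 32 -
    837216 * b ^ 33 + 15504 * b ^ 34

/-- coefficient of `τ ^ 16` in `N⁴ - 18 N³D + 74 N²D² + 18 ND³ + D⁴` -/
def sxQ16 (b : R) : R :=
  4845 + 273258 * b + 6321042 * b ^ 2 + 111615030 * b ^ 3 + 638296677 * b ^ 4 -
    88908129648 * b ^ 5 - 3453998763600 * b ^ 6 - 54315974805840 * b ^ 7 - 401792316316380 * b ^ 8
    - 2233163290572360 * b ^ 9 - 42654414038292360 * b ^ 10 - 649696274275814136 * b ^ 11 -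
    4446574028706884364 * b ^ 12 - 10883721632406768720 * b ^ 13 + 5246545038097810896 * b ^ 14 -
    42499205714808603504 * b ^ 15 - 391577626107510189930 * b ^ 16 +
    702952799059057525020 * b ^ 17 + 2976817519338338965740 * b ^ 18 -
    702952799059057525020 * b ^ 19 - 391577626107510189930 * b ^ 20 +
    42499205714808603504 * b ^ 21 + 5246545038097810896 * b ^ 22 + 10883721632406768720 * b ^ 23
    - 4446574028706884364 * b ^ 24 + 649696274275814136 * b ^ 25 - 42654414038292360 * b ^ 26 +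
    2233163290572360 * b ^ 27 - 401792316316380 * b ^ 28 + 54315974805840 * b ^ 29 -
    3453998763600 * b ^ 30 + 88908129648 * b ^ 31 + 638296677 * b ^ 32 - 111615030 * b ^ 33 +
    6321042 * b ^ 34 - 273258 * b ^ 35 + 4845 * b ^ 36

/-- coefficient of `τ ^ 17` in `N⁴ - 18 N³D + 74 N²D² + 18 ND³ + D⁴` -/
def sxQ17 (b : R) : R :=
  1140 + 67032 * b + 1637412 * b ^ 2 + 31623552 * b ^ 3 + 175925124 * b ^ 4 - 30625385112 * b ^ 5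
    - 1250453574828 * b ^ 6 - 21034598429952 * b ^ 7 - 173133369517680 * b ^ 8 -
    1251819162756000 * b ^ 9 - 26267904494823600 * b ^ 10 - 421528475268336384 * b ^ 11 -
    3262029855973256304 * b ^ 12 - 10538802380339292384 * b ^ 13 - 7538537637114420528 * b ^ 14 -
    64313393194292818176 * b ^ 15 - 326217183784679957544 * b ^ 16 +
    2322947563404535120464 * b ^ 17 + 9949591984565424073080 * b ^ 18 +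
    9949591984565424073080 * b ^ 20 - 2322947563404535120464 * b ^ 21 -
    326217183784679957544 * b ^ 22 + 64313393194292818176 * b ^ 23 - 7538537637114420528 * b ^ 24
    + 10538802380339292384 * b ^ 25 - 3262029855973256304 * b ^ 26 + 421528475268336384 * b ^ 27
    - 26267904494823600 * b ^ 28 + 1251819162756000 * b ^ 29 - 173133369517680 * b ^ 30 +
    21034598429952 * b ^ 31 - 1250453574828 * b ^ 32 + 30625385112 * b ^ 33 + 175925124 * b ^ 34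
    - 31623552 * b ^ 35 + 1637412 * b ^ 36 - 67032 * b ^ 37 + 1140 * b ^ 38

/-- coefficient of `τ ^ 18` in `N⁴ - 18 N³D + 74 N²D² + 18 ND³ + D⁴` -/
def sxQ18 (b : R) : R :=
  190 + 11628 * b + 299144 * b ^ 2 + 6278508 * b ^ 3 + 33698404 * b ^ 4 - 7263002700 * b ^ 5 -
    311260182456 * b ^ 6 - 5579065697868 * b ^ 7 - 50686909884186 * b ^ 8 -
    453675448903248 * b ^ 9 - 10380016302860640 * b ^ 10 - 176838658359740496 * b ^ 11 -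
    1530541746059565648 * b ^ 12 - 6193643314181477616 * b ^ 13 - 11162659305474087648 * b ^ 14 -
    54130175821762153200 * b ^ 15 - 93338438474809241508 * b ^ 16 +
    2726628601485717689256 * b ^ 17 + 5283954281623572540272 * b ^ 18 -
    56078237765232382209624 * b ^ 19 - 113994544636951864837160 * b ^ 20 +
    56078237765232382209624 * b ^ 21 + 5283954281623572540272 * b ^ 22 -
    2726628601485717689256 * b ^ 23 - 93338438474809241508 * b ^ 24 +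
    54130175821762153200 * b ^ 25 - 11162659305474087648 * b ^ 26 + 6193643314181477616 * b ^ 27
    - 1530541746059565648 * b ^ 28 + 176838658359740496 * b ^ 29 - 10380016302860640 * b ^ 30 +
    453675448903248 * b ^ 31 - 50686909884186 * b ^ 32 + 5579065697868 * b ^ 33 -
    311260182456 * b ^ 34 + 7263002700 * b ^ 35 + 33698404 * b ^ 36 - 6278508 * b ^ 37 +
    299144 * b ^ 38 - 11628 * b ^ 39 + 190 * b ^ 40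

/-- coefficient of `τ ^ 19` in `N⁴ - 18 N³D + 74 N²D² + 18 ND³ + D⁴` -/
def sxQ19 (b : R) : R :=
  20 + 1272 * b + 34380 * b ^ 2 + 779760 * b ^ 3 + 4006080 * b ^ 4 - 1061780160 * b ^ 5 -
    47687093248 * b ^ 6 - 907561211760 * b ^ 7 - 9036577982340 * b ^ 8 - 96739341168600 * b ^ 9 -
    2397434059486620 * b ^ 10 - 43453392979438656 * b ^ 11 - 416622892606305600 * b ^ 12 -
    2035294278034020480 * b ^ 13 - 5728473677574060480 * b ^ 14 - 24039037856212896960 * b ^ 15 +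
    22523720677137754056 * b ^ 16 + 1306518425154465125040 * b ^ 17 -
    6279753862373562331400 * b ^ 18 - 125387844680100497403360 * b ^ 19 -
    377637594933858056349120 * b ^ 20 - 377637594933858056349120 * b ^ 22 +
    125387844680100497403360 * b ^ 23 - 6279753862373562331400 * b ^ 24 -
    1306518425154465125040 * b ^ 25 + 22523720677137754056 * b ^ 26 +
    24039037856212896960 * b ^ 27 - 5728473677574060480 * b ^ 28 + 2035294278034020480 * b ^ 29 -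
    416622892606305600 * b ^ 30 + 43453392979438656 * b ^ 31 - 2397434059486620 * b ^ 32 +
    96739341168600 * b ^ 33 - 9036577982340 * b ^ 34 + 907561211760 * b ^ 35 -
    47687093248 * b ^ 36 + 1061780160 * b ^ 37 + 4006080 * b ^ 38 - 779760 * b ^ 39 +
    34380 * b ^ 40 - 1272 * b ^ 41 + 20 * b ^ 42

/-- coefficient of `τ ^ 20` in `N⁴ - 18 N³D + 74 N²D² + 18 ND³ + D⁴` -/
def sxQ20 (b : R) : R :=
  1 + 66 * b + 1870 * b ^ 2 + 45606 * b ^ 3 + 222519 * b ^ 4 - 72197004 * b ^ 5 -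
    3392774924 * b ^ 6 - 68340207540 * b ^ 7 - 741057540509 * b ^ 8 - 9252467214606 * b ^ 9 -
    246935976342858 * b ^ 10 - 4759858397289978 * b ^ 11 - 50136104172725835 * b ^ 12 -
    287765028251026128 * b ^ 13 - 1086153308435632272 * b ^ 14 - 4406735419005669552 * b ^ 15 +
    13437894319431395418 * b ^ 16 + 198107364373970291460 * b ^ 17 -
    4807533085160034444292 * b ^ 18 - 68594138809120312696308 * b ^ 19 -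
    243824105826637345076650 * b ^ 20 + 294767455187253019048440 * b ^ 21 +
    2302668823630185472854840 * b ^ 22 - 294767455187253019048440 * b ^ 23 -
    243824105826637345076650 * b ^ 24 + 68594138809120312696308 * b ^ 25 -
    4807533085160034444292 * b ^ 26 - 198107364373970291460 * b ^ 27 +
    13437894319431395418 * b ^ 28 + 4406735419005669552 * b ^ 29 - 1086153308435632272 * b ^ 30 +
    287765028251026128 * b ^ 31 - 50136104172725835 * b ^ 32 + 4759858397289978 * b ^ 33 -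
    246935976342858 * b ^ 34 + 9252467214606 * b ^ 35 - 741057540509 * b ^ 36 +
    68340207540 * b ^ 37 - 3392774924 * b ^ 38 + 72197004 * b ^ 39 + 222519 * b ^ 40 -
    45606 * b ^ 41 + 1870 * b ^ 42 - 66 * b ^ 43 + b ^ 44

theorem quartic_conv6 (a0 a1 a2 a3 a4 a5 a6 a7 a8 a9 a10 b0 b1 b2 b3 b4 b5 b6 b7 b8 b9 b10 c0 c1 c2 c3 c4 c5 c6 c7 c8 c9 c10 τ : R) :
    (a0 + a1 * τ + a2 * τ ^ 2 + a3 * τ ^ 3 + a4 * τ ^ 4 + a5 * τ ^ 5 + a6 * τ ^ 6 + a7 * τ ^ 7 +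
      a8 * τ ^ 8 + a9 * τ ^ 9 + a10 * τ ^ 10) ^ 2 + -18 * ((a0 + a1 * τ + a2 * τ ^ 2 + a3 * τ ^ 3
      + a4 * τ ^ 4 + a5 * τ ^ 5 + a6 * τ ^ 6 + a7 * τ ^ 7 + a8 * τ ^ 8 + a9 * τ ^ 9 +
      a10 * τ ^ 10) * (b0 + b1 * τ + b2 * τ ^ 2 + b3 * τ ^ 3 + b4 * τ ^ 4 + b5 * τ ^ 5 +
      b6 * τ ^ 6 + b7 * τ ^ 7 + b8 * τ ^ 8 + b9 * τ ^ 9 + b10 * τ ^ 10)) + 74 * ((a0 + a1 * τ +
      a2 * τ ^ 2 + a3 * τ ^ 3 + a4 * τ ^ 4 + a5 * τ ^ 5 + a6 * τ ^ 6 + a7 * τ ^ 7 + a8 * τ ^ 8 +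
      a9 * τ ^ 9 + a10 * τ ^ 10) * (c0 + c1 * τ + c2 * τ ^ 2 + c3 * τ ^ 3 + c4 * τ ^ 4 +
      c5 * τ ^ 5 + c6 * τ ^ 6 + c7 * τ ^ 7 + c8 * τ ^ 8 + c9 * τ ^ 9 + c10 * τ ^ 10)) + 18 * ((b0
      + b1 * τ + b2 * τ ^ 2 + b3 * τ ^ 3 + b4 * τ ^ 4 + b5 * τ ^ 5 + b6 * τ ^ 6 + b7 * τ ^ 7 +
      b8 * τ ^ 8 + b9 * τ ^ 9 + b10 * τ ^ 10) * (c0 + c1 * τ + c2 * τ ^ 2 + c3 * τ ^ 3 +
      c4 * τ ^ 4 + c5 * τ ^ 5 + c6 * τ ^ 6 + c7 * τ ^ 7 + c8 * τ ^ 8 + c9 * τ ^ 9 + c10 * τ ^ 10))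
      + (c0 + c1 * τ + c2 * τ ^ 2 + c3 * τ ^ 3 + c4 * τ ^ 4 + c5 * τ ^ 5 + c6 * τ ^ 6 + c7 * τ ^ 7
      + c8 * τ ^ 8 + c9 * τ ^ 9 + c10 * τ ^ 10) ^ 2 =
      ((a0 * a0 + -18 * (a0 * b0) + 74 * (a0 * c0) + 18 * (b0 * c0) + c0 * c0)) + ((a0 * a1 +
        -18 * (a0 * b1) + 74 * (a0 * c1) + 18 * (b0 * c1) + c0 * c1) + (a1 * a0 + -18 * (a1 * b0)
        + 74 * (a1 * c0) + 18 * (b1 * c0) + c1 * c0)) * τ + ((a0 * a2 + -18 * (a0 * b2) +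
        74 * (a0 * c2) + 18 * (b0 * c2) + c0 * c2) + (a1 * a1 + -18 * (a1 * b1) + 74 * (a1 * c1)
        + 18 * (b1 * c1) + c1 * c1) + (a2 * a0 + -18 * (a2 * b0) + 74 * (a2 * c0) + 18 * (b2 * c0)
        + c2 * c0)) * τ ^ 2 + ((a0 * a3 + -18 * (a0 * b3) + 74 * (a0 * c3) + 18 * (b0 * c3) +
        c0 * c3) + (a1 * a2 + -18 * (a1 * b2) + 74 * (a1 * c2) + 18 * (b1 * c2) + c1 * c2) +
        (a2 * a1 + -18 * (a2 * b1) + 74 * (a2 * c1) + 18 * (b2 * c1) + c2 * c1) + (a3 * a0 +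
        -18 * (a3 * b0) + 74 * (a3 * c0) + 18 * (b3 * c0) + c3 * c0)) * τ ^ 3 + ((a0 * a4 +
        -18 * (a0 * b4) + 74 * (a0 * c4) + 18 * (b0 * c4) + c0 * c4) + (a1 * a3 + -18 * (a1 * b3)
        + 74 * (a1 * c3) + 18 * (b1 * c3) + c1 * c3) + (a2 * a2 + -18 * (a2 * b2) + 74 * (a2 * c2)
        + 18 * (b2 * c2) + c2 * c2) + (a3 * a1 + -18 * (a3 * b1) + 74 * (a3 * c1) + 18 * (b3 * c1)
        + c3 * c1) + (a4 * a0 + -18 * (a4 * b0) + 74 * (a4 * c0) + 18 * (b4 * c0) +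
        c4 * c0)) * τ ^ 4 + ((a0 * a5 + -18 * (a0 * b5) + 74 * (a0 * c5) + 18 * (b0 * c5) +
        c0 * c5) + (a1 * a4 + -18 * (a1 * b4) + 74 * (a1 * c4) + 18 * (b1 * c4) + c1 * c4) +
        (a2 * a3 + -18 * (a2 * b3) + 74 * (a2 * c3) + 18 * (b2 * c3) + c2 * c3) + (a3 * a2 +
        -18 * (a3 * b2) + 74 * (a3 * c2) + 18 * (b3 * c2) + c3 * c2) + (a4 * a1 + -18 * (a4 * b1)
        + 74 * (a4 * c1) + 18 * (b4 * c1) + c4 * c1) + (a5 * a0 + -18 * (a5 * b0) + 74 * (a5 * c0)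
        + 18 * (b5 * c0) + c5 * c0)) * τ ^ 5 + ((a0 * a6 + -18 * (a0 * b6) + 74 * (a0 * c6) +
        18 * (b0 * c6) + c0 * c6) + (a1 * a5 + -18 * (a1 * b5) + 74 * (a1 * c5) + 18 * (b1 * c5)
        + c1 * c5) + (a2 * a4 + -18 * (a2 * b4) + 74 * (a2 * c4) + 18 * (b2 * c4) + c2 * c4) +
        (a3 * a3 + -18 * (a3 * b3) + 74 * (a3 * c3) + 18 * (b3 * c3) + c3 * c3) + (a4 * a2 +
        -18 * (a4 * b2) + 74 * (a4 * c2) + 18 * (b4 * c2) + c4 * c2) + (a5 * a1 + -18 * (a5 * b1)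
        + 74 * (a5 * c1) + 18 * (b5 * c1) + c5 * c1) + (a6 * a0 + -18 * (a6 * b0) + 74 * (a6 * c0)
        + 18 * (b6 * c0) + c6 * c0)) * τ ^ 6 + ((a0 * a7 + -18 * (a0 * b7) + 74 * (a0 * c7) +
        18 * (b0 * c7) + c0 * c7) + (a1 * a6 + -18 * (a1 * b6) + 74 * (a1 * c6) + 18 * (b1 * c6)
        + c1 * c6) + (a2 * a5 + -18 * (a2 * b5) + 74 * (a2 * c5) + 18 * (b2 * c5) + c2 * c5) +
        (a3 * a4 + -18 * (a3 * b4) + 74 * (a3 * c4) + 18 * (b3 * c4) + c3 * c4) + (a4 * a3 +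
        -18 * (a4 * b3) + 74 * (a4 * c3) + 18 * (b4 * c3) + c4 * c3) + (a5 * a2 + -18 * (a5 * b2)
        + 74 * (a5 * c2) + 18 * (b5 * c2) + c5 * c2) + (a6 * a1 + -18 * (a6 * b1) + 74 * (a6 * c1)
        + 18 * (b6 * c1) + c6 * c1) + (a7 * a0 + -18 * (a7 * b0) + 74 * (a7 * c0) + 18 * (b7 * c0)
        + c7 * c0)) * τ ^ 7 + ((a0 * a8 + -18 * (a0 * b8) + 74 * (a0 * c8) + 18 * (b0 * c8) +
        c0 * c8) + (a1 * a7 + -18 * (a1 * b7) + 74 * (a1 * c7) + 18 * (b1 * c7) + c1 * c7) +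
        (a2 * a6 + -18 * (a2 * b6) + 74 * (a2 * c6) + 18 * (b2 * c6) + c2 * c6) + (a3 * a5 +
        -18 * (a3 * b5) + 74 * (a3 * c5) + 18 * (b3 * c5) + c3 * c5) + (a4 * a4 + -18 * (a4 * b4)
        + 74 * (a4 * c4) + 18 * (b4 * c4) + c4 * c4) + (a5 * a3 + -18 * (a5 * b3) + 74 * (a5 * c3)
        + 18 * (b5 * c3) + c5 * c3) + (a6 * a2 + -18 * (a6 * b2) + 74 * (a6 * c2) + 18 * (b6 * c2)
        + c6 * c2) + (a7 * a1 + -18 * (a7 * b1) + 74 * (a7 * c1) + 18 * (b7 * c1) + c7 * c1) +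
        (a8 * a0 + -18 * (a8 * b0) + 74 * (a8 * c0) + 18 * (b8 * c0) + c8 * c0)) * τ ^ 8 +
        ((a0 * a9 + -18 * (a0 * b9) + 74 * (a0 * c9) + 18 * (b0 * c9) + c0 * c9) + (a1 * a8 +
        -18 * (a1 * b8) + 74 * (a1 * c8) + 18 * (b1 * c8) + c1 * c8) + (a2 * a7 + -18 * (a2 * b7)
        + 74 * (a2 * c7) + 18 * (b2 * c7) + c2 * c7) + (a3 * a6 + -18 * (a3 * b6) + 74 * (a3 * c6)
        + 18 * (b3 * c6) + c3 * c6) + (a4 * a5 + -18 * (a4 * b5) + 74 * (a4 * c5) + 18 * (b4 * c5)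
        + c4 * c5) + (a5 * a4 + -18 * (a5 * b4) + 74 * (a5 * c4) + 18 * (b5 * c4) + c5 * c4) +
        (a6 * a3 + -18 * (a6 * b3) + 74 * (a6 * c3) + 18 * (b6 * c3) + c6 * c3) + (a7 * a2 +
        -18 * (a7 * b2) + 74 * (a7 * c2) + 18 * (b7 * c2) + c7 * c2) + (a8 * a1 + -18 * (a8 * b1)
        + 74 * (a8 * c1) + 18 * (b8 * c1) + c8 * c1) + (a9 * a0 + -18 * (a9 * b0) + 74 * (a9 * c0)
        + 18 * (b9 * c0) + c9 * c0)) * τ ^ 9 + ((a0 * a10 + -18 * (a0 * b10) + 74 * (a0 * c10) +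
        18 * (b0 * c10) + c0 * c10) + (a1 * a9 + -18 * (a1 * b9) + 74 * (a1 * c9) + 18 * (b1 * c9)
        + c1 * c9) + (a2 * a8 + -18 * (a2 * b8) + 74 * (a2 * c8) + 18 * (b2 * c8) + c2 * c8) +
        (a3 * a7 + -18 * (a3 * b7) + 74 * (a3 * c7) + 18 * (b3 * c7) + c3 * c7) + (a4 * a6 +
        -18 * (a4 * b6) + 74 * (a4 * c6) + 18 * (b4 * c6) + c4 * c6) + (a5 * a5 + -18 * (a5 * b5)
        + 74 * (a5 * c5) + 18 * (b5 * c5) + c5 * c5) + (a6 * a4 + -18 * (a6 * b4) + 74 * (a6 * c4)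
        + 18 * (b6 * c4) + c6 * c4) + (a7 * a3 + -18 * (a7 * b3) + 74 * (a7 * c3) + 18 * (b7 * c3)
        + c7 * c3) + (a8 * a2 + -18 * (a8 * b2) + 74 * (a8 * c2) + 18 * (b8 * c2) + c8 * c2) +
        (a9 * a1 + -18 * (a9 * b1) + 74 * (a9 * c1) + 18 * (b9 * c1) + c9 * c1) + (a10 * a0 +
        -18 * (a10 * b0) + 74 * (a10 * c0) + 18 * (b10 * c0) + c10 * c0)) * τ ^ 10 + ((a1 * a10 +
        -18 * (a1 * b10) + 74 * (a1 * c10) + 18 * (b1 * c10) + c1 * c10) + (a2 * a9 +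
        -18 * (a2 * b9) + 74 * (a2 * c9) + 18 * (b2 * c9) + c2 * c9) + (a3 * a8 + -18 * (a3 * b8)
        + 74 * (a3 * c8) + 18 * (b3 * c8) + c3 * c8) + (a4 * a7 + -18 * (a4 * b7) + 74 * (a4 * c7)
        + 18 * (b4 * c7) + c4 * c7) + (a5 * a6 + -18 * (a5 * b6) + 74 * (a5 * c6) + 18 * (b5 * c6)
        + c5 * c6) + (a6 * a5 + -18 * (a6 * b5) + 74 * (a6 * c5) + 18 * (b6 * c5) + c6 * c5) +
        (a7 * a4 + -18 * (a7 * b4) + 74 * (a7 * c4) + 18 * (b7 * c4) + c7 * c4) + (a8 * a3 +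
        -18 * (a8 * b3) + 74 * (a8 * c3) + 18 * (b8 * c3) + c8 * c3) + (a9 * a2 + -18 * (a9 * b2)
        + 74 * (a9 * c2) + 18 * (b9 * c2) + c9 * c2) + (a10 * a1 + -18 * (a10 * b1) +
        74 * (a10 * c1) + 18 * (b10 * c1) + c10 * c1)) * τ ^ 11 + ((a2 * a10 + -18 * (a2 * b10) +
        74 * (a2 * c10) + 18 * (b2 * c10) + c2 * c10) + (a3 * a9 + -18 * (a3 * b9) +
        74 * (a3 * c9) + 18 * (b3 * c9) + c3 * c9) + (a4 * a8 + -18 * (a4 * b8) + 74 * (a4 * c8)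
        + 18 * (b4 * c8) + c4 * c8) + (a5 * a7 + -18 * (a5 * b7) + 74 * (a5 * c7) + 18 * (b5 * c7)
        + c5 * c7) + (a6 * a6 + -18 * (a6 * b6) + 74 * (a6 * c6) + 18 * (b6 * c6) + c6 * c6) +
        (a7 * a5 + -18 * (a7 * b5) + 74 * (a7 * c5) + 18 * (b7 * c5) + c7 * c5) + (a8 * a4 +
        -18 * (a8 * b4) + 74 * (a8 * c4) + 18 * (b8 * c4) + c8 * c4) + (a9 * a3 + -18 * (a9 * b3)
        + 74 * (a9 * c3) + 18 * (b9 * c3) + c9 * c3) + (a10 * a2 + -18 * (a10 * b2) +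
        74 * (a10 * c2) + 18 * (b10 * c2) + c10 * c2)) * τ ^ 12 + ((a3 * a10 + -18 * (a3 * b10) +
        74 * (a3 * c10) + 18 * (b3 * c10) + c3 * c10) + (a4 * a9 + -18 * (a4 * b9) +
        74 * (a4 * c9) + 18 * (b4 * c9) + c4 * c9) + (a5 * a8 + -18 * (a5 * b8) + 74 * (a5 * c8)
        + 18 * (b5 * c8) + c5 * c8) + (a6 * a7 + -18 * (a6 * b7) + 74 * (a6 * c7) + 18 * (b6 * c7)
        + c6 * c7) + (a7 * a6 + -18 * (a7 * b6) + 74 * (a7 * c6) + 18 * (b7 * c6) + c7 * c6) +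
        (a8 * a5 + -18 * (a8 * b5) + 74 * (a8 * c5) + 18 * (b8 * c5) + c8 * c5) + (a9 * a4 +
        -18 * (a9 * b4) + 74 * (a9 * c4) + 18 * (b9 * c4) + c9 * c4) + (a10 * a3 +
        -18 * (a10 * b3) + 74 * (a10 * c3) + 18 * (b10 * c3) + c10 * c3)) * τ ^ 13 + ((a4 * a10 +
        -18 * (a4 * b10) + 74 * (a4 * c10) + 18 * (b4 * c10) + c4 * c10) + (a5 * a9 +
        -18 * (a5 * b9) + 74 * (a5 * c9) + 18 * (b5 * c9) + c5 * c9) + (a6 * a8 + -18 * (a6 * b8)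
        + 74 * (a6 * c8) + 18 * (b6 * c8) + c6 * c8) + (a7 * a7 + -18 * (a7 * b7) + 74 * (a7 * c7)
        + 18 * (b7 * c7) + c7 * c7) + (a8 * a6 + -18 * (a8 * b6) + 74 * (a8 * c6) + 18 * (b8 * c6)
        + c8 * c6) + (a9 * a5 + -18 * (a9 * b5) + 74 * (a9 * c5) + 18 * (b9 * c5) + c9 * c5) +
        (a10 * a4 + -18 * (a10 * b4) + 74 * (a10 * c4) + 18 * (b10 * c4) + c10 * c4)) * τ ^ 14 +
        ((a5 * a10 + -18 * (a5 * b10) + 74 * (a5 * c10) + 18 * (b5 * c10) + c5 * c10) + (a6 * a9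
        + -18 * (a6 * b9) + 74 * (a6 * c9) + 18 * (b6 * c9) + c6 * c9) + (a7 * a8 +
        -18 * (a7 * b8) + 74 * (a7 * c8) + 18 * (b7 * c8) + c7 * c8) + (a8 * a7 + -18 * (a8 * b7)
        + 74 * (a8 * c7) + 18 * (b8 * c7) + c8 * c7) + (a9 * a6 + -18 * (a9 * b6) + 74 * (a9 * c6)
        + 18 * (b9 * c6) + c9 * c6) + (a10 * a5 + -18 * (a10 * b5) + 74 * (a10 * c5) +
        18 * (b10 * c5) + c10 * c5)) * τ ^ 15 + ((a6 * a10 + -18 * (a6 * b10) + 74 * (a6 * c10) +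
        18 * (b6 * c10) + c6 * c10) + (a7 * a9 + -18 * (a7 * b9) + 74 * (a7 * c9) + 18 * (b7 * c9)
        + c7 * c9) + (a8 * a8 + -18 * (a8 * b8) + 74 * (a8 * c8) + 18 * (b8 * c8) + c8 * c8) +
        (a9 * a7 + -18 * (a9 * b7) + 74 * (a9 * c7) + 18 * (b9 * c7) + c9 * c7) + (a10 * a6 +
        -18 * (a10 * b6) + 74 * (a10 * c6) + 18 * (b10 * c6) + c10 * c6)) * τ ^ 16 + ((a7 * a10 +
        -18 * (a7 * b10) + 74 * (a7 * c10) + 18 * (b7 * c10) + c7 * c10) + (a8 * a9 +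
        -18 * (a8 * b9) + 74 * (a8 * c9) + 18 * (b8 * c9) + c8 * c9) + (a9 * a8 + -18 * (a9 * b8)
        + 74 * (a9 * c8) + 18 * (b9 * c8) + c9 * c8) + (a10 * a7 + -18 * (a10 * b7) +
        74 * (a10 * c7) + 18 * (b10 * c7) + c10 * c7)) * τ ^ 17 + ((a8 * a10 + -18 * (a8 * b10) +
        74 * (a8 * c10) + 18 * (b8 * c10) + c8 * c10) + (a9 * a9 + -18 * (a9 * b9) +
        74 * (a9 * c9) + 18 * (b9 * c9) + c9 * c9) + (a10 * a8 + -18 * (a10 * b8) +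
        74 * (a10 * c8) + 18 * (b10 * c8) + c10 * c8)) * τ ^ 18 + ((a9 * a10 + -18 * (a9 * b10) +
        74 * (a9 * c10) + 18 * (b9 * c10) + c9 * c10) + (a10 * a9 + -18 * (a10 * b9) +
        74 * (a10 * c9) + 18 * (b10 * c9) + c10 * c9)) * τ ^ 19 + ((a10 * a10 + -18 * (a10 * b10)
        + 74 * (a10 * c10) + 18 * (b10 * c10) + c10 * c10)) * τ ^ 20 := by
  ring

theorem sxQ0_eq (b : R) :
    (sqA0 b * sqA0 b + -18 * (sqA0 b * sqB0 b) + 74 * (sqA0 b * sqC0 b) + 18 * (sqB0 b * sqC0 b)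
      + sqC0 b * sqC0 b) =
      sxQ0 b := by
  simp only [sxQ0, sqA0, sqA1, sqA2, sqA3, sqA4, sqA5, sqA6, sqA7, sqA8, sqA9, sqA10,
    sqB0, sqB1, sqB2, sqB3, sqB4, sqB5, sqB6, sqB7, sqB8, sqB9, sqB10,
    sqC0, sqC1, sqC2, sqC3, sqC4, sqC5, sqC6, sqC7, sqC8, sqC9, sqC10]
  ring

theorem sxQ1_eq (b : R) :
    (sqA0 b * sqA1 b + -18 * (sqA0 b * sqB1 b) + 74 * (sqA0 b * sqC1 b) + 18 * (sqB0 b * sqC1 b)
      + sqC0 b * sqC1 b) + (sqA1 b * sqA0 b + -18 * (sqA1 b * sqB0 b) + 74 * (sqA1 b * sqC0 b) +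
      18 * (sqB1 b * sqC0 b) + sqC1 b * sqC0 b) =
      sxQ1 b := by
  simp only [sxQ1, sqA0, sqA1, sqA2, sqA3, sqA4, sqA5, sqA6, sqA7, sqA8, sqA9, sqA10,
    sqB0, sqB1, sqB2, sqB3, sqB4, sqB5, sqB6, sqB7, sqB8, sqB9, sqB10,
    sqC0, sqC1, sqC2, sqC3, sqC4, sqC5, sqC6, sqC7, sqC8, sqC9, sqC10]
  ring

theorem sxQ2_eq (b : R) :
    (sqA0 b * sqA2 b + -18 * (sqA0 b * sqB2 b) + 74 * (sqA0 b * sqC2 b) + 18 * (sqB0 b * sqC2 b)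
      + sqC0 b * sqC2 b) + (sqA1 b * sqA1 b + -18 * (sqA1 b * sqB1 b) + 74 * (sqA1 b * sqC1 b) +
      18 * (sqB1 b * sqC1 b) + sqC1 b * sqC1 b) + (sqA2 b * sqA0 b + -18 * (sqA2 b * sqB0 b) +
      74 * (sqA2 b * sqC0 b) + 18 * (sqB2 b * sqC0 b) + sqC2 b * sqC0 b) =
      sxQ2 b := by
  simp only [sxQ2, sqA0, sqA1, sqA2, sqA3, sqA4, sqA5, sqA6, sqA7, sqA8, sqA9, sqA10,
    sqB0, sqB1, sqB2, sqB3, sqB4, sqB5, sqB6, sqB7, sqB8, sqB9, sqB10,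
    sqC0, sqC1, sqC2, sqC3, sqC4, sqC5, sqC6, sqC7, sqC8, sqC9, sqC10]
  ring

theorem sxQ3_eq (b : R) :
    (sqA0 b * sqA3 b + -18 * (sqA0 b * sqB3 b) + 74 * (sqA0 b * sqC3 b) + 18 * (sqB0 b * sqC3 b)
      + sqC0 b * sqC3 b) + (sqA1 b * sqA2 b + -18 * (sqA1 b * sqB2 b) + 74 * (sqA1 b * sqC2 b) +
      18 * (sqB1 b * sqC2 b) + sqC1 b * sqC2 b) + (sqA2 b * sqA1 b + -18 * (sqA2 b * sqB1 b) +
      74 * (sqA2 b * sqC1 b) + 18 * (sqB2 b * sqC1 b) + sqC2 b * sqC1 b) + (sqA3 b * sqA0 b +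
      -18 * (sqA3 b * sqB0 b) + 74 * (sqA3 b * sqC0 b) + 18 * (sqB3 b * sqC0 b) + sqC3 b * sqC0 b) =
      sxQ3 b := by
  simp only [sxQ3, sqA0, sqA1, sqA2, sqA3, sqA4, sqA5, sqA6, sqA7, sqA8, sqA9, sqA10,
    sqB0, sqB1, sqB2, sqB3, sqB4, sqB5, sqB6, sqB7, sqB8, sqB9, sqB10,
    sqC0, sqC1, sqC2, sqC3, sqC4, sqC5, sqC6, sqC7, sqC8, sqC9, sqC10]
  ring

theorem sxQ4_eq (b : R) :
    (sqA0 b * sqA4 b + -18 * (sqA0 b * sqB4 b) + 74 * (sqA0 b * sqC4 b) + 18 * (sqB0 b * sqC4 b)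
      + sqC0 b * sqC4 b) + (sqA1 b * sqA3 b + -18 * (sqA1 b * sqB3 b) + 74 * (sqA1 b * sqC3 b) +
      18 * (sqB1 b * sqC3 b) + sqC1 b * sqC3 b) + (sqA2 b * sqA2 b + -18 * (sqA2 b * sqB2 b) +
      74 * (sqA2 b * sqC2 b) + 18 * (sqB2 b * sqC2 b) + sqC2 b * sqC2 b) + (sqA3 b * sqA1 b +
      -18 * (sqA3 b * sqB1 b) + 74 * (sqA3 b * sqC1 b) + 18 * (sqB3 b * sqC1 b) + sqC3 b * sqC1 b)
      + (sqA4 b * sqA0 b + -18 * (sqA4 b * sqB0 b) + 74 * (sqA4 b * sqC0 b) +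
      18 * (sqB4 b * sqC0 b) + sqC4 b * sqC0 b) =
      sxQ4 b := by
  simp only [sxQ4, sqA0, sqA1, sqA2, sqA3, sqA4, sqA5, sqA6, sqA7, sqA8, sqA9, sqA10,
    sqB0, sqB1, sqB2, sqB3, sqB4, sqB5, sqB6, sqB7, sqB8, sqB9, sqB10,
    sqC0, sqC1, sqC2, sqC3, sqC4, sqC5, sqC6, sqC7, sqC8, sqC9, sqC10]
  ring

theorem sxQ5_eq (b : R) :
    (sqA0 b * sqA5 b + -18 * (sqA0 b * sqB5 b) + 74 * (sqA0 b * sqC5 b) + 18 * (sqB0 b * sqC5 b)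
      + sqC0 b * sqC5 b) + (sqA1 b * sqA4 b + -18 * (sqA1 b * sqB4 b) + 74 * (sqA1 b * sqC4 b) +
      18 * (sqB1 b * sqC4 b) + sqC1 b * sqC4 b) + (sqA2 b * sqA3 b + -18 * (sqA2 b * sqB3 b) +
      74 * (sqA2 b * sqC3 b) + 18 * (sqB2 b * sqC3 b) + sqC2 b * sqC3 b) + (sqA3 b * sqA2 b +
      -18 * (sqA3 b * sqB2 b) + 74 * (sqA3 b * sqC2 b) + 18 * (sqB3 b * sqC2 b) + sqC3 b * sqC2 b)
      + (sqA4 b * sqA1 b + -18 * (sqA4 b * sqB1 b) + 74 * (sqA4 b * sqC1 b) +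
      18 * (sqB4 b * sqC1 b) + sqC4 b * sqC1 b) + (sqA5 b * sqA0 b + -18 * (sqA5 b * sqB0 b) +
      74 * (sqA5 b * sqC0 b) + 18 * (sqB5 b * sqC0 b) + sqC5 b * sqC0 b) =
      sxQ5 b := by
  simp only [sxQ5, sqA0, sqA1, sqA2, sqA3, sqA4, sqA5, sqA6, sqA7, sqA8, sqA9, sqA10,
    sqB0, sqB1, sqB2, sqB3, sqB4, sqB5, sqB6, sqB7, sqB8, sqB9, sqB10,
    sqC0, sqC1, sqC2, sqC3, sqC4, sqC5, sqC6, sqC7, sqC8, sqC9, sqC10]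
  ring

theorem sxQ6_eq (b : R) :
    (sqA0 b * sqA6 b + -18 * (sqA0 b * sqB6 b) + 74 * (sqA0 b * sqC6 b) + 18 * (sqB0 b * sqC6 b)
      + sqC0 b * sqC6 b) + (sqA1 b * sqA5 b + -18 * (sqA1 b * sqB5 b) + 74 * (sqA1 b * sqC5 b) +
      18 * (sqB1 b * sqC5 b) + sqC1 b * sqC5 b) + (sqA2 b * sqA4 b + -18 * (sqA2 b * sqB4 b) +
      74 * (sqA2 b * sqC4 b) + 18 * (sqB2 b * sqC4 b) + sqC2 b * sqC4 b) + (sqA3 b * sqA3 b +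
      -18 * (sqA3 b * sqB3 b) + 74 * (sqA3 b * sqC3 b) + 18 * (sqB3 b * sqC3 b) + sqC3 b * sqC3 b)
      + (sqA4 b * sqA2 b + -18 * (sqA4 b * sqB2 b) + 74 * (sqA4 b * sqC2 b) +
      18 * (sqB4 b * sqC2 b) + sqC4 b * sqC2 b) + (sqA5 b * sqA1 b + -18 * (sqA5 b * sqB1 b) +
      74 * (sqA5 b * sqC1 b) + 18 * (sqB5 b * sqC1 b) + sqC5 b * sqC1 b) + (sqA6 b * sqA0 b +
      -18 * (sqA6 b * sqB0 b) + 74 * (sqA6 b * sqC0 b) + 18 * (sqB6 b * sqC0 b) + sqC6 b * sqC0 b) =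
      sxQ6 b := by
  simp only [sxQ6, sqA0, sqA1, sqA2, sqA3, sqA4, sqA5, sqA6, sqA7, sqA8, sqA9, sqA10,
    sqB0, sqB1, sqB2, sqB3, sqB4, sqB5, sqB6, sqB7, sqB8, sqB9, sqB10,
    sqC0, sqC1, sqC2, sqC3, sqC4, sqC5, sqC6, sqC7, sqC8, sqC9, sqC10]
  ring

theorem sxQ7_eq (b : R) :
    (sqA0 b * sqA7 b + -18 * (sqA0 b * sqB7 b) + 74 * (sqA0 b * sqC7 b) + 18 * (sqB0 b * sqC7 b)
      + sqC0 b * sqC7 b) + (sqA1 b * sqA6 b + -18 * (sqA1 b * sqB6 b) + 74 * (sqA1 b * sqC6 b) +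
      18 * (sqB1 b * sqC6 b) + sqC1 b * sqC6 b) + (sqA2 b * sqA5 b + -18 * (sqA2 b * sqB5 b) +
      74 * (sqA2 b * sqC5 b) + 18 * (sqB2 b * sqC5 b) + sqC2 b * sqC5 b) + (sqA3 b * sqA4 b +
      -18 * (sqA3 b * sqB4 b) + 74 * (sqA3 b * sqC4 b) + 18 * (sqB3 b * sqC4 b) + sqC3 b * sqC4 b)
      + (sqA4 b * sqA3 b + -18 * (sqA4 b * sqB3 b) + 74 * (sqA4 b * sqC3 b) +
      18 * (sqB4 b * sqC3 b) + sqC4 b * sqC3 b) + (sqA5 b * sqA2 b + -18 * (sqA5 b * sqB2 b) +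
      74 * (sqA5 b * sqC2 b) + 18 * (sqB5 b * sqC2 b) + sqC5 b * sqC2 b) + (sqA6 b * sqA1 b +
      -18 * (sqA6 b * sqB1 b) + 74 * (sqA6 b * sqC1 b) + 18 * (sqB6 b * sqC1 b) + sqC6 b * sqC1 b)
      + (sqA7 b * sqA0 b + -18 * (sqA7 b * sqB0 b) + 74 * (sqA7 b * sqC0 b) +
      18 * (sqB7 b * sqC0 b) + sqC7 b * sqC0 b) =
      sxQ7 b := by
  simp only [sxQ7, sqA0, sqA1, sqA2, sqA3, sqA4, sqA5, sqA6, sqA7, sqA8, sqA9, sqA10,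
    sqB0, sqB1, sqB2, sqB3, sqB4, sqB5, sqB6, sqB7, sqB8, sqB9, sqB10,
    sqC0, sqC1, sqC2, sqC3, sqC4, sqC5, sqC6, sqC7, sqC8, sqC9, sqC10]
  ring

theorem sxQ8_eq (b : R) :
    (sqA0 b * sqA8 b + -18 * (sqA0 b * sqB8 b) + 74 * (sqA0 b * sqC8 b) + 18 * (sqB0 b * sqC8 b)
      + sqC0 b * sqC8 b) + (sqA1 b * sqA7 b + -18 * (sqA1 b * sqB7 b) + 74 * (sqA1 b * sqC7 b) +
      18 * (sqB1 b * sqC7 b) + sqC1 b * sqC7 b) + (sqA2 b * sqA6 b + -18 * (sqA2 b * sqB6 b) +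
      74 * (sqA2 b * sqC6 b) + 18 * (sqB2 b * sqC6 b) + sqC2 b * sqC6 b) + (sqA3 b * sqA5 b +
      -18 * (sqA3 b * sqB5 b) + 74 * (sqA3 b * sqC5 b) + 18 * (sqB3 b * sqC5 b) + sqC3 b * sqC5 b)
      + (sqA4 b * sqA4 b + -18 * (sqA4 b * sqB4 b) + 74 * (sqA4 b * sqC4 b) +
      18 * (sqB4 b * sqC4 b) + sqC4 b * sqC4 b) + (sqA5 b * sqA3 b + -18 * (sqA5 b * sqB3 b) +
      74 * (sqA5 b * sqC3 b) + 18 * (sqB5 b * sqC3 b) + sqC5 b * sqC3 b) + (sqA6 b * sqA2 b +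
      -18 * (sqA6 b * sqB2 b) + 74 * (sqA6 b * sqC2 b) + 18 * (sqB6 b * sqC2 b) + sqC6 b * sqC2 b)
      + (sqA7 b * sqA1 b + -18 * (sqA7 b * sqB1 b) + 74 * (sqA7 b * sqC1 b) +
      18 * (sqB7 b * sqC1 b) + sqC7 b * sqC1 b) + (sqA8 b * sqA0 b + -18 * (sqA8 b * sqB0 b) +
      74 * (sqA8 b * sqC0 b) + 18 * (sqB8 b * sqC0 b) + sqC8 b * sqC0 b) =
      sxQ8 b := by
  simp only [sxQ8, sqA0, sqA1, sqA2, sqA3, sqA4, sqA5, sqA6, sqA7, sqA8, sqA9, sqA10,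
    sqB0, sqB1, sqB2, sqB3, sqB4, sqB5, sqB6, sqB7, sqB8, sqB9, sqB10,
    sqC0, sqC1, sqC2, sqC3, sqC4, sqC5, sqC6, sqC7, sqC8, sqC9, sqC10]
  ring

theorem sxQ9_eq (b : R) :
    (sqA0 b * sqA9 b + -18 * (sqA0 b * sqB9 b) + 74 * (sqA0 b * sqC9 b) + 18 * (sqB0 b * sqC9 b)
      + sqC0 b * sqC9 b) + (sqA1 b * sqA8 b + -18 * (sqA1 b * sqB8 b) + 74 * (sqA1 b * sqC8 b) +
      18 * (sqB1 b * sqC8 b) + sqC1 b * sqC8 b) + (sqA2 b * sqA7 b + -18 * (sqA2 b * sqB7 b) +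
      74 * (sqA2 b * sqC7 b) + 18 * (sqB2 b * sqC7 b) + sqC2 b * sqC7 b) + (sqA3 b * sqA6 b +
      -18 * (sqA3 b * sqB6 b) + 74 * (sqA3 b * sqC6 b) + 18 * (sqB3 b * sqC6 b) + sqC3 b * sqC6 b)
      + (sqA4 b * sqA5 b + -18 * (sqA4 b * sqB5 b) + 74 * (sqA4 b * sqC5 b) +
      18 * (sqB4 b * sqC5 b) + sqC4 b * sqC5 b) + (sqA5 b * sqA4 b + -18 * (sqA5 b * sqB4 b) +
      74 * (sqA5 b * sqC4 b) + 18 * (sqB5 b * sqC4 b) + sqC5 b * sqC4 b) + (sqA6 b * sqA3 b +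
      -18 * (sqA6 b * sqB3 b) + 74 * (sqA6 b * sqC3 b) + 18 * (sqB6 b * sqC3 b) + sqC6 b * sqC3 b)
      + (sqA7 b * sqA2 b + -18 * (sqA7 b * sqB2 b) + 74 * (sqA7 b * sqC2 b) +
      18 * (sqB7 b * sqC2 b) + sqC7 b * sqC2 b) + (sqA8 b * sqA1 b + -18 * (sqA8 b * sqB1 b) +
      74 * (sqA8 b * sqC1 b) + 18 * (sqB8 b * sqC1 b) + sqC8 b * sqC1 b) + (sqA9 b * sqA0 b +
      -18 * (sqA9 b * sqB0 b) + 74 * (sqA9 b * sqC0 b) + 18 * (sqB9 b * sqC0 b) + sqC9 b * sqC0 b) =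
      sxQ9 b := by
  simp only [sxQ9, sqA0, sqA1, sqA2, sqA3, sqA4, sqA5, sqA6, sqA7, sqA8, sqA9, sqA10,
    sqB0, sqB1, sqB2, sqB3, sqB4, sqB5, sqB6, sqB7, sqB8, sqB9, sqB10,
    sqC0, sqC1, sqC2, sqC3, sqC4, sqC5, sqC6, sqC7, sqC8, sqC9, sqC10]
  ring

theorem sxQ10_eq (b : R) :
    (sqA0 b * sqA10 b + -18 * (sqA0 b * sqB10 b) + 74 * (sqA0 b * sqC10 b) +
      18 * (sqB0 b * sqC10 b) + sqC0 b * sqC10 b) + (sqA1 b * sqA9 b + -18 * (sqA1 b * sqB9 b) +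
      74 * (sqA1 b * sqC9 b) + 18 * (sqB1 b * sqC9 b) + sqC1 b * sqC9 b) + (sqA2 b * sqA8 b +
      -18 * (sqA2 b * sqB8 b) + 74 * (sqA2 b * sqC8 b) + 18 * (sqB2 b * sqC8 b) + sqC2 b * sqC8 b)
      + (sqA3 b * sqA7 b + -18 * (sqA3 b * sqB7 b) + 74 * (sqA3 b * sqC7 b) +
      18 * (sqB3 b * sqC7 b) + sqC3 b * sqC7 b) + (sqA4 b * sqA6 b + -18 * (sqA4 b * sqB6 b) +
      74 * (sqA4 b * sqC6 b) + 18 * (sqB4 b * sqC6 b) + sqC4 b * sqC6 b) + (sqA5 b * sqA5 b +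
      -18 * (sqA5 b * sqB5 b) + 74 * (sqA5 b * sqC5 b) + 18 * (sqB5 b * sqC5 b) + sqC5 b * sqC5 b)
      + (sqA6 b * sqA4 b + -18 * (sqA6 b * sqB4 b) + 74 * (sqA6 b * sqC4 b) +
      18 * (sqB6 b * sqC4 b) + sqC6 b * sqC4 b) + (sqA7 b * sqA3 b + -18 * (sqA7 b * sqB3 b) +
      74 * (sqA7 b * sqC3 b) + 18 * (sqB7 b * sqC3 b) + sqC7 b * sqC3 b) + (sqA8 b * sqA2 b +
      -18 * (sqA8 b * sqB2 b) + 74 * (sqA8 b * sqC2 b) + 18 * (sqB8 b * sqC2 b) + sqC8 b * sqC2 b)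
      + (sqA9 b * sqA1 b + -18 * (sqA9 b * sqB1 b) + 74 * (sqA9 b * sqC1 b) +
      18 * (sqB9 b * sqC1 b) + sqC9 b * sqC1 b) + (sqA10 b * sqA0 b + -18 * (sqA10 b * sqB0 b) +
      74 * (sqA10 b * sqC0 b) + 18 * (sqB10 b * sqC0 b) + sqC10 b * sqC0 b) =
      sxQ10 b := by
  simp only [sxQ10, sqA0, sqA1, sqA2, sqA3, sqA4, sqA5, sqA6, sqA7, sqA8, sqA9, sqA10,
    sqB0, sqB1, sqB2, sqB3, sqB4, sqB5, sqB6, sqB7, sqB8, sqB9, sqB10,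
    sqC0, sqC1, sqC2, sqC3, sqC4, sqC5, sqC6, sqC7, sqC8, sqC9, sqC10]
  ring

theorem sxQ11_eq (b : R) :
    (sqA1 b * sqA10 b + -18 * (sqA1 b * sqB10 b) + 74 * (sqA1 b * sqC10 b) +
      18 * (sqB1 b * sqC10 b) + sqC1 b * sqC10 b) + (sqA2 b * sqA9 b + -18 * (sqA2 b * sqB9 b) +
      74 * (sqA2 b * sqC9 b) + 18 * (sqB2 b * sqC9 b) + sqC2 b * sqC9 b) + (sqA3 b * sqA8 b +
      -18 * (sqA3 b * sqB8 b) + 74 * (sqA3 b * sqC8 b) + 18 * (sqB3 b * sqC8 b) + sqC3 b * sqC8 b)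
      + (sqA4 b * sqA7 b + -18 * (sqA4 b * sqB7 b) + 74 * (sqA4 b * sqC7 b) +
      18 * (sqB4 b * sqC7 b) + sqC4 b * sqC7 b) + (sqA5 b * sqA6 b + -18 * (sqA5 b * sqB6 b) +
      74 * (sqA5 b * sqC6 b) + 18 * (sqB5 b * sqC6 b) + sqC5 b * sqC6 b) + (sqA6 b * sqA5 b +
      -18 * (sqA6 b * sqB5 b) + 74 * (sqA6 b * sqC5 b) + 18 * (sqB6 b * sqC5 b) + sqC6 b * sqC5 b)
      + (sqA7 b * sqA4 b + -18 * (sqA7 b * sqB4 b) + 74 * (sqA7 b * sqC4 b) +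
      18 * (sqB7 b * sqC4 b) + sqC7 b * sqC4 b) + (sqA8 b * sqA3 b + -18 * (sqA8 b * sqB3 b) +
      74 * (sqA8 b * sqC3 b) + 18 * (sqB8 b * sqC3 b) + sqC8 b * sqC3 b) + (sqA9 b * sqA2 b +
      -18 * (sqA9 b * sqB2 b) + 74 * (sqA9 b * sqC2 b) + 18 * (sqB9 b * sqC2 b) + sqC9 b * sqC2 b)
      + (sqA10 b * sqA1 b + -18 * (sqA10 b * sqB1 b) + 74 * (sqA10 b * sqC1 b) +
      18 * (sqB10 b * sqC1 b) + sqC10 b * sqC1 b) =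
      sxQ11 b := by
  simp only [sxQ11, sqA0, sqA1, sqA2, sqA3, sqA4, sqA5, sqA6, sqA7, sqA8, sqA9, sqA10,
    sqB0, sqB1, sqB2, sqB3, sqB4, sqB5, sqB6, sqB7, sqB8, sqB9, sqB10,
    sqC0, sqC1, sqC2, sqC3, sqC4, sqC5, sqC6, sqC7, sqC8, sqC9, sqC10]
  ring

theorem sxQ12_eq (b : R) :
    (sqA2 b * sqA10 b + -18 * (sqA2 b * sqB10 b) + 74 * (sqA2 b * sqC10 b) +
      18 * (sqB2 b * sqC10 b) + sqC2 b * sqC10 b) + (sqA3 b * sqA9 b + -18 * (sqA3 b * sqB9 b) +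
      74 * (sqA3 b * sqC9 b) + 18 * (sqB3 b * sqC9 b) + sqC3 b * sqC9 b) + (sqA4 b * sqA8 b +
      -18 * (sqA4 b * sqB8 b) + 74 * (sqA4 b * sqC8 b) + 18 * (sqB4 b * sqC8 b) + sqC4 b * sqC8 b)
      + (sqA5 b * sqA7 b + -18 * (sqA5 b * sqB7 b) + 74 * (sqA5 b * sqC7 b) +
      18 * (sqB5 b * sqC7 b) + sqC5 b * sqC7 b) + (sqA6 b * sqA6 b + -18 * (sqA6 b * sqB6 b) +
      74 * (sqA6 b * sqC6 b) + 18 * (sqB6 b * sqC6 b) + sqC6 b * sqC6 b) + (sqA7 b * sqA5 b +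
      -18 * (sqA7 b * sqB5 b) + 74 * (sqA7 b * sqC5 b) + 18 * (sqB7 b * sqC5 b) + sqC7 b * sqC5 b)
      + (sqA8 b * sqA4 b + -18 * (sqA8 b * sqB4 b) + 74 * (sqA8 b * sqC4 b) +
      18 * (sqB8 b * sqC4 b) + sqC8 b * sqC4 b) + (sqA9 b * sqA3 b + -18 * (sqA9 b * sqB3 b) +
      74 * (sqA9 b * sqC3 b) + 18 * (sqB9 b * sqC3 b) + sqC9 b * sqC3 b) + (sqA10 b * sqA2 b +
      -18 * (sqA10 b * sqB2 b) + 74 * (sqA10 b * sqC2 b) + 18 * (sqB10 b * sqC2 b) +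
      sqC10 b * sqC2 b) =
      sxQ12 b := by
  simp only [sxQ12, sqA0, sqA1, sqA2, sqA3, sqA4, sqA5, sqA6, sqA7, sqA8, sqA9, sqA10,
    sqB0, sqB1, sqB2, sqB3, sqB4, sqB5, sqB6, sqB7, sqB8, sqB9, sqB10,
    sqC0, sqC1, sqC2, sqC3, sqC4, sqC5, sqC6, sqC7, sqC8, sqC9, sqC10]
  ring

theorem sxQ13_eq (b : R) :
    (sqA3 b * sqA10 b + -18 * (sqA3 b * sqB10 b) + 74 * (sqA3 b * sqC10 b) +
      18 * (sqB3 b * sqC10 b) + sqC3 b * sqC10 b) + (sqA4 b * sqA9 b + -18 * (sqA4 b * sqB9 b) +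
      74 * (sqA4 b * sqC9 b) + 18 * (sqB4 b * sqC9 b) + sqC4 b * sqC9 b) + (sqA5 b * sqA8 b +
      -18 * (sqA5 b * sqB8 b) + 74 * (sqA5 b * sqC8 b) + 18 * (sqB5 b * sqC8 b) + sqC5 b * sqC8 b)
      + (sqA6 b * sqA7 b + -18 * (sqA6 b * sqB7 b) + 74 * (sqA6 b * sqC7 b) +
      18 * (sqB6 b * sqC7 b) + sqC6 b * sqC7 b) + (sqA7 b * sqA6 b + -18 * (sqA7 b * sqB6 b) +
      74 * (sqA7 b * sqC6 b) + 18 * (sqB7 b * sqC6 b) + sqC7 b * sqC6 b) + (sqA8 b * sqA5 b +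
      -18 * (sqA8 b * sqB5 b) + 74 * (sqA8 b * sqC5 b) + 18 * (sqB8 b * sqC5 b) + sqC8 b * sqC5 b)
      + (sqA9 b * sqA4 b + -18 * (sqA9 b * sqB4 b) + 74 * (sqA9 b * sqC4 b) +
      18 * (sqB9 b * sqC4 b) + sqC9 b * sqC4 b) + (sqA10 b * sqA3 b + -18 * (sqA10 b * sqB3 b) +
      74 * (sqA10 b * sqC3 b) + 18 * (sqB10 b * sqC3 b) + sqC10 b * sqC3 b) =
      sxQ13 b := by
  simp only [sxQ13, sqA0, sqA1, sqA2, sqA3, sqA4, sqA5, sqA6, sqA7, sqA8, sqA9, sqA10,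
    sqB0, sqB1, sqB2, sqB3, sqB4, sqB5, sqB6, sqB7, sqB8, sqB9, sqB10,
    sqC0, sqC1, sqC2, sqC3, sqC4, sqC5, sqC6, sqC7, sqC8, sqC9, sqC10]
  ring

theorem sxQ14_eq (b : R) :
    (sqA4 b * sqA10 b + -18 * (sqA4 b * sqB10 b) + 74 * (sqA4 b * sqC10 b) +
      18 * (sqB4 b * sqC10 b) + sqC4 b * sqC10 b) + (sqA5 b * sqA9 b + -18 * (sqA5 b * sqB9 b) +
      74 * (sqA5 b * sqC9 b) + 18 * (sqB5 b * sqC9 b) + sqC5 b * sqC9 b) + (sqA6 b * sqA8 b +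
      -18 * (sqA6 b * sqB8 b) + 74 * (sqA6 b * sqC8 b) + 18 * (sqB6 b * sqC8 b) + sqC6 b * sqC8 b)
      + (sqA7 b * sqA7 b + -18 * (sqA7 b * sqB7 b) + 74 * (sqA7 b * sqC7 b) +
      18 * (sqB7 b * sqC7 b) + sqC7 b * sqC7 b) + (sqA8 b * sqA6 b + -18 * (sqA8 b * sqB6 b) +
      74 * (sqA8 b * sqC6 b) + 18 * (sqB8 b * sqC6 b) + sqC8 b * sqC6 b) + (sqA9 b * sqA5 b +
      -18 * (sqA9 b * sqB5 b) + 74 * (sqA9 b * sqC5 b) + 18 * (sqB9 b * sqC5 b) + sqC9 b * sqC5 b)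
      + (sqA10 b * sqA4 b + -18 * (sqA10 b * sqB4 b) + 74 * (sqA10 b * sqC4 b) +
      18 * (sqB10 b * sqC4 b) + sqC10 b * sqC4 b) =
      sxQ14 b := by
  simp only [sxQ14, sqA0, sqA1, sqA2, sqA3, sqA4, sqA5, sqA6, sqA7, sqA8, sqA9, sqA10,
    sqB0, sqB1, sqB2, sqB3, sqB4, sqB5, sqB6, sqB7, sqB8, sqB9, sqB10,
    sqC0, sqC1, sqC2, sqC3, sqC4, sqC5, sqC6, sqC7, sqC8, sqC9, sqC10]
  ring

theorem sxQ15_eq (b : R) :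
    (sqA5 b * sqA10 b + -18 * (sqA5 b * sqB10 b) + 74 * (sqA5 b * sqC10 b) +
      18 * (sqB5 b * sqC10 b) + sqC5 b * sqC10 b) + (sqA6 b * sqA9 b + -18 * (sqA6 b * sqB9 b) +
      74 * (sqA6 b * sqC9 b) + 18 * (sqB6 b * sqC9 b) + sqC6 b * sqC9 b) + (sqA7 b * sqA8 b +
      -18 * (sqA7 b * sqB8 b) + 74 * (sqA7 b * sqC8 b) + 18 * (sqB7 b * sqC8 b) + sqC7 b * sqC8 b)
      + (sqA8 b * sqA7 b + -18 * (sqA8 b * sqB7 b) + 74 * (sqA8 b * sqC7 b) +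
      18 * (sqB8 b * sqC7 b) + sqC8 b * sqC7 b) + (sqA9 b * sqA6 b + -18 * (sqA9 b * sqB6 b) +
      74 * (sqA9 b * sqC6 b) + 18 * (sqB9 b * sqC6 b) + sqC9 b * sqC6 b) + (sqA10 b * sqA5 b +
      -18 * (sqA10 b * sqB5 b) + 74 * (sqA10 b * sqC5 b) + 18 * (sqB10 b * sqC5 b) +
      sqC10 b * sqC5 b) =
      sxQ15 b := by
  simp only [sxQ15, sqA0, sqA1, sqA2, sqA3, sqA4, sqA5, sqA6, sqA7, sqA8, sqA9, sqA10,
    sqB0, sqB1, sqB2, sqB3, sqB4, sqB5, sqB6, sqB7, sqB8, sqB9, sqB10,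
    sqC0, sqC1, sqC2, sqC3, sqC4, sqC5, sqC6, sqC7, sqC8, sqC9, sqC10]
  ring

theorem sxQ16_eq (b : R) :
    (sqA6 b * sqA10 b + -18 * (sqA6 b * sqB10 b) + 74 * (sqA6 b * sqC10 b) +
      18 * (sqB6 b * sqC10 b) + sqC6 b * sqC10 b) + (sqA7 b * sqA9 b + -18 * (sqA7 b * sqB9 b) +
      74 * (sqA7 b * sqC9 b) + 18 * (sqB7 b * sqC9 b) + sqC7 b * sqC9 b) + (sqA8 b * sqA8 b +
      -18 * (sqA8 b * sqB8 b) + 74 * (sqA8 b * sqC8 b) + 18 * (sqB8 b * sqC8 b) + sqC8 b * sqC8 b)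
      + (sqA9 b * sqA7 b + -18 * (sqA9 b * sqB7 b) + 74 * (sqA9 b * sqC7 b) +
      18 * (sqB9 b * sqC7 b) + sqC9 b * sqC7 b) + (sqA10 b * sqA6 b + -18 * (sqA10 b * sqB6 b) +
      74 * (sqA10 b * sqC6 b) + 18 * (sqB10 b * sqC6 b) + sqC10 b * sqC6 b) =
      sxQ16 b := by
  simp only [sxQ16, sqA0, sqA1, sqA2, sqA3, sqA4, sqA5, sqA6, sqA7, sqA8, sqA9, sqA10,
    sqB0, sqB1, sqB2, sqB3, sqB4, sqB5, sqB6, sqB7, sqB8, sqB9, sqB10,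
    sqC0, sqC1, sqC2, sqC3, sqC4, sqC5, sqC6, sqC7, sqC8, sqC9, sqC10]
  ring

theorem sxQ17_eq (b : R) :
    (sqA7 b * sqA10 b + -18 * (sqA7 b * sqB10 b) + 74 * (sqA7 b * sqC10 b) +
      18 * (sqB7 b * sqC10 b) + sqC7 b * sqC10 b) + (sqA8 b * sqA9 b + -18 * (sqA8 b * sqB9 b) +
      74 * (sqA8 b * sqC9 b) + 18 * (sqB8 b * sqC9 b) + sqC8 b * sqC9 b) + (sqA9 b * sqA8 b +
      -18 * (sqA9 b * sqB8 b) + 74 * (sqA9 b * sqC8 b) + 18 * (sqB9 b * sqC8 b) + sqC9 b * sqC8 b)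
      + (sqA10 b * sqA7 b + -18 * (sqA10 b * sqB7 b) + 74 * (sqA10 b * sqC7 b) +
      18 * (sqB10 b * sqC7 b) + sqC10 b * sqC7 b) =
      sxQ17 b := by
  simp only [sxQ17, sqA0, sqA1, sqA2, sqA3, sqA4, sqA5, sqA6, sqA7, sqA8, sqA9, sqA10,
    sqB0, sqB1, sqB2, sqB3, sqB4, sqB5, sqB6, sqB7, sqB8, sqB9, sqB10,
    sqC0, sqC1, sqC2, sqC3, sqC4, sqC5, sqC6, sqC7, sqC8, sqC9, sqC10]
  ring

theorem sxQ18_eq (b : R) :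
    (sqA8 b * sqA10 b + -18 * (sqA8 b * sqB10 b) + 74 * (sqA8 b * sqC10 b) +
      18 * (sqB8 b * sqC10 b) + sqC8 b * sqC10 b) + (sqA9 b * sqA9 b + -18 * (sqA9 b * sqB9 b) +
      74 * (sqA9 b * sqC9 b) + 18 * (sqB9 b * sqC9 b) + sqC9 b * sqC9 b) + (sqA10 b * sqA8 b +
      -18 * (sqA10 b * sqB8 b) + 74 * (sqA10 b * sqC8 b) + 18 * (sqB10 b * sqC8 b) +
      sqC10 b * sqC8 b) =
      sxQ18 b := by
  simp only [sxQ18, sqA0, sqA1, sqA2, sqA3, sqA4, sqA5, sqA6, sqA7, sqA8, sqA9, sqA10,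
    sqB0, sqB1, sqB2, sqB3, sqB4, sqB5, sqB6, sqB7, sqB8, sqB9, sqB10,
    sqC0, sqC1, sqC2, sqC3, sqC4, sqC5, sqC6, sqC7, sqC8, sqC9, sqC10]
  ring

theorem sxQ19_eq (b : R) :
    (sqA9 b * sqA10 b + -18 * (sqA9 b * sqB10 b) + 74 * (sqA9 b * sqC10 b) +
      18 * (sqB9 b * sqC10 b) + sqC9 b * sqC10 b) + (sqA10 b * sqA9 b + -18 * (sqA10 b * sqB9 b)
      + 74 * (sqA10 b * sqC9 b) + 18 * (sqB10 b * sqC9 b) + sqC10 b * sqC9 b) =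
      sxQ19 b := by
  simp only [sxQ19, sqA0, sqA1, sqA2, sqA3, sqA4, sqA5, sqA6, sqA7, sqA8, sqA9, sqA10,
    sqB0, sqB1, sqB2, sqB3, sqB4, sqB5, sqB6, sqB7, sqB8, sqB9, sqB10,
    sqC0, sqC1, sqC2, sqC3, sqC4, sqC5, sqC6, sqC7, sqC8, sqC9, sqC10]
  ring

theorem sxQ20_eq (b : R) :
    (sqA10 b * sqA10 b + -18 * (sqA10 b * sqB10 b) + 74 * (sqA10 b * sqC10 b) +
      18 * (sqB10 b * sqC10 b) + sqC10 b * sqC10 b) =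
      sxQ20 b := by
  simp only [sxQ20, sqA0, sqA1, sqA2, sqA3, sqA4, sqA5, sqA6, sqA7, sqA8, sqA9, sqA10,
    sqB0, sqB1, sqB2, sqB3, sqB4, sqB5, sqB6, sqB7, sqB8, sqB9, sqB10,
    sqC0, sqC1, sqC2, sqC3, sqC4, sqC5, sqC6, sqC7, sqC8, sqC9, sqC10]
  ring

theorem prod_conv6 (s0 s1 s2 s3 s4 s5 s6 s7 s8 s9 s10 q0 q1 q2 q3 q4 q5 q6 q7 q8 q9 q10 q11 q12 q13 q14 q15 q16 q17 q18 q19 q20 τ : R) :
    -((s0 + s1 * τ + s2 * τ ^ 2 + s3 * τ ^ 3 + s4 * τ ^ 4 + s5 * τ ^ 5 + s6 * τ ^ 6 + s7 * τ ^ 7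
      + s8 * τ ^ 8 + s9 * τ ^ 9 + s10 * τ ^ 10) * (q0 + q1 * τ + q2 * τ ^ 2 + q3 * τ ^ 3 +
      q4 * τ ^ 4 + q5 * τ ^ 5 + q6 * τ ^ 6 + q7 * τ ^ 7 + q8 * τ ^ 8 + q9 * τ ^ 9 + q10 * τ ^ 10
      + q11 * τ ^ 11 + q12 * τ ^ 12 + q13 * τ ^ 13 + q14 * τ ^ 14 + q15 * τ ^ 15 + q16 * τ ^ 16 +
      q17 * τ ^ 17 + q18 * τ ^ 18 + q19 * τ ^ 19 + q20 * τ ^ 20)) =
      (-(s0 * q0)) + (-(s0 * q1 + s1 * q0)) * τ + (-(s0 * q2 + s1 * q1 + s2 * q0)) * τ ^ 2 +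
        (-(s0 * q3 + s1 * q2 + s2 * q1 + s3 * q0)) * τ ^ 3 + (-(s0 * q4 + s1 * q3 + s2 * q2 +
        s3 * q1 + s4 * q0)) * τ ^ 4 + (-(s0 * q5 + s1 * q4 + s2 * q3 + s3 * q2 + s4 * q1 +
        s5 * q0)) * τ ^ 5 + (-(s0 * q6 + s1 * q5 + s2 * q4 + s3 * q3 + s4 * q2 + s5 * q1 +
        s6 * q0)) * τ ^ 6 + (-(s0 * q7 + s1 * q6 + s2 * q5 + s3 * q4 + s4 * q3 + s5 * q2 + s6 * q1
        + s7 * q0)) * τ ^ 7 + (-(s0 * q8 + s1 * q7 + s2 * q6 + s3 * q5 + s4 * q4 + s5 * q3 +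
        s6 * q2 + s7 * q1 + s8 * q0)) * τ ^ 8 + (-(s0 * q9 + s1 * q8 + s2 * q7 + s3 * q6 + s4 * q5
        + s5 * q4 + s6 * q3 + s7 * q2 + s8 * q1 + s9 * q0)) * τ ^ 9 + (-(s0 * q10 + s1 * q9 +
        s2 * q8 + s3 * q7 + s4 * q6 + s5 * q5 + s6 * q4 + s7 * q3 + s8 * q2 + s9 * q1 +
        s10 * q0)) * τ ^ 10 + (-(s0 * q11 + s1 * q10 + s2 * q9 + s3 * q8 + s4 * q7 + s5 * q6 +
        s6 * q5 + s7 * q4 + s8 * q3 + s9 * q2 + s10 * q1)) * τ ^ 11 + (-(s0 * q12 + s1 * q11 +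
        s2 * q10 + s3 * q9 + s4 * q8 + s5 * q7 + s6 * q6 + s7 * q5 + s8 * q4 + s9 * q3 +
        s10 * q2)) * τ ^ 12 + (-(s0 * q13 + s1 * q12 + s2 * q11 + s3 * q10 + s4 * q9 + s5 * q8 +
        s6 * q7 + s7 * q6 + s8 * q5 + s9 * q4 + s10 * q3)) * τ ^ 13 + (-(s0 * q14 + s1 * q13 +
        s2 * q12 + s3 * q11 + s4 * q10 + s5 * q9 + s6 * q8 + s7 * q7 + s8 * q6 + s9 * q5 +
        s10 * q4)) * τ ^ 14 + (-(s0 * q15 + s1 * q14 + s2 * q13 + s3 * q12 + s4 * q11 + s5 * q10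
        + s6 * q9 + s7 * q8 + s8 * q7 + s9 * q6 + s10 * q5)) * τ ^ 15 + (-(s0 * q16 + s1 * q15 +
        s2 * q14 + s3 * q13 + s4 * q12 + s5 * q11 + s6 * q10 + s7 * q9 + s8 * q8 + s9 * q7 +
        s10 * q6)) * τ ^ 16 + (-(s0 * q17 + s1 * q16 + s2 * q15 + s3 * q14 + s4 * q13 + s5 * q12
        + s6 * q11 + s7 * q10 + s8 * q9 + s9 * q8 + s10 * q7)) * τ ^ 17 + (-(s0 * q18 + s1 * q17
        + s2 * q16 + s3 * q15 + s4 * q14 + s5 * q13 + s6 * q12 + s7 * q11 + s8 * q10 + s9 * q9 +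
        s10 * q8)) * τ ^ 18 + (-(s0 * q19 + s1 * q18 + s2 * q17 + s3 * q16 + s4 * q15 + s5 * q14
        + s6 * q13 + s7 * q12 + s8 * q11 + s9 * q10 + s10 * q9)) * τ ^ 19 + (-(s0 * q20 + s1 * q19
        + s2 * q18 + s3 * q17 + s4 * q16 + s5 * q15 + s6 * q14 + s7 * q13 + s8 * q12 + s9 * q11 +
        s10 * q10)) * τ ^ 20 + (-(s1 * q20 + s2 * q19 + s3 * q18 + s4 * q17 + s5 * q16 + s6 * q15
        + s7 * q14 + s8 * q13 + s9 * q12 + s10 * q11)) * τ ^ 21 + (-(s2 * q20 + s3 * q19 +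
        s4 * q18 + s5 * q17 + s6 * q16 + s7 * q15 + s8 * q14 + s9 * q13 + s10 * q12)) * τ ^ 22 +
        (-(s3 * q20 + s4 * q19 + s5 * q18 + s6 * q17 + s7 * q16 + s8 * q15 + s9 * q14 +
        s10 * q13)) * τ ^ 23 + (-(s4 * q20 + s5 * q19 + s6 * q18 + s7 * q17 + s8 * q16 + s9 * q15
        + s10 * q14)) * τ ^ 24 + (-(s5 * q20 + s6 * q19 + s7 * q18 + s8 * q17 + s9 * q16 +
        s10 * q15)) * τ ^ 25 + (-(s6 * q20 + s7 * q19 + s8 * q18 + s9 * q17 + s10 * q16)) * τ ^ 26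
        + (-(s7 * q20 + s8 * q19 + s9 * q18 + s10 * q17)) * τ ^ 27 + (-(s8 * q20 + s9 * q19 +
        s10 * q18)) * τ ^ 28 + (-(s9 * q20 + s10 * q19)) * τ ^ 29 + (-(s10 * q20)) * τ ^ 30 := by
  ring

theorem famC6c0_tnf (b : R) :
    famC6c0 (tC4 b) (tC6 b) =
      -((sqA0 b + sqC0 b) * sxQ0 b) := by
  simp only [famC6c0, tC4, tC6, sqA0, sqA1, sqA2, sqA3, sqA4, sqA5, sqA6, sqA7, sqA8, sqA9, sqA10,
    sqC0, sqC1, sqC2, sqC3, sqC4, sqC5, sqC6, sqC7, sqC8, sqC9, sqC10,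
    sxQ0, sxQ1, sxQ2, sxQ3, sxQ4, sxQ5, sxQ6, sxQ7, sxQ8, sxQ9, sxQ10, sxQ11, sxQ12, sxQ13, sxQ14, sxQ15, sxQ16, sxQ17, sxQ18, sxQ19, sxQ20]
  ring

theorem famC6c1_tnf (b : R) :
    famC6c1 (tC4 b) (tC6 b) =
      -((sqA0 b + sqC0 b) * sxQ1 b + (sqA1 b + sqC1 b) * sxQ0 b) := by
  simp only [famC6c1, tC4, tC6, sqA0, sqA1, sqA2, sqA3, sqA4, sqA5, sqA6, sqA7, sqA8, sqA9, sqA10,
    sqC0, sqC1, sqC2, sqC3, sqC4, sqC5, sqC6, sqC7, sqC8, sqC9, sqC10,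
    sxQ0, sxQ1, sxQ2, sxQ3, sxQ4, sxQ5, sxQ6, sxQ7, sxQ8, sxQ9, sxQ10, sxQ11, sxQ12, sxQ13, sxQ14, sxQ15, sxQ16, sxQ17, sxQ18, sxQ19, sxQ20]
  ring

theorem famC6c2_tnf (b : R) :
    famC6c2 (tC4 b) (tC6 b) =
      -((sqA0 b + sqC0 b) * sxQ2 b + (sqA1 b + sqC1 b) * sxQ1 b + (sqA2 b + sqC2 b) * sxQ0 b) := by
  simp only [famC6c2, tC4, tC6, sqA0, sqA1, sqA2, sqA3, sqA4, sqA5, sqA6, sqA7, sqA8, sqA9, sqA10,
    sqC0, sqC1, sqC2, sqC3, sqC4, sqC5, sqC6, sqC7, sqC8, sqC9, sqC10,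
    sxQ0, sxQ1, sxQ2, sxQ3, sxQ4, sxQ5, sxQ6, sxQ7, sxQ8, sxQ9, sxQ10, sxQ11, sxQ12, sxQ13, sxQ14, sxQ15, sxQ16, sxQ17, sxQ18, sxQ19, sxQ20]
  ring

theorem famC6c3_tnf (b : R) :
    famC6c3 (tC4 b) (tC6 b) =
      -((sqA0 b + sqC0 b) * sxQ3 b + (sqA1 b + sqC1 b) * sxQ2 b + (sqA2 b + sqC2 b) * sxQ1 b +
        (sqA3 b + sqC3 b) * sxQ0 b) := by
  simp only [famC6c3, tC4, tC6, sqA0, sqA1, sqA2, sqA3, sqA4, sqA5, sqA6, sqA7, sqA8, sqA9, sqA10,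
    sqC0, sqC1, sqC2, sqC3, sqC4, sqC5, sqC6, sqC7, sqC8, sqC9, sqC10,
    sxQ0, sxQ1, sxQ2, sxQ3, sxQ4, sxQ5, sxQ6, sxQ7, sxQ8, sxQ9, sxQ10, sxQ11, sxQ12, sxQ13, sxQ14, sxQ15, sxQ16, sxQ17, sxQ18, sxQ19, sxQ20]
  ring

theorem famC6c4_tnf (b : R) :
    famC6c4 (tC4 b) (tC6 b) =
      -((sqA0 b + sqC0 b) * sxQ4 b + (sqA1 b + sqC1 b) * sxQ3 b + (sqA2 b + sqC2 b) * sxQ2 b +
        (sqA3 b + sqC3 b) * sxQ1 b + (sqA4 b + sqC4 b) * sxQ0 b) := by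
  simp only [famC6c4, tC4, tC6, sqA0, sqA1, sqA2, sqA3, sqA4, sqA5, sqA6, sqA7, sqA8, sqA9, sqA10,
    sqC0, sqC1, sqC2, sqC3, sqC4, sqC5, sqC6, sqC7, sqC8, sqC9, sqC10,
    sxQ0, sxQ1, sxQ2, sxQ3, sxQ4, sxQ5, sxQ6, sxQ7, sxQ8, sxQ9, sxQ10, sxQ11, sxQ12, sxQ13, sxQ14, sxQ15, sxQ16, sxQ17, sxQ18, sxQ19, sxQ20]
  ring

theorem famC6c5_tnf (b : R) :
    famC6c5 (tC4 b) (tC6 b) =
      -((sqA0 b + sqC0 b) * sxQ5 b + (sqA1 b + sqC1 b) * sxQ4 b + (sqA2 b + sqC2 b) * sxQ3 b +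
        (sqA3 b + sqC3 b) * sxQ2 b + (sqA4 b + sqC4 b) * sxQ1 b + (sqA5 b + sqC5 b) * sxQ0 b) := by
  simp only [famC6c5, tC4, tC6, sqA0, sqA1, sqA2, sqA3, sqA4, sqA5, sqA6, sqA7, sqA8, sqA9, sqA10,
    sqC0, sqC1, sqC2, sqC3, sqC4, sqC5, sqC6, sqC7, sqC8, sqC9, sqC10,
    sxQ0, sxQ1, sxQ2, sxQ3, sxQ4, sxQ5, sxQ6, sxQ7, sxQ8, sxQ9, sxQ10, sxQ11, sxQ12, sxQ13, sxQ14, sxQ15, sxQ16, sxQ17, sxQ18, sxQ19, sxQ20]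
  ring

theorem famC6c6_tnf (b : R) :
    famC6c6 (tC4 b) (tC6 b) =
      -((sqA0 b + sqC0 b) * sxQ6 b + (sqA1 b + sqC1 b) * sxQ5 b + (sqA2 b + sqC2 b) * sxQ4 b +
        (sqA3 b + sqC3 b) * sxQ3 b + (sqA4 b + sqC4 b) * sxQ2 b + (sqA5 b + sqC5 b) * sxQ1 b +
        (sqA6 b + sqC6 b) * sxQ0 b) := by
  simp only [famC6c6, tC4, tC6, sqA0, sqA1, sqA2, sqA3, sqA4, sqA5, sqA6, sqA7, sqA8, sqA9, sqA10,
    sqC0, sqC1, sqC2, sqC3, sqC4, sqC5, sqC6, sqC7, sqC8, sqC9, sqC10,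
    sxQ0, sxQ1, sxQ2, sxQ3, sxQ4, sxQ5, sxQ6, sxQ7, sxQ8, sxQ9, sxQ10, sxQ11, sxQ12, sxQ13, sxQ14, sxQ15, sxQ16, sxQ17, sxQ18, sxQ19, sxQ20]
  ring

theorem famC6c7_tnf (b : R) :
    famC6c7 (tC4 b) (tC6 b) =
      -((sqA0 b + sqC0 b) * sxQ7 b + (sqA1 b + sqC1 b) * sxQ6 b + (sqA2 b + sqC2 b) * sxQ5 b +
        (sqA3 b + sqC3 b) * sxQ4 b + (sqA4 b + sqC4 b) * sxQ3 b + (sqA5 b + sqC5 b) * sxQ2 b +
        (sqA6 b + sqC6 b) * sxQ1 b + (sqA7 b + sqC7 b) * sxQ0 b) := by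
  simp only [famC6c7, tC4, tC6, sqA0, sqA1, sqA2, sqA3, sqA4, sqA5, sqA6, sqA7, sqA8, sqA9, sqA10,
    sqC0, sqC1, sqC2, sqC3, sqC4, sqC5, sqC6, sqC7, sqC8, sqC9, sqC10,
    sxQ0, sxQ1, sxQ2, sxQ3, sxQ4, sxQ5, sxQ6, sxQ7, sxQ8, sxQ9, sxQ10, sxQ11, sxQ12, sxQ13, sxQ14, sxQ15, sxQ16, sxQ17, sxQ18, sxQ19, sxQ20]
  ring

theorem famC6c8_tnf (b : R) :
    famC6c8 (tC4 b) (tC6 b) =
      -((sqA0 b + sqC0 b) * sxQ8 b + (sqA1 b + sqC1 b) * sxQ7 b + (sqA2 b + sqC2 b) * sxQ6 b +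
        (sqA3 b + sqC3 b) * sxQ5 b + (sqA4 b + sqC4 b) * sxQ4 b + (sqA5 b + sqC5 b) * sxQ3 b +
        (sqA6 b + sqC6 b) * sxQ2 b + (sqA7 b + sqC7 b) * sxQ1 b + (sqA8 b + sqC8 b) * sxQ0 b) := by
  simp only [famC6c8, tC4, tC6, sqA0, sqA1, sqA2, sqA3, sqA4, sqA5, sqA6, sqA7, sqA8, sqA9, sqA10,
    sqC0, sqC1, sqC2, sqC3, sqC4, sqC5, sqC6, sqC7, sqC8, sqC9, sqC10,
    sxQ0, sxQ1, sxQ2, sxQ3, sxQ4, sxQ5, sxQ6, sxQ7, sxQ8, sxQ9, sxQ10, sxQ11, sxQ12, sxQ13, sxQ14, sxQ15, sxQ16, sxQ17, sxQ18, sxQ19, sxQ20]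
  ring

theorem famC6c9_tnf (b : R) :
    famC6c9 (tC4 b) (tC6 b) =
      -((sqA0 b + sqC0 b) * sxQ9 b + (sqA1 b + sqC1 b) * sxQ8 b + (sqA2 b + sqC2 b) * sxQ7 b +
        (sqA3 b + sqC3 b) * sxQ6 b + (sqA4 b + sqC4 b) * sxQ5 b + (sqA5 b + sqC5 b) * sxQ4 b +
        (sqA6 b + sqC6 b) * sxQ3 b + (sqA7 b + sqC7 b) * sxQ2 b + (sqA8 b + sqC8 b) * sxQ1 b +
        (sqA9 b + sqC9 b) * sxQ0 b) := by
  simp only [famC6c9, tC4, tC6, sqA0, sqA1, sqA2, sqA3, sqA4, sqA5, sqA6, sqA7, sqA8, sqA9, sqA10,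
    sqC0, sqC1, sqC2, sqC3, sqC4, sqC5, sqC6, sqC7, sqC8, sqC9, sqC10,
    sxQ0, sxQ1, sxQ2, sxQ3, sxQ4, sxQ5, sxQ6, sxQ7, sxQ8, sxQ9, sxQ10, sxQ11, sxQ12, sxQ13, sxQ14, sxQ15, sxQ16, sxQ17, sxQ18, sxQ19, sxQ20]
  ring

theorem famC6c10_tnf (b : R) :
    famC6c10 (tC4 b) (tC6 b) =
      -((sqA0 b + sqC0 b) * sxQ10 b + (sqA1 b + sqC1 b) * sxQ9 b + (sqA2 b + sqC2 b) * sxQ8 b +
        (sqA3 b + sqC3 b) * sxQ7 b + (sqA4 b + sqC4 b) * sxQ6 b + (sqA5 b + sqC5 b) * sxQ5 b +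
        (sqA6 b + sqC6 b) * sxQ4 b + (sqA7 b + sqC7 b) * sxQ3 b + (sqA8 b + sqC8 b) * sxQ2 b +
        (sqA9 b + sqC9 b) * sxQ1 b + (sqA10 b + sqC10 b) * sxQ0 b) := by
  simp only [famC6c10, tC4, tC6, sqA0, sqA1, sqA2, sqA3, sqA4, sqA5, sqA6, sqA7, sqA8, sqA9, sqA10,
    sqC0, sqC1, sqC2, sqC3, sqC4, sqC5, sqC6, sqC7, sqC8, sqC9, sqC10,
    sxQ0, sxQ1, sxQ2, sxQ3, sxQ4, sxQ5, sxQ6, sxQ7, sxQ8, sxQ9, sxQ10, sxQ11, sxQ12, sxQ13, sxQ14, sxQ15, sxQ16, sxQ17, sxQ18, sxQ19, sxQ20]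
  ring

theorem famC6c11_tnf (b : R) :
    famC6c11 (tC4 b) (tC6 b) =
      -((sqA0 b + sqC0 b) * sxQ11 b + (sqA1 b + sqC1 b) * sxQ10 b + (sqA2 b + sqC2 b) * sxQ9 b +
        (sqA3 b + sqC3 b) * sxQ8 b + (sqA4 b + sqC4 b) * sxQ7 b + (sqA5 b + sqC5 b) * sxQ6 b +
        (sqA6 b + sqC6 b) * sxQ5 b + (sqA7 b + sqC7 b) * sxQ4 b + (sqA8 b + sqC8 b) * sxQ3 b +
        (sqA9 b + sqC9 b) * sxQ2 b + (sqA10 b + sqC10 b) * sxQ1 b) := by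
  simp only [famC6c11, tC4, tC6, sqA0, sqA1, sqA2, sqA3, sqA4, sqA5, sqA6, sqA7, sqA8, sqA9, sqA10,
    sqC0, sqC1, sqC2, sqC3, sqC4, sqC5, sqC6, sqC7, sqC8, sqC9, sqC10,
    sxQ0, sxQ1, sxQ2, sxQ3, sxQ4, sxQ5, sxQ6, sxQ7, sxQ8, sxQ9, sxQ10, sxQ11, sxQ12, sxQ13, sxQ14, sxQ15, sxQ16, sxQ17, sxQ18, sxQ19, sxQ20]
  ring

theorem famC6c12_tnf (b : R) :
    famC6c12 (tC4 b) (tC6 b) =
      -((sqA0 b + sqC0 b) * sxQ12 b + (sqA1 b + sqC1 b) * sxQ11 b + (sqA2 b + sqC2 b) * sxQ10 b +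
        (sqA3 b + sqC3 b) * sxQ9 b + (sqA4 b + sqC4 b) * sxQ8 b + (sqA5 b + sqC5 b) * sxQ7 b +
        (sqA6 b + sqC6 b) * sxQ6 b + (sqA7 b + sqC7 b) * sxQ5 b + (sqA8 b + sqC8 b) * sxQ4 b +
        (sqA9 b + sqC9 b) * sxQ3 b + (sqA10 b + sqC10 b) * sxQ2 b) := by
  simp only [famC6c12, tC4, tC6, sqA0, sqA1, sqA2, sqA3, sqA4, sqA5, sqA6, sqA7, sqA8, sqA9, sqA10,
    sqC0, sqC1, sqC2, sqC3, sqC4, sqC5, sqC6, sqC7, sqC8, sqC9, sqC10,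
    sxQ0, sxQ1, sxQ2, sxQ3, sxQ4, sxQ5, sxQ6, sxQ7, sxQ8, sxQ9, sxQ10, sxQ11, sxQ12, sxQ13, sxQ14, sxQ15, sxQ16, sxQ17, sxQ18, sxQ19, sxQ20]
  ring

theorem famC6c13_tnf (b : R) :
    famC6c13 (tC4 b) (tC6 b) =
      -((sqA0 b + sqC0 b) * sxQ13 b + (sqA1 b + sqC1 b) * sxQ12 b + (sqA2 b + sqC2 b) * sxQ11 b +
        (sqA3 b + sqC3 b) * sxQ10 b + (sqA4 b + sqC4 b) * sxQ9 b + (sqA5 b + sqC5 b) * sxQ8 b +
        (sqA6 b + sqC6 b) * sxQ7 b + (sqA7 b + sqC7 b) * sxQ6 b + (sqA8 b + sqC8 b) * sxQ5 b +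
        (sqA9 b + sqC9 b) * sxQ4 b + (sqA10 b + sqC10 b) * sxQ3 b) := by
  simp only [famC6c13, tC4, tC6, sqA0, sqA1, sqA2, sqA3, sqA4, sqA5, sqA6, sqA7, sqA8, sqA9, sqA10,
    sqC0, sqC1, sqC2, sqC3, sqC4, sqC5, sqC6, sqC7, sqC8, sqC9, sqC10,
    sxQ0, sxQ1, sxQ2, sxQ3, sxQ4, sxQ5, sxQ6, sxQ7, sxQ8, sxQ9, sxQ10, sxQ11, sxQ12, sxQ13, sxQ14, sxQ15, sxQ16, sxQ17, sxQ18, sxQ19, sxQ20]
  ring

theorem famC6c14_tnf (b : R) :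
    famC6c14 (tC4 b) (tC6 b) =
      -((sqA0 b + sqC0 b) * sxQ14 b + (sqA1 b + sqC1 b) * sxQ13 b + (sqA2 b + sqC2 b) * sxQ12 b +
        (sqA3 b + sqC3 b) * sxQ11 b + (sqA4 b + sqC4 b) * sxQ10 b + (sqA5 b + sqC5 b) * sxQ9 b +
        (sqA6 b + sqC6 b) * sxQ8 b + (sqA7 b + sqC7 b) * sxQ7 b + (sqA8 b + sqC8 b) * sxQ6 b +
        (sqA9 b + sqC9 b) * sxQ5 b + (sqA10 b + sqC10 b) * sxQ4 b) := by
  simp only [famC6c14, tC4, tC6, sqA0, sqA1, sqA2, sqA3, sqA4, sqA5, sqA6, sqA7, sqA8, sqA9, sqA10,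
    sqC0, sqC1, sqC2, sqC3, sqC4, sqC5, sqC6, sqC7, sqC8, sqC9, sqC10,
    sxQ0, sxQ1, sxQ2, sxQ3, sxQ4, sxQ5, sxQ6, sxQ7, sxQ8, sxQ9, sxQ10, sxQ11, sxQ12, sxQ13, sxQ14, sxQ15, sxQ16, sxQ17, sxQ18, sxQ19, sxQ20]
  ring

theorem famC6c15_tnf (b : R) :
    famC6c15 (tC4 b) (tC6 b) =
      -((sqA0 b + sqC0 b) * sxQ15 b + (sqA1 b + sqC1 b) * sxQ14 b + (sqA2 b + sqC2 b) * sxQ13 b +
        (sqA3 b + sqC3 b) * sxQ12 b + (sqA4 b + sqC4 b) * sxQ11 b + (sqA5 b + sqC5 b) * sxQ10 b +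
        (sqA6 b + sqC6 b) * sxQ9 b + (sqA7 b + sqC7 b) * sxQ8 b + (sqA8 b + sqC8 b) * sxQ7 b +
        (sqA9 b + sqC9 b) * sxQ6 b + (sqA10 b + sqC10 b) * sxQ5 b) := by
  simp only [famC6c15, tC4, tC6, sqA0, sqA1, sqA2, sqA3, sqA4, sqA5, sqA6, sqA7, sqA8, sqA9, sqA10,
    sqC0, sqC1, sqC2, sqC3, sqC4, sqC5, sqC6, sqC7, sqC8, sqC9, sqC10,
    sxQ0, sxQ1, sxQ2, sxQ3, sxQ4, sxQ5, sxQ6, sxQ7, sxQ8, sxQ9, sxQ10, sxQ11, sxQ12, sxQ13, sxQ14, sxQ15, sxQ16, sxQ17, sxQ18, sxQ19, sxQ20]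
  ring

theorem famC6c16_tnf (b : R) :
    famC6c16 (tC4 b) (tC6 b) =
      -((sqA0 b + sqC0 b) * sxQ16 b + (sqA1 b + sqC1 b) * sxQ15 b + (sqA2 b + sqC2 b) * sxQ14 b +
        (sqA3 b + sqC3 b) * sxQ13 b + (sqA4 b + sqC4 b) * sxQ12 b + (sqA5 b + sqC5 b) * sxQ11 b +
        (sqA6 b + sqC6 b) * sxQ10 b + (sqA7 b + sqC7 b) * sxQ9 b + (sqA8 b + sqC8 b) * sxQ8 b +
        (sqA9 b + sqC9 b) * sxQ7 b + (sqA10 b + sqC10 b) * sxQ6 b) := by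
  simp only [famC6c16, tC4, tC6, sqA0, sqA1, sqA2, sqA3, sqA4, sqA5, sqA6, sqA7, sqA8, sqA9, sqA10,
    sqC0, sqC1, sqC2, sqC3, sqC4, sqC5, sqC6, sqC7, sqC8, sqC9, sqC10,
    sxQ0, sxQ1, sxQ2, sxQ3, sxQ4, sxQ5, sxQ6, sxQ7, sxQ8, sxQ9, sxQ10, sxQ11, sxQ12, sxQ13, sxQ14, sxQ15, sxQ16, sxQ17, sxQ18, sxQ19, sxQ20]
  ring

theorem famC6c17_tnf (b : R) :
    famC6c17 (tC4 b) (tC6 b) =
      -((sqA0 b + sqC0 b) * sxQ17 b + (sqA1 b + sqC1 b) * sxQ16 b + (sqA2 b + sqC2 b) * sxQ15 b +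
        (sqA3 b + sqC3 b) * sxQ14 b + (sqA4 b + sqC4 b) * sxQ13 b + (sqA5 b + sqC5 b) * sxQ12 b +
        (sqA6 b + sqC6 b) * sxQ11 b + (sqA7 b + sqC7 b) * sxQ10 b + (sqA8 b + sqC8 b) * sxQ9 b +
        (sqA9 b + sqC9 b) * sxQ8 b + (sqA10 b + sqC10 b) * sxQ7 b) := by
  simp only [famC6c17, tC4, tC6, sqA0, sqA1, sqA2, sqA3, sqA4, sqA5, sqA6, sqA7, sqA8, sqA9, sqA10,
    sqC0, sqC1, sqC2, sqC3, sqC4, sqC5, sqC6, sqC7, sqC8, sqC9, sqC10,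
    sxQ0, sxQ1, sxQ2, sxQ3, sxQ4, sxQ5, sxQ6, sxQ7, sxQ8, sxQ9, sxQ10, sxQ11, sxQ12, sxQ13, sxQ14, sxQ15, sxQ16, sxQ17, sxQ18, sxQ19, sxQ20]
  ring

theorem famC6c18_tnf (b : R) :
    famC6c18 (tC4 b) (tC6 b) =
      -((sqA0 b + sqC0 b) * sxQ18 b + (sqA1 b + sqC1 b) * sxQ17 b + (sqA2 b + sqC2 b) * sxQ16 b +
        (sqA3 b + sqC3 b) * sxQ15 b + (sqA4 b + sqC4 b) * sxQ14 b + (sqA5 b + sqC5 b) * sxQ13 b +
        (sqA6 b + sqC6 b) * sxQ12 b + (sqA7 b + sqC7 b) * sxQ11 b + (sqA8 b + sqC8 b) * sxQ10 b +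
        (sqA9 b + sqC9 b) * sxQ9 b + (sqA10 b + sqC10 b) * sxQ8 b) := by
  simp only [famC6c18, tC4, tC6, sqA0, sqA1, sqA2, sqA3, sqA4, sqA5, sqA6, sqA7, sqA8, sqA9, sqA10,
    sqC0, sqC1, sqC2, sqC3, sqC4, sqC5, sqC6, sqC7, sqC8, sqC9, sqC10,
    sxQ0, sxQ1, sxQ2, sxQ3, sxQ4, sxQ5, sxQ6, sxQ7, sxQ8, sxQ9, sxQ10, sxQ11, sxQ12, sxQ13, sxQ14, sxQ15, sxQ16, sxQ17, sxQ18, sxQ19, sxQ20]
  ring

theorem famC6c19_tnf (b : R) :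
    famC6c19 (tC4 b) (tC6 b) =
      -((sqA0 b + sqC0 b) * sxQ19 b + (sqA1 b + sqC1 b) * sxQ18 b + (sqA2 b + sqC2 b) * sxQ17 b +
        (sqA3 b + sqC3 b) * sxQ16 b + (sqA4 b + sqC4 b) * sxQ15 b + (sqA5 b + sqC5 b) * sxQ14 b +
        (sqA6 b + sqC6 b) * sxQ13 b + (sqA7 b + sqC7 b) * sxQ12 b + (sqA8 b + sqC8 b) * sxQ11 b +
        (sqA9 b + sqC9 b) * sxQ10 b + (sqA10 b + sqC10 b) * sxQ9 b) := by
  simp only [famC6c19, tC4, tC6, sqA0, sqA1, sqA2, sqA3, sqA4, sqA5, sqA6, sqA7, sqA8, sqA9, sqA10,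
    sqC0, sqC1, sqC2, sqC3, sqC4, sqC5, sqC6, sqC7, sqC8, sqC9, sqC10,
    sxQ0, sxQ1, sxQ2, sxQ3, sxQ4, sxQ5, sxQ6, sxQ7, sxQ8, sxQ9, sxQ10, sxQ11, sxQ12, sxQ13, sxQ14, sxQ15, sxQ16, sxQ17, sxQ18, sxQ19, sxQ20]
  ring

theorem famC6c20_tnf (b : R) :
    famC6c20 (tC4 b) (tC6 b) =
      -((sqA0 b + sqC0 b) * sxQ20 b + (sqA1 b + sqC1 b) * sxQ19 b + (sqA2 b + sqC2 b) * sxQ18 b +
        (sqA3 b + sqC3 b) * sxQ17 b + (sqA4 b + sqC4 b) * sxQ16 b + (sqA5 b + sqC5 b) * sxQ15 b +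
        (sqA6 b + sqC6 b) * sxQ14 b + (sqA7 b + sqC7 b) * sxQ13 b + (sqA8 b + sqC8 b) * sxQ12 b +
        (sqA9 b + sqC9 b) * sxQ11 b + (sqA10 b + sqC10 b) * sxQ10 b) := by
  simp only [famC6c20, tC4, tC6, sqA0, sqA1, sqA2, sqA3, sqA4, sqA5, sqA6, sqA7, sqA8, sqA9, sqA10,
    sqC0, sqC1, sqC2, sqC3, sqC4, sqC5, sqC6, sqC7, sqC8, sqC9, sqC10,
    sxQ0, sxQ1, sxQ2, sxQ3, sxQ4, sxQ5, sxQ6, sxQ7, sxQ8, sxQ9, sxQ10, sxQ11, sxQ12, sxQ13, sxQ14, sxQ15, sxQ16, sxQ17, sxQ18, sxQ19, sxQ20]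
  ring

theorem famC6c21_tnf (b : R) :
    famC6c21 (tC4 b) (tC6 b) =
      -((sqA1 b + sqC1 b) * sxQ20 b + (sqA2 b + sqC2 b) * sxQ19 b + (sqA3 b + sqC3 b) * sxQ18 b +
        (sqA4 b + sqC4 b) * sxQ17 b + (sqA5 b + sqC5 b) * sxQ16 b + (sqA6 b + sqC6 b) * sxQ15 b +
        (sqA7 b + sqC7 b) * sxQ14 b + (sqA8 b + sqC8 b) * sxQ13 b + (sqA9 b + sqC9 b) * sxQ12 b +
        (sqA10 b + sqC10 b) * sxQ11 b) := by
  simp only [famC6c21, tC4, tC6, sqA0, sqA1, sqA2, sqA3, sqA4, sqA5, sqA6, sqA7, sqA8, sqA9, sqA10,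
    sqC0, sqC1, sqC2, sqC3, sqC4, sqC5, sqC6, sqC7, sqC8, sqC9, sqC10,
    sxQ0, sxQ1, sxQ2, sxQ3, sxQ4, sxQ5, sxQ6, sxQ7, sxQ8, sxQ9, sxQ10, sxQ11, sxQ12, sxQ13, sxQ14, sxQ15, sxQ16, sxQ17, sxQ18, sxQ19, sxQ20]
  ring

theorem famC6c22_tnf (b : R) :
    famC6c22 (tC4 b) (tC6 b) =
      -((sqA2 b + sqC2 b) * sxQ20 b + (sqA3 b + sqC3 b) * sxQ19 b + (sqA4 b + sqC4 b) * sxQ18 b +
        (sqA5 b + sqC5 b) * sxQ17 b + (sqA6 b + sqC6 b) * sxQ16 b + (sqA7 b + sqC7 b) * sxQ15 b +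
        (sqA8 b + sqC8 b) * sxQ14 b + (sqA9 b + sqC9 b) * sxQ13 b + (sqA10 b + sqC10 b) * sxQ12 b) := by
  simp only [famC6c22, tC4, tC6, sqA0, sqA1, sqA2, sqA3, sqA4, sqA5, sqA6, sqA7, sqA8, sqA9, sqA10,
    sqC0, sqC1, sqC2, sqC3, sqC4, sqC5, sqC6, sqC7, sqC8, sqC9, sqC10,
    sxQ0, sxQ1, sxQ2, sxQ3, sxQ4, sxQ5, sxQ6, sxQ7, sxQ8, sxQ9, sxQ10, sxQ11, sxQ12, sxQ13, sxQ14, sxQ15, sxQ16, sxQ17, sxQ18, sxQ19, sxQ20]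
  ring

theorem famC6c23_tnf (b : R) :
    famC6c23 (tC4 b) (tC6 b) =
      -((sqA3 b + sqC3 b) * sxQ20 b + (sqA4 b + sqC4 b) * sxQ19 b + (sqA5 b + sqC5 b) * sxQ18 b +
        (sqA6 b + sqC6 b) * sxQ17 b + (sqA7 b + sqC7 b) * sxQ16 b + (sqA8 b + sqC8 b) * sxQ15 b +
        (sqA9 b + sqC9 b) * sxQ14 b + (sqA10 b + sqC10 b) * sxQ13 b) := by
  simp only [famC6c23, tC4, tC6, sqA0, sqA1, sqA2, sqA3, sqA4, sqA5, sqA6, sqA7, sqA8, sqA9, sqA10,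
    sqC0, sqC1, sqC2, sqC3, sqC4, sqC5, sqC6, sqC7, sqC8, sqC9, sqC10,
    sxQ0, sxQ1, sxQ2, sxQ3, sxQ4, sxQ5, sxQ6, sxQ7, sxQ8, sxQ9, sxQ10, sxQ11, sxQ12, sxQ13, sxQ14, sxQ15, sxQ16, sxQ17, sxQ18, sxQ19, sxQ20]
  ring

theorem famC6c24_tnf (b : R) :
    famC6c24 (tC4 b) (tC6 b) =
      -((sqA4 b + sqC4 b) * sxQ20 b + (sqA5 b + sqC5 b) * sxQ19 b + (sqA6 b + sqC6 b) * sxQ18 b +
        (sqA7 b + sqC7 b) * sxQ17 b + (sqA8 b + sqC8 b) * sxQ16 b + (sqA9 b + sqC9 b) * sxQ15 b +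
        (sqA10 b + sqC10 b) * sxQ14 b) := by
  simp only [famC6c24, tC4, tC6, sqA0, sqA1, sqA2, sqA3, sqA4, sqA5, sqA6, sqA7, sqA8, sqA9, sqA10,
    sqC0, sqC1, sqC2, sqC3, sqC4, sqC5, sqC6, sqC7, sqC8, sqC9, sqC10,
    sxQ0, sxQ1, sxQ2, sxQ3, sxQ4, sxQ5, sxQ6, sxQ7, sxQ8, sxQ9, sxQ10, sxQ11, sxQ12, sxQ13, sxQ14, sxQ15, sxQ16, sxQ17, sxQ18, sxQ19, sxQ20]
  ring

theorem famC6c25_tnf (b : R) :
    famC6c25 (tC4 b) (tC6 b) =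
      -((sqA5 b + sqC5 b) * sxQ20 b + (sqA6 b + sqC6 b) * sxQ19 b + (sqA7 b + sqC7 b) * sxQ18 b +
        (sqA8 b + sqC8 b) * sxQ17 b + (sqA9 b + sqC9 b) * sxQ16 b + (sqA10 b + sqC10 b) * sxQ15 b) := by
  simp only [famC6c25, tC4, tC6, sqA0, sqA1, sqA2, sqA3, sqA4, sqA5, sqA6, sqA7, sqA8, sqA9, sqA10,
    sqC0, sqC1, sqC2, sqC3, sqC4, sqC5, sqC6, sqC7, sqC8, sqC9, sqC10,
    sxQ0, sxQ1, sxQ2, sxQ3, sxQ4, sxQ5, sxQ6, sxQ7, sxQ8, sxQ9, sxQ10, sxQ11, sxQ12, sxQ13, sxQ14, sxQ15, sxQ16, sxQ17, sxQ18, sxQ19, sxQ20]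
  ring

theorem famC6c26_tnf (b : R) :
    famC6c26 (tC4 b) (tC6 b) =
      -((sqA6 b + sqC6 b) * sxQ20 b + (sqA7 b + sqC7 b) * sxQ19 b + (sqA8 b + sqC8 b) * sxQ18 b +
        (sqA9 b + sqC9 b) * sxQ17 b + (sqA10 b + sqC10 b) * sxQ16 b) := by
  simp only [famC6c26, tC4, tC6, sqA0, sqA1, sqA2, sqA3, sqA4, sqA5, sqA6, sqA7, sqA8, sqA9, sqA10,
    sqC0, sqC1, sqC2, sqC3, sqC4, sqC5, sqC6, sqC7, sqC8, sqC9, sqC10,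
    sxQ0, sxQ1, sxQ2, sxQ3, sxQ4, sxQ5, sxQ6, sxQ7, sxQ8, sxQ9, sxQ10, sxQ11, sxQ12, sxQ13, sxQ14, sxQ15, sxQ16, sxQ17, sxQ18, sxQ19, sxQ20]
  ring

theorem famC6c27_tnf (b : R) :
    famC6c27 (tC4 b) (tC6 b) =
      -((sqA7 b + sqC7 b) * sxQ20 b + (sqA8 b + sqC8 b) * sxQ19 b + (sqA9 b + sqC9 b) * sxQ18 b +
        (sqA10 b + sqC10 b) * sxQ17 b) := by
  simp only [famC6c27, tC4, tC6, sqA0, sqA1, sqA2, sqA3, sqA4, sqA5, sqA6, sqA7, sqA8, sqA9, sqA10,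
    sqC0, sqC1, sqC2, sqC3, sqC4, sqC5, sqC6, sqC7, sqC8, sqC9, sqC10,
    sxQ0, sxQ1, sxQ2, sxQ3, sxQ4, sxQ5, sxQ6, sxQ7, sxQ8, sxQ9, sxQ10, sxQ11, sxQ12, sxQ13, sxQ14, sxQ15, sxQ16, sxQ17, sxQ18, sxQ19, sxQ20]
  ring

theorem famC6c28_tnf (b : R) :
    famC6c28 (tC4 b) (tC6 b) =
      -((sqA8 b + sqC8 b) * sxQ20 b + (sqA9 b + sqC9 b) * sxQ19 b + (sqA10 b + sqC10 b) * sxQ18 b) := by
  simp only [famC6c28, tC4, tC6, sqA0, sqA1, sqA2, sqA3, sqA4, sqA5, sqA6, sqA7, sqA8, sqA9, sqA10,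
    sqC0, sqC1, sqC2, sqC3, sqC4, sqC5, sqC6, sqC7, sqC8, sqC9, sqC10,
    sxQ0, sxQ1, sxQ2, sxQ3, sxQ4, sxQ5, sxQ6, sxQ7, sxQ8, sxQ9, sxQ10, sxQ11, sxQ12, sxQ13, sxQ14, sxQ15, sxQ16, sxQ17, sxQ18, sxQ19, sxQ20]
  ring

theorem famC6c29_tnf (b : R) :
    famC6c29 (tC4 b) (tC6 b) =
      -((sqA9 b + sqC9 b) * sxQ20 b + (sqA10 b + sqC10 b) * sxQ19 b) := by
  simp only [famC6c29, tC4, tC6, sqA0, sqA1, sqA2, sqA3, sqA4, sqA5, sqA6, sqA7, sqA8, sqA9, sqA10,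
    sqC0, sqC1, sqC2, sqC3, sqC4, sqC5, sqC6, sqC7, sqC8, sqC9, sqC10,
    sxQ0, sxQ1, sxQ2, sxQ3, sxQ4, sxQ5, sxQ6, sxQ7, sxQ8, sxQ9, sxQ10, sxQ11, sxQ12, sxQ13, sxQ14, sxQ15, sxQ16, sxQ17, sxQ18, sxQ19, sxQ20]
  ring

theorem famC6c30_tnf (b : R) :
    famC6c30 (tC4 b) (tC6 b) =
      -((sqA10 b + sqC10 b) * sxQ20 b) := by
  simp only [famC6c30, tC4, tC6, sqA0, sqA1, sqA2, sqA3, sqA4, sqA5, sqA6, sqA7, sqA8, sqA9, sqA10,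
    sqC0, sqC1, sqC2, sqC3, sqC4, sqC5, sqC6, sqC7, sqC8, sqC9, sqC10,
    sxQ0, sxQ1, sxQ2, sxQ3, sxQ4, sxQ5, sxQ6, sxQ7, sxQ8, sxQ9, sxQ10, sxQ11, sxQ12, sxQ13, sxQ14, sxQ15, sxQ16, sxQ17, sxQ18, sxQ19, sxQ20]
  ring

theorem sextic_Q_eq (b τ : R) :
    (tnfN b τ ^ 2) ^ 2 + -18 * (tnfN b τ ^ 2 * (tnfN b τ * tnfD b τ)) +
        74 * (tnfN b τ ^ 2 * tnfD b τ ^ 2) + 18 * (tnfN b τ * tnfD b τ * tnfD b τ ^ 2) +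
        (tnfD b τ ^ 2) ^ 2 =
      sxQ0 b + sxQ1 b * τ + sxQ2 b * τ ^ 2 + sxQ3 b * τ ^ 3 + sxQ4 b * τ ^ 4 + sxQ5 b * τ ^ 5 +
        sxQ6 b * τ ^ 6 + sxQ7 b * τ ^ 7 + sxQ8 b * τ ^ 8 + sxQ9 b * τ ^ 9 + sxQ10 b * τ ^ 10 +
        sxQ11 b * τ ^ 11 + sxQ12 b * τ ^ 12 + sxQ13 b * τ ^ 13 + sxQ14 b * τ ^ 14 +
        sxQ15 b * τ ^ 15 + sxQ16 b * τ ^ 16 + sxQ17 b * τ ^ 17 + sxQ18 b * τ ^ 18 +
        sxQ19 b * τ ^ 19 + sxQ20 b * τ ^ 20 := by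
  rw [tnfN_sq_eq, tnfN_mul_tnfD_eq, tnfD_sq_eq, quartic_conv6]
  rw [sxQ0_eq, sxQ1_eq, sxQ2_eq, sxQ3_eq, sxQ4_eq, sxQ5_eq, sxQ6_eq, sxQ7_eq, sxQ8_eq, sxQ9_eq, sxQ10_eq, sxQ11_eq, sxQ12_eq, sxQ13_eq, sxQ14_eq, sxQ15_eq, sxQ16_eq, sxQ17_eq, sxQ18_eq, sxQ19_eq, sxQ20_eq]

theorem sextic_S_eq (b τ : R) :
    tnfN b τ ^ 2 + tnfD b τ ^ 2 =
      (sqA0 b + sqC0 b) + (sqA1 b + sqC1 b) * τ + (sqA2 b + sqC2 b) * τ ^ 2 + (sqA3 b +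
        sqC3 b) * τ ^ 3 + (sqA4 b + sqC4 b) * τ ^ 4 + (sqA5 b + sqC5 b) * τ ^ 5 + (sqA6 b +
        sqC6 b) * τ ^ 6 + (sqA7 b + sqC7 b) * τ ^ 7 + (sqA8 b + sqC8 b) * τ ^ 8 + (sqA9 b +
        sqC9 b) * τ ^ 9 + (sqA10 b + sqC10 b) * τ ^ 10 := by
  rw [tnfN_sq_eq, tnfD_sq_eq]
  ring

/-- (I2) for `v = 1`. -/
theorem famC6_tnf_one (b τ : R) : famC6 (tC4 b) (tC6 b) τ = hC6 (tnfN b τ) (tnfD b τ) := by
  have e : hC6 (tnfN b τ) (tnfD b τ) =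
      -((tnfN b τ ^ 2 + tnfD b τ ^ 2) *
        ((tnfN b τ ^ 2) ^ 2 + -18 * (tnfN b τ ^ 2 * (tnfN b τ * tnfD b τ)) +
        74 * (tnfN b τ ^ 2 * tnfD b τ ^ 2) + 18 * (tnfN b τ * tnfD b τ * tnfD b τ ^ 2) +
        (tnfD b τ ^ 2) ^ 2)) := by
    unfold hC6; ring
  rw [e, sextic_Q_eq, sextic_S_eq, prod_conv6]
  unfold famC6
  rw [famC6c0_tnf, famC6c1_tnf, famC6c2_tnf, famC6c3_tnf, famC6c4_tnf, famC6c5_tnf, famC6c6_tnf, famC6c7_tnf, famC6c8_tnf, famC6c9_tnf, famC6c10_tnf, famC6c11_tnf, famC6c12_tnf, famC6c13_tnf, famC6c14_tnf, famC6c15_tnf, famC6c16_tnf, famC6c17_tnf, famC6c18_tnf, famC6c19_tnf, famC6c20_tnf, famC6c21_tnf, famC6c22_tnf, famC6c23_tnf, famC6c24_tnf, famC6c25_tnf, famC6c26_tnf, famC6c27_tnf, famC6c28_tnf, famC6c29_tnf, famC6c30_tnf]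

/-- weighted homogeneity of `famC6` -/
theorem famC6_homog (c4 c6 v t : R) :
    famC6 (v ^ 2 * c4) (v ^ 3 * c6) t = v ^ 3 * famC6 c4 c6 (v * t) := by
  simp only [famC6, famC6c0, famC6c1, famC6c2, famC6c3, famC6c4, famC6c5, famC6c6, famC6c7, famC6c8, famC6c9, famC6c10, famC6c11, famC6c12, famC6c13, famC6c14, famC6c15, famC6c16, famC6c17, famC6c18, famC6c19, famC6c20, famC6c21, famC6c22, famC6c23, famC6c24, famC6c25, famC6c26, famC6c27, famC6c28, famC6c29, famC6c30]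
  ring

/-- **(I2)** -/
theorem famC6_tnf (b v t : R) :
    famC6 (v ^ 2 * tC4 b) (v ^ 3 * tC6 b) t = v ^ 3 * hC6 (tnfN b (v * t)) (tnfD b (v * t)) := by
  rw [famC6_homog, famC6_tnf_one]

end Fermat.Agent.S52.H60
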