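import Fermat.Agent.S52.H61_FqIds
import Fermat.Agent.S52.H60_FamI2

/-!
# S52, package E-FQ (helper61): the auxiliary fibre over `𝔽_q`, `q ≡ 19 mod 60`, unconditional

For a prime `q ≡ 19 mod 60`, a Weierstrass curve `W` over `ZMod q` with `Δ ≠ 0` and a root `x0`
of its fifth division polynomial `preΨ' 5` in `ZMod q`, there is `t1 : ZMod q` with
`famC6 c₄ c₆ t1 = 0` and `famF c₄ c₆ t1 ≠ 0`: the member `E_{t1}` of the family of curves
5-congruent to `W` has `j = 1728` and is nonsingular.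
-/

set_option autoImplicit false

namespace Fermat.Agent.S52.H61

/-- (I2), from helper60's staged proof. -/
theorem idI2 (R : Type*) [CommRing R] : IdI2 R :=
  fun b v t => Fermat.Agent.S52.H60.famC6_tnf b v t

/-- **E-FQ.** -/
theorem auxFq (q : ℕ) [hq : Fact q.Prime] (h60 : q % 60 = 19)
    (W : WeierstrassCurve (ZMod q)) (hΔ : W.Δ ≠ 0) (x0 : ZMod q)
    (hx0 : (W.preΨ' 5).eval x0 = 0) :
    ∃ t1 : ZMod q, famC6 W.c₄ W.c₆ t1 = 0 ∧ famF W.c₄ W.c₆ t1 ≠ 0 :=
  aux_of_I2 q h60 (idI2 (ZMod q)) W hΔ x0 hx0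

end Fermat.Agent.S52.H61
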