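import Fermat.Agent.S52.Defs
import Fermat.Agent.S52.H61_Irr
import Fermat.Agent.S52.H61_Fq

/-!
# S52 packages E-IRR and E-FQ at the exact interfaces of `S52/Defs.lean` (helper61)
-/

set_option autoImplicit false

namespace Fermat.Agent.S52.H61

/-- **E-IRR** at the interface. -/
theorem stmt_irr1728 : Stmt_irr1728 :=
  fun W q hq hq5 hΔ hc6 h3 => irr1728 W q hq hq5 hΔ hc6 h3

/-- **E-FQ** at the interface. -/
theorem stmt_auxFq : Stmt_auxFq :=
  fun q _ h60 W hΔ x₀ hx₀ => auxFq q h60 W hΔ x₀ hx₀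

end Fermat.Agent.S52.H61
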