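import Mathlib.Tactic.LinearCombination
import Mathlib.Tactic.FieldSimp
import Mathlib.Tactic.Ring
import Mathlib.Algebra.Field.Basic
import Mathlib.Algebra.GroupWithZero.Basic

/-!
# S52, package E-FQ, abstract core (helper61)

`F` a field with `2, 3, 5 ≠ 0`, `s² = 5`, `b± = (11 ± 5s)/2`, in which every element is a fifth
power and `Q4 = x⁴ - 18x³ + 74x² + 18x + 1` has two distinct roots.  Let `b ≠ 0`,
`b² - 11b - 1 ≠ 0` and let `N, D : F → F` satisfy identity (I3) of the Rubin–Silverberg family: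
`N τ - b± D τ = (b - b±) (1 + (b² ± 6sb + 1) τ)⁵`.  Then there is `τ` with
`N τ = b' D τ` for a root `b'` of `Q4`, and `N τ, D τ, 1 + (b² ± 6sb + 1) τ` all nonzero.
-/

set_option autoImplicit false
set_option linter.all false

namespace Fermat.Agent.S52.H61

variable {F : Type*} [Field F]

/-- a root of `Q4` is not a root of `x² - 11x - 1`, and is nonzero. -/
lemma Q4_root_props {b' : F} (hQ : b' ^ 4 - 18 * b' ^ 3 + 74 * b' ^ 2 + 18 * b' + 1 = 0) :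
    b' ≠ 0 ∧ b' ^ 2 - 11 * b' - 1 ≠ 0 := by
  have hb0 : b' ≠ 0 := by
    rintro rfl
    simp at hQ
  refine ⟨hb0, ?_⟩
  intro h
  -- Q4 = -b'^2 + (b'^2 - 11 b' - 1) * (b'^2 - 7 b' - 2)
  have : b' ^ 2 = 0 := by
    linear_combination (b' ^ 2 - 7 * b' - 1) * h - hQ
  exact hb0 (pow_eq_zero_iff (by norm_num) |>.mp this)

/-- the step for one admissible fifth root `ρ`. -/
lemma core_step {s bp bm b b' ρ : F} (h2 : (2 : F) ≠ 0) (h3 : (3 : F) ≠ 0) (h5 : (5 : F) ≠ 0)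
    (hs : s ^ 2 = 5) (hbp : 2 * bp = 11 + 5 * s) (hbm : 2 * bm = 11 - 5 * s)
    (hb0 : b ≠ 0) (hbΔ : b ^ 2 - 11 * b - 1 ≠ 0)
    (hQ : b' ^ 4 - 18 * b' ^ 3 + 74 * b' ^ 2 + 18 * b' + 1 = 0)
    (hρ : ρ ^ 5 * ((b' - bm) * (b - bp)) = (b' - bp) * (b - bm))
    (hadm : (b ^ 2 + 6 * s * b + 1) - ρ * (b ^ 2 - 6 * s * b + 1) ≠ 0)
    (N D : F → F)
    (hI3p : ∀ τ, N τ - bp * D τ = (b - bp) * (1 + (b ^ 2 + 6 * s * b + 1) * τ) ^ 5)
    (hI3m : ∀ τ, N τ - bm * D τ = (b - bm) * (1 + (b ^ 2 - 6 * s * b + 1) * τ) ^ 5) :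
    ∃ τ : F, N τ = b' * D τ ∧ D τ ≠ 0 ∧ N τ ≠ 0 ∧
      1 + (b ^ 2 + 6 * s * b + 1) * τ ≠ 0 ∧ 1 + (b ^ 2 - 6 * s * b + 1) * τ ≠ 0 := by
  obtain ⟨hb'0, hb'Δ⟩ := Q4_root_props hQ
  have hs0 : s ≠ 0 := by
    rintro rfl
    apply h5
    rw [← hs]; ring
  -- (x - bp)(x - bm) = x^2 - 11 x - 1
  have hfac : ∀ x : F, (x - bp) * (x - bm) = x ^ 2 - 11 * x - 1 := by
    intro x
    have h4 : (4 : F) ≠ 0 := by
      have : (4 : F) = 2 * 2 := by norm_num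
      rw [this]; exact mul_ne_zero h2 h2
    apply mul_left_cancel₀ h4
    linear_combination (-(2 * x) + 2 * bm) * hbp + (-(2 * x) + 11 + 5 * s) * hbm - 25 * hs
  have hbbp : b - bp ≠ 0 := fun h => hbΔ (by rw [← hfac, h, zero_mul])
  have hbbm : b - bm ≠ 0 := fun h => hbΔ (by rw [← hfac, h, mul_zero])
  have hb'bp : b' - bp ≠ 0 := fun h => hb'Δ (by rw [← hfac, h, zero_mul])
  have hb'bm : b' - bm ≠ 0 := fun h => hb'Δ (by rw [← hfac, h, mul_zero])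
  have hρ0 : ρ ≠ 0 := by
    rintro rfl
    have : (b' - bp) * (b - bm) = 0 := by rw [← hρ]; ring
    exact mul_ne_zero hb'bp hbbm this
  have hdiff : bp - bm = 5 * s := by
    apply mul_left_cancel₀ h2
    linear_combination hbp - hbm
  set Ap : F := b ^ 2 + 6 * s * b + 1 with hAp
  set Am : F := b ^ 2 - 6 * s * b + 1 with hAm
  have hApm : Ap - Am = 12 * s * b := by rw [hAp, hAm]; ring
  have h12 : (12 : F) * s * b ≠ 0 := by
    have : (12 : F) = 2 * 2 * 3 := by norm_num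
    rw [this]
    exact mul_ne_zero (mul_ne_zero (mul_ne_zero (mul_ne_zero h2 h2) h3) hs0) hb0
  set τ : F := (ρ - 1) / (Ap - ρ * Am) with hτ
  have hτ' : τ * (Ap - ρ * Am) = ρ - 1 := by
    rw [hτ, div_mul_cancel₀ _ hadm]
  have hPm : (1 + Am * τ) * (Ap - ρ * Am) = 12 * s * b := by
    linear_combination Am * hτ' + hApm
  have hPm0 : 1 + Am * τ ≠ 0 := by
    intro h
    rw [h, zero_mul] at hPm
    exact h12 hPm.symm
  have hPp : 1 + Ap * τ = ρ * (1 + Am * τ) := by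
    linear_combination hτ'
  have hPp0 : 1 + Ap * τ ≠ 0 := by
    rw [hPp]; exact mul_ne_zero hρ0 hPm0
  have hND : N τ = b' * D τ := by
    have e1 := hI3p τ
    have e2 := hI3m τ
    rw [hPp, mul_pow] at e1
    have h5s : (5 : F) * s ≠ 0 := mul_ne_zero h5 hs0
    have key : (b' - bm) * (N τ - bp * D τ) = (b' - bp) * (N τ - bm * D τ) := by
      rw [e1, e2]
      linear_combination (1 + Am * τ) ^ 5 * hρ
    have : (bp - bm) * (N τ - b' * D τ) = 0 := by linear_combination key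
    rw [hdiff] at this
    rcases mul_eq_zero.mp this with h | h
    · exact absurd h h5s
    · exact sub_eq_zero.mp h
  have hD0 : D τ ≠ 0 := by
    intro h
    have e2 := hI3m τ
    rw [hND, h] at e2
    have : (b - bm) * (1 + Am * τ) ^ 5 = 0 := by rw [← e2]; ring
    exact mul_ne_zero hbbm (pow_ne_zero 5 hPm0) this
  refine ⟨τ, hND, hD0, ?_, hPp0, hPm0⟩
  rw [hND]
  exact mul_ne_zero hb'0 hD0

/-- **E-FQ, abstract core.** -/
theorem core {s bp bm b b₁ b₂ : F} (h2 : (2 : F) ≠ 0) (h3 : (3 : F) ≠ 0) (h5 : (5 : F) ≠ 0)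
    (hs : s ^ 2 = 5) (hbp : 2 * bp = 11 + 5 * s) (hbm : 2 * bm = 11 - 5 * s)
    (hb0 : b ≠ 0) (hbΔ : b ^ 2 - 11 * b - 1 ≠ 0)
    (hb12 : b₁ ≠ b₂)
    (hQ₁ : b₁ ^ 4 - 18 * b₁ ^ 3 + 74 * b₁ ^ 2 + 18 * b₁ + 1 = 0)
    (hQ₂ : b₂ ^ 4 - 18 * b₂ ^ 3 + 74 * b₂ ^ 2 + 18 * b₂ + 1 = 0)
    (hfifth : ∀ R : F, ∃ ρ : F, ρ ^ 5 = R)
    (N D : F → F)
    (hI3p : ∀ τ, N τ - bp * D τ = (b - bp) * (1 + (b ^ 2 + 6 * s * b + 1) * τ) ^ 5)
    (hI3m : ∀ τ, N τ - bm * D τ = (b - bm) * (1 + (b ^ 2 - 6 * s * b + 1) * τ) ^ 5) :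
    ∃ τ b' : F, b' ^ 4 - 18 * b' ^ 3 + 74 * b' ^ 2 + 18 * b' + 1 = 0 ∧
      N τ = b' * D τ ∧ D τ ≠ 0 ∧ N τ ≠ 0 ∧
      1 + (b ^ 2 + 6 * s * b + 1) * τ ≠ 0 ∧ 1 + (b ^ 2 - 6 * s * b + 1) * τ ≠ 0 := by
  have hs0 : s ≠ 0 := by
    rintro rfl
    apply h5
    rw [← hs]; ring
  have hfac : ∀ x : F, (x - bp) * (x - bm) = x ^ 2 - 11 * x - 1 := by
    intro x
    have h4 : (4 : F) ≠ 0 := by
      have : (4 : F) = 2 * 2 := by norm_num
      rw [this]; exact mul_ne_zero h2 h2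
    apply mul_left_cancel₀ h4
    linear_combination (-(2 * x) + 2 * bm) * hbp + (-(2 * x) + 11 + 5 * s) * hbm - 25 * hs
  have hdiff : bp - bm = 5 * s := by
    apply mul_left_cancel₀ h2
    linear_combination hbp - hbm
  have hbbp : b - bp ≠ 0 := fun h => hbΔ (by rw [← hfac, h, zero_mul])
  have hbbm : b - bm ≠ 0 := fun h => hbΔ (by rw [← hfac, h, mul_zero])
  have hne : ∀ b' : F, b' ^ 4 - 18 * b' ^ 3 + 74 * b' ^ 2 + 18 * b' + 1 = 0 →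
      (b' - bm) * (b - bp) ≠ 0 := by
    intro b' hQ
    obtain ⟨-, hb'Δ⟩ := Q4_root_props hQ
    have hb'bm : b' - bm ≠ 0 := fun h => hb'Δ (by rw [← hfac, h, mul_zero])
    exact mul_ne_zero hb'bm hbbp
  -- the two fifth roots
  obtain ⟨ρ₁, hρ₁⟩ := hfifth (((b₁ - bp) * (b - bm)) / ((b₁ - bm) * (b - bp)))
  obtain ⟨ρ₂, hρ₂⟩ := hfifth (((b₂ - bp) * (b - bm)) / ((b₂ - bm) * (b - bp)))
  have hρ₁' : ρ₁ ^ 5 * ((b₁ - bm) * (b - bp)) = (b₁ - bp) * (b - bm) := by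
    rw [hρ₁, div_mul_cancel₀ _ (hne b₁ hQ₁)]
  have hρ₂' : ρ₂ ^ 5 * ((b₂ - bm) * (b - bp)) = (b₂ - bp) * (b - bm) := by
    rw [hρ₂, div_mul_cancel₀ _ (hne b₂ hQ₂)]
  have hρ12 : ρ₁ ≠ ρ₂ := by
    intro h
    rw [h] at hρ₁'
    -- cross-multiply
    have hx : (b₁ - bp) * (b - bm) * ((b₂ - bm) * (b - bp))
        = (b₂ - bp) * (b - bm) * ((b₁ - bm) * (b - bp)) := by
      rw [← hρ₁', ← hρ₂']; ring
    have hx' : (b - bm) * (b - bp) * ((bp - bm) * (b₁ - b₂)) = 0 := by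
      linear_combination hx
    rcases mul_eq_zero.mp hx' with h' | h'
    · exact mul_ne_zero hbbm hbbp h'
    · rw [hdiff] at h'
      rcases mul_eq_zero.mp h' with h'' | h''
      · exact mul_ne_zero h5 hs0 h''
      · exact hb12 (sub_eq_zero.mp h'')
  by_cases hadm₁ : (b ^ 2 + 6 * s * b + 1) - ρ₁ * (b ^ 2 - 6 * s * b + 1) = 0
  · have hadm₂ : (b ^ 2 + 6 * s * b + 1) - ρ₂ * (b ^ 2 - 6 * s * b + 1) ≠ 0 := by
      intro hadm₂
      have hA : (ρ₁ - ρ₂) * (b ^ 2 - 6 * s * b + 1) = 0 := by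
        linear_combination hadm₂ - hadm₁
      rcases mul_eq_zero.mp hA with h | h
      · exact hρ12 (sub_eq_zero.mp h)
      · rw [h, mul_zero, sub_zero] at hadm₁
        have h12 : (12 : F) * s * b = 0 := by linear_combination hadm₁ - h
        have h12' : (12 : F) = 2 * 2 * 3 := by norm_num
        rw [h12'] at h12
        exact mul_ne_zero (mul_ne_zero (mul_ne_zero (mul_ne_zero h2 h2) h3) hs0) hb0 h12
    obtain ⟨τ, h⟩ := core_step h2 h3 h5 hs hbp hbm hb0 hbΔ hQ₂ hρ₂' hadm₂ N D hI3p hI3m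
    exact ⟨τ, b₂, hQ₂, h⟩
  · obtain ⟨τ, h⟩ := core_step h2 h3 h5 hs hbp hbm hb0 hbΔ hQ₁ hρ₁' hadm₁ N D hI3p hI3m
    exact ⟨τ, b₁, hQ₁, h⟩

end Fermat.Agent.S52.H61
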