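import Mathlib.FieldTheory.Finite.Basic
import Mathlib.FieldTheory.IsAlgClosed.AlgebraicClosure
import Mathlib.NumberTheory.LegendreSymbol.QuadraticChar.Basic
import Mathlib.NumberTheory.LegendreSymbol.Basic
import Mathlib.Tactic.LinearCombination
import Mathlib.Tactic.FieldSimp

/-!
# S52, package E-FQ, finite-field facts (helper61)

For a prime `q ≡ 19 mod 20`:
* `exists_root_quartic`: `c⁴ - 5c² + 5` has a root in `ZMod q` (`c = ζ₂₀ + ζ₂₀⁻¹`, fixed by
  Frobenius since `q ≡ -1 mod 20`);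
* `exists_root_Q4`: `b⁴ - 18b³ + 74b² + 18b + 1` has a root in `ZMod q`, and a square root of `5`;
* `neg_one_not_isSquare`: `-1` is not a square mod `q` for `q ≡ 3 mod 4`;
* `exists_fifth_root`: every element of `ZMod q` is a fifth power when `q ≡ 4 mod 5`.
-/

set_option autoImplicit false

namespace Fermat.Agent.S52.H61

open Polynomial

/-- an element of an extension of `ZMod q` fixed by the `q`-power map lies in `ZMod q`. -/
lemma exists_zmod_of_pow_eq (q : ℕ) [hq : Fact q.Prime] {K : Type*} [Field K]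
    [Algebra (ZMod q) K] (x : K) (hx : x ^ q = x) :
    ∃ a : ZMod q, algebraMap (ZMod q) K a = x := by
  classical
  have hq1 : 1 < q := hq.out.one_lt
  set P : K[X] := X ^ q - X with hP
  have hP0 : P ≠ 0 := FiniteField.X_pow_card_sub_X_ne_zero K hq1
  have hdeg : P.natDegree = q := FiniteField.X_pow_card_sub_X_natDegree_eq K hq1
  have hinj : Function.Injective (algebraMap (ZMod q) K) := (algebraMap (ZMod q) K).injective
  set S : Finset K := Finset.univ.image (algebraMap (ZMod q) K) with hS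
  have hScard : S.card = q := by
    rw [hS, Finset.card_image_of_injective _ hinj, Finset.card_univ, ZMod.card]
  have hSsub : S ⊆ P.roots.toFinset := by
    intro y hy
    rw [hS, Finset.mem_image] at hy
    obtain ⟨a, -, rfl⟩ := hy
    rw [Multiset.mem_toFinset, mem_roots hP0, IsRoot, hP]
    simp only [eval_sub, eval_pow, eval_X]
    rw [← map_pow, ZMod.pow_card, sub_self]
  have hRcard : P.roots.toFinset.card ≤ q := by
    calc P.roots.toFinset.card ≤ Multiset.card P.roots := Multiset.toFinset_card_le _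
      _ ≤ P.natDegree := card_roots' P
      _ = q := hdeg
  have hEq : S = P.roots.toFinset :=
    Finset.eq_of_subset_of_card_le hSsub (by rw [hScard]; exact hRcard)
  have hxroot : x ∈ P.roots.toFinset := by
    rw [Multiset.mem_toFinset, mem_roots hP0, IsRoot, hP]
    simp only [eval_sub, eval_pow, eval_X]
    rw [hx, sub_self]
  rw [← hEq, hS, Finset.mem_image] at hxroot
  obtain ⟨a, -, ha⟩ := hxroot
  exact ⟨a, ha⟩

/-- for `q ≡ 19 mod 20` the quartic `c⁴ - 5c² + 5` (minimal polynomial of `2 cos 18°`) has a root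
mod `q`. -/
theorem exists_root_quartic (q : ℕ) [hq : Fact q.Prime] (h20 : q % 20 = 19) :
    ∃ c : ZMod q, c ^ 4 - 5 * c ^ 2 + 5 = 0 := by
  set K := AlgebraicClosure (ZMod q) with hK
  have hchar : CharP K q := charP_of_injective_algebraMap (algebraMap (ZMod q) K).injective q
  -- a root of the 20th cyclotomic polynomial
  set Φ : K[X] := X ^ 8 - X ^ 6 + X ^ 4 - X ^ 2 + 1 with hΦ
  have hΦdeg : Φ.degree ≠ 0 := by
    have : Φ.natDegree = 8 := by
      rw [hΦ]; compute_degree!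
    intro h0
    have h1 := natDegree_eq_of_degree_eq_some (n := 0) (by simpa using h0)
    omega
  obtain ⟨ζ, hζ⟩ := IsAlgClosed.exists_root Φ hΦdeg
  have hζ' : ζ ^ 8 - ζ ^ 6 + ζ ^ 4 - ζ ^ 2 + 1 = 0 := by
    have := hζ
    rw [IsRoot, hΦ] at this
    simpa using this
  have hζ0 : ζ ≠ 0 := by
    rintro rfl
    simp at hζ'
  have h10 : ζ ^ 10 = -1 := by linear_combination (ζ ^ 2 + 1) * hζ'
  have h20' : ζ ^ 20 = 1 := by
    have : ζ ^ 20 = (ζ ^ 10) ^ 2 := by ring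
    rw [this, h10]; norm_num
  obtain ⟨m, hm⟩ : ∃ m, q + 1 = 20 * m := ⟨(q + 1) / 20, by omega⟩
  have hq1 : ζ ^ (q + 1) = 1 := by rw [hm, pow_mul, h20', one_pow]
  have hζq : ζ ^ q = ζ⁻¹ := by
    apply eq_inv_of_mul_eq_one_left
    rw [← pow_succ, hq1]
  have hcq : (ζ + ζ⁻¹) ^ q = ζ + ζ⁻¹ := by
    rw [add_pow_char (p := q), inv_pow, hζq, inv_inv, add_comm]
  have hcrel : (ζ + ζ⁻¹) ^ 4 - 5 * (ζ + ζ⁻¹) ^ 2 + 5 = 0 := by
    have hw : ζ * ζ⁻¹ = 1 := mul_inv_cancel₀ hζ0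
    generalize ζ⁻¹ = w at hw ⊢
    linear_combination w ^ 4 * hζ' +
      (-ζ ^ 4 * ((ζ * w) ^ 3 + (ζ * w) ^ 2 + ζ * w + 1)
        + ζ ^ 2 * ((ζ * w) ^ 3 + (ζ * w) ^ 2 + ζ * w + 5)
        + (-(ζ * w) ^ 3 - (ζ * w) ^ 2 + 5 * (ζ * w) - 5) + w ^ 2 * (ζ * w + 5)) * hw
  obtain ⟨c₀, hc₀⟩ := exists_zmod_of_pow_eq q (ζ + ζ⁻¹) hcq
  refine ⟨c₀, ?_⟩
  apply (algebraMap (ZMod q) K).injective
  rw [map_zero]
  simp only [map_add, map_sub, map_mul, map_pow, map_ofNat, hc₀]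
  exact hcrel

/-- small primes are nonzero in `ZMod q` for `q ≥ 7`. -/
lemma natCast_ne_zero_of_lt (q : ℕ) [hq : Fact q.Prime] (n : ℕ) (hn0 : 0 < n) (hn : n < q) :
    ((n : ℕ) : ZMod q) ≠ 0 := by
  intro h
  rw [ZMod.natCast_eq_zero_iff] at h
  have := Nat.le_of_dvd hn0 h
  omega

/-- a square root of `5` and two distinct roots of `b⁴ - 18b³ + 74b² + 18b + 1` in `ZMod q`,
`q ≡ 19 mod 20`. -/
theorem exists_root_Q4 (q : ℕ) [hq : Fact q.Prime] (h20 : q % 20 = 19) :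
    ∃ s b₁ b₂ : ZMod q, s ^ 2 = 5 ∧ b₁ ≠ b₂ ∧
      b₁ ^ 4 - 18 * b₁ ^ 3 + 74 * b₁ ^ 2 + 18 * b₁ + 1 = 0 ∧
      b₂ ^ 4 - 18 * b₂ ^ 3 + 74 * b₂ ^ 2 + 18 * b₂ + 1 = 0 := by
  obtain ⟨c, hc⟩ := exists_root_quartic q h20
  have hq19 : 19 ≤ q := by omega
  have h5 : (5 : ZMod q) ≠ 0 := by
    have := natCast_ne_zero_of_lt q 5 (by norm_num) (by omega)
    exact_mod_cast this
  have h6 : (6 : ZMod q) ≠ 0 := by
    have := natCast_ne_zero_of_lt q 6 (by norm_num) (by omega)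
    exact_mod_cast this
  have hc0 : c ≠ 0 := by
    rintro rfl
    apply h5
    linear_combination hc
  refine ⟨2 * c ^ 2 - 5, c ^ 2 + 3 * c + 2, c ^ 2 - 3 * c + 2, ?_, ?_, ?_, ?_⟩
  · linear_combination 4 * hc
  · intro h
    have : (6 : ZMod q) * c = 0 := by linear_combination h
    rcases mul_eq_zero.mp this with h | h
    · exact h6 h
    · exact hc0 h
  · linear_combination (c ^ 4 + 12 * c ^ 3 + 49 * c ^ 2 + 78 * c + 41) * hc
  · linear_combination (c ^ 4 - 12 * c ^ 3 + 49 * c ^ 2 - 78 * c + 41) * hc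

/-- `-1` is not a square mod `q ≡ 3 mod 4`. -/
theorem neg_one_not_isSquare (q : ℕ) [hq : Fact q.Prime] (h4 : q % 4 = 3) :
    ¬ IsSquare (-1 : ZMod q) := by
  rw [ZMod.exists_sq_eq_neg_one_iff]
  simp [h4]

/-- every element of `ZMod q` is a fifth power when `q ≡ 4 mod 5`. -/
theorem exists_fifth_root (q : ℕ) [hq : Fact q.Prime] (h5 : q % 5 = 4) (R : ZMod q) :
    ∃ ρ : ZMod q, ρ ^ 5 = R := by
  by_cases hR : R = 0
  · exact ⟨0, by rw [hR]; simp⟩
  obtain ⟨k, hk⟩ : ∃ k, 3 * (q - 1) + 1 = 5 * k := ⟨(3 * (q - 1) + 1) / 5, by omega⟩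
  refine ⟨R ^ k, ?_⟩
  rw [← pow_mul, mul_comm, ← hk, pow_succ, pow_mul', ZMod.pow_card_sub_one_eq_one hR, one_pow,
    one_mul]

end Fermat.Agent.S52.H61
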