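import Fermat.Agent.S52.H60_TNF
import Fermat.Agent.S52.Family
import Fermat.Agent.Lib.Torsion35.Card
import Mathlib.FieldTheory.IsAlgClosed.AlgebraicClosure

/-!
# S52, package E-FQ: Tate normal form parameters from a root of `Ψ₅` (helper61)

`W` over a field `F` with `Δ ≠ 0`, `x0 : F` a root of `preΨ' 5`.  Then there are `v ≠ 0`, `b ≠ 0`
in `F` (not in an extension!) with `c₄ = v² tC4 b`, `c₆ = v³ tC6 b`, `Δ = v⁶ tDisc b`.
(`v = u²` and `b` are rational functions of `x0` alone: E-TNF by helper60.)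
-/

set_option autoImplicit false

namespace Fermat.Agent.S52.H61

open WeierstrassCurve Polynomial
open Fermat.Agent.Lib.Torsion35

variable {F : Type*} [Field F]

lemma vB_map {K : Type*} [Field K] (f : F →+* K) (W : WeierstrassCurve F) (x : F) :
    vB (W.map f).toAffine (f x) = f (vB W.toAffine x) := by
  simp only [vB, map_b₂, map_b₄, map_b₆, map_add, map_mul, map_pow, map_ofNat]

lemma vP3_map {K : Type*} [Field K] (f : F →+* K) (W : WeierstrassCurve F) (x : F) :
    vP3 (W.map f).toAffine (f x) = f (vP3 W.toAffine x) := by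
  simp only [vP3, map_b₂, map_b₄, map_b₆, map_b₈, map_add, map_mul, map_pow, map_ofNat]

/-- **Tate normal form parameters over the base field.** -/
theorem exists_tnf_params (W : WeierstrassCurve F) (hΔ : W.Δ ≠ 0) (x0 : F)
    (hx0 : (W.preΨ' 5).eval x0 = 0) :
    ∃ v b : F, v ≠ 0 ∧ b ≠ 0 ∧ W.c₄ = v ^ 2 * tC4 b ∧ W.c₆ = v ^ 3 * tC6 b ∧
      W.Δ = v ^ 6 * tDisc b := by
  classical
  set K := AlgebraicClosure F with hK
  set f : F →+* K := algebraMap F K with hf
  have hinj : Function.Injective f := (algebraMap F K).injective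
  set WK : WeierstrassCurve K := W.map f with hWK
  have hΔK : WK.Δ ≠ 0 := by
    rw [hWK, map_Δ]
    exact fun h => hΔ (hinj (by rw [h, map_zero]))
  obtain ⟨y0, hns, -⟩ := exists_point_of_x WK.toAffine hΔK (f x0)
  have hroot : (WK.preΨ' 5).IsRoot (f x0) := by
    rw [IsRoot, hWK, map_preΨ', eval_map, eval₂_at_apply, hx0, map_zero]
  have h5 : 5 • Affine.Point.some (f x0) y0 hns = 0 :=
    (five_nsmul_eq_zero_iff_isRoot WK.toAffine hns).mpr hroot
  obtain ⟨u, bK, hbK0, hC, hB0, hP0, hu, hb, -⟩ :=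
    Fermat.Agent.S52.H60.exists_tnf WK.toAffine hns h5
  obtain ⟨h4, h6, hD⟩ := Fermat.Agent.S52.H60.invariants_of_tnf WK.toAffine hC
  simp only at h4 h6 hD
  rw [vB_map, vP3_map] at hu hb
  have hB0' : vB W.toAffine x0 ≠ 0 := by
    intro h
    apply hB0
    rw [vB_map, h, map_zero]
  have hP0' : vP3 W.toAffine x0 ≠ 0 := by
    intro h
    apply hP0
    rw [vP3_map, h, map_zero]
  set B : F := vB W.toAffine x0 with hBdef
  set P : F := vP3 W.toAffine x0 with hPdef
  have hfB : f B ≠ 0 := fun h => hB0' (hinj (by rw [h, map_zero]))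
  have hfP : f P ≠ 0 := fun h => hP0' (hinj (by rw [h, map_zero]))
  -- the parameters
  set v : F := B ^ 3 / P ^ 2 with hv
  set b : F := -(P ^ 3 / B ^ 4) with hbdef
  have hfv : f v = (u : K) ^ 2 := by
    rw [hv, map_div₀, map_pow, map_pow]
    rw [div_eq_iff (pow_ne_zero 2 hfP)]
    exact hu.symm
  have hfb : f b = bK := by
    rw [hbdef, map_neg, map_div₀, map_pow, map_pow]
    rw [neg_eq_iff_eq_neg, div_eq_iff (pow_ne_zero 4 hfB)]
    linear_combination hb
  have hv0 : v ≠ 0 := div_ne_zero (pow_ne_zero 3 hB0') (pow_ne_zero 2 hP0')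
  have hb0 : b ≠ 0 := neg_ne_zero.mpr (div_ne_zero (pow_ne_zero 3 hP0') (pow_ne_zero 4 hB0'))
  refine ⟨v, b, hv0, hb0, ?_, ?_, ?_⟩
  · apply hinj
    have : f W.c₄ = WK.c₄ := by rw [hWK, map_c₄]
    rw [this, h4, map_mul, map_pow, hfv]
    simp only [tC4, Fermat.Agent.S52.H60.tnfC4, map_add, map_sub, map_mul, map_pow, map_ofNat,
      map_one, hfb]
    ring
  · apply hinj
    have : f W.c₆ = WK.c₆ := by rw [hWK, map_c₆]
    rw [this, h6, map_mul, map_pow, hfv]
    simp only [tC6, Fermat.Agent.S52.H60.tnfC6, map_add, map_sub, map_mul, map_pow, map_ofNat,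
      map_one, map_neg, hfb]
    ring
  · apply hinj
    have : f W.Δ = WK.Δ := by rw [hWK, map_Δ]
    rw [this, hD, map_mul, map_pow, hfv]
    simp only [tDisc, Fermat.Agent.S52.H60.tnfDelta, map_sub, map_mul, map_pow,
      map_ofNat, map_one, hfb]
    ring

end Fermat.Agent.S52.H61
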