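import Fermat.Agent.S52.H61_FqField
import Fermat.Agent.S52.H61_FqCore
import Fermat.Agent.S52.H61_FqTNF

/-!
# S52, package E-FQ: the auxiliary fibre over `𝔽_q`, `q ≡ 19 mod 60` (helper61)

`aux_of_identities`: given the family identities (I2), (I3), (I4) over `ZMod q` (as hypotheses,
proved in helper65's `FamI*.lean`), for every Weierstrass curve `W` over `ZMod q` with `Δ ≠ 0` and
every root `x0` of `preΨ' 5` there is `t1` with `famC6 c₄ c₆ t1 = 0` and `famF c₄ c₆ t1 ≠ 0`.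
-/

set_option autoImplicit false
set_option linter.all false

namespace Fermat.Agent.S52.H61

open WeierstrassCurve Polynomial

/-- (I2) over a commutative ring `R`. -/
def IdI2 (R : Type*) [CommRing R] : Prop :=
  ∀ b v t : R, famC6 (v ^ 2 * tC4 b) (v ^ 3 * tC6 b) t
    = v ^ 3 * hC6 (tnfN b (v * t)) (tnfD b (v * t))

/-- (I4) over a commutative ring `R`. -/
def IdI4 (R : Type*) [CommRing R] : Prop :=
  ∀ b v t : R, b * famF (v ^ 2 * tC4 b) (v ^ 3 * tC6 b) t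
    = tnfN b (v * t) * tnfD b (v * t) * tnfQ b (v * t)

/-- (I3) over a commutative ring `R`, denominator-free. -/
def IdI3 (R : Type*) [CommRing R] : Prop :=
  ∀ s b τ : R, s ^ 2 = 5 →
    2 * tnfN b τ - (11 + 5 * s) * tnfD b τ
      = (2 * b - 11 - 5 * s) * (1 + (b ^ 2 + 6 * s * b + 1) * τ) ^ 5

lemma tnfQ_eq {R : Type*} [CommRing R] (s b τ : R) (hs : s ^ 2 = 5) :
    tnfQ b τ = (1 + (b ^ 2 + 6 * s * b + 1) * τ) * (1 + (b ^ 2 - 6 * s * b + 1) * τ) := by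
  unfold tnfQ
  linear_combination (36 * b ^ 2 * τ ^ 2) * hs

/-- **E-FQ** from the family identities. -/
theorem aux_of_identities (q : ℕ) [hq : Fact q.Prime] (h60 : q % 60 = 19)
    (hI2 : IdI2 (ZMod q)) (hI3 : IdI3 (ZMod q)) (hI4 : IdI4 (ZMod q))
    (W : WeierstrassCurve (ZMod q)) (hΔ : W.Δ ≠ 0) (x0 : ZMod q)
    (hx0 : (W.preΨ' 5).eval x0 = 0) :
    ∃ t1 : ZMod q, famC6 W.c₄ W.c₆ t1 = 0 ∧ famF W.c₄ W.c₆ t1 ≠ 0 := by
  have h20 : q % 20 = 19 := by omega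
  have h5q : q % 5 = 4 := by omega
  have hq19 : 19 ≤ q := by omega
  have h2 : (2 : ZMod q) ≠ 0 := by
    have := natCast_ne_zero_of_lt q 2 (by norm_num) (by omega)
    exact_mod_cast this
  have h3 : (3 : ZMod q) ≠ 0 := by
    have := natCast_ne_zero_of_lt q 3 (by norm_num) (by omega)
    exact_mod_cast this
  have h5 : (5 : ZMod q) ≠ 0 := by
    have := natCast_ne_zero_of_lt q 5 (by norm_num) (by omega)
    exact_mod_cast this
  obtain ⟨v, b, hv0, hb0, hc4, hc6, hD⟩ := exists_tnf_params W hΔ x0 hx0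
  have hbΔ : b ^ 2 - 11 * b - 1 ≠ 0 := by
    intro h
    apply hΔ
    rw [hD, tDisc, h, mul_zero, mul_zero]
  obtain ⟨s, b₁, b₂, hs, hb12, hQ₁, hQ₂⟩ := exists_root_Q4 q h20
  set bp : ZMod q := (11 + 5 * s) / 2 with hbp
  set bm : ZMod q := (11 - 5 * s) / 2 with hbm
  have hbp' : 2 * bp = 11 + 5 * s := by rw [hbp]; field_simp
  have hbm' : 2 * bm = 11 - 5 * s := by rw [hbm]; field_simp
  have hI3p : ∀ τ, tnfN b τ - bp * tnfD b τ
      = (b - bp) * (1 + (b ^ 2 + 6 * s * b + 1) * τ) ^ 5 := by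
    intro τ
    apply mul_left_cancel₀ h2
    have := hI3 s b τ hs
    linear_combination this + (-(tnfD b τ) + (1 + (b ^ 2 + 6 * s * b + 1) * τ) ^ 5) * hbp'
  have hI3m : ∀ τ, tnfN b τ - bm * tnfD b τ
      = (b - bm) * (1 + (b ^ 2 - 6 * s * b + 1) * τ) ^ 5 := by
    intro τ
    apply mul_left_cancel₀ h2
    have hs' : (-s) ^ 2 = 5 := by rw [neg_sq, hs]
    have := hI3 (-s) b τ hs'
    have e1 : b ^ 2 + 6 * (-s) * b + 1 = b ^ 2 - 6 * s * b + 1 := by ring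
    rw [e1] at this
    linear_combination this + (-(tnfD b τ) + (1 + (b ^ 2 - 6 * s * b + 1) * τ) ^ 5) * hbm'
  obtain ⟨τ, b', hQ', hND, hD0, hN0, hPp, hPm⟩ :=
    core h2 h3 h5 hs hbp' hbm' hb0 hbΔ hb12 hQ₁ hQ₂ (exists_fifth_root q h5q)
      (tnfN b) (tnfD b) hI3p hI3m
  refine ⟨τ / v, ?_, ?_⟩
  · rw [hc4, hc6, hI2 b v (τ / v), mul_div_cancel₀ _ hv0, hND]
    have : hC6 (b' * tnfD b τ) (tnfD b τ)
        = -((b' * tnfD b τ) ^ 2 + (tnfD b τ) ^ 2) * (tnfD b τ) ^ 4 *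
          (b' ^ 4 - 18 * b' ^ 3 + 74 * b' ^ 2 + 18 * b' + 1) := by
      unfold hC6; ring
    rw [this, hQ', mul_zero, mul_zero]
  · intro hF
    have h4 := hI4 b v (τ / v)
    rw [← hc4, ← hc6, hF, mul_zero, mul_div_cancel₀ _ hv0, tnfQ_eq s b τ hs] at h4
    have : tnfN b τ * tnfD b τ *
        ((1 + (b ^ 2 + 6 * s * b + 1) * τ) * (1 + (b ^ 2 - 6 * s * b + 1) * τ)) ≠ 0 :=
      mul_ne_zero (mul_ne_zero hN0 hD0) (mul_ne_zero hPp hPm)
    exact this h4.symm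

end Fermat.Agent.S52.H61
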