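import Mathlib
import Fermat.Agent.Lib.FrobDensity.H97_Bridge2
import Fermat.Agent.R.H2_Cyc
import Fermat.Agent.Lib.EllFinite.Defs
import Fermat.Agent.Lib.Torsion35.Card
import Fermat.Agent.S52.H97_CC
import Fermat.Agent.S52.H97_GalCore

/-!
# S52, package E-GAL (helper97)

`auxGal_core`: for `W` over `ℤ` with `Δ ≠ 0` such that the fifth power of every inertia element
at `3` acts trivially on `W[5]`, there are a prime `q ∤ 30 Δ`, `q ≡ 19 mod 60`, and a root in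
`ZMod q` of the fifth division polynomial of `W` modulo `q`.

Inputs: two-sided Frobenius density (`Stmt_FD2`), item 62 (`Stmt_main`).
-/

set_option autoImplicit false

open WeierstrassCurve WeierstrassCurve.Affine Polynomial

noncomputable section

namespace Fermat.Agent.S52.H97

local notation "Qb" => AlgebraicClosure ℚ
local notation "GQ" => (AlgebraicClosure ℚ ≃ₐ[ℚ] AlgebraicClosure ℚ)

/-- Powers of an element acting as an involution on a point. -/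
theorem pow_smul_of_invol {G X : Type*} [Monoid G] [MulAction G X] (τ : G) (x : X)
    (h : τ • τ • x = x) (t : ℕ) : (τ ^ (2 * t)) • x = x ∧ (τ ^ (2 * t + 1)) • x = τ • x := by
  induction t with
  | zero => simp
  | succ t ih =>
    have h1 : (τ ^ (2 * (t + 1))) • x = x := by
      rw [show 2 * (t + 1) = (2 * t + 1) + 1 by ring, pow_succ', mul_smul, ih.2, h]
    refine ⟨h1, ?_⟩
    rw [pow_succ', mul_smul, h1]

/-- Powers of an element fixing a point. -/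
theorem pow_smul_of_fix {G X : Type*} [Monoid G] [MulAction G X] (τ : G) (x : X)
    (h : τ • x = x) (t : ℕ) : (τ ^ t) • x = x := by
  induction t with
  | zero => simp
  | succ t ih => rw [pow_succ', mul_smul, ih, h]

/-- The curve over `ℚ`. -/
abbrev EQ (W : WeierstrassCurve ℤ) : Affine ℚ := (W.map (Int.castRingHom ℚ)).toAffine

/-- Two automorphisms agreeing on the coordinates of a point agree on the point. -/
theorem smul_some_congr (W : WeierstrassCurve ℤ) (τ₁ τ₂ : GQ) {x y : Qb}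
    (h : ((EQ W)⁄Qb).Nonsingular x y) (hx : τ₁ x = τ₂ x) (hy : τ₁ y = τ₂ y) :
    τ₁ • (Point.some x y h : ((EQ W)⁄Qb).Point) = τ₂ • (Point.some x y h) := by
  rw [Point.algEquiv_smul_def, Point.algEquiv_smul_def, Point.map_some, Point.map_some]
  simp only [Point.some.injEq]
  exact ⟨hx, hy⟩

/-- The fifth division polynomial of the base change to `ℚ̄`. -/
theorem preΨ'_baseChange (W : WeierstrassCurve ℤ) :
    ((EQ W)⁄Qb).preΨ' 5 = (W.preΨ' 5).map (Int.castRingHom Qb) := by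
  show ((W.map (Int.castRingHom ℚ)).map (algebraMap ℚ Qb)).preΨ' 5 = _
  rw [WeierstrassCurve.map_preΨ', WeierstrassCurve.map_preΨ', Polynomial.map_map]
  congr 1

/-- A point of the `5`-torsion. -/
abbrev V5 (W : WeierstrassCurve ℤ) : Type :=
  Submodule.torsionBy ℤ ((EQ W)⁄Qb).Point ((5 : ℕ) : ℤ)

/-- Roots of unity needed: a primitive fourth root. -/
theorem exists_zeta4 : ∃ z : Qb, z ^ 2 = -1 := by
  obtain ⟨z, hz⟩ := IsAlgClosed.exists_pow_nat_eq (-1 : Qb) (n := 2) (by norm_num)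
  exact ⟨z, hz⟩

/-- Roots of unity needed: a primitive fifth root. -/
theorem exists_zeta5 : ∃ z : Qb, z ^ 5 = 1 ∧ z ≠ 1 := by
  obtain ⟨z, hz⟩ := HasEnoughRootsOfUnity.exists_primitiveRoot Qb 5
  exact ⟨z, hz.pow_eq_one, hz.ne_one (by norm_num)⟩

/-- The finite set of coordinates of the `5`-torsion points. -/
def coordSet (W : WeierstrassCurve ℤ) : Finset Qb :=
  (((EQ W)⁄Qb).preΨ' 5).roots.toFinset ∪
    (((EQ W)⁄Qb).preΨ' 5).roots.toFinset.biUnion
      (fun r => (Fermat.Agent.Lib.Torsion35.yPoly ((EQ W)⁄Qb) r).roots.toFinset)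

theorem preΨ'_five_ne_zero (W : WeierstrassCurve ℤ) : ((EQ W)⁄Qb).preΨ' 5 ≠ 0 :=
  WeierstrassCurve.preΨ'_ne_zero _ (by norm_num)

theorem coords_mem (W : WeierstrassCurve ℤ) {x y : Qb} (h : ((EQ W)⁄Qb).Nonsingular x y)
    (h5 : (5 : ℕ) • (Point.some x y h : ((EQ W)⁄Qb).Point) = 0) :
    x ∈ coordSet W ∧ y ∈ coordSet W := by
  have hx : (((EQ W)⁄Qb).preΨ' 5).IsRoot x :=
    (Fermat.Agent.Lib.Torsion35.five_nsmul_eq_zero_iff_isRoot _ h).mp h5
  have hx' : x ∈ (((EQ W)⁄Qb).preΨ' 5).roots.toFinset := by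
    rw [Multiset.mem_toFinset]
    exact (mem_roots (preΨ'_five_ne_zero W)).mpr hx
  refine ⟨Finset.mem_union_left _ hx', Finset.mem_union_right _ ?_⟩
  rw [Finset.mem_biUnion]
  refine ⟨x, hx', ?_⟩
  rw [Multiset.mem_toFinset]
  exact (mem_roots (Fermat.Agent.Lib.Torsion35.yPoly_ne_zero _ x)).mpr
    ((Fermat.Agent.Lib.Torsion35.isRoot_yPoly_iff _ x y).mpr h.1)

/-- The action on a torsion point, on the underlying point. -/
theorem coe_smul_V5 (W : WeierstrassCurve ℤ) (τ : GQ) (v : V5 W) :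
    ((τ • v : V5 W) : ((EQ W)⁄Qb).Point) = τ • (v : ((EQ W)⁄Qb).Point) := rfl

/-- Two automorphisms agreeing on `coordSet` agree on `W[5]`. -/
theorem smul_V5_congr (W : WeierstrassCurve ℤ) (τ₁ τ₂ : GQ)
    (h : ∀ x ∈ coordSet W, τ₁ x = τ₂ x) (v : V5 W) : τ₁ • v = τ₂ • v := by
  apply Subtype.ext
  rw [coe_smul_V5, coe_smul_V5]
  obtain ⟨P, hP⟩ := v
  rcases P with _ | ⟨x, y, hxy⟩
  · rfl
  · have h5 : (5 : ℕ) • (Point.some x y hxy : ((EQ W)⁄Qb).Point) = 0 := by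
      rw [Submodule.mem_torsionBy_iff, natCast_zsmul] at hP
      exact hP
    obtain ⟨hx, hy⟩ := coords_mem W hxy h5
    exact smul_some_congr W τ₁ τ₂ hxy (h x hx) (h y hy)

theorem one_add_one_ne_zero_zmod5 : ((1 : ZMod 5) + 1) ≠ 0 := by decide

/-- A unipotent automorphism of `W[5]` (`(σ - 1)² = 0`) has order dividing `5`. -/
theorem pow_five_smul_of_unip (W : WeierstrassCurve ℤ) (σ : GQ)
    (h : ∀ v : V5 W, σ • (σ • v - v) = σ • v - v) (v : V5 W) : (σ ^ 5) • v = v := by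
  have key : ∀ m : ℕ, (σ ^ m) • v = v + m • (σ • v - v) := by
    intro m
    induction m with
    | zero => simp
    | succ m ih =>
      rw [pow_succ', mul_smul, ih, smul_add, smul_comm σ m, h, succ_nsmul]
      abel
  rw [key 5]
  have h5 : (5 : ℕ) • (σ • v - v) = 0 := by
    have := (σ • v - v).2
    rw [Submodule.mem_torsionBy_iff, natCast_zsmul] at this
    exact Subtype.ext this
  rw [h5, add_zero]

/-- **E-GAL, core.** -/
theorem auxGal_core (hFD : Fermat.Agent.Lib.FrobDensity.H97.Stmt_FD2)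
    (hmain : Fermat.Agent.Lib.EllFinite.Stmt_main) (W : WeierstrassCurve ℤ) (hΔ : W.Δ ≠ 0)
    (hunip : ∀ A : ValuationSubring Qb, A.LiesOverPrime 3 → ∀ σ ∈ A.inertiaSubgroupIn ℚ,
      ∀ v : V5 W, (σ ^ 5) • v = v) :
    ∃ q : ℕ, q.Prime ∧ ¬ (q : ℤ) ∣ 30 * W.Δ ∧ q % 60 = 19 ∧
      ∃ x₀ : ZMod q, ((W.map (Int.castRingHom (ZMod q))).preΨ' 5).IsRoot x₀ := by
  classical
  have h2f : Fact (Nat.Prime 2) := ⟨Nat.prime_two⟩
  have h3f : Fact (Nat.Prime 3) := ⟨Nat.prime_three⟩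
  have h5f : Fact (Nat.Prime 5) := ⟨Nat.prime_five⟩
  -- complex conjugation
  obtain ⟨c, hc2, hcζ⟩ := exists_complexConj
  -- an inertia element at `3` moving the cube roots of unity
  obtain ⟨P3, hP3⟩ := Fermat.Agent.Lib.FrobExists.exists_liesOverPrime 3 Nat.prime_three
  obtain ⟨s, hs, ζ3, hζ3, hsζ3⟩ :=
    Fermat.Agent.R.H2.stmt_CycInertia 3 Nat.prime_three (by norm_num) P3 hP3
  have hζ3ne : ζ3 ≠ 1 := by
    rintro rfl
    exact hsζ3 (map_one s)
  have hζ3_0 : ζ3 ≠ 0 := by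
    rintro rfl
    norm_num at hζ3
  have hquad : ζ3 ^ 2 + ζ3 + 1 = 0 := by
    have h1 : (ζ3 - 1) * (ζ3 ^ 2 + ζ3 + 1) = 0 := by ring_nf; rw [hζ3]; ring
    rcases mul_eq_zero.mp h1 with h | h
    · exact absurd (sub_eq_zero.mp h) hζ3ne
    · exact h
  have hsζ3' : s ζ3 = ζ3⁻¹ := by
    have hw3 : (s ζ3) ^ 3 = 1 := by rw [← map_pow, hζ3, map_one]
    have hwne : s ζ3 ≠ 1 := by
      intro h
      apply hζ3ne
      have := congrArg s.symm h
      simpa using this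
    have hwquad : (s ζ3) ^ 2 + s ζ3 + 1 = 0 := by
      have h1 : (s ζ3 - 1) * ((s ζ3) ^ 2 + s ζ3 + 1) = 0 := by ring_nf; rw [hw3]; ring
      rcases mul_eq_zero.mp h1 with h | h
      · exact absurd (sub_eq_zero.mp h) hwne
      · exact h
    have h2 : (s ζ3 - ζ3) * (s ζ3 + ζ3 + 1) = 0 := by linear_combination hwquad - hquad
    have h3 : s ζ3 + ζ3 + 1 = 0 := by
      rcases mul_eq_zero.mp h2 with h | h
      · exact absurd (sub_eq_zero.mp h) hsζ3
      · exact h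
    apply eq_inv_of_mul_eq_one_left
    linear_combination ζ3 * h3 - hquad
  set k : GQ := s ^ 5 with hk
  have hkin : ∀ n : ℕ, s ^ n ∈ P3.inertiaSubgroupIn ℚ := fun n => Subgroup.pow_mem _ hs n
  have hkζ3 : k ζ3 = ζ3⁻¹ := by
    have hs2 : s • s • ζ3 = ζ3 := by
      rw [AlgEquiv.smul_def, AlgEquiv.smul_def, hsζ3', map_inv₀, hsζ3', inv_inv]
    have := (pow_smul_of_invol s ζ3 hs2 2).2
    rw [AlgEquiv.smul_def, AlgEquiv.smul_def, hsζ3'] at this
    exact this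
  -- fourth and fifth roots of unity
  obtain ⟨ζ4, hζ4⟩ := exists_zeta4
  obtain ⟨ζ5, hζ5, hζ5ne⟩ := exists_zeta5
  have hζ4_4 : ζ4 ^ 4 = 1 := by
    rw [show 4 = 2 * 2 from rfl, pow_mul, hζ4]
    norm_num
  have hζ4_2 : ζ4 ^ 2 ≠ 1 := by
    rw [hζ4]
    norm_num
  have hkζ4 : k ζ4 = ζ4 :=
    inertia_fixes_root P3 hP3 (by norm_num) k (hkin 5) (n := 4) (by norm_num) hζ4_4
  have hkζ5 : k ζ5 = ζ5 :=
    inertia_fixes_root P3 hP3 (by norm_num) k (hkin 5) (n := 5) (by norm_num) hζ5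
  -- the element `g`
  set g : GQ := c * k with hg
  have hgζ3 : g ζ3 = ζ3 := by
    rw [hg, AlgEquiv.mul_apply, hkζ3, map_inv₀, hcζ ζ3 3 (by norm_num) hζ3, inv_inv]
  have hgζ4 : g ζ4 = ζ4⁻¹ := by
    rw [hg, AlgEquiv.mul_apply, hkζ4, hcζ ζ4 4 (by norm_num) hζ4_4]
  have hgζ5 : g ζ5 = ζ5⁻¹ := by
    rw [hg, AlgEquiv.mul_apply, hkζ5, hcζ ζ5 5 (by norm_num) hζ5]
  have hgV : ∀ v : V5 W, g • v = c • v := by
    intro v
    rw [hg, mul_smul, hunip P3 hP3 s hs v]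
  have hccV : ∀ v : V5 W, c • c • v = v := by
    intro v
    rw [← mul_smul, hc2, one_smul]
  have hggV : ∀ v : V5 W, g • g • v = v := by
    intro v
    rw [hgV, hgV, hccV]
  -- the field `L`
  set T : Finset Qb := coordSet W ∪ {ζ3, ζ4, ζ5} with hT
  set L : IntermediateField ℚ Qb := IntermediateField.adjoin ℚ (T : Set Qb) with hL
  have halg : Algebra.IsAlgebraic ℚ Qb := AlgebraicClosure.isAlgebraic ℚ
  have hLfd : FiniteDimensional ℚ L :=
    IntermediateField.finiteDimensional_adjoin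
      (fun x _ => (Algebra.IsAlgebraic.isAlgebraic x).isIntegral)
  have hTL : ∀ x ∈ T, x ∈ L := fun x hx => IntermediateField.subset_adjoin ℚ _ hx
  have hζ3L : ζ3 ∈ L := hTL _ (by simp [hT])
  have hζ4L : ζ4 ∈ L := hTL _ (by simp [hT])
  have hζ5L : ζ5 ∈ L := hTL _ (by simp [hT])
  have hcoordL : ∀ x ∈ coordSet W, x ∈ L := fun x hx => hTL _ (Finset.mem_union_left _ hx)
  -- Frobenius density
  obtain ⟨q, A, σ, j, i, hq, hqS, hA, hσ, hσj, hgi⟩ :=
    hFD ((30 * W.Δ.natAbs).primeFactors) L hLfd g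
  have hΔ' : 30 * W.Δ.natAbs ≠ 0 := by
    simpa using hΔ
  have hqdvd : ¬ q ∣ 30 * W.Δ.natAbs := by
    intro h
    exact hqS (Nat.mem_primeFactors.mpr ⟨hq, h, hΔ'⟩)
  have hq30 : ¬ q ∣ 30 := fun h => hqdvd (Dvd.dvd.mul_right h _)
  have hqΔ : ¬ (q : ℤ) ∣ W.Δ := by
    intro h
    apply hqdvd
    apply Dvd.dvd.mul_left
    exact Int.natCast_dvd.mp h
  have hq2 : q ≠ 2 := by rintro rfl; exact hq30 (by norm_num)
  have hq3 : q ≠ 3 := by rintro rfl; exact hq30 (by norm_num)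
  have hq5 : q ≠ 5 := by rintro rfl; exact hq30 (by norm_num)
  have hcop3 : Nat.Coprime 3 q := (Nat.coprime_primes Nat.prime_three hq).mpr (Ne.symm hq3)
  have hcop5 : Nat.Coprime 5 q := (Nat.coprime_primes Nat.prime_five hq).mpr (Ne.symm hq5)
  have hcop2 : Nat.Coprime 2 q := (Nat.coprime_primes Nat.prime_two hq).mpr (Ne.symm hq2)
  have hcop4 : Nat.Coprime 4 q := by
    have := Nat.Coprime.pow_left 2 hcop2
    simpa using this
  -- Frobenius on roots of unity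
  have hFC := Fermat.Agent.R.H2.stmt_FrobCyc q hq A hA σ hσ
  have hσζ3 : σ ζ3 = ζ3 ^ q := hFC 3 hcop3 ζ3 hζ3
  have hσζ4 : σ ζ4 = ζ4 ^ q := hFC 4 hcop4 ζ4 hζ4_4
  have hσζ5 : σ ζ5 = ζ5 ^ q := hFC 5 hcop5 ζ5 hζ5
  have hgg3 : g • g • ζ3 = ζ3 := by
    rw [AlgEquiv.smul_def, AlgEquiv.smul_def, hgζ3, hgζ3]
  have hgg4 : g • g • ζ4 = ζ4 := by
    rw [AlgEquiv.smul_def, AlgEquiv.smul_def, hgζ4, map_inv₀, hgζ4, inv_inv]
  have hgg5 : g • g • ζ5 = ζ5 := by
    rw [AlgEquiv.smul_def, AlgEquiv.smul_def, hgζ5, map_inv₀, hgζ5, inv_inv]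
  have hζ4_0 : ζ4 ≠ 0 := by
    rintro rfl
    norm_num at hζ4_4
  have hζ5_0 : ζ5 ≠ 0 := by
    rintro rfl
    norm_num at hζ5
  -- `i` is odd
  rcases Nat.even_or_odd' i with ⟨t, rfl | rfl⟩
  · exfalso
    have h1 : (g ^ (2 * t)) • ζ4 = ζ4 := (pow_smul_of_invol g ζ4 hgg4 t).1
    have h2 : σ • ζ4 = ζ4 := by
      rw [AlgEquiv.smul_def, ← hgi ζ4 hζ4L]
      exact h1
    have h3 : (σ ^ j) • ζ4 = ζ4 := pow_smul_of_fix σ ζ4 h2 j
    have h4 : ζ4⁻¹ = ζ4 := by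
      rw [← hgζ4, ← hσj ζ4 hζ4L]
      exact h3
    apply hζ4_2
    have h5 : ζ4 * ζ4⁻¹ = 1 := mul_inv_cancel₀ hζ4_0
    rw [h4] at h5
    rw [pow_two]
    exact h5
  have hσg : ∀ x : Qb, x ∈ L → g • g • x = x → σ x = g x := by
    intro x hx hgg
    rw [← hgi x hx]
    exact (pow_smul_of_invol g x hgg t).2
  have hσV : ∀ v : V5 W, σ • v = c • v := by
    intro v
    rw [smul_V5_congr W σ (g ^ (2 * t + 1)) (fun x hx => (hgi x (hcoordL x hx)).symm) v,
      (pow_smul_of_invol g v (hggV v) t).2, hgV]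
  -- congruences for `q`
  have hq1 : 1 ≤ q := hq.one_lt.le
  have h3dvd : 3 ∣ q - 1 := by
    have h1 : ζ3 ^ q = ζ3 := by rw [← hσζ3, hσg ζ3 hζ3L hgg3, hgζ3]
    have h2 : ζ3 ^ (q - 1) = 1 := by
      have h3 : ζ3 ^ (q - 1) * ζ3 = ζ3 := by rw [← pow_succ, Nat.sub_add_cancel hq1, h1]
      exact mul_right_cancel₀ hζ3_0 (by rw [h3, one_mul])
    have ho : orderOf ζ3 = 3 := orderOf_eq_prime hζ3 hζ3ne
    rw [← ho]
    exact orderOf_dvd_of_pow_eq_one h2
  have h4dvd : 4 ∣ q + 1 := by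
    have h1 : ζ4 ^ q = ζ4⁻¹ := by rw [← hσζ4, hσg ζ4 hζ4L hgg4, hgζ4]
    have h2 : ζ4 ^ (q + 1) = 1 := by rw [pow_succ, h1, inv_mul_cancel₀ hζ4_0]
    have ho : orderOf ζ4 = 2 ^ (1 + 1) :=
      orderOf_eq_prime_pow (by rw [pow_one]; exact hζ4_2) (by norm_num; exact hζ4_4)
    have : orderOf ζ4 ∣ q + 1 := orderOf_dvd_of_pow_eq_one h2
    rw [ho] at this
    exact this
  have h5dvd : 5 ∣ q + 1 := by
    have h1 : ζ5 ^ q = ζ5⁻¹ := by rw [← hσζ5, hσg ζ5 hζ5L hgg5, hgζ5]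
    have h2 : ζ5 ^ (q + 1) = 1 := by rw [pow_succ, h1, inv_mul_cancel₀ hζ5_0]
    have ho : orderOf ζ5 = 5 := orderOf_eq_prime hζ5 hζ5ne
    rw [← ho]
    exact orderOf_dvd_of_pow_eq_one h2
  have hq60 : q % 60 = 19 := by omega
  -- item 62
  obtain ⟨hrank, -, hdet⟩ := hmain W 5 q hq (Ne.symm hq5) hqΔ A hA σ hσ
  have hfin : FiniteDimensional (ZMod 5) (V5 W) :=
    Module.finite_of_finrank_pos (by rw [hrank]; norm_num)
  set Tσ : Module.End (ZMod 5) (V5 W) := Point.galoisRepModuleEnd ℚ (EQ W) 5 σ with hTσ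
  have hT2 : Tσ * Tσ = 1 := by
    ext v
    rw [Module.End.mul_apply, Module.End.one_apply, hTσ, Point.galoisRepModuleEnd_apply,
      Point.galoisRepModuleEnd_apply, hσV, hσV, hccV]
  have hdetne : LinearMap.det Tσ ≠ 1 := by
    rw [hTσ, hdet]
    intro h
    have h1 : ((q + 1 : ℕ) : ZMod 5) = 0 := (ZMod.natCast_eq_zero_iff _ _).mpr h5dvd
    rw [Nat.cast_add, h, Nat.cast_one] at h1
    exact one_add_one_ne_zero_zmod5 h1
  obtain ⟨v, hv0, hv⟩ := exists_fixed_of_involution hrank Tσ hT2 hdetne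
  rw [hTσ, Point.galoisRepModuleEnd_apply] at hv
  -- the point
  obtain ⟨P, hP⟩ := v
  have hP0 : P ≠ 0 := fun h => hv0 (Subtype.ext h)
  have hσP : σ • P = P := congrArg Subtype.val hv
  rcases P with _ | ⟨x, y, hxy⟩
  · exact absurd rfl hP0
  have hσx : σ x = x := by
    rw [Point.algEquiv_smul_def, Point.map_some] at hσP
    simp only [Point.some.injEq] at hσP
    exact hσP.1
  have h5P : (5 : ℕ) • (Point.some x y hxy : ((EQ W)⁄Qb).Point) = 0 := by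
    rw [Submodule.mem_torsionBy_iff, natCast_zsmul] at hP
    exact hP
  have hroot : (((EQ W)⁄Qb).preΨ' 5).IsRoot x :=
    (Fermat.Agent.Lib.Torsion35.five_nsmul_eq_zero_iff_isRoot _ hxy).mp h5P
  rw [preΨ'_baseChange] at hroot
  have hlead : (W.preΨ' 5).leadingCoeff = ((5 : ℕ) : ℤ) := by
    rw [WeierstrassCurve.leadingCoeff_preΨ' W (by norm_num)]
    norm_num
  obtain ⟨n, hn⟩ := exists_root_zmod (W.preΨ' 5) 5 hlead hq hcop5 A hA σ hσ x hroot hσx
  refine ⟨q, hq, ?_, hq60, n, ?_⟩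
  · intro h
    apply hqdvd
    have h1 := Int.natAbs_dvd_natAbs.mpr h
    rw [Int.natAbs_natCast, Int.natAbs_mul] at h1
    exact h1
  · rw [WeierstrassCurve.map_preΨ']
    exact hn

end Fermat.Agent.S52.H97
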