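import Fermat.Agent.S52.H97_Gal
import Fermat.Agent.Lib.FrobDensity.Main
import Fermat.Agent.Lib.EllFinite.Main

/-!
# S52, package E-GAL: final form (helper97)

`auxGal_of_unip`: for `W` over `ℤ` with `Δ ≠ 0` such that every inertia element `σ` at `3` is
unipotent on `W[5]` (`(σ - 1)² = 0`), there are a prime `q ∤ 30 Δ`, `q ≡ 19 mod 60`, and a root
in `ZMod q` of the fifth division polynomial of `W` modulo `q`.

Unconditional in the inputs of items 61 (Frobenius density) and 62 (trace of Frobenius).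
-/

set_option autoImplicit false

open WeierstrassCurve WeierstrassCurve.Affine

noncomputable section

namespace Fermat.Agent.S52.H97

/-- **E-GAL** from unipotence of inertia at `3` on `W[5]`. -/
theorem auxGal_of_unip (W : WeierstrassCurve ℤ) (hΔ : W.Δ ≠ 0)
    (hunip : ∀ A : ValuationSubring (AlgebraicClosure ℚ), A.LiesOverPrime 3 →
      ∀ σ ∈ A.inertiaSubgroupIn ℚ, ∀ v : V5 W, σ • (σ • v - v) = σ • v - v) :
    ∃ q : ℕ, q.Prime ∧ ¬ (q : ℤ) ∣ 30 * W.Δ ∧ q % 60 = 19 ∧
      ∃ x₀ : ZMod q, ((W.map (Int.castRingHom (ZMod q))).preΨ' 5).IsRoot x₀ :=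
  auxGal_core
    (Fermat.Agent.Lib.FrobDensity.H97.stmt_FD2_of_NF Fermat.Agent.Lib.FrobDensity.stmt_FD_NF)
    Fermat.Agent.Lib.EllFinite.stmt_main W hΔ
    (fun A hA σ hσ v => pow_five_smul_of_unip W σ (hunip A hA σ hσ) v)

end Fermat.Agent.S52.H97
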