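import Mathlib.NumberTheory.LegendreSymbol.QuadraticReciprocity
import Mathlib.Data.ZMod.Basic
import Fermat.Agent.S52.Defs

/-!
# S52 (3-5 switch): wiring (helper65)

`concl_of` derives the conclusion of S52 from the work packages `Stmt_ss`, `Stmt_iso5`, `Stmt_irr1728`,
`Stmt_auxGal`, `Stmt_auxFq`, `Stmt_cong`.  Plan: NOTES/plan/E.md.
-/

set_option autoImplicit false

open WeierstrassCurve

namespace Fermat.Agent.S52

/-- `3` is not a square modulo a prime `q ≡ 19 mod 60`. -/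
theorem not_isSquare_three (q : ℕ) [Fact q.Prime] (h : q % 60 = 19) : ¬ IsSquare (3 : ZMod q) := by
  haveI : Fact (Nat.Prime 3) := ⟨Nat.prime_three⟩
  have hq4 : q % 4 = 3 := by omega
  have hq3 : q % 3 = 1 := by omega
  have hne : q ≠ 3 := by omega
  have key := ZMod.exists_sq_eq_prime_iff_of_mod_four_eq_three (p := q) (q := 3) hq4 (by norm_num) hne
  intro h3
  have h3' : IsSquare (((3 : ℕ) : ZMod q)) := by simpa using h3
  apply key.mp h3'
  have h1 : ((q : ℕ) : ZMod 3) = 1 := by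
    rw [← ZMod.natCast_mod q 3, hq3]; simp
  rw [h1]
  exact IsSquare.one

/-- A prime not dividing `30 * Δ` does not divide `1728 * (30 * Δ)`. -/
theorem not_dvd_aux (q : ℕ) (hq : q.Prime) (D : ℤ) (h : ¬ (q : ℤ) ∣ 30 * D) :
    ¬ (q : ℤ) ∣ 1728 * (30 * D) := by
  have hq' : Prime (q : ℤ) := Nat.prime_iff_prime_int.mp hq
  intro hd
  rcases hq'.dvd_or_dvd hd with h1 | h1
  · have h2 : (q : ℤ) ∣ 12 ^ 3 := by norm_num; exact h1
    have h3 : (q : ℤ) ∣ 12 := hq'.dvd_of_dvd_pow h2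
    have h4 : (q : ℤ) ∣ 30 * 2 * 12 := Dvd.dvd.mul_left h3 _
    apply h
    have h5 : (q : ℤ) ∣ (2 : ℤ) * 2 * 3 := by norm_num; exact h3
    rcases hq'.dvd_or_dvd h5 with h6 | h6
    · rcases hq'.dvd_or_dvd h6 with h7 | h7
      · exact Dvd.dvd.mul_right (Dvd.dvd.trans h7 (by norm_num)) D
      · exact Dvd.dvd.mul_right (Dvd.dvd.trans h7 (by norm_num)) D
    · exact Dvd.dvd.mul_right (Dvd.dvd.trans h6 (by norm_num)) D
  · exact h h1

/-- Choice of the parameter: `m` divisible by `D`, with `1728 m ≡ t₁ mod q`, outside a finite set. -/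
theorem exists_param (q : ℕ) [Fact q.Prime] (D : ℤ) (hD : D ≠ 0) (hq : ¬ (q : ℤ) ∣ 1728 * D)
    (t₁ : ZMod q) (B : Finset ℤ) :
    ∃ m : ℤ, D ∣ m ∧ ((1728 * m : ℤ) : ZMod q) = t₁ ∧ m ∉ B := by
  have hq0 : (q : ℤ) ≠ 0 := by
    exact_mod_cast (Fact.out : q.Prime).ne_zero
  have hu : ((1728 * D : ℤ) : ZMod q) ≠ 0 := by
    intro h0
    exact hq ((ZMod.intCast_zmod_eq_zero_iff_dvd _ q).mp h0)
  obtain ⟨k₀, hk₀⟩ := ZMod.intCast_surjective (t₁ * ((1728 * D : ℤ) : ZMod q)⁻¹)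
  -- the candidates `m j = D * (k₀ + q * j)`
  let f : ℤ → ℤ := fun j => D * (k₀ + q * j)
  have hf : Function.Injective f := by
    intro a b hab
    have h1 : k₀ + (q : ℤ) * a = k₀ + q * b := mul_left_cancel₀ hD hab
    have h2 : (q : ℤ) * a = q * b := by linarith
    exact mul_left_cancel₀ hq0 h2
  have hfin : (f ⁻¹' (B : Set ℤ)).Finite := B.finite_toSet.preimage hf.injOn
  obtain ⟨j, hj⟩ := hfin.infinite_compl.nonempty
  refine ⟨f j, ⟨k₀ + q * j, rfl⟩, ?_, ?_⟩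
  · have : ((1728 * f j : ℤ) : ZMod q) = ((1728 * D : ℤ) : ZMod q) * (k₀ : ZMod q) := by
      simp only [f]
      push_cast
      simp only [CharP.cast_eq_zero, zero_mul, add_zero]
      ring
    rw [this, hk₀, mul_comm t₁, ← mul_assoc, mul_inv_cancel₀ hu, one_mul]
  · simpa using hj

/-- **S52 wiring.** -/
theorem concl_of (hdisc : ∀ W : WeierstrassCurve ℤ, ∀ m : ℤ,
      (famW W m).Δ = W.Δ * famF W.c₄ W.c₆ (1728 * m) ^ 5)
    (hss : Stmt_ss) (hiso : Stmt_iso5) (hirr : Stmt_irr1728) (hgal : Stmt_auxGal)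
    (hfq : Stmt_auxFq) (hcong : Stmt_cong)
    (W : WeierstrassCurve ℤ) (hΔ : W.Δ ≠ 0) (hW : W.IsSemistableModel) : Concl W := by
  obtain ⟨q, hq, hq30, h60, x₀, hx₀⟩ := hgal W hΔ hW
  haveI : Fact q.Prime := ⟨hq⟩
  have hqΔ : ¬ (q : ℤ) ∣ W.Δ := fun h => hq30 (Dvd.dvd.mul_left h 30)
  have hΔq : (W.map (Int.castRingHom (ZMod q))).Δ ≠ 0 := by
    rw [WeierstrassCurve.map_Δ]
    intro h0
    exact hqΔ ((ZMod.intCast_zmod_eq_zero_iff_dvd _ q).mp h0)
  obtain ⟨t₁, ht₁, hF₁⟩ := hfq q h60 (W.map (Int.castRingHom (ZMod q))) hΔq x₀ hx₀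
  rw [WeierstrassCurve.map_c₄, WeierstrassCurve.map_c₆] at ht₁ hF₁
  obtain ⟨B, hB⟩ := hiso W hΔ
  have hD : (30 * W.Δ : ℤ) ≠ 0 := mul_ne_zero (by norm_num) hΔ
  obtain ⟨m, hDm, hmt, hmB⟩ := exists_param q (30 * W.Δ) hD (not_dvd_aux q hq W.Δ hq30) t₁ B
  have hmt' : (Int.castRingHom (ZMod q)) (1728 * m) = t₁ := hmt
  obtain ⟨hΔ', hss'⟩ := hss W hΔ hW m (fun p _ hp => hp.trans hDm)
  refine ⟨famW W m, hΔ', hss', ?_, ?_⟩
  · -- irreducibility mod 3
    have hq5 : 5 ≤ q := by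
      by_contra hlt
      have : q % 60 = q := Nat.mod_eq_of_lt (by omega)
      omega
    apply hirr (famW W m) q hq hq5 _ _ (not_isSquare_three q h60)
    · rw [hdisc]
      intro hd
      have h0 : (Int.castRingHom (ZMod q)) (W.Δ * famF W.c₄ W.c₆ (1728 * m) ^ 5) = 0 :=
        (ZMod.intCast_zmod_eq_zero_iff_dvd _ q).mpr hd
      rw [map_mul, map_pow, map_famF, hmt'] at h0
      rcases mul_eq_zero.mp h0 with h1 | h1
      · exact hqΔ ((ZMod.intCast_zmod_eq_zero_iff_dvd _ q).mp h1)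
      · exact hF₁ (pow_eq_zero_iff (by norm_num) |>.mp h1)
    · rw [famW_c₆]
      apply (ZMod.intCast_zmod_eq_zero_iff_dvd _ q).mp
      have : (Int.castRingHom (ZMod q)) (famC6 W.c₄ W.c₆ (1728 * m)) = 0 := by
        rw [map_famC6, hmt']; exact ht₁
      exact this
  · -- congruence of the `a_ℓ`
    obtain ⟨e, he⟩ := hB m hmB hΔ'
    exact hcong W (famW W m) e he

end Fermat.Agent.S52
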